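/-
T4-R (helper1), **(CFE): constant field extensions are unramified**.

For every field `L` with an embedding into `ℚ̄` (`[Algebra L ℚ̄] [IsScalarTower ℚ L ℚ̄]`) and every place
`V` of `F_{N, L} / L` there is a place `P` of `F_{N, ℚ̄} / ℚ̄` with `P.ord (bc f) = V.ord f` for all
`f ∈ F_{N, L}` (`bc = t4ruBc` the change of the constant field).  More precisely, *every* valuation
subring of `F_{N, ℚ̄}` dominating `V` is such a place (`t4ru_cfe_of_ext`).
-/
import Fermat.Agent.Lib.T4.Reg.UnrMain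

set_option autoImplicit false
set_option linter.unusedSectionVars false
set_option linter.style.haveILetI false
set_option linter.unusedVariables false

namespace Fermat.Agent.T4

open Fermat.Agent.S24Lib Fermat.Agent.T1 Fermat.Agent.T1.KMod Fermat.Agent.T2 ModularCurve
open AlgebraicCurve Fermat.Agent.Curve Fermat.Agent.Curve.PlaceAux Polynomial IntermediateField
open Fermat.Agent.TW

local notation "Kbar" => AlgebraicClosure ℚ

section Cfe

variable (L : Type*) [Field L] [Algebra ℚ L] [Algebra L Kbar] [IsScalarTower ℚ L Kbar]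
variable (N : ℕ) [NeZero N]

/-- a valuation subring of `F_{N, ℚ̄}` containing the constants of `L` contains the constants of
`ℚ̄` -/
theorem t4ru_const_mem (W : ValuationSubring ↥(barField Kbar N))
    (hLW : ∀ r : L, algebraMap Kbar ↥(barField Kbar N) (algebraMap L Kbar r) ∈ W) (c : Kbar) :
    algebraMap Kbar ↥(barField Kbar N) c ∈ W := by
  haveI : Algebra.IsAlgebraic ℚ Kbar := AlgebraicClosure.isAlgebraic ℚ
  haveI : Algebra.IsAlgebraic L Kbar := Algebra.IsAlgebraic.tower_top (K := ℚ) L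
  letI : Algebra L ↥(barField Kbar N) :=
    ((algebraMap Kbar ↥(barField Kbar N)).comp (algebraMap L Kbar)).toAlgebra
  refine t4ru_mem_of_isIntegral W (R := L) hLW ?_
  obtain ⟨p, hm, hp⟩ : IsIntegral L c := Algebra.IsIntegral.isIntegral c
  refine ⟨p, hm, ?_⟩
  have := hom_eval₂ p (algebraMap L Kbar) (algebraMap Kbar ↥(barField Kbar N)) c
  rw [hp, map_zero] at this
  exact this.symm

/-- **(CFE)**, precise form: every valuation subring of `F_{N, ℚ̄}` dominating a place `V` of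
`F_{N, L}` is a place with the same order function on `F_{N, L}` -/
theorem t4ru_cfe_of_ext (V : Place L ↥(TaF L N)) (W : ValuationSubring ↥(barField Kbar N))
    (hVW : ∀ y : ↥(TaF L N), y ∈ V.toValuationSubring ↔ t4ruBc L N y ∈ W) :
    ∃ P : Place Kbar ↥(barField Kbar N), P.toValuationSubring = W ∧
      ∀ f : ↥(TaF L N), P.ord (t4ruBc L N f) = V.ord f := by
  classical
  haveI : Algebra.IsAlgebraic ℚ Kbar := AlgebraicClosure.isAlgebraic ℚ
  haveI : Algebra.IsAlgebraic L Kbar := Algebra.IsAlgebraic.tower_top (K := ℚ) L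
  haveI : CharZero L := algebraRat.charZero L
  have hLV : ∀ c : L, algebraMap L ↥(TaF L N) c ∈ V.toValuationSubring := V.algebraMap_mem'
  have hLW : ∀ r : L, algebraMap Kbar ↥(barField Kbar N) (algebraMap L Kbar r) ∈ W := by
    intro r
    rw [← t4ruBc_algebraMap]
    exact (hVW _).mp (hLV r)
  have hKW := t4ru_const_mem L N W hLW
  have hWtop : W ≠ ⊤ := by
    intro h
    apply V.ne_top'
    refine SetLike.ext fun y => ⟨fun _ => ValuationSubring.mem_top y, fun _ => ?_⟩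
    rw [hVW, h]
    exact ValuationSubring.mem_top _
  set Wp : Place Kbar ↥(barField Kbar N) :=
    t4ruPlace (KMod.isFunctionFieldGen_jBar Kbar N) W hKW hWtop with hWp
  have hWpW : Wp.toValuationSubring = W := rfl
  obtain ⟨t₀, ht₀⟩ := RRAux.exists_uniformizer Wp
  obtain ⟨t, ht⟩ := RRAux.exists_uniformizer V
  have htV : t ∈ V.toValuationSubring := mem_of_ord_nonneg V (by rw [ht]; norm_num)
  have ht0 : t ≠ 0 := by
    rintro rfl
    rw [V.ord_zero] at ht
    omega
  -- the étale step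
  letI : Algebra ↥(TaF L N) ↥(barField Kbar N) := (t4ruBc L N).toAlgebra
  letI : Algebra L ↥(barField Kbar N) :=
    ((algebraMap Kbar ↥(barField Kbar N)).comp (algebraMap L Kbar)).toAlgebra
  haveI : IsScalarTower L ↥(TaF L N) ↥(barField Kbar N) :=
    IsScalarTower.of_algebraMap_eq (fun c => (t4ruBc_algebraMap L N c).symm)
  have hVW' : ∀ y : ↥(TaF L N),
      y ∈ V.toValuationSubring ↔ algebraMap ↥(TaF L N) ↥(barField Kbar N) y ∈ W := hVW
  obtain ⟨ω₀, P, hP⟩ := t4ru_exists_poly L N t₀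
  have hgen : ∀ y : V.toValuationSubring, ¬ IsUnit y →
      ∃ z : V.toValuationSubring, y = ⟨t, htV⟩ * z := by
    intro y hy
    have hy' : (y : ↥(TaF L N)) ∈ V.toValuationSubring.nonunits :=
      ValuationSubring.coe_mem_nonunits_iff.mpr ((IsLocalRing.mem_maximalIdeal _).mpr hy)
    obtain ⟨z, hz, hyz⟩ := t4ru_exists_mul_of_ord V ht hy'
    exact ⟨⟨z, hz⟩, Subtype.ext hyz⟩
  have hdiscr : ∀ c : ↥(TaF L N), ∃ n : ℕ, c * t ^ n ∈ V.toValuationSubring := by
    intro c
    by_cases hc : c = 0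
    · exact ⟨0, by rw [hc, zero_mul]; exact V.toValuationSubring.zero_mem⟩
    refine ⟨(- V.ord c).toNat, ?_⟩
    apply mem_of_ord_nonneg V
    rw [V.ord_mul hc (pow_ne_zero _ ht0), ← zpow_natCast, V.ord_zpow, ht, mul_one]
    have := Int.self_le_toNat (- V.ord c)
    omega
  have hωalg : aeval (algebraMap Kbar ↥(barField Kbar N) ω₀) (minpoly L ω₀) = 0 := by
    rw [aeval_def]
    have := hom_eval₂ (minpoly L ω₀) (algebraMap L Kbar) (algebraMap Kbar ↥(barField Kbar N)) ω₀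
    rw [← aeval_def, minpoly.aeval, map_zero] at this
    exact this.symm
  have hω₀int : IsIntegral L ω₀ := Algebra.IsIntegral.isIntegral ω₀
  have ht₀nu : aeval (algebraMap Kbar ↥(barField Kbar N) ω₀) P ∈ W.nonunits := by
    rw [aeval_def]
    show P.eval₂ (t4ruBc L N) _ ∈ W.nonunits
    rw [← hP, ValuationSubring.mem_nonunits_iff_or]
    right
    intro hinv
    exact (ord_pos_iff_inv_notMem Wp _).mp (by rw [ht₀]; norm_num) hinv
  obtain ⟨z, hzW, hz⟩ := t4ru_etale (L₀ := L) V.toValuationSubring W hVW' hLV ⟨t, htV⟩ hgen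
    (fun h => ht0 (congrArg Subtype.val h)) hdiscr
    (algebraMap Kbar ↥(barField Kbar N) ω₀) (minpoly L ω₀)
    (minpoly.irreducible hω₀int).separable (minpoly.monic hω₀int) hωalg P ht₀nu
  have hzt : t₀ = t4ruBc L N t * z := by
    rw [hP]
    rw [aeval_def] at hz
    exact hz
  set τ : ↥(barField Kbar N) := t4ruBc L N t with hτ
  have hτ0 : τ ≠ 0 := (_root_.map_ne_zero _).mpr ht0
  have hτpos : 0 < Wp.ord τ := by
    rw [ord_pos_iff_inv_notMem, hWpW, hτ, ← map_inv₀, ← hVW]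
    exact (ord_pos_iff_inv_notMem V t).mp (by rw [ht]; norm_num)
  have hτord : Wp.ord τ = 1 := by
    have hz0 : z ≠ 0 := by
      rintro rfl
      rw [mul_zero] at hzt
      rw [hzt, Wp.ord_zero] at ht₀
      omega
    rw [hzt, Wp.ord_mul hτ0 hz0] at ht₀
    have h2 : 0 ≤ Wp.ord z := ord_nonneg_of_mem Wp hzW
    omega
  refine ⟨Wp, rfl, fun f => ?_⟩
  by_cases hf : f = 0
  · rw [hf, map_zero, Wp.ord_zero, V.ord_zero]
  set n : ℤ := V.ord f with hn
  set u : ↥(TaF L N) := f * (t ^ n)⁻¹ with hu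
  have htn0 : t ^ n ≠ 0 := zpow_ne_zero _ ht0
  have hu0 : u ≠ 0 := mul_ne_zero hf (inv_ne_zero htn0)
  have huord : V.ord u = 0 := by
    rw [hu, V.ord_mul hf (inv_ne_zero htn0), V.ord_inv, V.ord_zpow, ht]
    omega
  have hfu : f = t ^ n * u := by
    rw [hu]
    field_simp
  have hbu0 : t4ruBc L N u ≠ 0 := (_root_.map_ne_zero _).mpr hu0
  have h1 : 0 ≤ Wp.ord (t4ruBc L N u) := by
    apply ord_nonneg_of_mem
    rw [hWpW, ← hVW]
    exact mem_of_ord_nonneg V (by rw [huord])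
  have h2 : 0 ≤ Wp.ord (t4ruBc L N u)⁻¹ := by
    apply ord_nonneg_of_mem
    rw [hWpW, ← map_inv₀, ← hVW]
    exact mem_of_ord_nonneg V (by rw [V.ord_inv, huord]; norm_num)
  rw [Wp.ord_inv] at h2
  have h3 : t4ruBc L N f = τ ^ n * t4ruBc L N u := by
    rw [hfu, map_mul, map_zpow₀]
  rw [h3, Wp.ord_mul (zpow_ne_zero _ hτ0) hbu0, Wp.ord_zpow, hτord]
  omega

/-- **(CFE)**: every place of `F_{N, L} / L` lies under a place of `F_{N, ℚ̄} / ℚ̄` with the same order
function -/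
theorem t4ru_cfe (V : Place L ↥(TaF L N)) :
    ∃ P : Place Kbar ↥(barField Kbar N), ∀ f : ↥(TaF L N), P.ord (t4ruBc L N f) = V.ord f := by
  obtain ⟨W, hVW⟩ := t4ru_exists_extension (t4ruBc L N) V.toValuationSubring
  obtain ⟨P, -, hP⟩ := t4ru_cfe_of_ext L N V W hVW
  exact ⟨P, hP⟩

end Cfe

/-- **(UNR)** for the level fields -/
theorem t4r_unr_fix (𝔓 : FFPlace) (H : Subgroup 𝔓.I) (N' q : ℕ) [NeZero N'] [NeZero q]
    (h4 : 4 ∣ N' ∨ 9 ∣ N') : T4rUnr ↥(tbFix 𝔓 H) N' q :=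
  t4r_unr ↥(tbFix 𝔓 H) N' q h4

/-- the change of the constant field on the level fields is `tbPhiF` -/
theorem t4ruBc_eq_tbPhiF (𝔓 : FFPlace) (H : Subgroup 𝔓.I) (N : ℕ) [NeZero N]
    (f : ↥(tbLevF 𝔓 N H)) : t4ruBc ↥(tbFix 𝔓 H) N f = tbPhiF 𝔓 N H f := rfl

/-- **(CFE)** for the level fields, in the shape of `T4nCFE` -/
theorem t4ru_cfe_fix (𝔓 : FFPlace) (H : Subgroup 𝔓.I) (N : ℕ) [NeZero N]
    (V : Place ↥(tbFix 𝔓 H) ↥(tbLevF 𝔓 N H)) :
    ∃ P : Place Kbar ↥(modularFunctionFieldBar N),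
      ∀ f : ↥(tbLevF 𝔓 N H), P.ord (tbPhiF 𝔓 N H f) = V.ord f :=
  t4ru_cfe ↥(tbFix 𝔓 H) N V

end Fermat.Agent.T4
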