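/-
T4-R (helper1), (UNR) step (D): **valuation subrings of a function field are discrete**.

`F` a function field in one variable over a field `K` of characteristic zero (`F` finite over `K(x)`,
`x` transcendental).  Every valuation subring `V ≠ ⊤` of `F` containing `K` is a discrete valuation
ring (`t4ru_isPrincipalIdealRing`), hence a `Place K F` (`t4ruPlace`).

Proof: we may assume `x ∈ V`; then `V` contains the integral closure `B` of `K[x]` in `F`, a Dedekind
domain with fraction field `F`; `𝔮 = 𝔪_V ∩ B` is a nonzero prime, `B_𝔮 ≤ V`, and a discrete valuation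
ring is a maximal proper subring of its fraction field.
-/
import Mathlib
import Fermat.Agent.Lib.Curve.Global

set_option autoImplicit false
set_option linter.unusedSectionVars false
set_option linter.style.haveILetI false

namespace Fermat.Agent.T4

open AlgebraicCurve IsDedekindDomain IntermediateField Fermat.Agent.Curve

variable {K F : Type*} [Field K] [Field F] [Algebra K F]

/-- a valuation subring is integrally closed -/
theorem t4ru_mem_of_isIntegral (V : ValuationSubring F) {R : Type*} [CommRing R] [Algebra R F]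
    (hR : ∀ r : R, algebraMap R F r ∈ V) {f : F} (hf : IsIntegral R f) : f ∈ V := by
  obtain ⟨p, hmonic, hp⟩ := hf
  let φ : R →+* V := (algebraMap R F).codRestrict V.toSubring hR
  have hint : IsIntegral V f := by
    refine ⟨p.map φ, hmonic.map φ, ?_⟩
    rw [Polynomial.eval₂_map]
    exact hp
  obtain ⟨g, hg⟩ := IsIntegrallyClosed.isIntegral_iff.mp hint
  rw [← hg]
  exact g.2

/-- `K[x] ⊆ V` -/
theorem t4ru_Ax_le (V : ValuationSubring F) (hK : ∀ c : K, algebraMap K F c ∈ V) {x : F}
    (hxV : x ∈ V) (r : Ax K x) : algebraMap (Ax K x) F r ∈ V := by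
  let S : Subalgebra K F :=
    { V.toSubring with
      algebraMap_mem' := fun a => hK a }
  have hle : Ax K x ≤ S := Algebra.adjoin_le (by
    intro y hy
    rw [Set.mem_singleton_iff] at hy
    rw [hy]
    exact hxV)
  exact hle r.2

section Main

variable [CharZero K]

theorem t4ru_isPrincipalIdealRing_aux {x : F} (hx : IsFunctionFieldGen K F x)
    (V : ValuationSubring F) (hK : ∀ c : K, algebraMap K F c ∈ V) (hV : V ≠ ⊤) (hxV : x ∈ V) :
    IsPrincipalIdealRing V := by
  haveI : Fact (IsFunctionFieldGen K F x) := ⟨hx⟩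
  haveI : IsDedekindDomain (Bx K x) := Bx.isDedekindDomain
  haveI : IsFractionRing (Bx K x) F := Bx.isFractionRing
  -- `B ⊆ V`
  have hB : ∀ b : Bx K x, (b : F) ∈ V := fun b =>
    t4ru_mem_of_isIntegral V (t4ru_Ax_le V hK hxV) b.2
  let φ : Bx K x →+* V := (algebraMap (Bx K x) F).codRestrict V.toSubring hB
  have hφ : ∀ b : Bx K x, ((φ b : V) : F) = (b : F) := fun b => rfl
  -- the centre
  set 𝔮 : Ideal (Bx K x) := (IsLocalRing.maximalIdeal V).comap φ with h𝔮
  haveI h𝔮p : 𝔮.IsPrime := Ideal.comap_isPrime φ _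
  have hmem𝔮 : ∀ b : Bx K x, b ∈ 𝔮 ↔ ¬ IsUnit (φ b) := by
    intro b
    rw [h𝔮, Ideal.mem_comap, IsLocalRing.mem_maximalIdeal, mem_nonunits_iff]
  have h𝔮0 : 𝔮 ≠ ⊥ := by
    intro hbot
    apply hV
    refine SetLike.ext fun f => ⟨fun _ => ValuationSubring.mem_top f, fun _ => ?_⟩
    obtain ⟨a, b, hb, rfl⟩ := IsFractionRing.div_surjective (A := Bx K x) f
    have hb0 : b ≠ 0 := nonZeroDivisors.ne_zero hb
    have hbu : IsUnit (φ b) := by
      by_contra hnu
      have : b ∈ 𝔮 := (hmem𝔮 b).mpr hnu
      rw [hbot, Ideal.mem_bot] at this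
      exact hb0 this
    obtain ⟨u, hu⟩ := hbu
    have hinv : ((b : Bx K x) : F)⁻¹ = ((u⁻¹ : Vˣ) : V) := by
      have h1 : ((u : V) : F) * (((u⁻¹ : Vˣ) : V) : F) = 1 :=
        congrArg Subtype.val u.mul_inv
      rw [hu, hφ] at h1
      exact (eq_inv_of_mul_eq_one_right h1).symm ▸ rfl
    rw [div_eq_mul_inv]
    show ((a : Bx K x) : F) * ((b : Bx K x) : F)⁻¹ ∈ V
    rw [hinv]
    exact V.mul_mem _ _ (hB a) (SetLike.coe_mem _)
  let w : HeightOneSpectrum (Bx K x) := ⟨𝔮, h𝔮p, h𝔮0⟩
  -- `B_𝔮 ≤ V`
  have hle : HeightOneSpectrum.valuationSubringAtPrime F w ≤ V := by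
    rw [HeightOneSpectrum.valuationSubringAtPrime_eq_valuationSubring]
    intro f hf
    rw [Valuation.mem_valuationSubring_iff] at hf
    obtain ⟨n, d, hnd⟩ := HeightOneSpectrum.exists_primeCompl_mul_eq_of_integer w f hf
    have hdu : IsUnit (φ (d : Bx K x)) := by
      by_contra hnu
      exact d.2 ((hmem𝔮 _).mpr hnu)
    obtain ⟨u, hu⟩ := hdu
    have h1 : ((u : V) : F) * (((u⁻¹ : Vˣ) : V) : F) = 1 :=
      congrArg Subtype.val u.mul_inv
    rw [hu, hφ] at h1
    have hf' : f = ((n : Bx K x) : F) * (((u⁻¹ : Vˣ) : V) : F) := by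
      have h2 : f * ((d : Bx K x) : F) = ((n : Bx K x) : F) := hnd
      calc f = f * (((d : Bx K x) : F) * (((u⁻¹ : Vˣ) : V) : F)) := by rw [h1, mul_one]
        _ = ((n : Bx K x) : F) * (((u⁻¹ : Vˣ) : V) : F) := by rw [← mul_assoc, h2]
    rw [hf']
    exact V.mul_mem _ _ (hB n) (SetLike.coe_mem _)
  have heq : HeightOneSpectrum.valuationSubringAtPrime F w = V :=
    ValuationSubring.eq_of_le_of_ne_top _ hle hV
  rw [← heq, HeightOneSpectrum.valuationSubringAtPrime_eq_valuationSubring]
  exact Place.isPrincipalIdealRing_valuationSubring w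

/-- **valuation subrings of a function field are discrete** -/
theorem t4ru_isPrincipalIdealRing {x : F} (hx : IsFunctionFieldGen K F x)
    (V : ValuationSubring F) (hK : ∀ c : K, algebraMap K F c ∈ V) (hV : V ≠ ⊤) :
    IsPrincipalIdealRing V := by
  rcases V.mem_or_inv_mem x with h | h
  · exact t4ru_isPrincipalIdealRing_aux hx V hK hV h
  · exact t4ru_isPrincipalIdealRing_aux hx.inv V hK hV h

/-- a valuation subring `≠ ⊤` of a function field containing the constants, as a place -/
noncomputable def t4ruPlace {x : F} (hx : IsFunctionFieldGen K F x)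
    (V : ValuationSubring F) (hK : ∀ c : K, algebraMap K F c ∈ V) (hV : V ≠ ⊤) : Place K F where
  toValuationSubring := V
  algebraMap_mem' := hK
  ne_top' := hV
  isPrincipalIdealRing' := t4ru_isPrincipalIdealRing hx V hK hV

@[simp]
theorem t4ruPlace_toValuationSubring {x : F} (hx : IsFunctionFieldGen K F x)
    (V : ValuationSubring F) (hK : ∀ c : K, algebraMap K F c ∈ V) (hV : V ≠ ⊤) :
    (t4ruPlace hx V hK hV).toValuationSubring = V := rfl

end Main

end Fermat.Agent.T4
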