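/-
T4-R / REG2 (helper8): **restrictions of the valuation rings of a chart presentation along the two
degeneracy maps** `α₂ = heckeAlphaBar L (N' q) q`, `β₂ = heckeBetaBar L (N' q) q : F1 → F`
(`F1 = F_{N' q}`, `F = F_{N' q²}`), complementing helper5's `Inst/ValOver.lean` (the table of the
three verticals):

* horizontal valuation rings: `t4rt_comap_mem_hor` (the restriction of a horizontal valuation ring
  of the chart `x` is a horizontal valuation ring of the chart `x1` as soon as `φ x1 ∈ V`),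
  `t4rt_comap_hor_ne` (it is never vertical);
* for chart presentations (`P.vals = t4vpHor K x ∪ ver`): `t4rt_hcomap_chart` (`hcomap` of
  `Local/Trich.lean`) and `t4rt_honly_chart` (`honly`);
* `t4rt_isIntegral_alpha`, `t4rt_isIntegral_beta`;
* the GLOBAL Frobenius congruences `t4rt_hpi_alpha : x ∈ O_0 → v_0 (x ^ q - α₂ (N_α x)) < 1` and
  `t4rt_hpi_beta : x ∈ O_inf → v_inf (x ^ q - β₂ (N_β x)) < 1` (from helper7's `_int` formulas);
* `T4Pres.mem_B_of_isIntegral`, `T4PresOver.norm_mem` (norms of elements of `B` lie in `B₁`).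
-/
import Fermat.Agent.Lib.T4.Inst.NormCong
import Fermat.Agent.Lib.T4.Inst.ValOver
import Fermat.Agent.Lib.T4.Inst.PresChart
import Fermat.Agent.Lib.T4.Reg.UnrDvr
import Fermat.Agent.Lib.T4.Local.Trich

set_option autoImplicit false
set_option linter.unusedSectionVars false
set_option linter.unusedVariables false
set_option linter.style.haveILetI false
set_option synthInstance.maxHeartbeats 400000

open HahnSeries ModularCurve Fermat.Agent.T1 Fermat.Agent.T2

noncomputable section

namespace Fermat.Agent.T4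

/-! ### Generic: restrictions of horizontal valuation rings -/

section Hor

open AlgebraicCurve Fermat.Agent.Curve

variable {K F1 F : Type*} [Field K] [Field F1] [Field F] [Algebra K F1] [Algebra K F]

/-- the restriction of a proper valuation subring along an integral (= algebraic) field extension
is proper -/
theorem t4rt_comap_ne_top (φ : F1 →+* F) (hint : φ.IsIntegral) {V : ValuationSubring F}
    (hV : V ≠ ⊤) : V.comap φ ≠ ⊤ := by
  intro htop
  apply hV
  rw [eq_top_iff]
  intro f _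
  have hmem : ∀ y : F1, φ y ∈ V := fun y => by
    have : y ∈ V.comap φ := by rw [htop]; trivial
    exact this
  obtain ⟨p, hmonic, hp⟩ := hint f
  let ψ : F1 →+* V := φ.codRestrict V.toSubring hmem
  have hintV : IsIntegral V f := by
    refine ⟨p.map ψ, hmonic.map ψ, ?_⟩
    rw [Polynomial.eval₂_map]
    exact hp
  obtain ⟨g, hg⟩ := IsIntegrallyClosed.isIntegral_iff.mp hintV
  rw [← hg]
  exact g.2

variable [CharZero K]

/-- the restriction of a horizontal valuation ring of a chart is a horizontal valuation ring of the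
chart below -/
theorem t4rt_comap_mem_hor (φ : F1 →ₐ[K] F) (hint : (φ : F1 →+* F).IsIntegral) {x1 x1' : F1}
    (hx1' : IsFunctionFieldGen K F1 x1') {x : F} {V : ValuationSubring F}
    (hV : V ∈ t4vpHor K x) (hx : φ x1 ∈ V) : V.comap (φ : F1 →+* F) ∈ t4vpHor K x1 := by
  obtain ⟨v, rfl, hxv⟩ := hV
  have hK : ∀ c : K, algebraMap K F1 c ∈ v.toValuationSubring.comap (φ : F1 →+* F) := by
    intro c
    rw [ValuationSubring.mem_comap]
    show φ (algebraMap K F1 c) ∈ v.toValuationSubring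
    rw [φ.commutes]
    exact v.algebraMap_mem' c
  refine ⟨t4ruPlace hx1' _ hK (t4rt_comap_ne_top _ hint v.ne_top'), rfl, ?_⟩
  rw [ValuationSubring.mem_comap]
  exact hx

/-- nonzero constants are units of the restriction of a horizontal valuation ring: it is never
vertical -/
theorem t4rt_comap_hor_ne (φ : F1 →ₐ[K] F) {x : F} {V : ValuationSubring F}
    (hV : V ∈ t4vpHor K x) {c : K} (hc : c ≠ 0) {V1 : ValuationSubring F1}
    (hV1 : V1.valuation (algebraMap K F1 c) < 1) : V.comap (φ : F1 →+* F) ≠ V1 := by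
  intro h
  have h1 : (algebraMap K F1 c)⁻¹ ∉ V1 :=
    (t4vp_valuation_lt_one_iff V1 ((map_ne_zero _).mpr hc)).mp hV1
  apply h1
  rw [← h, ValuationSubring.mem_comap]
  show φ ((algebraMap K F1 c)⁻¹) ∈ V
  rw [map_inv₀, φ.commutes, ← map_inv₀]
  exact t4vp_algebraMap_mem_hor hV c⁻¹

/-- `hcomap` for chart presentations from the restriction table of the verticals -/
theorem t4rt_hcomap_chart (φ : F1 →ₐ[K] F) (hint : (φ : F1 →+* F).IsIntegral) {x1 x1' : F1}
    (hx1' : IsFunctionFieldGen K F1 x1') {x : F} (hx : ∀ V ∈ t4vpHor K x, φ x1 ∈ V)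
    (P1 : T4Pres F1) (P : T4Pres F) {ver1 : Set (ValuationSubring F1)}
    {ver : Set (ValuationSubring F)} (hvals1 : P1.vals = t4vpHor K x1 ∪ ver1)
    (hvals : P.vals = t4vpHor K x ∪ ver)
    (htable : ∀ V ∈ ver, V.comap (φ : F1 →+* F) ∈ ver1) :
    ∀ V ∈ P.vals, V.comap (φ : F1 →+* F) ∈ P1.vals := by
  intro V hV
  rw [hvals] at hV
  rw [hvals1]
  rcases hV with hV | hV
  · exact Or.inl (t4rt_comap_mem_hor φ hint hx1' hV (hx V hV))
  · exact Or.inr (htable V hV)

/-- `honly` for chart presentations: `Vc` is the only valuation ring of the chart over the vertical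
`V1b` -/
theorem t4rt_honly_chart (φ : F1 →ₐ[K] F) {x : F} (P : T4Pres F)
    {ver : Set (ValuationSubring F)} (hvals : P.vals = t4vpHor K x ∪ ver)
    {c : K} (hc : c ≠ 0) {V1b : ValuationSubring F1}
    (hV1b : V1b.valuation (algebraMap K F1 c) < 1) {Vc : ValuationSubring F}
    (htable : ∀ V ∈ ver, V.comap (φ : F1 →+* F) = V1b → V = Vc) :
    ∀ V ∈ P.vals, V.comap (φ : F1 →+* F) = V1b → V = Vc := by
  intro V hV hVc
  rw [hvals] at hV
  rcases hV with hV | hV
  · exact absurd hVc (t4rt_comap_hor_ne φ hV hc hV1b)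
  · exact htable V hV hVc

end Hor

/-! ### Integrality of `α₂`, `β₂` and the global Frobenius congruences -/

section Frob

variable {L : Type} [Field L] [Algebra ℚ L] (O : ValuationSubring L) {k : Type*} [Field k]
  (π : ↥O →+* k) [IsDiscreteValuationRing ↥O] (hπ : Function.Surjective π) [IsAlgClosed k]
  {N' q : ℕ} [NeZero N'] [hq : Fact q.Prime] [CharP k q] (hN' : (N' : k) ≠ 0)
  (W1 : T2iAL L N' q) (Fr : T2iFrob k N' q) (W : T4iAL L N' q)
  (hqO : Irreducible ((q : ℕ) : ↥O))
  {L' : Type*} [Field L'] [Algebra L L'] (O' : ValuationSubring L')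
  [IsDiscreteValuationRing ↥O'] (π' : ↥O' →+* k) (C : T4iCyc O O' π π' q)
  (M : T4iMid L L' N' q C.ζ)

/-- `α₂ : F1 → F` (inclusion of levels) as a ring homomorphism -/
abbrev t4rtA (L : Type) [Field L] [Algebra ℚ L] (N' q : ℕ) [NeZero N'] [NeZero q] :
    ↥(TaF L (N' * q)) →+* ↥(TaF L (N' * q * q)) := (heckeAlphaBar L (N' * q) q).toRingHom

/-- `β₂ : F1 → F` (`𝔮 ↦ 𝔮^q`) as a ring homomorphism -/
abbrev t4rtB (L : Type) [Field L] [Algebra ℚ L] (N' q : ℕ) [NeZero N'] [NeZero q] :
    ↥(TaF L (N' * q)) →+* ↥(TaF L (N' * q * q)) := (heckeBetaBar L (N' * q) q).toRingHom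

include O π hπ hN' W1 Fr in
/-- `F` is integral over `α₂ F1` -/
theorem t4rt_isIntegral_alpha : (t4rtA L N' q).IsIntegral := by
  letI := t2iAlgebra L (N' * q) q
  haveI := (t4v_finrank_le O π hπ hN' W1 Fr).1
  exact algebraMap_isIntegral_iff.mpr (Algebra.IsIntegral.of_finite _ _)

include O π hπ hN' W1 Fr W hqO O' π' C M in
/-- `F` is integral over `β₂ F1` -/
theorem t4rt_isIntegral_beta : (t4rtB L N' q).IsIntegral := by
  letI := t4vnAlgB L N' q
  have h1 := t4vn_finrank_B W W1 hq.out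
  rw [t4vn_hdeg O π hπ hN' W1 Fr W hqO O' π' C M] at h1
  haveI : Module.Finite ↥(TaF L (N' * q)) ↥(TaF L (N' * q * q)) :=
    Module.finite_of_finrank_pos (by rw [h1]; exact hq.out.pos)
  exact algebraMap_isIntegral_iff.mpr (Algebra.IsIntegral.of_finite _ _)

include hπ hN' W1 Fr W hqO O' π' C M in
/-- **global (α-Frobenius)**: `x ^ q ≡ α₂ (N_α x)` on `O_0` for all `x ∈ O_0` -/
theorem t4rt_hpi_alpha (x : ↥(TaF L (N' * q * q))) (hx : x ∈ t4vO0 O π hπ W) :
    (t4vO0 O π hπ W).valuation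
      (x ^ q - heckeAlphaBar L (N' * q) q (t4vnNormA L N' q x)) < 1 := by
  have hdeg := t4vn_hdeg O π hπ hN' W1 Fr W hqO O' π' C M
  have hG : TaGauss O π ((W.w x : ↥(TaF L (N' * q * q))) : LaurentSeries L) := hx
  obtain ⟨g1, r1⟩ := t4vn_rho_normA_zero_int C W W1 hq.out hπ hqO hdeg hG
  apply t4vn_valuation_sub_lt_of_rho_eq (t4vO0 O π hπ W) (t4vnCoeW W) (t4vn_hV_0 O π hπ W)
  · rw [t4vnCoeW_apply, map_pow, IntermediateField.coe_pow]
    exact t4vn_gauss_pow O π hG q
  · rw [t4vnCoeW_apply, t4vn_w_alpha W W1 hq.out, coe_heckeBetaBar]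
    exact t2i_taGauss_qExpand O π q g1
  · rw [t4vnCoeW_apply, t4vnCoeW_apply, t4vn_w_alpha W W1 hq.out, coe_heckeBetaBar,
      t2i_taRhoFun_qExpand O π q g1, r1, map_pow, IntermediateField.coe_pow,
      t4vn_rho_pow O π hG]

include hπ hN' W1 Fr W hqO O' π' C M in
/-- **global (β-Frobenius)**: `x ^ q ≡ β₂ (N_β x)` on `O_inf` for all `x ∈ O_inf` -/
theorem t4rt_hpi_beta (x : ↥(TaF L (N' * q * q)))
    (hx : x ∈ t4vOinf (N' := N') (q := q) O π hπ) :
    (t4vOinf (N' := N') (q := q) O π hπ).valuation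
      (x ^ q - heckeBetaBar L (N' * q) q (t4vnNormB L N' q x)) < 1 := by
  have hdeg := t4vn_hdeg O π hπ hN' W1 Fr W hqO O' π' C M
  have hG : TaGauss O π (x : LaurentSeries L) := hx
  obtain ⟨g1, r1⟩ := t4vn_rho_normB_int C W W1 hq.out hπ hqO hdeg hG
  apply t4vn_valuation_sub_lt_of_rho_eq (t4vOinf (N' := N') (q := q) O π hπ)
    (t4vnCoe L (N' * q * q)) (t4vn_hV_inf O π hπ (N' * q * q))
  · rw [t4vnCoe_apply, IntermediateField.coe_pow]
    exact t4vn_gauss_pow O π hG q
  · rw [t4vnCoe_apply, coe_heckeBetaBar]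
    exact t2i_taGauss_qExpand O π q g1
  · rw [t4vnCoe_apply, t4vnCoe_apply, coe_heckeBetaBar, t2i_taRhoFun_qExpand O π q g1, r1,
      IntermediateField.coe_pow, t4vn_rho_pow O π hG]

end Frob

/-! ### Presentations: integral closedness and norms -/

section PresNorm

variable {F1 F : Type*} [Field F1] [Field F]

/-- the ring of a presentation is integrally closed in the field -/
theorem T4Pres.mem_B_of_isIntegral (P : T4Pres F) {x : F} (hx : IsIntegral ↥P.B x) : x ∈ P.B := by
  rw [P.mem_iff]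
  intro V hV
  exact t4ru_mem_of_isIntegral V (R := ↥P.B) (fun r => P.B_le hV r.2) hx

variable [Algebra F1 F]

/-- norms of elements of `B` lie in `B₁` -/
theorem T4PresOver.norm_mem {P1 : T4Pres F1} {P : T4Pres F} (h : T4PresOver P1 P) {b : F}
    (hb : b ∈ P.B) : Algebra.norm F1 b ∈ P1.B :=
  t4l_norm_mem P1.B (fun _ hx => P1.mem_B_of_isIntegral hx) (h.integral b hb)

end PresNorm

end Fermat.Agent.T4
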