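/-
T4-R REG2 (helper8), abstract part (T4-L language, on top of helper5's `Trich.lean`/`RegWrap.lean`).

* `t4rt_valuation_map_eq`: equal valuations in the restriction `V.comap ι` give equal valuations
  in `V`;
* `T4PresOver.regAt_of_glued`: regularity of `B` at a point `𝔫` over a glued point `𝔫₁`:
  `a₁ b₁ ∼ q` at `𝔫₁` (REG1-G) `⟹ RegAt 𝔫` with `a = ι a₁` (triple points, `ι = β₂`);
* `T4Pres.valuation_eq_one_of_add_unit`: unit criterion in `B_𝔫` (`x ≡ -u` on one branch);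
* `T4Pres.regAt_of_pow_unit`: regularity at a point with a single, ramified vertical branch:
  `a ^ e / q ≡ -u` on `V₀`, `u` a unit of `B_𝔫` (points on `C_mid` only, `a = ϖ_f`, `e = q - 1`).
-/
import Fermat.Agent.Lib.T4.Local.Trich
import Fermat.Agent.Lib.T4.Local.SmoothOver
import Fermat.Agent.Lib.T4.Local.RegWrap

set_option autoImplicit false
set_option linter.style.haveILetI false

namespace Fermat.Agent.T4

/-! ### Valuation subrings and their restrictions -/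

section Comap

variable {F1 F : Type*} [Field F1] [Field F] [Algebra F1 F]

/-- elements with the same valuation in the restriction have the same valuation upstairs -/
theorem t4rt_valuation_map_eq (V : ValuationSubring F) {x y : F1}
    (hxy : (V.comap (algebraMap F1 F)).valuation x = (V.comap (algebraMap F1 F)).valuation y) :
    V.valuation (algebraMap F1 F x) = V.valuation (algebraMap F1 F y) := by
  rcases eq_or_ne y 0 with rfl | hy
  · rw [map_zero, Valuation.zero_iff] at hxy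
    rw [hxy]
  · have hy' : (V.comap (algebraMap F1 F)).valuation y ≠ 0 :=
      (Valuation.ne_zero_iff _).mpr hy
    have h1 : (V.comap (algebraMap F1 F)).valuation (x / y) = 1 := by
      rw [map_div₀, hxy, div_self hy']
    have h2 := (t4l_valuation_comap_eq_one V (x / y)).mp h1
    rw [map_div₀, map_div₀] at h2
    have hy'' : V.valuation (algebraMap F1 F y) ≠ 0 :=
      (Valuation.ne_zero_iff _).mpr (by rw [Ne, map_eq_zero]; exact hy)
    exact (div_eq_one_iff_eq hy'').mp h2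

end Comap

/-! ### One embedding `F₁ → F`: branches over branches -/

namespace T4PresOver

variable {F1 F : Type*} [Field F1] [Field F] [Algebra F1 F]
variable {P1 : T4Pres F1} {P : T4Pres F} (h : T4PresOver P1 P)

/-- **regularity at a point over a glued point**: `a₁ b₁ ∼ q` at `𝔫₁` with `a₁ ∈ B₁` a local
equation of the branch under `V₀` and `b₁` of the other one; then `B` is regular at `𝔫` with
`a = ι a₁` cutting out `V₀` -/
theorem regAt_of_glued (𝔫 : Ideal P.B) [h𝔫 : 𝔫.IsMaximal]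
    (hres : ∀ V ∈ P.vals, V.comap (algebraMap F1 F) ∈ P1.vals)
    {q : F} (hq : q ∈ P.B) {q1 : F1} (hq1 : algebraMap F1 F q1 = q)
    {V₀ : ValuationSubring F} (hV₀ : V₀ ∈ P.through 𝔫)
    {a1 b1 : F1} (ha1 : a1 ∈ P1.B) (hb1 : b1 ∈ P1.loc (h.under 𝔫))
    (hab : ∀ V1 ∈ P1.through (h.under 𝔫), V1.valuation (a1 * b1) = V1.valuation q1)
    (hqV₀ : V₀.valuation q < 1)
    (hunif : ∀ x : F, V₀.valuation x < 1 → V₀.valuation x ≤ V₀.valuation q)
    (hbV₀ : (V₀.comap (algebraMap F1 F)).valuation b1 = 1)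
    (hvert : ∀ V ∈ P.through 𝔫, V ≠ V₀ → V ∈ P.vert q →
      (V.comap (algebraMap F1 F)).valuation a1 = 1)
    (hsm : P.SmoothAt 𝔫 V₀ hV₀) : P.RegAt 𝔫 := by
  refine P.regAt_of_mul_eq hq hV₀ (h.map_mem a1 ha1) (h.map_mem_loc 𝔫 hb1) (fun V hV => ?_)
    hqV₀ hunif ((t4l_valuation_comap_eq_one V₀ b1).mp hbV₀)
    (fun V hV hne hv => (t4l_valuation_comap_eq_one V a1).mp (hvert V hV hne hv)) hsm
  rw [← map_mul, ← hq1]
  exact t4rt_valuation_map_eq V (hab _ (h.comap_mem_through hV (hres V hV.1)))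

end T4PresOver

/-! ### Unit criterion and points with a single (ramified) vertical branch -/

namespace T4Pres

variable {F : Type*} [Field F] (P : T4Pres F)

/-- in `B_𝔫`: if `x ≡ -u` on some branch through `𝔫` with `u` a unit, then `x` is a unit -/
theorem valuation_eq_one_of_add_unit {𝔫 : Ideal P.B} [h𝔫 : 𝔫.IsMaximal]
    {V₀ : ValuationSubring F} (hV₀ : V₀ ∈ P.through 𝔫) {x u : F} (hx : x ∈ P.loc 𝔫)
    (hu : u ∈ P.loc 𝔫) (hui : u⁻¹ ∈ P.loc 𝔫) (hu0 : u ≠ 0) (hxu : V₀.valuation (x + u) < 1) :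
    ∀ V ∈ P.through 𝔫, V.valuation x = 1 := by
  have huu : IsUnit (⟨u, hu⟩ : ↥(P.loc 𝔫)) :=
    isUnit_iff_exists_inv.mpr ⟨⟨u⁻¹, hui⟩, Subtype.ext (mul_inv_cancel₀ hu0)⟩
  have h1 : P.locVal 𝔫 (⟨x, hx⟩ + ⟨u, hu⟩) = 0 := by
    rw [P.locVal_eq_zero_iff]
    intro hun
    exact hxu.ne (((P.isUnit_loc_iff _).mp hun).2 V₀ hV₀)
  have h2 : P.locVal 𝔫 ⟨u, hu⟩ ≠ 0 := fun h0 => (P.locVal_eq_zero_iff _).mp h0 huu
  have h3 : P.locVal 𝔫 ⟨x, hx⟩ ≠ 0 := by
    intro h0
    rw [map_add, h0, zero_add] at h1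
    exact h2 h1
  have h4 : IsUnit (⟨x, hx⟩ : ↥(P.loc 𝔫)) := by
    by_contra hnu
    exact h3 ((P.locVal_eq_zero_iff _).mpr hnu)
  exact ((P.isUnit_loc_iff _).mp h4).2

/-- **regularity at a point with a single, ramified vertical branch** (`C_mid`-only points):
`a ∈ B` vanishes on `V₀`, `q ∼ ϖ ^ e` on `V₀`, and `a ^ e / q ≡ -u` on `V₀` for a unit `u` of
`B_𝔫` -/
theorem regAt_of_pow_unit {𝔫 : Ideal P.B} [h𝔫 : 𝔫.IsMaximal] {q : F} (hq : q ∈ P.B) (hq0 : q ≠ 0)
    {V₀ : ValuationSubring F} (hV₀ : V₀ ∈ P.through 𝔫) {a : F} (ha : a ∈ P.B) {e : ℕ}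
    (he : e ≠ 0) {ϖ : F}
    (hϖ : ∀ x : F, V₀.valuation x < 1 → V₀.valuation x ≤ V₀.valuation ϖ)
    (hqϖ : V₀.valuation q = V₀.valuation ϖ ^ e) (haV₀ : V₀.valuation a < 1)
    {u : F} (hu : u ∈ P.loc 𝔫) (hui : u⁻¹ ∈ P.loc 𝔫) (hu0 : u ≠ 0)
    (hau : V₀.valuation (a ^ e / q + u) < 1)
    (honly : ∀ V ∈ P.through 𝔫, V ∈ P.vert q → V = V₀)
    (hsm : P.SmoothAt 𝔫 V₀ hV₀) : P.RegAt 𝔫 := by
  have hqv : ∀ V : ValuationSubring F, V.valuation q ≠ 0 :=
    fun V => (Valuation.ne_zero_iff _).mpr hq0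
  -- `a ^ e / q ∈ B_𝔫`
  have hx : a ^ e / q ∈ P.loc 𝔫 := by
    intro V hV
    rw [← V.valuation_le_one_iff, map_div₀, map_pow]
    by_cases hv : V ∈ P.vert q
    · rw [honly V hV hv, hqϖ]
      exact div_le_one_of_le₀ (pow_le_pow_left₀ zero_le (hϖ a haV₀) e) zero_le
    · rw [P.valuation_eq_one_of_not_vert hq hV.1 hv, div_one]
      exact pow_le_one₀ zero_le ((V.valuation_le_one_iff _).mpr (P.B_le hV.1 ha))
  have hunit := P.valuation_eq_one_of_add_unit hV₀ hx hu hui hu0 hau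
  have hae : ∀ V ∈ P.through 𝔫, V.valuation (a ^ e) = V.valuation q := by
    intro V hV
    have h1 := hunit V hV
    rw [map_div₀] at h1
    exact (div_eq_one_iff_eq (hqv V)).mp h1
  -- `a` is a uniformiser of `V₀`
  have haϖ : V₀.valuation a = V₀.valuation ϖ := by
    have h1 := hae V₀ hV₀
    rw [map_pow, hqϖ] at h1
    exact (pow_left_inj₀ zero_le zero_le he).mp h1
  exact P.regAt_of_pow_eq hq hV₀ ha he hae haV₀ (fun x hx' => by rw [haϖ]; exact hϖ x hx')
    honly hsm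

end T4Pres

end Fermat.Agent.T4
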