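/-
T4-R / REG2 (helper8): **the trichotomy and regularity on the charts of level `N' q²`**, for ANY
chart presentations `P1` (level `N' q`, chart `x1`) and `P` (level `N' q²`, chart `x`) with the
literal vertical sets (`T4rtTop`), from helper6's REG1-G (`T4rtRegG`, a hypothesis here):

* `T4rtTop.glued_alpha` / `T4rtTop.glued_beta` : over a node `𝔫₁` of level `N' q` (contraction along
  `α₂` resp. `β₂`) the point `𝔫` is unique (`huniq`) and every valuation ring of `P` over a valuation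
  ring through `𝔫₁` passes through `𝔫` (instances of helper5's `through_of_glued'`, with the global
  Frobenius congruences of `TopComap.lean`);
* `T4rtTop.Halpha`, `T4rtTop.Hbeta`, **`T4rtTop.trichotomy`** (the shape of `T4nCChart.hcase`);
* `t4rt_regAt_inf`, `t4rt_regAt_zero` (points of `C_inf` / `C_0` only; any chart),
  `t4rt_regAt_mid` (points of `C_mid` only, from a local equation `a ^ (q - 1) / q ≡ -u`; any chart),
  **`T4rtTop.regAt_triple`** (triple points: local equation `β₂ a`);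
* `t4rt_regAt_of_one` (any chart with at most one vertical branch through `𝔫`) and
  **`T4rtTop.regAt`** (`hreg` on chart 1), the `C_mid`-only points as a hypothesis.
-/
import Fermat.Agent.Lib.T4.Reg.TopAbs
import Fermat.Agent.Lib.T4.Reg.TopComap
import Fermat.Agent.Lib.T4.Inst.PresInst

set_option autoImplicit false
set_option linter.unusedSectionVars false
set_option linter.unusedVariables false
set_option linter.style.haveILetI false
set_option synthInstance.maxHeartbeats 400000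

open HahnSeries ModularCurve Fermat.Agent.T1 Fermat.Agent.T2 IntermediateField

noncomputable section

namespace Fermat.Agent.T4

/-! ### Generic -/

section Generic

variable {F : Type*} [Field F]

/-- a uniformiser (in the sense of decompositions `f = ϖ ^ n * u`) has the largest valuation
`< 1` -/
theorem t4rt_hunif_of_decomp (V : ValuationSubring F) {ϖ : F} (hϖ : ϖ ∈ V) (hϖu : ϖ⁻¹ ∉ V)
    (h : ∀ f : F, f ≠ 0 → ∃ (n : ℤ) (u : F), u ∈ V ∧ u⁻¹ ∈ V ∧ f = ϖ ^ n * u) :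
    ∀ x : F, V.valuation x < 1 → V.valuation x ≤ V.valuation ϖ := by
  intro x hx
  rcases eq_or_ne x 0 with rfl | hx0
  · rw [map_zero]; exact zero_le
  obtain ⟨n, u, hu, hui, e⟩ := h x hx0
  have hlt := t4vs_valuation_lt_one V hϖ hϖu
  have hϖ0 : ϖ ≠ 0 := by
    rintro rfl
    rw [inv_zero] at hϖu
    exact hϖu V.zero_mem
  have hu0 : u ≠ 0 := by
    rintro rfl
    exact hx0 (by rw [e, mul_zero])
  have hv0 : 0 < V.valuation ϖ := zero_lt_iff.mpr ((Valuation.ne_zero_iff _).mpr hϖ0)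
  have h1 : V.valuation x = V.valuation ϖ ^ n := by
    rw [e, map_mul, map_zpow₀, t4vs_valuation_unit V hu0 hu hui, mul_one]
  rw [h1] at hx ⊢
  have hn : 1 ≤ n := by
    by_contra hn
    push Not at hn
    have hn' : n ≤ 0 := by omega
    exact absurd hx (not_lt.mpr (one_le_zpow_of_nonpos₀ hv0 hlt.le hn'))
  calc V.valuation ϖ ^ n ≤ V.valuation ϖ ^ (1 : ℤ) :=
        zpow_le_zpow_right_of_le_one₀ hv0 hlt.le hn
    _ = V.valuation ϖ := zpow_one _

/-- two elements of a valuation ring whose product is a unit are units -/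
theorem t4rt_valuation_eq_one_of_mul (V : ValuationSubring F) {a b : F} (ha : a ∈ V) (hb : b ∈ V)
    (hab : V.valuation (a * b) = 1) : V.valuation a = 1 ∧ V.valuation b = 1 := by
  have h1 : V.valuation a ≤ 1 := (V.valuation_le_one_iff _).mpr ha
  have h2 : V.valuation b ≤ 1 := (V.valuation_le_one_iff _).mpr hb
  rw [map_mul] at hab
  constructor
  · refine le_antisymm h1 ?_
    calc (1 : _) = V.valuation a * V.valuation b := hab.symm
      _ ≤ V.valuation a * 1 := mul_le_mul_right h2 _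
      _ = V.valuation a := mul_one _
  · refine le_antisymm h2 ?_
    calc (1 : _) = V.valuation a * V.valuation b := hab.symm
      _ ≤ 1 * V.valuation b := mul_le_mul_left h1 _
      _ = V.valuation b := one_mul _

/-- a nonzero element of a prime `𝔫` is a non-unit of some valuation ring through `𝔫` -/
theorem T4Pres.exists_through_of_mem (P : T4Pres F) (𝔫 : Ideal P.B) [h𝔫 : 𝔫.IsPrime] {b : P.B}
    (hb : b ∈ 𝔫) (hb0 : (b : F) ≠ 0) : ∃ V ∈ P.through 𝔫, V.valuation (b : F) < 1 := by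
  by_contra hcon
  push Not at hcon
  letI := P.isLocalRing_loc 𝔫
  have h1 : IsUnit (P.locIncl 𝔫 b) := by
    rw [P.isUnit_loc_iff]
    refine ⟨hb0, fun V hV => ?_⟩
    exact le_antisymm ((V.valuation_le_one_iff _).mpr (P.B_le hV.1 b.2)) (hcon V hV)
  have h2 : P.locIncl 𝔫 b ∈ IsLocalRing.maximalIdeal ↥(P.loc 𝔫) := by
    rw [P.mem_maximalIdeal_loc_iff]
    exact ⟨b, 1, hb, (Ideal.ne_top_iff_one 𝔫).mp h𝔫.ne_top, by
      rw [Subring.coe_one, one_mul]; rfl⟩
  exact (IsLocalRing.mem_maximalIdeal _).mp h2 h1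

end Generic


/-! ### The chart situation at levels `N' q²` over `N' q` -/

section Top

variable {L : Type} [Field L] [Algebra ℚ L] (O : ValuationSubring L) {k : Type*} [Field k]
  (π : ↥O →+* k) [IsDiscreteValuationRing ↥O] (hπ : Function.Surjective π) [IsAlgClosed k]
  {N' q : ℕ} [NeZero N'] [hq : Fact q.Prime] [CharP k q] (hN' : (N' : k) ≠ 0)
  (W1 : T2iAL L N' q) (Fr : T2iFrob k N' q) (W : T4iAL L N' q)
  (hqO : Irreducible ((q : ℕ) : ↥O))
  {L' : Type*} [Field L'] [Algebra L L'] (O' : ValuationSubring L')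
  [IsDiscreteValuationRing ↥O'] (π' : ↥O' →+* k) (C : T4iCyc O O' π π' q)
  (M : T4iMid L L' N' q C.ζ)

/-- `O¹_0`, in the literal form of `Inst/ValOver.lean` -/
abbrev t4rtO10 : ValuationSubring ↥(TaF L (N' * q)) :=
  (taOv O π hπ (N' * q)).comap (W1.w : ↥(TaF L (N' * q)) →+* ↥(TaF L (N' * q)))

/-- the two vertical valuation rings of level `N' q` -/
def t4rtVer1 : Set (ValuationSubring ↥(TaF L (N' * q))) :=
  {taOv O π hπ (N' * q), t4rtO10 O π hπ W1}

/-- **REG1-G** (helper6's output): a closed point of level `N' q` through which both vertical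
branches pass is a node `a * b ∼ q` -/
def T4rtRegG (P1 : T4Pres ↥(TaF L (N' * q))) : Prop :=
  ∀ 𝔫1 : Ideal P1.B, 𝔫1.IsMaximal → taOv O π hπ (N' * q) ∈ P1.through 𝔫1 →
    t4rtO10 O π hπ W1 ∈ P1.through 𝔫1 →
    ∃ a b : ↥(TaF L (N' * q)), a ∈ P1.B ∧ b ∈ P1.loc 𝔫1 ∧
      (∀ V ∈ P1.through 𝔫1, V.valuation (a * b) = V.valuation ((q : ℕ) : ↥(TaF L (N' * q)))) ∧
      (taOv O π hπ (N' * q)).valuation a =
        (taOv O π hπ (N' * q)).valuation ((q : ℕ) : ↥(TaF L (N' * q))) ∧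
      (t4rtO10 O π hπ W1).valuation a = 1 ∧
      (taOv O π hπ (N' * q)).valuation b = 1 ∧
      (t4rtO10 O π hπ W1).valuation b =
        (t4rtO10 O π hπ W1).valuation ((q : ℕ) : ↥(TaF L (N' * q)))

/-- the hypotheses on the two chart presentations `P1` (level `N' q`, chart `x1`) and `P`
(level `N' q²`, chart `x`) -/
structure T4rtTop (x1 : ↥(TaF L (N' * q))) (x : ↥(TaF L (N' * q * q)))
    (P1 : T4Pres ↥(TaF L (N' * q))) (P : T4Pres ↥(TaF L (N' * q * q))) : Prop where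
  vals : P.vals = t4vpHor L x ∪ t4vwVer O π hπ W O' π' C M
  vals1 : P1.vals = t4vpHor L x1 ∪ t4rtVer1 O π hπ W1
  gen1 : ∃ x1' : ↥(TaF L (N' * q)),
    Fermat.Agent.Curve.IsFunctionFieldGen L ↥(TaF L (N' * q)) x1'
  overA : @T4PresOver _ _ _ _ (t2iAlgebra L (N' * q) q) P1 P
  overB : @T4PresOver _ _ _ _ (t4vnAlgB L N' q) P1 P
  horA : ∀ V ∈ t4vpHor L x, heckeAlphaBar L (N' * q) q x1 ∈ V
  horB : ∀ V ∈ t4vpHor L x, heckeBetaBar L (N' * q) q x1 ∈ V

theorem t4rt_Q_eq : t4vQ L N' q = ((q : ℕ) : ↥(TaF L (N' * q * q))) := by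
  rw [t4vQ, map_natCast]


/-! #### Valuations of `q` at level `N' q`, verticals -/

include hqO in
theorem t4rt_O1inf_valuation_q :
    (taOv O π hπ (N' * q)).valuation ((q : ℕ) : ↥(TaF L (N' * q))) < 1 := by
  rw [t4vr_valuation_lt_one_iff_of_comap _ (t4vOinf_comap_alpha O π hπ (N' := N') (q := q)),
    map_natCast, ← t4rt_Q_eq]
  exact t4vOinf_valuation_q O π hπ hqO

include hqO W in
theorem t4rt_O10_valuation_q :
    (t4rtO10 O π hπ W1).valuation ((q : ℕ) : ↥(TaF L (N' * q))) < 1 := by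
  rw [t4vr_valuation_lt_one_iff_of_comap _ (t4vO0_comap_alpha O π hπ W1 W), map_natCast,
    ← t4rt_Q_eq]
  exact t4vO0_valuation_q O π hπ W hqO

theorem t4rt_natCast_ne_zero : ((q : ℕ) : L) ≠ 0 := by
  haveI : CharZero L := algebraRat.charZero L
  exact_mod_cast hq.out.ne_zero

variable {O π hπ W1 W O' π' C M}
variable {x1 : ↥(TaF L (N' * q))} {x : ↥(TaF L (N' * q * q))}
  {P1 : T4Pres ↥(TaF L (N' * q))} {P : T4Pres ↥(TaF L (N' * q * q))}

include hqO in
/-- the vertical valuation rings of a chart presentation are `O_inf, O_mid, O_0` -/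
theorem t4rt_vert (hvals : P.vals = t4vpHor L x ∪ t4vwVer O π hπ W O' π' C M) :
    P.vert (t4vQ L N' q) = t4vwVer O π hπ W O' π' C M := by
  ext V
  constructor
  · rintro ⟨hV, hlt⟩
    rw [hvals] at hV
    rcases hV with hV | hV
    · have := t4vp_valuation_const hV (c := ((q : ℕ) : L)) t4rt_natCast_ne_zero
      rw [t4vQ, this] at hlt
      exact absurd hlt (lt_irrefl _)
    · exact hV
  · intro hV
    refine ⟨?_, t4vwVer_q O π hπ W hqO O' π' C M V hV⟩
    rw [hvals]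
    exact Or.inr hV

include hqO in
/-- the vertical valuation rings of `P` are `O_inf, O_mid, O_0` -/
theorem T4rtTop.vert (T : T4rtTop O π hπ W1 W O' π' C M x1 x P1 P) :
    P.vert (t4vQ L N' q) = t4vwVer O π hπ W O' π' C M :=
  t4rt_vert hqO T.vals

include hqO W in
/-- the vertical valuation rings of `P1` are `O¹_inf, O¹_0` -/
theorem T4rtTop.vert1 (T : T4rtTop O π hπ W1 W O' π' C M x1 x P1 P) :
    P1.vert ((q : ℕ) : ↥(TaF L (N' * q))) = t4rtVer1 O π hπ W1 := by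
  ext V
  constructor
  · rintro ⟨hV, hlt⟩
    rw [T.vals1] at hV
    rcases hV with hV | hV
    · have := t4vp_valuation_const hV (c := ((q : ℕ) : L)) t4rt_natCast_ne_zero
      rw [map_natCast] at this
      rw [this] at hlt
      exact absurd hlt (lt_irrefl _)
    · exact hV
  · intro hV
    refine ⟨by rw [T.vals1]; exact Or.inr hV, ?_⟩
    rcases hV with rfl | hV
    · exact t4rt_O1inf_valuation_q O π hπ hqO
    · rw [Set.mem_singleton_iff] at hV
      rw [hV]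
      exact t4rt_O10_valuation_q O π hπ W1 W hqO


/-! #### The `α₂`-structure -/

section A

attribute [local instance] t2iAlgebra

variable (O π hπ W1 W O' π' C M)

theorem t4rt_comapA_inf :
    (t4vOinf (N' := N') (q := q) O π hπ).comap
      (algebraMap ↥(TaF L (N' * q)) ↥(TaF L (N' * q * q))) = taOv O π hπ (N' * q) :=
  t4vOinf_comap_alpha O π hπ

theorem t4rt_comapA_mid :
    (t4vOmid O π hπ O' π' C M).comap
      (algebraMap ↥(TaF L (N' * q)) ↥(TaF L (N' * q * q))) = taOv O π hπ (N' * q) :=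
  t4vOmid_comap_alpha O π hπ O' π' C M

theorem t4rt_comapA_zero :
    (t4vO0 O π hπ W).comap
      (algebraMap ↥(TaF L (N' * q)) ↥(TaF L (N' * q * q))) = t4rtO10 O π hπ W1 :=
  t4vO0_comap_alpha O π hπ W1 W

variable {O π hπ W1 W O' π' C M}

include hN' Fr hqO in
/-- `hcomap` for `α₂` -/
theorem T4rtTop.hcomapA (T : T4rtTop O π hπ W1 W O' π' C M x1 x P1 P) :
    ∀ V ∈ P.vals, V.comap (algebraMap ↥(TaF L (N' * q)) ↥(TaF L (N' * q * q))) ∈ P1.vals := by
  obtain ⟨x1', hx1'⟩ := T.gen1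
  haveI : CharZero L := algebraRat.charZero L
  refine t4rt_hcomap_chart (heckeAlphaBar L (N' * q) q)
    (t4rt_isIntegral_alpha O π hπ hN' W1 Fr) hx1' T.horA P1 P T.vals1 T.vals ?_
  intro V hV
  rcases (mem_t4vwVer O π hπ W O' π' C M V).mp hV with rfl | rfl | rfl
  · rw [show ((heckeAlphaBar L (N' * q) q : ↥(TaF L (N' * q)) →ₐ[L] ↥(TaF L (N' * q * q))) :
      ↥(TaF L (N' * q)) →+* ↥(TaF L (N' * q * q))) = algebraMap _ _ from rfl,
      t4rt_comapA_inf]
    exact Or.inl rfl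
  · rw [show ((heckeAlphaBar L (N' * q) q : ↥(TaF L (N' * q)) →ₐ[L] ↥(TaF L (N' * q * q))) :
      ↥(TaF L (N' * q)) →+* ↥(TaF L (N' * q * q))) = algebraMap _ _ from rfl,
      t4rt_comapA_mid]
    exact Or.inl rfl
  · rw [show ((heckeAlphaBar L (N' * q) q : ↥(TaF L (N' * q)) →ₐ[L] ↥(TaF L (N' * q * q))) :
      ↥(TaF L (N' * q)) →+* ↥(TaF L (N' * q * q))) = algebraMap _ _ from rfl,
      t4rt_comapA_zero]
    exact Or.inr rfl

include hqO in
/-- `honly` for `α₂`: `O_0` is the only valuation ring of `P` over `O¹_0` -/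
theorem T4rtTop.honlyA (T : T4rtTop O π hπ W1 W O' π' C M x1 x P1 P) :
    ∀ V ∈ P.vals, V.comap (algebraMap ↥(TaF L (N' * q)) ↥(TaF L (N' * q * q))) =
      t4rtO10 O π hπ W1 → V = t4vO0 O π hπ W := by
  haveI : CharZero L := algebraRat.charZero L
  have hlt : (t4rtO10 O π hπ W1).valuation
      (algebraMap L ↥(TaF L (N' * q)) ((q : ℕ) : L)) < 1 := by
    rw [map_natCast]
    exact t4rt_O10_valuation_q O π hπ W1 W hqO
  refine t4rt_honly_chart (heckeAlphaBar L (N' * q) q) P T.vals t4rt_natCast_ne_zero hlt ?_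
  intro V hV hVc
  have hVc' : V.comap (algebraMap ↥(TaF L (N' * q)) ↥(TaF L (N' * q * q))) =
      t4rtO10 O π hπ W1 := hVc
  rcases (mem_t4vwVer O π hπ W O' π' C M V).mp hV with rfl | rfl | rfl
  · rw [t4rt_comapA_inf] at hVc'
    exact absurd hVc' (t4vO1inf_ne_zero O π hπ W1)
  · rw [t4rt_comapA_mid] at hVc'
    exact absurd hVc' (t4vO1inf_ne_zero O π hπ W1)
  · rfl


include hN' Fr hqO in
/-- **the `α₂`-glueing**: if `O_0` and one of `O_inf`, `O_mid` pass through `𝔫`, then `𝔫` is the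
only point over its `α₂`-contraction `𝔫₁` and every valuation ring of `P` whose restriction passes
through `𝔫₁` passes through `𝔫` -/
theorem T4rtTop.glued_alpha (T : T4rtTop O π hπ W1 W O' π' C M x1 x P1 P)
    (hG : T4rtRegG O π hπ W1 P1) (𝔫 : Ideal P.B) [h𝔫 : 𝔫.IsMaximal]
    (h0 : t4vO0 O π hπ W ∈ P.through 𝔫)
    (h1 : t4vOinf (N' := N') (q := q) O π hπ ∈ P.through 𝔫 ∨
      t4vOmid O π hπ O' π' C M ∈ P.through 𝔫) :
    (∀ 𝔫' : Ideal P.B, 𝔫'.IsMaximal → 𝔫'.comap T.overA.incl = T.overA.under 𝔫 → 𝔫' = 𝔫) ∧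
      ∀ V ∈ P.vals, V.comap (algebraMap ↥(TaF L (N' * q)) ↥(TaF L (N' * q * q))) ∈
        P1.through (T.overA.under 𝔫) → V ∈ P.through 𝔫 := by
  have hcomap := T.hcomapA hN' Fr hqO
  have honly := T.honlyA hqO
  have h10 : t4rtO10 O π hπ W1 ∈ P1.through (T.overA.under 𝔫) := by
    have := T.overA.comap_mem_through h0 (hcomap _ h0.1)
    rwa [t4rt_comapA_zero] at this
  have h1inf : taOv O π hπ (N' * q) ∈ P1.through (T.overA.under 𝔫) := by
    rcases h1 with h1 | h1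
    · have := T.overA.comap_mem_through h1 (hcomap _ h1.1)
      rwa [t4rt_comapA_inf] at this
    · have := T.overA.comap_mem_through h1 (hcomap _ h1.1)
      rwa [t4rt_comapA_mid] at this
  obtain ⟨a, b, ha, hb, hab, hainf, ha0, hbinf, hb0⟩ :=
    hG _ (T.overA.under_isMaximal 𝔫) h1inf h10
  have hb_ne : b ≠ 0 := by
    rintro rfl
    rw [map_zero] at hbinf
    exact zero_ne_one hbinf
  have hnu := T4PresOver.not_isUnit_of_valuation_lt h10 hb
    (by rw [hb0]; exact t4rt_O10_valuation_q O π hπ W1 W hqO)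
  have hu1 : ∀ V1 ∈ P1.through (T.overA.under 𝔫), V1 ≠ t4rtO10 O π hπ W1 →
      V1.valuation b = 1 := by
    intro V1 hV1 hne
    have hmem := hV1.1
    rw [T.vals1] at hmem
    rcases hmem with hh | hv
    · have hq1 := t4vp_valuation_const hh (c := ((q : ℕ) : L)) t4rt_natCast_ne_zero
      rw [map_natCast] at hq1
      have hab1 := hab V1 hV1
      rw [hq1] at hab1
      exact (t4rt_valuation_eq_one_of_mul V1 (P1.B_le hV1.1 ha) (hb V1 hV1) hab1).2
    · rcases hv with rfl | hv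
      · exact hbinf
      · exact absurd hv hne
  have hpi : ∀ y ∈ P.B, ∃ a ∈ P1.B, (t4vO0 O π hπ W).valuation
      (y ^ q - algebraMap ↥(TaF L (N' * q)) ↥(TaF L (N' * q * q)) a) < 1 := by
    intro y hy
    exact ⟨t4vnNormA L N' q y, T.overA.norm_mem hy,
      t4rt_hpi_alpha O π hπ hN' W1 Fr W hqO O' π' C M y (P.B_le h0.1 hy)⟩
  have := T.overA.through_of_glued' 𝔫 hcomap honly hb hnu hb_ne hu1 hq.out.ne_zero hpi
  exact ⟨this.2.1, this.2.2⟩

include hN' Fr hqO in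
/-- `Hα` of `T4Pres.trichotomy` -/
theorem T4rtTop.Halpha (T : T4rtTop O π hπ W1 W O' π' C M x1 x P1 P)
    (hG : T4rtRegG O π hπ W1 P1) (𝔫 : Ideal P.B) [h𝔫 : 𝔫.IsMaximal]
    (h0 : t4vO0 O π hπ W ∈ P.through 𝔫)
    (h1 : t4vOinf (N' := N') (q := q) O π hπ ∈ P.through 𝔫 ∨
      t4vOmid O π hπ O' π' C M ∈ P.through 𝔫) :
    t4vOinf (N' := N') (q := q) O π hπ ∈ P.through 𝔫 ∧
      t4vOmid O π hπ O' π' C M ∈ P.through 𝔫 := by
  have hcomap := T.hcomapA hN' Fr hqO
  have h1inf : taOv O π hπ (N' * q) ∈ P1.through (T.overA.under 𝔫) := by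
    rcases h1 with h1 | h1
    · have := T.overA.comap_mem_through h1 (hcomap _ h1.1)
      rwa [t4rt_comapA_inf] at this
    · have := T.overA.comap_mem_through h1 (hcomap _ h1.1)
      rwa [t4rt_comapA_mid] at this
  have hgl := (T.glued_alpha hN' Fr hqO hG 𝔫 h0 h1).2
  have hvi : t4vOinf (N' := N') (q := q) O π hπ ∈ P.vals := by
    rw [T.vals]
    exact Or.inr ((mem_t4vwVer O π hπ W O' π' C M _).mpr (Or.inl rfl))
  have hvm : t4vOmid O π hπ O' π' C M ∈ P.vals := by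
    rw [T.vals]
    exact Or.inr ((mem_t4vwVer O π hπ W O' π' C M _).mpr (Or.inr (Or.inl rfl)))
  refine ⟨hgl _ hvi ?_, hgl _ hvm ?_⟩
  · rw [t4rt_comapA_inf]
    exact h1inf
  · rw [t4rt_comapA_mid]
    exact h1inf

end A


/-! #### The `β₂`-structure -/

section B

attribute [local instance] t4vnAlgB

variable (O π hπ W1 W O' π' C M)

include W1 W in
theorem t4rt_comapB_inf :
    (t4vOinf (N' := N') (q := q) O π hπ).comap
      (algebraMap ↥(TaF L (N' * q)) ↥(TaF L (N' * q * q))) = taOv O π hπ (N' * q) :=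
  t4vOinf_comap_beta O π hπ W1 W

include W in
theorem t4rt_comapB_mid :
    (t4vOmid O π hπ O' π' C M).comap
      (algebraMap ↥(TaF L (N' * q)) ↥(TaF L (N' * q * q))) = t4rtO10 O π hπ W1 :=
  t4vOmid_comap_beta O π hπ W1 W O' π' C M

theorem t4rt_comapB_zero :
    (t4vO0 O π hπ W).comap
      (algebraMap ↥(TaF L (N' * q)) ↥(TaF L (N' * q * q))) = t4rtO10 O π hπ W1 :=
  t4vO0_comap_beta O π hπ W1 W

variable {O π hπ W1 W O' π' C M}

include hN' Fr hqO in
/-- `hcomap` for `β₂` -/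
theorem T4rtTop.hcomapB (T : T4rtTop O π hπ W1 W O' π' C M x1 x P1 P) :
    ∀ V ∈ P.vals, V.comap (algebraMap ↥(TaF L (N' * q)) ↥(TaF L (N' * q * q))) ∈ P1.vals := by
  obtain ⟨x1', hx1'⟩ := T.gen1
  haveI : CharZero L := algebraRat.charZero L
  refine t4rt_hcomap_chart (heckeBetaBar L (N' * q) q)
    (t4rt_isIntegral_beta O π hπ hN' W1 Fr W hqO O' π' C M) hx1' T.horB P1 P T.vals1 T.vals ?_
  intro V hV
  rcases (mem_t4vwVer O π hπ W O' π' C M V).mp hV with rfl | rfl | rfl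
  · rw [show ((heckeBetaBar L (N' * q) q : ↥(TaF L (N' * q)) →ₐ[L] ↥(TaF L (N' * q * q))) :
      ↥(TaF L (N' * q)) →+* ↥(TaF L (N' * q * q))) = algebraMap _ _ from rfl,
      t4rt_comapB_inf O π hπ W1 W]
    exact Or.inl rfl
  · rw [show ((heckeBetaBar L (N' * q) q : ↥(TaF L (N' * q)) →ₐ[L] ↥(TaF L (N' * q * q))) :
      ↥(TaF L (N' * q)) →+* ↥(TaF L (N' * q * q))) = algebraMap _ _ from rfl,
      t4rt_comapB_mid O π hπ W1 W O' π' C M]
    exact Or.inr rfl
  · rw [show ((heckeBetaBar L (N' * q) q : ↥(TaF L (N' * q)) →ₐ[L] ↥(TaF L (N' * q * q))) :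
      ↥(TaF L (N' * q)) →+* ↥(TaF L (N' * q * q))) = algebraMap _ _ from rfl,
      t4rt_comapB_zero]
    exact Or.inr rfl

include hqO in
/-- `honly` for `β₂`: `O_inf` is the only valuation ring of `P` over `O¹_inf` -/
theorem T4rtTop.honlyB (T : T4rtTop O π hπ W1 W O' π' C M x1 x P1 P) :
    ∀ V ∈ P.vals, V.comap (algebraMap ↥(TaF L (N' * q)) ↥(TaF L (N' * q * q))) =
      taOv O π hπ (N' * q) → V = t4vOinf (N' := N') (q := q) O π hπ := by
  haveI : CharZero L := algebraRat.charZero L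
  have hlt : (taOv O π hπ (N' * q)).valuation
      (algebraMap L ↥(TaF L (N' * q)) ((q : ℕ) : L)) < 1 := by
    rw [map_natCast]
    exact t4rt_O1inf_valuation_q O π hπ hqO
  refine t4rt_honly_chart (heckeBetaBar L (N' * q) q) P T.vals t4rt_natCast_ne_zero hlt ?_
  intro V hV hVc
  have hVc' : V.comap (algebraMap ↥(TaF L (N' * q)) ↥(TaF L (N' * q * q))) =
      taOv O π hπ (N' * q) := hVc
  rcases (mem_t4vwVer O π hπ W O' π' C M V).mp hV with rfl | rfl | rfl
  · rfl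
  · rw [t4rt_comapB_mid O π hπ W1 W O' π' C M] at hVc'
    exact absurd hVc'.symm (t4vO1inf_ne_zero O π hπ W1)
  · rw [t4rt_comapB_zero] at hVc'
    exact absurd hVc'.symm (t4vO1inf_ne_zero O π hπ W1)

include hN' Fr hqO in
/-- **the `β₂`-glueing**: if `O_inf` and one of `O_mid`, `O_0` pass through `𝔫`, then `𝔫` is the
only point over its `β₂`-contraction `𝔫₁` and every valuation ring of `P` whose restriction passes
through `𝔫₁` passes through `𝔫` -/
theorem T4rtTop.glued_beta (T : T4rtTop O π hπ W1 W O' π' C M x1 x P1 P)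
    (hG : T4rtRegG O π hπ W1 P1) (𝔫 : Ideal P.B) [h𝔫 : 𝔫.IsMaximal]
    (hi : t4vOinf (N' := N') (q := q) O π hπ ∈ P.through 𝔫)
    (h1 : t4vOmid O π hπ O' π' C M ∈ P.through 𝔫 ∨ t4vO0 O π hπ W ∈ P.through 𝔫) :
    (∀ 𝔫' : Ideal P.B, 𝔫'.IsMaximal → 𝔫'.comap T.overB.incl = T.overB.under 𝔫 → 𝔫' = 𝔫) ∧
      ∀ V ∈ P.vals, V.comap (algebraMap ↥(TaF L (N' * q)) ↥(TaF L (N' * q * q))) ∈
        P1.through (T.overB.under 𝔫) → V ∈ P.through 𝔫 := by
  have hcomap := T.hcomapB hN' Fr hqO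
  have honly := T.honlyB hqO
  have h1inf : taOv O π hπ (N' * q) ∈ P1.through (T.overB.under 𝔫) := by
    have := T.overB.comap_mem_through hi (hcomap _ hi.1)
    rwa [t4rt_comapB_inf O π hπ W1 W] at this
  have h10 : t4rtO10 O π hπ W1 ∈ P1.through (T.overB.under 𝔫) := by
    rcases h1 with h1 | h1
    · have := T.overB.comap_mem_through h1 (hcomap _ h1.1)
      rwa [t4rt_comapB_mid O π hπ W1 W O' π' C M] at this
    · have := T.overB.comap_mem_through h1 (hcomap _ h1.1)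
      rwa [t4rt_comapB_zero] at this
  obtain ⟨a, b, ha, hb, hab, hainf, ha0, hbinf, hb0⟩ :=
    hG _ (T.overB.under_isMaximal 𝔫) h1inf h10
  have ha_ne : a ≠ 0 := by
    rintro rfl
    rw [map_zero] at ha0
    exact zero_ne_one ha0
  have ha' : a ∈ P1.loc (T.overB.under 𝔫) := P1.B_le_loc _ ha
  have hnu := T4PresOver.not_isUnit_of_valuation_lt h1inf ha'
    (by rw [hainf]; exact t4rt_O1inf_valuation_q O π hπ hqO)
  have hu1 : ∀ V1 ∈ P1.through (T.overB.under 𝔫), V1 ≠ taOv O π hπ (N' * q) →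
      V1.valuation a = 1 := by
    intro V1 hV1 hne
    have hmem := hV1.1
    rw [T.vals1] at hmem
    rcases hmem with hh | hv
    · have hq1 := t4vp_valuation_const hh (c := ((q : ℕ) : L)) t4rt_natCast_ne_zero
      rw [map_natCast] at hq1
      have hab1 := hab V1 hV1
      rw [hq1] at hab1
      exact (t4rt_valuation_eq_one_of_mul V1 (P1.B_le hV1.1 ha) (hb V1 hV1) hab1).1
    · rcases hv with rfl | hv
      · exact absurd rfl hne
      · rw [Set.mem_singleton_iff] at hv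
        rw [hv]
        exact ha0
  have hpi : ∀ y ∈ P.B, ∃ a ∈ P1.B, (t4vOinf (N' := N') (q := q) O π hπ).valuation
      (y ^ q - algebraMap ↥(TaF L (N' * q)) ↥(TaF L (N' * q * q)) a) < 1 := by
    intro y hy
    exact ⟨t4vnNormB L N' q y, T.overB.norm_mem hy,
      t4rt_hpi_beta O π hπ hN' W1 Fr W hqO O' π' C M y (P.B_le hi.1 hy)⟩
  have := T.overB.through_of_glued' 𝔫 hcomap honly ha' hnu ha_ne hu1 hq.out.ne_zero hpi
  exact ⟨this.2.1, this.2.2⟩

include hN' Fr hqO in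
/-- `Hβ` of `T4Pres.trichotomy` -/
theorem T4rtTop.Hbeta (T : T4rtTop O π hπ W1 W O' π' C M x1 x P1 P)
    (hG : T4rtRegG O π hπ W1 P1) (𝔫 : Ideal P.B) [h𝔫 : 𝔫.IsMaximal]
    (hi : t4vOinf (N' := N') (q := q) O π hπ ∈ P.through 𝔫)
    (hm : t4vOmid O π hπ O' π' C M ∈ P.through 𝔫) : t4vO0 O π hπ W ∈ P.through 𝔫 := by
  have hcomap := T.hcomapB hN' Fr hqO
  have h10 : t4rtO10 O π hπ W1 ∈ P1.through (T.overB.under 𝔫) := by
    have := T.overB.comap_mem_through hm (hcomap _ hm.1)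
    rwa [t4rt_comapB_mid O π hπ W1 W O' π' C M] at this
  have hgl := (T.glued_beta hN' Fr hqO hG 𝔫 hi (Or.inl hm)).2
  have hv0 : t4vO0 O π hπ W ∈ P.vals := by
    rw [T.vals]
    exact Or.inr ((mem_t4vwVer O π hπ W O' π' C M _).mpr (Or.inr (Or.inr rfl)))
  refine hgl _ hv0 ?_
  rw [t4rt_comapB_zero]
  exact h10

end B


/-! #### The trichotomy -/

include hN' Fr hqO in
/-- **the trichotomy on chart 1** (the shape of `T4nCChart.hcase`, first part): through a closed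
point of `P` pass either at most one or all three vertical valuation rings -/
theorem T4rtTop.trichotomy (T : T4rtTop O π hπ W1 W O' π' C M x1 x P1 P)
    (hG : T4rtRegG O π hπ W1 P1) (𝔫 : Ideal P.B) [h𝔫 : 𝔫.IsMaximal] :
    (∀ V ∈ P.through 𝔫, V ∈ P.vert (t4vQ L N' q) →
        ∀ V' ∈ P.through 𝔫, V' ∈ P.vert (t4vQ L N' q) → V = V') ∨
      ((∀ V ∈ P.through 𝔫, V ∈ P.vert (t4vQ L N' q) →
          V = t4vOinf (N' := N') (q := q) O π hπ ∨ V = t4vOmid O π hπ O' π' C M ∨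
            V = t4vO0 O π hπ W) ∧
        t4vOinf (N' := N') (q := q) O π hπ ∈ P.through 𝔫 ∧
        t4vOmid O π hπ O' π' C M ∈ P.through 𝔫 ∧ t4vO0 O π hπ W ∈ P.through 𝔫 ∧
        t4vOinf (N' := N') (q := q) O π hπ ∈ P.vert (t4vQ L N' q) ∧
        t4vOmid O π hπ O' π' C M ∈ P.vert (t4vQ L N' q) ∧
        t4vO0 O π hπ W ∈ P.vert (t4vQ L N' q)) := by
  have hv := T.vert hqO
  refine P.trichotomy 𝔫 (fun V hV => ?_) ?_ ?_ ?_ (T.Halpha hN' Fr hqO hG 𝔫)
    (T.Hbeta hN' Fr hqO hG 𝔫)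
  · rw [hv] at hV
    exact (mem_t4vwVer O π hπ W O' π' C M V).mp hV
  · rw [hv]
    exact (mem_t4vwVer O π hπ W O' π' C M _).mpr (Or.inl rfl)
  · rw [hv]
    exact (mem_t4vwVer O π hπ W O' π' C M _).mpr (Or.inr (Or.inl rfl))
  · rw [hv]
    exact (mem_t4vwVer O π hπ W O' π' C M _).mpr (Or.inr (Or.inr rfl))


/-! #### Regularity at points with one vertical branch -/

include hπ in
/-- `q ∈ B` for a chart presentation -/
theorem t4rt_Q_mem_B (hvals : P.vals = t4vpHor L x ∪ t4vwVer O π hπ W O' π' C M) :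
    t4vQ L N' q ∈ P.B := by
  rw [P.mem_iff]
  intro V hV
  rw [hvals] at hV
  rcases hV with hV | hV
  · exact t4vp_algebraMap_mem_hor hV _
  · rcases (mem_t4vwVer O π hπ W O' π' C M V).mp hV with rfl | rfl | rfl
    · exact t4vQ_mem_inf O π hπ
    · exact t4vQ_mem_mid O π hπ O' π' C M
    · exact t4vQ_mem_zero O π hπ W

include hqO in
/-- **regularity at the points of `C_inf` only** (any chart) -/
theorem t4rt_regAt_inf (hvals : P.vals = t4vpHor L x ∪ t4vwVer O π hπ W O' π' C M)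
    (𝔫 : Ideal P.B) (hi : t4vOinf (N' := N') (q := q) O π hπ ∈ P.through 𝔫)
    (honly : ∀ V ∈ P.through 𝔫, V ∈ P.vert (t4vQ L N' q) →
      V = t4vOinf (N' := N') (q := q) O π hπ)
    (hsm : P.SmoothAt 𝔫 _ hi) : P.RegAt 𝔫 :=
  P.regAt_of_single (t4rt_Q_mem_B hvals) hi (t4vOinf_valuation_q O π hπ hqO)
    (t4rt_hunif_of_decomp _ (t4vQ_mem_inf O π hπ) (t4vQ_inv_notMem_inf O π hπ hqO)
      (t4vOinf_exists_zpow O π hπ hqO)) honly hsm

include hqO in
/-- **regularity at the points of `C_0` only** (any chart) -/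
theorem t4rt_regAt_zero (hvals : P.vals = t4vpHor L x ∪ t4vwVer O π hπ W O' π' C M)
    (𝔫 : Ideal P.B) (h0 : t4vO0 O π hπ W ∈ P.through 𝔫)
    (honly : ∀ V ∈ P.through 𝔫, V ∈ P.vert (t4vQ L N' q) → V = t4vO0 O π hπ W)
    (hsm : P.SmoothAt 𝔫 _ h0) : P.RegAt 𝔫 :=
  P.regAt_of_single (t4rt_Q_mem_B hvals) h0 (t4vO0_valuation_q O π hπ W hqO)
    (t4rt_hunif_of_decomp _ (t4vQ_mem_zero O π hπ W) (t4vQ_inv_notMem_zero O π hπ W hqO)
      (t4vO0_exists_zpow O π hπ W hqO)) honly hsm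

include hπ in
/-- **regularity at the points of `C_mid` only**, from a local equation: `a ∈ B` vanishing on
`C_mid` and a unit `u` of `B_𝔫` with `a ^ (q - 1) / q ≡ -u` on `C_mid` (any chart) -/
theorem t4rt_regAt_mid (hvals : P.vals = t4vpHor L x ∪ t4vwVer O π hπ W O' π' C M)
    (𝔫 : Ideal P.B) [h𝔫 : 𝔫.IsMaximal] (hm : t4vOmid O π hπ O' π' C M ∈ P.through 𝔫)
    (honly : ∀ V ∈ P.through 𝔫, V ∈ P.vert (t4vQ L N' q) → V = t4vOmid O π hπ O' π' C M)
    {a u : ↥(TaF L (N' * q * q))} (ha : a ∈ P.B)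
    (haV : (t4vOmid O π hπ O' π' C M).valuation a < 1)
    (hu : u ∈ P.loc 𝔫) (hui : u⁻¹ ∈ P.loc 𝔫) (hu0 : u ≠ 0)
    (hau : (t4vOmid O π hπ O' π' C M).valuation (a ^ (q - 1) / t4vQ L N' q + u) < 1)
    (hsm : P.SmoothAt 𝔫 _ hm) : P.RegAt 𝔫 := by
  have he : q - 1 ≠ 0 := by have := hq.out.two_le; omega
  refine P.regAt_of_pow_unit (t4rt_Q_mem_B hvals) t4vQ_ne_zero hm ha he
    (t4rt_hunif_of_decomp _ (t4vPi_mem_mid O π hπ O' π' C M)
      (t4vPi_inv_notMem_mid O π hπ O' π' C M) (t4vOmid_exists_zpow O π hπ O' π' C M))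
    ?_ haV hu hui hu0 hau honly hsm
  obtain ⟨v, hv, hvi, e⟩ := t4vQ_mid O π hπ O' π' C M
  have hv0 : v ≠ 0 := by
    rintro rfl
    rw [mul_zero] at e
    exact t4vQ_ne_zero e
  rw [e, map_mul, map_pow, t4vs_valuation_unit _ hv0 hv hvi, mul_one]


/-! #### Regularity at the triple points -/

section B2

attribute [local instance] t4vnAlgB

include hN' Fr hqO in
/-- **regularity at the triple points** (chart 1): the local equation is `β₂ a`, `a` the local
equation of `C¹_inf` at the node `𝔫₁` below (`β₂`-contraction) -/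
theorem T4rtTop.regAt_triple (T : T4rtTop O π hπ W1 W O' π' C M x1 x P1 P)
    (hG : T4rtRegG O π hπ W1 P1) (𝔫 : Ideal P.B) [h𝔫 : 𝔫.IsMaximal]
    (hi : t4vOinf (N' := N') (q := q) O π hπ ∈ P.through 𝔫)
    (h1 : t4vOmid O π hπ O' π' C M ∈ P.through 𝔫 ∨ t4vO0 O π hπ W ∈ P.through 𝔫)
    (hsm : P.SmoothAt 𝔫 _ hi) : P.RegAt 𝔫 := by
  have hcomap := T.hcomapB hN' Fr hqO
  have h1inf : taOv O π hπ (N' * q) ∈ P1.through (T.overB.under 𝔫) := by
    have := T.overB.comap_mem_through hi (hcomap _ hi.1)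
    rwa [t4rt_comapB_inf O π hπ W1 W] at this
  have h10 : t4rtO10 O π hπ W1 ∈ P1.through (T.overB.under 𝔫) := by
    rcases h1 with h1 | h1
    · have := T.overB.comap_mem_through h1 (hcomap _ h1.1)
      rwa [t4rt_comapB_mid O π hπ W1 W O' π' C M] at this
    · have := T.overB.comap_mem_through h1 (hcomap _ h1.1)
      rwa [t4rt_comapB_zero] at this
  obtain ⟨a, b, ha, hb, hab, hainf, ha0, hbinf, hb0⟩ :=
    hG _ (T.overB.under_isMaximal 𝔫) h1inf h10
  have hq1 : algebraMap ↥(TaF L (N' * q)) ↥(TaF L (N' * q * q))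
      ((q : ℕ) : ↥(TaF L (N' * q))) = t4vQ L N' q := by
    rw [map_natCast, t4rt_Q_eq]
  refine T.overB.regAt_of_glued 𝔫 hcomap (t4rt_Q_mem_B T.vals) hq1 hi ha hb hab
    (t4vOinf_valuation_q O π hπ hqO)
    (t4rt_hunif_of_decomp _ (t4vQ_mem_inf O π hπ) (t4vQ_inv_notMem_inf O π hπ hqO)
      (t4vOinf_exists_zpow O π hπ hqO)) ?_ ?_ hsm
  · rw [t4rt_comapB_inf O π hπ W1 W]
    exact hbinf
  · intro V hV hne hVq
    rw [T.vert hqO] at hVq
    rcases (mem_t4vwVer O π hπ W O' π' C M V).mp hVq with rfl | rfl | rfl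
    · exact absurd rfl hne
    · rw [t4rt_comapB_mid O π hπ W1 W O' π' C M]
      exact ha0
    · rw [t4rt_comapB_zero]
      exact ha0

end B2


/-! #### `hreg` -/

include hqO in
/-- **regularity at a closed point of the special fibre through which at most one vertical
valuation ring passes** (any chart), `C_mid`-only points as a hypothesis -/
theorem t4rt_regAt_of_one (hvals : P.vals = t4vpHor L x ∪ t4vwVer O π hπ W O' π' C M)
    (𝔫 : Ideal P.B) [h𝔫 : 𝔫.IsMaximal]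
    (hQ : (⟨t4vQ L N' q, t4rt_Q_mem_B hvals⟩ : P.B) ∈ 𝔫)
    (hone : ∀ V ∈ P.through 𝔫, V ∈ P.vert (t4vQ L N' q) →
      ∀ V' ∈ P.through 𝔫, V' ∈ P.vert (t4vQ L N' q) → V = V')
    (hsm : ∀ (V : ValuationSubring ↥(TaF L (N' * q * q))) (hV : V ∈ P.through 𝔫),
      V ∈ P.vert (t4vQ L N' q) → P.SmoothAt 𝔫 V hV)
    (hmid : t4vOmid O π hπ O' π' C M ∈ P.through 𝔫 →
      (∀ V ∈ P.through 𝔫, V ∈ P.vert (t4vQ L N' q) → V = t4vOmid O π hπ O' π' C M) →
      P.RegAt 𝔫) : P.RegAt 𝔫 := by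
  haveI := h𝔫.isPrime
  obtain ⟨V, hV, hlt⟩ := P.exists_through_of_mem 𝔫 hQ t4vQ_ne_zero
  have hVq : V ∈ P.vert (t4vQ L N' q) := ⟨hV.1, hlt⟩
  have honly : ∀ V' ∈ P.through 𝔫, V' ∈ P.vert (t4vQ L N' q) → V' = V :=
    fun V' hV' hV'q => hone V' hV' hV'q V hV hVq
  have hVq' := hVq
  rw [t4rt_vert hqO hvals] at hVq'
  rcases (mem_t4vwVer O π hπ W O' π' C M V).mp hVq' with rfl | rfl | rfl
  · exact t4rt_regAt_inf hqO hvals 𝔫 hV honly (hsm _ hV hVq)
  · exact hmid hV honly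
  · exact t4rt_regAt_zero hqO hvals 𝔫 hV honly (hsm _ hV hVq)

include hN' Fr hqO in
/-- **`hreg` on chart 1**, `C_mid`-only points as a hypothesis -/
theorem T4rtTop.regAt (T : T4rtTop O π hπ W1 W O' π' C M x1 x P1 P)
    (hG : T4rtRegG O π hπ W1 P1) (𝔫 : Ideal P.B) [h𝔫 : 𝔫.IsMaximal]
    (hQ : (⟨t4vQ L N' q, t4rt_Q_mem_B T.vals⟩ : P.B) ∈ 𝔫)
    (hsm : ∀ (V : ValuationSubring ↥(TaF L (N' * q * q))) (hV : V ∈ P.through 𝔫),
      V ∈ P.vert (t4vQ L N' q) → P.SmoothAt 𝔫 V hV)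
    (hmid : t4vOmid O π hπ O' π' C M ∈ P.through 𝔫 →
      (∀ V ∈ P.through 𝔫, V ∈ P.vert (t4vQ L N' q) → V = t4vOmid O π hπ O' π' C M) →
      P.RegAt 𝔫) : P.RegAt 𝔫 := by
  rcases T.trichotomy hN' Fr hqO hG 𝔫 with hone | ⟨-, hi, hm, h0, hiq, -, -⟩
  · exact t4rt_regAt_of_one hqO T.vals 𝔫 hQ hone hsm hmid
  · exact T.regAt_triple hN' Fr hqO hG 𝔫 hi (Or.inl hm) (hsm _ hi hiq)

end Top

end Fermat.Agent.T4
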