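/-
T4-R (helper1): **(CFE)** in the shape `T4nCFE` of `Lib/T4/New/CoreDefs.lean`.
-/
import Fermat.Agent.Lib.T4.Reg.UnrCfe
import Fermat.Agent.Lib.T4.New.CoreDefs

set_option autoImplicit false

namespace Fermat.Agent.T4

open Fermat.Agent.T1 Fermat.Agent.TW

/-- **constant field extensions are unramified**, for all level fields and all levels -/
theorem t4ru_T4nCFE (𝔓 : FFPlace) (H : Subgroup 𝔓.I) (N : ℕ) [NeZero N] : T4nCFE 𝔓 H N :=
  fun V => t4ru_cfe_fix 𝔓 H N V

end Fermat.Agent.T4
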