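/-
T4-R / REG2 (helper8): **regularity at the points of `C_mid` only, chart 1** (level `N' q²`), from
helper6's REG1-G (`T4rtRegG`) and REG1-M (`T4rmRegM`, a hypothesis here).

* `T4PresOver.eq_of_branch` : two points over the same point with a common purely inseparable
  branch coincide;
* `t4rm_pi_f_mid`, `t4rm_pi_f_pow`, `t4rm_a0_mid`, **`t4rm_local_eq`** : for `f, e ∈ O'_v` (level
  `N'`) with `ē = (θ f̄) ^ (q - 1)`, the element `ϖ_f ^ (q - 1) / q + a0 e` (`ϖ_f = a2 f - a0 f`) is a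
  non-unit of `O_mid` (Wilson: `q = λ ^ (q - 1) · U`, `Ū = -1`);
* `T4rmLow` : the hypotheses on the chart presentation `P'` of level `N'` under `P1`
  (`T4PresOver` for `α`, `β B' ⊆ B₁`, approximation on the branch `O¹_inf`);
* `T4rtTop.zero_of_glued` : if the `α₂`-contraction of `𝔫` is a node then `O_0` passes through `𝔫`;
* **`T4rtTop.regAt_mid`** : `RegAt` at the points of `C_mid` only; **`T4rtTop.hreg`** : `hreg` on
  chart 1.
-/
import Fermat.Agent.Lib.T4.Reg.TopReg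

set_option autoImplicit false
set_option linter.unusedSectionVars false
set_option linter.unusedVariables false
set_option linter.style.haveILetI false
set_option synthInstance.maxHeartbeats 400000

open HahnSeries ModularCurve Fermat.Agent.T1 Fermat.Agent.T2 IntermediateField

noncomputable section

namespace Fermat.Agent.T4

/-! ### Generic -/

section Generic

/-- `(-1) ^ (q - 1) = 1` in characteristic `q` -/
theorem t4rm_neg_one_pow (k : Type*) [Field k] (q : ℕ) [hq : Fact q.Prime] [CharP k q] :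
    (-1 : k) ^ (q - 1) = 1 := by
  rcases hq.out.eq_two_or_odd' with h2 | hodd
  · subst h2
    haveI : CharP k 2 := inferInstance
    rw [show 2 - 1 = 1 from rfl, pow_one, CharTwo.neg_eq]
  · obtain ⟨m, hm⟩ := hodd
    have : q - 1 = 2 * m := by omega
    rw [this, pow_mul, neg_one_sq, one_pow]

variable {F1 F : Type*} [Field F1] [Field F] [Algebra F1 F]

/-- two points over the same point with a common purely inseparable branch coincide -/
theorem T4PresOver.eq_of_branch {P1 : T4Pres F1} {P : T4Pres F} (h : T4PresOver P1 P)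
    {𝔫a 𝔫b : Ideal P.B} [h𝔫a : 𝔫a.IsMaximal] [h𝔫b : 𝔫b.IsMaximal]
    (hover : h.under 𝔫a = h.under 𝔫b) {Vc : ValuationSubring F}
    (ha : Vc ∈ P.through 𝔫a) (hb : Vc ∈ P.through 𝔫b) {Q : ℕ} (hQ : Q ≠ 0)
    (hpi : ∀ x ∈ P.B, ∃ a ∈ P1.B, Vc.valuation (x ^ Q - algebraMap F1 F a) < 1) : 𝔫a = 𝔫b := by
  have hle : 𝔫a ≤ 𝔫b := by
    intro x hx
    obtain ⟨a, ha1, hval⟩ := hpi (x : F) x.2
    set a1 : P1.B := ⟨a, ha1⟩ with ha1def
    have h1 : ((x ^ Q - h.incl a1 : P.B) : F) = (x : F) ^ Q - algebraMap F1 F a := by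
      push_cast
      rfl
    have h2 : (x ^ Q - h.incl a1 : P.B) ∈ 𝔫a := ha.2 _ (by rw [h1]; exact hval)
    have h3 : (x ^ Q - h.incl a1 : P.B) ∈ 𝔫b := hb.2 _ (by rw [h1]; exact hval)
    have h4 : h.incl a1 ∈ 𝔫a := by
      have := 𝔫a.sub_mem (𝔫a.pow_mem_of_mem hx Q (Nat.pos_of_ne_zero hQ)) h2
      rwa [sub_sub_cancel] at this
    have h5 : a1 ∈ h.under 𝔫b := by
      rw [← hover]
      exact h4
    have h6 : x ^ Q ∈ 𝔫b := by
      have := 𝔫b.add_mem h3 (h.mem_under.mp h5)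
      rwa [sub_add_cancel] at this
    exact h𝔫b.isPrime.mem_of_pow_mem Q h6
  exact h𝔫a.eq_of_le h𝔫b.ne_top hle

end Generic


/-! ### The local equation `ϖ_f = a2 f - a0 f` at the middle valuation -/

section MidComp

variable {L : Type} [Field L] [Algebra ℚ L] (O : ValuationSubring L) {k : Type*} [Field k]
  (π : ↥O →+* k) [IsDiscreteValuationRing ↥O] (hπ : Function.Surjective π) [IsAlgClosed k]
  {N' q : ℕ} [NeZero N'] [hq : Fact q.Prime] [CharP k q] (hN' : (N' : k) ≠ 0)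
  (W1 : T2iAL L N' q) (Fr : T2iFrob k N' q) (W : T4iAL L N' q)
  (hqO : Irreducible ((q : ℕ) : ↥O))
  {L' : Type*} [Field L'] [Algebra L L'] (O' : ValuationSubring L')
  [IsDiscreteValuationRing ↥O'] (π' : ↥O' →+* k) (C : T4iCyc O O' π π' q)
  (M : T4iMid L L' N' q C.ζ)

include hπ in
/-- `ϖ_f = a2 f - a0 f` is a non-unit of `O_mid` -/
theorem t4rm_pi_f_mid {f : ↥(TaF L N')} (hf : TaGauss O π (f : LaurentSeries L)) :
    t4vA2 L N' q f - t4vA0 L N' q f ∈ t4vOmid O π hπ O' π' C M ∧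
      (t4vOmid O π hπ O' π' C M).valuation (t4vA2 L N' q f - t4vA0 L N' q f) < 1 := by
  have hG := t4v_gauss_th_f O π hπ O' π' C hf
  have hmem : t4vA2 L N' q f - t4vA0 L N' q f ∈ t4vOmid O π hπ O' π' C M := by
    rw [mem_t4vOmid, t4v_ι_pi_f O π O' π' C M]
    exact (taGaussSubring O' π').mul_mem (t4vConst O' π' C.lam).2 hG
  refine ⟨hmem, ?_⟩
  rw [t4vOmid_valuation_lt_one_iff O π hπ O' π' C M hmem, t4v_ι_pi_f O π O' π' C M]
  have h1 : taRho O' π' (t4vConst O' π' C.lam * ⟨_, hG⟩) = 0 := by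
    rw [map_mul, taRho_t4vConst, C.π'_lam hπ, map_zero, zero_mul]
  exact h1

include hπ in
/-- **`res_mid (ϖ_f ^ (q - 1) / q) = -(θ f̄) ^ (q - 1)`** -/
theorem t4rm_pi_f_pow {f : ↥(TaF L N')} (hf : TaGauss O π (f : LaurentSeries L)) :
    (t4vA2 L N' q f - t4vA0 L N' q f) ^ (q - 1) / t4vQ L N' q ∈ t4vOmid O π hπ O' π' C M ∧
      taRhoFun O' π' (M.ι ((t4vA2 L N' q f - t4vA0 L N' q f) ^ (q - 1) / t4vQ L N' q)) =
        -(t4vTheta (taRhoFun O π (f : LaurentSeries L))) ^ (q - 1) := by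
  have hG := t4v_gauss_th_f O π hπ O' π' C hf
  obtain ⟨hU, -, hπU⟩ := t4vU_spec O π hπ O' π' C
  obtain ⟨v, hv⟩ := hU.exists_right_inv
  have hπv : π' v = -1 := by
    have h1 := congrArg π' hv
    rw [map_mul, hπU, map_one, neg_one_mul, neg_eq_iff_eq_neg] at h1
    exact h1
  have hUv : ((t4vU O π hπ O' π' C : ↥O') : L') * ((v : ↥O') : L') = 1 := congrArg Subtype.val hv
  have hCU : (HahnSeries.C ((t4vU O π hπ O' π' C : ↥O') : L') : LaurentSeries L') *
      HahnSeries.C ((v : ↥O') : L') = 1 := by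
    rw [← map_mul, hUv, map_one]
  have hCU0 : (HahnSeries.C ((t4vU O π hπ O' π' C : ↥O') : L') : LaurentSeries L') ≠ 0 :=
    left_ne_zero_of_mul_eq_one hCU
  have hlam0 := t4v_C_lam_ne_zero O π O' π' C
  have hι : M.ι ((t4vA2 L N' q f - t4vA0 L N' q f) ^ (q - 1) / t4vQ L N' q) =
      (-t4vDel C.ζ (coeffMap (algebraMap L L') (f : LaurentSeries L))) ^ (q - 1) *
        HahnSeries.C ((v : ↥O') : L') := by
    rw [map_div₀, map_pow, t4v_ι_pi_f O π O' π' C M, t4v_ι_Q O π hπ O' π' C M, mul_pow, map_mul,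
      map_pow, div_eq_iff (mul_ne_zero (pow_ne_zero _ hlam0) hCU0)]
    calc HahnSeries.C ((C.lam : ↥O') : L') ^ (q - 1) *
          (-t4vDel C.ζ (coeffMap (algebraMap L L') (f : LaurentSeries L))) ^ (q - 1)
        = (-t4vDel C.ζ (coeffMap (algebraMap L L') (f : LaurentSeries L))) ^ (q - 1) *
          (HahnSeries.C ((t4vU O π hπ O' π' C : ↥O') : L') * HahnSeries.C ((v : ↥O') : L')) *
            HahnSeries.C ((C.lam : ↥O') : L') ^ (q - 1) := by rw [hCU]; ring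
      _ = _ := by ring
  have hmemG : TaGauss O' π'
      ((-t4vDel C.ζ (coeffMap (algebraMap L L') (f : LaurentSeries L))) ^ (q - 1) *
        HahnSeries.C ((v : ↥O') : L')) :=
    (taGaussSubring O' π').mul_mem ((taGaussSubring O' π').pow_mem hG _) (t4vConst O' π' v).2
  refine ⟨?_, ?_⟩
  · rw [mem_t4vOmid, hι]
    exact hmemG
  · rw [hι]
    have h1 : taRho O' π' ((⟨_, hG⟩ : ↥(taGaussSubring O' π')) ^ (q - 1) * t4vConst O' π' v) =
        -(t4vTheta (taRhoFun O π (f : LaurentSeries L))) ^ (q - 1) := by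
      rw [map_mul, map_pow, taRho_t4vConst, hπv]
      have h2 : taRho O' π' ⟨_, hG⟩ = -t4vTheta (taRhoFun O π (f : LaurentSeries L)) :=
        t4v_taRhoFun_th_f O π hπ O' π' C hf
      rw [h2, neg_pow, map_neg, map_one, mul_neg_one]
      have h3 : (-1 : LaurentSeries k) ^ (q - 1) = 1 := by
        rw [← map_one (HahnSeries.C : k →+* LaurentSeries k), ← map_neg, ← map_pow,
          t4rm_neg_one_pow k q]
      rw [h3, one_mul]
    exact h1

include hπ in
/-- `res_mid (a0 e) = ē` -/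
theorem t4rm_a0_mid {e : ↥(TaF L N')} (he : TaGauss O π (e : LaurentSeries L)) :
    t4vA0 L N' q e ∈ t4vOmid O π hπ O' π' C M ∧
      taRhoFun O' π' (M.ι (t4vA0 L N' q e)) = taRhoFun O π (e : LaurentSeries L) := by
  refine ⟨?_, ?_⟩
  · rw [mem_t4vOmid, M.ι_a0]
    exact t4v_taGauss_coeffMap O O' π π' C.map_mem C.π_map he
  · rw [M.ι_a0]
    exact t4v_taRhoFun_coeffMap O O' π π' C.map_mem C.π_map he

include hπ in
/-- **the local equation at the points of `C_mid` only**: `ϖ_f ^ (q - 1) / q + a0 e` is a non-unit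
of `O_mid` as soon as `ē = (θ f̄) ^ (q - 1)` -/
theorem t4rm_local_eq {f e : ↥(TaF L N')} (hf : TaGauss O π (f : LaurentSeries L))
    (he : TaGauss O π (e : LaurentSeries L))
    (hfe : taRhoFun O π (e : LaurentSeries L) =
      (t4vTheta (taRhoFun O π (f : LaurentSeries L))) ^ (q - 1)) :
    (t4vOmid O π hπ O' π' C M).valuation
      ((t4vA2 L N' q f - t4vA0 L N' q f) ^ (q - 1) / t4vQ L N' q + t4vA0 L N' q e) < 1 := by
  obtain ⟨h1, r1⟩ := t4rm_pi_f_pow O π hπ O' π' C M hf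
  obtain ⟨h2, r2⟩ := t4rm_a0_mid O π hπ O' π' C M he
  rw [t4vOmid_valuation_lt_one_iff O π hπ O' π' C M (add_mem h1 h2), map_add]
  have h3 : taRho O' π' ((⟨_, h1⟩ : ↥(taGaussSubring O' π')) + ⟨_, h2⟩) = 0 := by
    rw [map_add]
    show taRhoFun O' π' _ + taRhoFun O' π' _ = 0
    rw [r1, r2, hfe, neg_add_cancel]
  exact h3

end MidComp


/-! ### Regularity at the points of `C_mid` only (chart 1) -/

section MidReg

variable {L : Type} [Field L] [Algebra ℚ L] (O : ValuationSubring L) {k : Type*} [Field k]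
  (π : ↥O →+* k) [IsDiscreteValuationRing ↥O] (hπ : Function.Surjective π) [IsAlgClosed k]
  {N' q : ℕ} [NeZero N'] [hq : Fact q.Prime] [CharP k q] (hN' : (N' : k) ≠ 0)
  (W1 : T2iAL L N' q) (Fr : T2iFrob k N' q) (W : T4iAL L N' q)
  (hqO : Irreducible ((q : ℕ) : ↥O))
  {L' : Type*} [Field L'] [Algebra L L'] (O' : ValuationSubring L')
  [IsDiscreteValuationRing ↥O'] (π' : ↥O' →+* k) (C : T4iCyc O O' π π' q)
  (M : T4iMid L L' N' q C.ζ)

attribute [local instance] t2iAlgebra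

/-- the hypotheses on the chart presentation `P'` of level `N'` (chart `x'`, non-cuspidal points)
under `P1` -/
structure T4rmLow (x' : ↥(TaF L N')) (P' : T4Pres ↥(TaF L N'))
    (P1 : T4Pres ↥(TaF L (N' * q))) : Prop where
  vals' : P'.vals = t4vpHor L x' ∪ {taOv O π hπ N'}
  overA' : @T4PresOver _ _ _ _ (t2iAlgebra L N' q) P' P1
  mapB' : ∀ b ∈ P'.B, heckeBetaBar L N' q b ∈ P1.B
  apx : ∀ y ∈ P1.B, ∃ a ∈ P'.B,
    (taOv O π hπ (N' * q)).valuation (y - heckeAlphaBar L N' q a) < 1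

/-- **REG1-M** (helper6's output): at a closed point `𝔫'` of the special fibre of level `N'` which
lies under no node of level `N' q` there are `f ∈ B'` and a unit `e` of `B'_𝔫'` reducing to
`(θ f̄) ^ (q - 1)` -/
def T4rmRegM (P' : T4Pres ↥(TaF L N')) (P1 : T4Pres ↥(TaF L (N' * q)))
    (hov : @T4PresOver _ _ _ _ (t2iAlgebra L N' q) P' P1) : Prop :=
  ∀ 𝔫' : Ideal P'.B, 𝔫'.IsMaximal → ((q : ℕ) : ↥P'.B) ∈ 𝔫' →
    (¬ ∃ 𝔫1 : Ideal P1.B, 𝔫1.IsMaximal ∧ taOv O π hπ (N' * q) ∈ P1.through 𝔫1 ∧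
      t4rtO10 O π hπ W1 ∈ P1.through 𝔫1 ∧ hov.under 𝔫1 = 𝔫') →
    ∃ f e e' : ↥(TaF L N'), f ∈ P'.B ∧ e ∈ P'.loc 𝔫' ∧ e' ∈ P'.loc 𝔫' ∧ e * e' = 1 ∧
      taRhoFun O π (e : LaurentSeries L) =
        (t4vTheta (taRhoFun O π (f : LaurentSeries L))) ^ (q - 1)

variable {O π hπ W1 W O' π' C M}
variable {x1 : ↥(TaF L (N' * q))} {x : ↥(TaF L (N' * q * q))}
  {P1 : T4Pres ↥(TaF L (N' * q))} {P : T4Pres ↥(TaF L (N' * q * q))}
  {x' : ↥(TaF L N')} {P' : T4Pres ↥(TaF L N')}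

include hN' Fr hqO in
/-- if the `α₂`-contraction of `𝔫` is a node, `O_0` passes through `𝔫` -/
theorem T4rtTop.zero_of_glued (T : T4rtTop O π hπ W1 W O' π' C M x1 x P1 P)
    (hG : T4rtRegG O π hπ W1 P1) (𝔫 : Ideal P.B) [h𝔫 : 𝔫.IsMaximal]
    (h1inf : taOv O π hπ (N' * q) ∈ P1.through (T.overA.under 𝔫))
    (h10 : t4rtO10 O π hπ W1 ∈ P1.through (T.overA.under 𝔫)) :
    t4vO0 O π hπ W ∈ P.through 𝔫 := by
  have hcomap := T.hcomapA hN' Fr hqO
  have honly := T.honlyA hqO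
  obtain ⟨a, b, ha, hb, hab, hainf, ha0, hbinf, hb0⟩ :=
    hG _ (T.overA.under_isMaximal 𝔫) h1inf h10
  have hb_ne : b ≠ 0 := by
    rintro rfl
    rw [map_zero] at hbinf
    exact zero_ne_one hbinf
  have hnu := T4PresOver.not_isUnit_of_valuation_lt h10 hb
    (by rw [hb0]; exact t4rt_O10_valuation_q O π hπ W1 W hqO)
  have hu1 : ∀ V1 ∈ P1.through (T.overA.under 𝔫), V1 ≠ t4rtO10 O π hπ W1 →
      V1.valuation b = 1 := by
    intro V1 hV1 hne
    have hmem := hV1.1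
    rw [T.vals1] at hmem
    rcases hmem with hh | hv
    · have hq1 := t4vp_valuation_const hh (c := ((q : ℕ) : L)) t4rt_natCast_ne_zero
      rw [map_natCast] at hq1
      have hab1 := hab V1 hV1
      rw [hq1] at hab1
      exact (t4rt_valuation_eq_one_of_mul V1 (P1.B_le hV1.1 ha) (hb V1 hV1) hab1).2
    · rcases hv with rfl | hv
      · exact hbinf
      · exact absurd hv hne
  exact T.overA.through_of_nonunit' 𝔫 rfl hcomap honly hb hnu hb_ne hu1


/-- the vertical valuation ring of level `N'` passes through every closed point of the special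
fibre -/
theorem T4rmLow.through' (T' : T4rmLow O π hπ x' P' P1) (𝔫' : Ideal P'.B) [h𝔫' : 𝔫'.IsMaximal]
    (hq' : ((q : ℕ) : ↥P'.B) ∈ 𝔫') : taOv O π hπ N' ∈ P'.through 𝔫' := by
  haveI := h𝔫'.isPrime
  haveI : CharZero L := algebraRat.charZero L
  have hq0 : (((q : ℕ) : ↥P'.B) : ↥(TaF L N')) ≠ 0 := by
    rw [Subring.coe_natCast]
    haveI : CharZero ↥(TaF L N') := charZero_of_injective_algebraMap
      (algebraMap L ↥(TaF L N')).injective
    exact_mod_cast hq.out.ne_zero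
  obtain ⟨V, hV, hlt⟩ := P'.exists_through_of_mem 𝔫' hq' hq0
  have hmem := hV.1
  rw [T'.vals'] at hmem
  rcases hmem with hh | hv
  · have h1 := t4vp_valuation_const hh (c := ((q : ℕ) : L)) t4rt_natCast_ne_zero
    rw [map_natCast] at h1
    rw [Subring.coe_natCast, h1] at hlt
    exact absurd hlt (lt_irrefl _)
  · rw [Set.mem_singleton_iff] at hv
    rw [← hv]
    exact hV

include hN' Fr hqO in
/-- **regularity at the points of `C_mid` only, chart 1**: from REG1-G, REG1-M -/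
theorem T4rtTop.regAt_mid (T : T4rtTop O π hπ W1 W O' π' C M x1 x P1 P)
    (T' : T4rmLow O π hπ x' P' P1) (hG : T4rtRegG O π hπ W1 P1)
    (hM : T4rmRegM O π hπ W1 P' P1 T'.overA') (𝔫 : Ideal P.B) [h𝔫 : 𝔫.IsMaximal]
    (hm : t4vOmid O π hπ O' π' C M ∈ P.through 𝔫)
    (honly : ∀ V ∈ P.through 𝔫, V ∈ P.vert (t4vQ L N' q) → V = t4vOmid O π hπ O' π' C M)
    (hsm : P.SmoothAt 𝔫 _ hm) : P.RegAt 𝔫 := by
  have hcomap := T.hcomapA hN' Fr hqO
  haveI h𝔫1 : (T.overA.under 𝔫).IsMaximal := T.overA.under_isMaximal 𝔫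
  haveI h𝔫' : (T'.overA'.under (T.overA.under 𝔫)).IsMaximal := T'.overA'.under_isMaximal _
  -- the `α₂`-contraction of `𝔫` lies on `C¹_inf` only
  have h1inf : taOv O π hπ (N' * q) ∈ P1.through (T.overA.under 𝔫) := by
    have := T.overA.comap_mem_through hm (hcomap _ hm.1)
    rwa [t4rt_comapA_mid] at this
  have h10n : t4rtO10 O π hπ W1 ∉ P1.through (T.overA.under 𝔫) := by
    intro h10
    have h0 := T.zero_of_glued hN' Fr hqO hG 𝔫 h1inf h10
    have h0q : t4vO0 O π hπ W ∈ P.vert (t4vQ L N' q) := by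
      rw [T.vert hqO]
      exact (mem_t4vwVer O π hπ W O' π' C M _).mpr (Or.inr (Or.inr rfl))
    exact t4vOmid_ne_zero O π hπ hN' W1 Fr W hqO O' π' C M (honly _ h0 h0q).symm
  -- `q ∈ 𝔫'`
  have hq' : ((q : ℕ) : ↥P'.B) ∈ T'.overA'.under (T.overA.under 𝔫) := by
    rw [T4PresOver.mem_under, T4PresOver.mem_under, map_natCast, map_natCast]
    refine hm.2 _ ?_
    rw [Subring.coe_natCast, ← t4rt_Q_eq]
    exact t4vOmid_valuation_q O π hπ O' π' C M
  -- `𝔫'` lies under no node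
  have hng : ¬ ∃ 𝔫1 : Ideal P1.B, 𝔫1.IsMaximal ∧ taOv O π hπ (N' * q) ∈ P1.through 𝔫1 ∧
      t4rtO10 O π hπ W1 ∈ P1.through 𝔫1 ∧
      T'.overA'.under 𝔫1 = T'.overA'.under (T.overA.under 𝔫) := by
    rintro ⟨𝔫1, h𝔫1', hi1, h01, hov⟩
    haveI := h𝔫1'
    have heq : 𝔫1 = T.overA.under 𝔫 :=
      T'.overA'.eq_of_branch hov hi1 h1inf one_ne_zero (fun y hy => by
        obtain ⟨a, ha, hlt⟩ := T'.apx y hy
        exact ⟨a, ha, by rw [pow_one]; exact hlt⟩)
    rw [heq] at h01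
    exact h10n h01
  obtain ⟨f, e, e', hf, he, he', hee', hfe⟩ := hM _ h𝔫' hq' hng
  -- Gauss-integrality
  have hV' := T'.through' _ hq'
  have hfG : TaGauss O π (f : LaurentSeries L) := P'.B_le hV'.1 hf
  have heG : TaGauss O π (e : LaurentSeries L) := he _ hV'
  have he0 : e ≠ 0 := left_ne_zero_of_mul_eq_one hee'
  -- the local equation
  have ha0 : ∀ b ∈ P'.B, t4vA0 L N' q b ∈ P.B := fun b hb =>
    T.overA.map_mem _ (T'.overA'.map_mem b hb)
  have ha2 : ∀ b ∈ P'.B, t4vA2 L N' q b ∈ P.B := fun b hb =>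
    @T4PresOver.map_mem _ _ _ _ (t4vnAlgB L N' q) _ _ T.overB _ (T'.mapB' b hb)
  have hloc : ∀ b ∈ P'.loc (T'.overA'.under (T.overA.under 𝔫)), t4vA0 L N' q b ∈ P.loc 𝔫 :=
    fun b hb => T.overA.map_mem_loc 𝔫 (T'.overA'.map_mem_loc _ hb)
  have hinv : (t4vA0 L N' q e)⁻¹ = t4vA0 L N' q e' := by
    rw [← map_inv₀]
    congr 1
    exact inv_eq_of_mul_eq_one_right hee'
  refine t4rt_regAt_mid T.vals 𝔫 hm honly (sub_mem (ha2 f hf) (ha0 f hf))
    (t4rm_pi_f_mid O π hπ O' π' C M hfG).2 (hloc e he) ?_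
    ((map_ne_zero _).mpr he0) (t4rm_local_eq O π hπ O' π' C M hfG heG hfe) hsm
  rw [hinv]
  exact hloc e' he'


include hN' Fr hqO in
/-- **`hreg` on chart 1** (`T4nCChart.hreg`), from REG1-G, REG1-M and smoothness of the vertical
branches -/
theorem T4rtTop.hreg (T : T4rtTop O π hπ W1 W O' π' C M x1 x P1 P)
    (T' : T4rmLow O π hπ x' P' P1) (hG : T4rtRegG O π hπ W1 P1)
    (hM : T4rmRegM O π hπ W1 P' P1 T'.overA') (𝔫 : Ideal P.B) [h𝔫 : 𝔫.IsMaximal]
    (hQ : (⟨t4vQ L N' q, t4rt_Q_mem_B T.vals⟩ : P.B) ∈ 𝔫)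
    (hsm : ∀ (V : ValuationSubring ↥(TaF L (N' * q * q))) (hV : V ∈ P.through 𝔫),
      V ∈ P.vert (t4vQ L N' q) → P.SmoothAt 𝔫 V hV) : P.RegAt 𝔫 := by
  refine T.regAt hN' Fr hqO hG 𝔫 hQ hsm (fun hm honly => ?_)
  refine T.regAt_mid hN' Fr hqO T' hG hM 𝔫 hm honly (hsm _ hm ?_)
  rw [T.vert hqO]
  exact (mem_t4vwVer O π hπ W O' π' C M _).mpr (Or.inr (Or.inl rfl))

end MidReg

end Fermat.Agent.T4
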