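/-
T4-R (helper9), (LI-3): the fields of helper6's level bundle `T4rLev` (`Reg/LevDefs.lean`) about the
ring `R' = t2R (taBarJ k N') = IntCl_E(k[j̄])`, `E = modularFunctionFieldFullC k N'`, `k`
algebraically closed of characteristic `q`, `N' ≠ 0` in `k` — generic part (no level field):

* abstract: `t4ri3_pt_of_finiteType` (residue fields of a finite type algebra over an algebraically
  closed field), `t4ri3_unif_of_dedekind` (maximal ideals of a Dedekind domain are locally principal,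
  in the elementwise shape of `T4rLev.R'_unif`);
* `t4ri3_isDedekindDomain`, `t4ri3_finiteType` for `R'`;
* **`t4ri3_closed`** (`R'_closed`), **`t4ri3_pt`** (`R'_pt`), **`t4ri3_unif`** (`R'_unif`);
* `t4ri3Psi : E ≃+* E` (coefficientwise inverse Frobenius as a ring automorphism, `= t2fePsi`),
  **`t4ri3_Φ_eq`**, **`t4ri3_ψ_const`**, **`t4ri3_ψ_symm_const`**, **`t4ri3_ψ_mem`** (`ψ_R'`),
  **`t4ri3_ψ_symm_mem`** (`ψ_symm_R'`), `t4ri3_Φ_mem`;
* **`t4ri3_node`** (`node`, from `t2fe_node_exists`).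
-/
import Fermat.Agent.Lib.T2.Inst.FrobE
import Fermat.Agent.Lib.CurveP.Global

set_option autoImplicit false
set_option linter.unusedSectionVars false
set_option linter.unusedVariables false
set_option linter.style.haveILetI false

open ModularCurve HahnSeries Polynomial Fermat.Agent.T1 Fermat.Agent.T2 Fermat.Agent.Curve
  IntermediateField

noncomputable section

namespace Fermat.Agent.T4

/-! ### Abstract lemmas -/

/-- the residue fields of a finite type algebra over an algebraically closed field are the base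
field -/
theorem t4ri3_pt_of_finiteType {k R : Type*} [Field k] [IsAlgClosed k] [CommRing R] [Algebra k R]
    [Algebra.FiniteType k R] (𝔭 : Ideal R) (h𝔭 : 𝔭.IsMaximal) (x : R) :
    ∃ c : k, x - algebraMap k R c ∈ 𝔭 := by
  letI := Ideal.Quotient.field 𝔭
  haveI : Algebra.FiniteType k (R ⧸ 𝔭) :=
    Algebra.FiniteType.of_surjective (Ideal.Quotient.mkₐ k 𝔭) (Ideal.Quotient.mkₐ_surjective k 𝔭)
  haveI := finite_of_finite_type_of_isJacobsonRing k (R ⧸ 𝔭)
  obtain ⟨c, hc⟩ := (IsAlgClosed.algebraMap_bijective_of_isIntegral (k := k) (K := R ⧸ 𝔭)).2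
    (Ideal.Quotient.mk 𝔭 x)
  refine ⟨c, ?_⟩
  rw [← Ideal.Quotient.eq, ← hc]
  rfl

/-- the maximal ideals of a Dedekind domain are locally principal (elementwise form) -/
theorem t4ri3_unif_of_dedekind {R : Type*} [CommRing R] [IsDedekindDomain R] (𝔭 : Ideal R)
    (h𝔭 : 𝔭.IsMaximal) :
    ∃ t ∈ 𝔭, ∀ x ∈ 𝔭, ∃ s : R, s ∉ 𝔭 ∧ ∃ y, s * x = t * y := by
  by_cases h0 : 𝔭 = ⊥
  · refine ⟨0, 𝔭.zero_mem, fun x hx => ⟨1, (Ideal.ne_top_iff_one 𝔭).mp h𝔭.ne_top, 0, ?_⟩⟩
    rw [h0, Ideal.mem_bot] at hx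
    rw [hx, mul_zero, mul_zero]
  · obtain ⟨t, ht1, ht2⟩ := Ideal.exists_mem_pow_notMem_pow_succ 𝔭 h0 h𝔭.ne_top 1
    rw [pow_one] at ht1
    have hle : Ideal.span {t} ≤ 𝔭 := (Ideal.span_singleton_le_iff_mem 𝔭).mpr ht1
    obtain ⟨𝔞, h𝔞⟩ := Ideal.dvd_iff_le.mpr hle
    have hn : ¬ 𝔞 ≤ 𝔭 := by
      intro h
      apply ht2
      have h1 : t ∈ 𝔭 * 𝔞 := h𝔞 ▸ Ideal.mem_span_singleton_self t
      rw [show (1 + 1 : ℕ) = 2 from rfl, pow_two]
      exact Ideal.mul_mono_right h h1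
    obtain ⟨s, hs𝔞, hs𝔭⟩ := Set.not_subset.mp hn
    refine ⟨t, ht1, fun x hx => ⟨s, hs𝔭, ?_⟩⟩
    have h1 : x * s ∈ 𝔭 * 𝔞 := Ideal.mul_mem_mul hx hs𝔞
    rw [← h𝔞, Ideal.mem_span_singleton'] at h1
    obtain ⟨y, hy⟩ := h1
    exact ⟨y, by rw [mul_comm s x, ← hy, mul_comm]⟩

/-! ### The ring `R'` -/

universe u

section Ring

variable (k : Type u) [Field k] [IsAlgClosed k] (N' : ℕ) [NeZero N'] (hN : (N' : k) ≠ 0)

include hN in
theorem t4ri3_isDedekindDomain : IsDedekindDomain ↥(t2R (k := k) (taBarJ k N')) := by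
  haveI : Fact (IsFunctionFieldGen k (TaBar k N') (taBarJ k N')) :=
    ⟨ta_bar_isFunctionFieldGen k N'⟩
  haveI := ta_bar_isSeparable k N' hN
  exact (Fermat.Agent.CurveP.Bx.isDedekindDomain :
    IsDedekindDomain ↥(Fermat.Agent.CurveP.Bx k (taBarJ k N')))

include hN in
theorem t4ri3_finiteType : Algebra.FiniteType k ↥(t2R (k := k) (taBarJ k N')) := by
  haveI : Fact (IsFunctionFieldGen k (TaBar k N') (taBarJ k N')) :=
    ⟨ta_bar_isFunctionFieldGen k N'⟩
  haveI := ta_bar_isSeparable k N' hN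
  haveI : Module.Finite ↥(Fermat.Agent.CurveP.Ax k (taBarJ k N'))
      ↥(Fermat.Agent.CurveP.Bx k (taBarJ k N')) := Fermat.Agent.CurveP.Bx.moduleFinite
  have h0 : (Fermat.Agent.CurveP.Ax k (taBarJ k N')).FG :=
    ⟨{taBarJ k N'}, by simp [Fermat.Agent.CurveP.Ax]⟩
  haveI h1 : Algebra.FiniteType k ↥(Fermat.Agent.CurveP.Ax k (taBarJ k N')) :=
    (Subalgebra.fg_iff_finiteType _).mp h0
  have h2 : Algebra.FiniteType k ↥(Fermat.Agent.CurveP.Bx k (taBarJ k N')) :=
    Algebra.FiniteType.trans h1 inferInstance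
  exact h2

/-- **`R'_closed`**: `R'` is integrally closed in `E` -/
theorem t4ri3_closed (x : ↥(modularFunctionFieldFullC k N'))
    (hx : IsIntegral ↥(t2R (k := k) (taBarJ k N')) x) : x ∈ t2R (k := k) (taBarJ k N') := by
  have h1 : IsIntegral ↥(integralClosure ↥(Algebra.adjoin k {taBarJ k N'})
      ↥(modularFunctionFieldFullC k N')) x := hx
  exact isIntegral_trans x h1

include hN in
/-- **`R'_pt`**: the residue fields of `R'` are `k` -/
theorem t4ri3_pt (𝔭 : Ideal ↥(t2R (k := k) (taBarJ k N'))) (h𝔭 : 𝔭.IsMaximal)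
    (x : ↥(t2R (k := k) (taBarJ k N'))) :
    ∃ c : k, x - algebraMap k ↥(t2R (k := k) (taBarJ k N')) c ∈ 𝔭 := by
  haveI := t4ri3_finiteType k N' hN
  exact t4ri3_pt_of_finiteType 𝔭 h𝔭 x

include hN in
/-- **`R'_unif`**: the maximal ideals of `R'` are locally principal -/
theorem t4ri3_unif (𝔭 : Ideal ↥(t2R (k := k) (taBarJ k N'))) (h𝔭 : 𝔭.IsMaximal) :
    ∃ t ∈ 𝔭, ∀ x ∈ 𝔭, ∃ s : ↥(t2R (k := k) (taBarJ k N')), s ∉ 𝔭 ∧ ∃ y, s * x = t * y := by
  haveI := t4ri3_isDedekindDomain k N' hN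
  exact t4ri3_unif_of_dedekind 𝔭 h𝔭

end Ring

/-! ### Frobenius -/

section Frob

variable (k : Type u) [Field k] (q : ℕ) [hq : Fact q.Prime] [CharP k q] [PerfectRing k q]
  (N' : ℕ) [NeZero N']

/-- the coefficientwise Frobenius of `E` (the inverse of `t2fePsi`) -/
def t4ri3PsiInv : ↥(modularFunctionFieldFullC k N') →+* ↥(modularFunctionFieldFullC k N') :=
  ((coeffMap (frobenius k q)).comp
    (algebraMap ↥(modularFunctionFieldFullC k N') (LaurentSeries k))).codRestrict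
    (modularFunctionFieldFullC k N') (fun f => tbi_coeffMap_mem_fullC (frobenius k q) N' f.2)

theorem coe_t4ri3PsiInv (f : ↥(modularFunctionFieldFullC k N')) :
    ((t4ri3PsiInv k q N' f : ↥(modularFunctionFieldFullC k N')) : LaurentSeries k) =
      coeffMap (frobenius k q) (f : LaurentSeries k) := rfl

theorem t4ri3_frob_comp_inv :
    (frobenius k q).comp ((frobeniusEquiv k q).symm : k →+* k) = RingHom.id k := by
  ext c
  exact frobeniusEquiv_symm_pow_p k q c

theorem t4ri3_inv_comp_frob :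
    ((frobeniusEquiv k q).symm : k →+* k).comp (frobenius k q) = RingHom.id k := by
  ext c
  exact frobeniusEquiv_symm_apply_frobenius k q c

/-- the coefficientwise inverse Frobenius of `E`, as a ring automorphism -/
def t4ri3Psi : ↥(modularFunctionFieldFullC k N') ≃+* ↥(modularFunctionFieldFullC k N') :=
  RingEquiv.ofRingHom (t2fePsi k q N') (t4ri3PsiInv k q N')
    (by
      refine RingHom.ext fun f => ?_
      apply Subtype.ext
      rw [RingHom.comp_apply, coe_t2fePsi, coe_t4ri3PsiInv, coeffMap_coeffMap,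
        t4ri3_inv_comp_frob, coeffMap_id]
      rfl)
    (by
      refine RingHom.ext fun f => ?_
      apply Subtype.ext
      rw [RingHom.comp_apply, coe_t4ri3PsiInv, coe_t2fePsi, coeffMap_coeffMap,
        t4ri3_frob_comp_inv, coeffMap_id]
      rfl)

theorem t4ri3Psi_apply (f : ↥(modularFunctionFieldFullC k N')) :
    t4ri3Psi k q N' f = t2fePsi k q N' f := rfl

theorem t4ri3Psi_symm_apply (f : ↥(modularFunctionFieldFullC k N')) :
    (t4ri3Psi k q N').symm f = t4ri3PsiInv k q N' f := rfl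

/-- **`Φ_eq`** -/
theorem t4ri3_Φ_eq (x : ↥(modularFunctionFieldFullC k N')) :
    t2fePhi k q N' x = t4ri3Psi k q N' x ^ q := t2fePhi_eq_pow k q N' x

/-- **`ψ_const`** -/
theorem t4ri3_ψ_const (c : k) : ∃ c' : k,
    t4ri3Psi k q N' (algebraMap k ↥(modularFunctionFieldFullC k N') c) =
      algebraMap k ↥(modularFunctionFieldFullC k N') c' :=
  ⟨_, t2fePsi_algebraMap k q N' c⟩

theorem t4ri3PsiInv_algebraMap (c : k) :
    t4ri3PsiInv k q N' (algebraMap k ↥(modularFunctionFieldFullC k N') c) =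
      algebraMap k ↥(modularFunctionFieldFullC k N') (frobenius k q c) := by
  apply Subtype.ext
  rw [coe_t4ri3PsiInv]
  exact tbi_coeffMap_algebraMap (frobenius k q) c

/-- **`ψ_symm_const`** -/
theorem t4ri3_ψ_symm_const (c : k) : ∃ c' : k,
    (t4ri3Psi k q N').symm (algebraMap k ↥(modularFunctionFieldFullC k N') c) =
      algebraMap k ↥(modularFunctionFieldFullC k N') c' :=
  ⟨_, t4ri3PsiInv_algebraMap k q N' c⟩

theorem t4ri3PsiInv_J : t4ri3PsiInv k q N' (taBarJ k N') = taBarJ k N' := by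
  apply Subtype.ext
  rw [coe_t4ri3PsiInv]
  exact coeffMap_jqModC (frobenius k q)

/-- **`ψ_R'`** -/
theorem t4ri3_ψ_mem {x : ↥(modularFunctionFieldFullC k N')}
    (hx : x ∈ t2R (k := k) (taBarJ k N')) : t4ri3Psi k q N' x ∈ t2R (k := k) (taBarJ k N') :=
  t2ni_psi_mem (taBarJ k N') (t2fePsi k q N') (fun c => ⟨_, t2fePsi_algebraMap k q N' c⟩)
    (t2fePsi_J k q N') hx

/-- **`ψ_symm_R'`** -/
theorem t4ri3_ψ_symm_mem {x : ↥(modularFunctionFieldFullC k N')}
    (hx : x ∈ t2R (k := k) (taBarJ k N')) :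
    (t4ri3Psi k q N').symm x ∈ t2R (k := k) (taBarJ k N') :=
  t2ni_psi_mem (taBarJ k N') (t4ri3PsiInv k q N')
    (fun c => ⟨_, t4ri3PsiInv_algebraMap k q N' c⟩) (t4ri3PsiInv_J k q N') hx

/-- `Φ` preserves `R'` -/
theorem t4ri3_Φ_mem {x : ↥(modularFunctionFieldFullC k N')}
    (hx : x ∈ t2R (k := k) (taBarJ k N')) : t2fePhi k q N' x ∈ t2R (k := k) (taBarJ k N') :=
  t2fePhi_mem_t2R k q N' hx

variable [IsAlgClosed k] (hN : (N' : k) ≠ 0)

include hN in
/-- **`node`**: the NODE ideal of T2 in the shape of `T4rLev.node` -/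
theorem t4ri3_node :
    ∃ (n : ℕ) (ev : ↥(t2R (k := k) (taBarJ k N')) →ₐ[k] (Fin n → k)),
      ∀ T : Ideal ↥(t2R (k := k) (taBarJ k N')),
        (∀ f g : ↥(t2R (k := k) (taBarJ k N')),
          (g : ↥(modularFunctionFieldFullC k N')) =
            t2fePhi k q N' (t2fePhi k q N' (f : ↥(modularFunctionFieldFullC k N'))) → f - g ∈ T) →
        ∀ r, ev r = 0 → r ∈ T := by
  obtain ⟨n, ev, -, h⟩ := t2fe_node_exists k q N' hN
  exact ⟨n, ev, fun T hT r hr => h T (fun f => hT f _ rfl) r hr⟩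

end Frob

end Fermat.Agent.T4
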