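/-
T4-R / REG2 (helper8): **transfer of regularity between two presentations (charts) at a common
point** (abstract, `T4Pres` level).

* `T4Pres.loc_eq_of_through_eq`, `T4Pres.smoothAt_of_through_eq`, **`T4Pres.regAt_of_through_eq`** :
  `B_𝔫`, `SmoothAt` and `RegAt` only depend on the set of valuation rings through the point;
* `T4Pres.exists_pow_mul_mem` : powers of `t` clear the poles on `P₁` of the elements of `P₂.B`;
* **`T4Pres.exists_through_eq`** : if `t ∈ B₁`, `t⁻¹ ∈ B₂`, the presentations agree where `t` is a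
  unit, and `𝔫₂` is a closed point of `P₂` at which `t⁻¹` is a unit whose residue field is generated
  by units of `B₁` ("constants"), then there is a closed point `𝔫₁` of `P₁` with the same valuation
  rings through it.
-/
import Fermat.Agent.Lib.T4.Local.Trich

set_option autoImplicit false
set_option linter.style.haveILetI false

namespace Fermat.Agent.T4

namespace T4Pres

variable {F : Type*} [Field F]

/-! ### Regularity depends only on the set of valuation rings through the point -/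

section Transfer

variable {P₁ P₂ : T4Pres F} {𝔫₁ : Ideal P₁.B} {𝔫₂ : Ideal P₂.B}

theorem loc_eq_of_through_eq (h : P₁.through 𝔫₁ = P₂.through 𝔫₂) : P₁.loc 𝔫₁ = P₂.loc 𝔫₂ := by
  ext f
  rw [mem_loc, mem_loc, h]

theorem smoothAt_of_through_eq (h : P₁.through 𝔫₁ = P₂.through 𝔫₂) {V : ValuationSubring F}
    (hV₁ : V ∈ P₁.through 𝔫₁) (hV₂ : V ∈ P₂.through 𝔫₂) (hs : P₁.SmoothAt 𝔫₁ V hV₁) :
    P₂.SmoothAt 𝔫₂ V hV₂ := by
  have hloc := loc_eq_of_through_eq h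
  let e : ↥(P₁.loc 𝔫₁) →+* ↥(P₂.loc 𝔫₂) := Subring.inclusion hloc.le
  have hle : P₁.center 𝔫₁ V hV₁ ≤ (P₂.center 𝔫₂ V hV₂).comap e := fun f hf => hf
  have hsurj : Function.Surjective e := fun g => ⟨⟨g, hloc.ge g.2⟩, rfl⟩
  haveI : IsPrincipalIdealRing (↥(P₁.loc 𝔫₁) ⧸ P₁.center 𝔫₁ V hV₁) := hs
  exact IsPrincipalIdealRing.of_surjective (Ideal.quotientMap _ e hle)
    (Ideal.quotientMap_surjective hsurj)

/-- **transfer of regularity between two presentations at a common point** -/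
theorem regAt_of_through_eq [h𝔫₂ : 𝔫₂.IsPrime] (h : P₁.through 𝔫₁ = P₂.through 𝔫₂)
    (hr : P₁.RegAt 𝔫₁) : P₂.RegAt 𝔫₂ := by
  obtain ⟨V₀, hV₀, a, ha, ha1, hunif, hother, hsm⟩ := hr
  have hV₀' : V₀ ∈ P₂.through 𝔫₂ := h ▸ hV₀
  have ha' : a ∈ P₂.loc 𝔫₂ := by
    rw [← loc_eq_of_through_eq h]
    exact P₁.B_le_loc 𝔫₁ ha
  exact P₂.regAt_of_loc 𝔫₂ hV₀' ha' ha1 hunif (fun V hV hne => hother V (h ▸ hV) hne)
    (smoothAt_of_through_eq h hV₀ hV₀' hsm)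

end Transfer


/-! ### A common point of two presentations -/

section Common

variable (P₁ P₂ : T4Pres F) {t : F}

/-- powers of `t` clear the poles on `P₁` of the elements of `P₂.B`, when the valuation rings of
`P₁` at which `t` is a unit belong to `P₂` -/
theorem exists_pow_mul_mem (ht0 : t ≠ 0) (ht1 : t ∈ P₁.B)
    (h21 : ∀ V ∈ P₁.vals, t⁻¹ ∈ V → V ∈ P₂.vals) {b : F} (hb : b ∈ P₂.B) :
    ∃ n : ℕ, t ^ n * b ∈ P₁.B := by
  classical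
  have hfin := P₁.finite_char t⁻¹ (inv_ne_zero ht0)
  have hbad : ∀ V ∈ hfin.toFinset, ∃ n : ℕ, t ^ n * b ∈ V := by
    intro V hV
    rw [Set.Finite.mem_toFinset] at hV
    haveI := P₁.dvr V hV.1
    have hlt : V.valuation t < 1 := (t4l_valuation_lt_one_iff V t).mpr (Or.inr hV.2)
    exact t4l_arch V hlt ht0 b
  choose! nfun hn using hbad
  refine ⟨∑ V ∈ hfin.toFinset, nfun V, ?_⟩
  rw [P₁.mem_iff]
  intro V hV
  by_cases htV : t⁻¹ ∈ V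
  · exact V.mul_mem _ _ (pow_mem (P₁.B_le hV ht1) _) (P₂.B_le (h21 V hV htV) hb)
  · have hVmem : V ∈ hfin.toFinset := (Set.Finite.mem_toFinset _).mpr ⟨hV, htV⟩
    rw [← Finset.add_sum_erase _ _ hVmem, pow_add, mul_assoc, mul_comm (t ^ nfun V), mul_assoc]
    rw [mul_comm b]
    exact V.mul_mem _ _ (pow_mem (P₁.B_le hV ht1) _) (hn V hVmem)

variable {P₁ P₂}

/-- **a closed point of `P₂` at which `t⁻¹` is a unit is a closed point of `P₁`** (`t ∈ B₁`,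
`t⁻¹ ∈ B₂`, the two presentations agree where `t` is a unit), provided the residue field of `𝔫₂`
is generated by elements which are units of `B₁` -/
theorem exists_through_eq (𝔫₂ : Ideal P₂.B) [h𝔫₂ : 𝔫₂.IsMaximal] (ht0 : t ≠ 0) (ht1 : t ∈ P₁.B)
    (ht2 : t⁻¹ ∈ P₂.B) (ht : (⟨t⁻¹, ht2⟩ : P₂.B) ∉ 𝔫₂)
    (h12 : ∀ V ∈ P₂.vals, t ∈ V → V ∈ P₁.vals) (h21 : ∀ V ∈ P₁.vals, t⁻¹ ∈ V → V ∈ P₂.vals)
    (hk : ∀ b : P₂.B, b ∉ 𝔫₂ → ∃ c : F, c ∈ P₁.B ∧ c⁻¹ ∈ P₁.B ∧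
      ∃ hc : c ∈ P₂.B, b - ⟨c, hc⟩ ∈ 𝔫₂) :
    ∃ 𝔫₁ : Ideal P₁.B, 𝔫₁.IsMaximal ∧ P₁.through 𝔫₁ = P₂.through 𝔫₂ := by
  haveI := h𝔫₂.isPrime
  letI := P₂.isLocalRing_loc 𝔫₂
  -- `t` is a unit at the valuation rings through `𝔫₂`
  have htV : ∀ V ∈ P₂.through 𝔫₂, V.valuation t = 1 := by
    intro V hV
    have h1 := P₂.valuation_eq_one_of_not_mem hV ht
    rw [map_inv₀, inv_eq_one] at h1
    exact h1
  have hthr : ∀ V ∈ P₂.through 𝔫₂, V ∈ P₁.vals := fun V hV =>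
    h12 V hV.1 ((V.valuation_le_one_iff _).mp (htV V hV).le)
  have hsub : P₁.B ≤ P₂.loc 𝔫₂ := fun b hb V hV => P₁.B_le (hthr V hV) hb
  let φ : ↥P₁.B →+* ↥(P₂.loc 𝔫₂) := Subring.inclusion hsub
  have hφ : ∀ b : P₁.B, ((φ b : ↥(P₂.loc 𝔫₂)) : F) = (b : F) := fun b => rfl
  let 𝔫₁ : Ideal P₁.B := (IsLocalRing.maximalIdeal ↥(P₂.loc 𝔫₂)).comap φ
  have hmem : ∀ b : P₁.B, b ∈ 𝔫₁ ↔
      ¬ ((b : F) ≠ 0 ∧ ∀ V ∈ P₂.through 𝔫₂, V.valuation (b : F) = 1) := by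
    intro b
    show φ b ∈ IsLocalRing.maximalIdeal ↥(P₂.loc 𝔫₂) ↔ _
    rw [IsLocalRing.mem_maximalIdeal, mem_nonunits_iff, P₂.isUnit_loc_iff]
    exact Iff.rfl
  -- elements of `𝔫₂` are non-units of the local ring
  have hnu : ∀ z : P₂.B, z ∈ 𝔫₂ →
      ¬ ((z : F) ≠ 0 ∧ ∀ V ∈ P₂.through 𝔫₂, V.valuation (z : F) = 1) := by
    intro z hz hu
    have h1 : P₂.locIncl 𝔫₂ z ∈ IsLocalRing.maximalIdeal ↥(P₂.loc 𝔫₂) := by
      rw [P₂.mem_maximalIdeal_loc_iff]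
      exact ⟨z, 1, hz, (Ideal.ne_top_iff_one 𝔫₂).mp h𝔫₂.ne_top, by
        rw [Subring.coe_one, one_mul]; rfl⟩
    have h2 : IsUnit (P₂.locIncl 𝔫₂ z) := (P₂.isUnit_loc_iff _).mpr hu
    exact (IsLocalRing.mem_maximalIdeal _).mp h1 h2
  have hun : ∀ z : P₂.B, z ∉ 𝔫₂ →
      (z : F) ≠ 0 ∧ ∀ V ∈ P₂.through 𝔫₂, V.valuation (z : F) = 1 := by
    intro z hz
    refine ⟨fun h0 => hz ?_, fun V hV => P₂.valuation_eq_one_of_not_mem hV hz⟩
    have : z = 0 := Subtype.ext h0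
    rw [this]
    exact 𝔫₂.zero_mem
  have hprime : 𝔫₁.IsPrime := Ideal.comap_isPrime φ _
  -- the valuation rings through `𝔫₁`
  have hthrough : P₁.through 𝔫₁ = P₂.through 𝔫₂ := by
    ext V
    constructor
    · intro hV
      have htn : (⟨t, ht1⟩ : P₁.B) ∉ 𝔫₁ := by
        rw [hmem, not_not]
        exact ⟨ht0, htV⟩
      have h1 : V.valuation t = 1 := P₁.valuation_eq_one_of_not_mem hV htn
      have htinv : t⁻¹ ∈ V := by
        rw [← V.valuation_le_one_iff, map_inv₀, h1, inv_one]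
      refine ⟨h21 V hV.1 htinv, fun b hb => ?_⟩
      obtain ⟨n, hn⟩ := exists_pow_mul_mem P₁ P₂ ht0 ht1 h21 b.2
      have h2 : V.valuation (t ^ n * (b : F)) < 1 := by
        rw [map_mul, map_pow, h1, one_pow, one_mul]
        exact hb
      have h3 := hV.2 ⟨_, hn⟩ h2
      rw [hmem] at h3
      by_contra hbn
      apply h3
      obtain ⟨hb0, hbV⟩ := hun b hbn
      refine ⟨mul_ne_zero (pow_ne_zero _ ht0) hb0, fun V' hV' => ?_⟩
      rw [map_mul, map_pow, htV V' hV', one_pow, one_mul, hbV V' hV']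
    · intro hV
      refine ⟨hthr V hV, fun b hb => ?_⟩
      rw [hmem]
      rintro ⟨-, h1⟩
      exact hb.ne (h1 V hV)
  refine ⟨𝔫₁, ?_, hthrough⟩
  -- maximality
  rw [Ideal.isMaximal_iff]
  refine ⟨fun h1 => hprime.ne_top ((Ideal.eq_top_iff_one _).mpr h1), ?_⟩
  intro J b hJ hb hbJ
  rw [hmem, not_not] at hb
  obtain ⟨hb0, hbV⟩ := hb
  -- `b = b₂ / s`
  have hbloc : (b : F) ∈ P₂.loc 𝔫₂ := hsub b.2
  obtain ⟨s, hs, hsb⟩ := P₂.mem_loc_iff.mp hbloc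
  obtain ⟨hs0, hsV⟩ := hun s hs
  have hb₂ : (⟨_, hsb⟩ : P₂.B) ∉ 𝔫₂ := by
    intro h
    refine hnu _ h ⟨mul_ne_zero hs0 hb0, fun V hV => ?_⟩
    rw [map_mul, hsV V hV, hbV V hV, one_mul]
  obtain ⟨c₁, hc₁, hc₁i, hc₁', hbc⟩ := hk _ hb₂
  obtain ⟨c₂, hc₂, hc₂i, hc₂', hsc⟩ := hk _ hs
  have hc₁n : (⟨c₁, hc₁'⟩ : P₂.B) ∉ 𝔫₂ := by
    intro h
    apply hb₂
    have := 𝔫₂.add_mem hbc h
    rwa [sub_add_cancel] at this
  obtain ⟨hc₁0, hc₁V⟩ := hun _ hc₁n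
  -- `d = c₂ / c₁`
  let d : P₁.B := ⟨c₂, hc₂⟩ * ⟨c₁⁻¹, hc₁i⟩
  have hd : b * d - 1 ∈ 𝔫₁ := by
    rw [hmem]
    rintro ⟨hne, hval⟩
    -- `z = s c₁ (b d - 1) ∈ 𝔫₂`
    let z : P₂.B := (⟨_, hsb⟩ - ⟨c₁, hc₁'⟩) * ⟨c₂, hc₂'⟩ + ⟨c₁, hc₁'⟩ * (⟨c₂, hc₂'⟩ - s)
    have hz : z ∈ 𝔫₂ := by
      refine 𝔫₂.add_mem (𝔫₂.mul_mem_right _ hbc) (𝔫₂.mul_mem_left _ ?_)
      have := 𝔫₂.neg_mem hsc
      rwa [neg_sub] at this
    have hzF : (z : F) = (s : F) * c₁ * ((b * d - 1 : P₁.B) : F) := by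
      show ((s : F) * (b : F) - c₁) * c₂ + c₁ * (c₂ - (s : F)) =
        (s : F) * c₁ * ((b : F) * (c₂ * c₁⁻¹) - 1)
      field_simp
      ring
    refine hnu z hz ⟨?_, fun V hV => ?_⟩
    · rw [hzF]
      exact mul_ne_zero (mul_ne_zero hs0 hc₁0) hne
    · rw [hzF, map_mul, map_mul, hsV V hV, hc₁V V hV, hval V hV, one_mul, one_mul]
  have h1 : b * d - (b * d - 1) = 1 := by ring
  rw [← h1]
  exact J.sub_mem (J.mul_mem_right _ hbJ) (hJ hd)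

end Common

end T4Pres

end Fermat.Agent.T4
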