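/-
T4-R / REG2 (helper8): **`hreg` on chart 2** (`P₂`, chart `x⁻¹`) by transfer from chart 1.

* `t4rt_exists_chart1` : a closed point of the chart `x⁻¹` at which `x⁻¹` is a unit is a closed
  point of the chart `x` (instance of `T4Pres.exists_through_eq`);
* **`T4rtTop.hreg_chart2`** : `RegAt` at every closed point `𝔫₂ ∋ q` of chart 2, given: at most one
  vertical branch through `𝔫₂` (`hone`), smoothness of the vertical branches (`hsm`), the residue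
  field hypothesis `hk` at the non-cuspidal points, and the cusps on `C_mid` (`hcusp`, helper1);
* `t4rt_const_mem_B`, `t4rt_hk_of_res` : `hk` from "the residue field of `𝔫₂` is `k`"
  (`∀ b, ∃ c : O, b - c ∈ 𝔫₂`).
-/
import Fermat.Agent.Lib.T4.Reg.TopMid
import Fermat.Agent.Lib.T4.Reg.TopChart

set_option autoImplicit false
set_option linter.unusedSectionVars false
set_option linter.unusedVariables false
set_option linter.style.haveILetI false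
set_option synthInstance.maxHeartbeats 400000

open HahnSeries ModularCurve Fermat.Agent.T1 Fermat.Agent.T2 IntermediateField

noncomputable section

namespace Fermat.Agent.T4

/-! ### The two charts `x`, `x⁻¹` -/

section Charts

variable {K F : Type*} [Field K] [Field F] [Algebra K F]

/-- a closed point of the chart `x⁻¹` at which `x⁻¹` is a unit is a closed point of the chart
`x` -/
theorem t4rt_exists_chart1 {x : F} (hx0 : x ≠ 0) {ver : Set (ValuationSubring F)}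
    {P₁ P₂ : T4Pres F} (hvals₁ : P₁.vals = t4vpHor K x ∪ ver)
    (hvals₂ : P₂.vals = t4vpHor K x⁻¹ ∪ ver) (hxver : ∀ V ∈ ver, x ∈ V ∧ x⁻¹ ∈ V)
    (𝔫₂ : Ideal P₂.B) [h𝔫₂ : 𝔫₂.IsMaximal]
    (hnc : ∀ hx2 : x⁻¹ ∈ P₂.B, (⟨x⁻¹, hx2⟩ : P₂.B) ∉ 𝔫₂)
    (hk : ∀ b : P₂.B, b ∉ 𝔫₂ → ∃ c : F, c ∈ P₁.B ∧ c⁻¹ ∈ P₁.B ∧
      ∃ hc : c ∈ P₂.B, b - ⟨c, hc⟩ ∈ 𝔫₂) :
    ∃ 𝔫₁ : Ideal P₁.B, 𝔫₁.IsMaximal ∧ P₁.through 𝔫₁ = P₂.through 𝔫₂ := by
  have hx1 : x ∈ P₁.B := by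
    rw [P₁.mem_iff]
    intro V hV
    rw [hvals₁] at hV
    rcases hV with ⟨v, rfl, hv⟩ | hV
    · exact hv
    · exact (hxver V hV).1
  have hx2 : x⁻¹ ∈ P₂.B := by
    rw [P₂.mem_iff]
    intro V hV
    rw [hvals₂] at hV
    rcases hV with ⟨v, rfl, hv⟩ | hV
    · exact hv
    · exact (hxver V hV).2
  refine T4Pres.exists_through_eq 𝔫₂ hx0 hx1 hx2 (hnc hx2) ?_ ?_ hk
  · intro V hV hxV
    rw [hvals₂] at hV
    rw [hvals₁]
    rcases hV with ⟨v, rfl, -⟩ | hV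
    · exact Or.inl ⟨v, rfl, hxV⟩
    · exact Or.inr hV
  · intro V hV hxV
    rw [hvals₁] at hV
    rw [hvals₂]
    rcases hV with ⟨v, rfl, -⟩ | hV
    · exact Or.inl ⟨v, rfl, hxV⟩
    · exact Or.inr hV

end Charts


/-! ### `hreg` on chart 2 -/

section Chart2

variable {L : Type} [Field L] [Algebra ℚ L] {O : ValuationSubring L} {k : Type*} [Field k]
  {π : ↥O →+* k} [IsDiscreteValuationRing ↥O] {hπ : Function.Surjective π} [IsAlgClosed k]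
  {N' q : ℕ} [NeZero N'] [hq : Fact q.Prime] [CharP k q] (hN' : (N' : k) ≠ 0)
  {W1 : T2iAL L N' q} (Fr : T2iFrob k N' q) {W : T4iAL L N' q}
  (hqO : Irreducible ((q : ℕ) : ↥O))
  {L' : Type*} [Field L'] [Algebra L L'] {O' : ValuationSubring L'}
  [IsDiscreteValuationRing ↥O'] {π' : ↥O' →+* k} {C : T4iCyc O O' π π' q}
  {M : T4iMid L L' N' q C.ζ}
  {x1 : ↥(TaF L (N' * q))} {x : ↥(TaF L (N' * q * q))}
  {P1 : T4Pres ↥(TaF L (N' * q))} {P P₂ : T4Pres ↥(TaF L (N' * q * q))}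
  {x' : ↥(TaF L N')} {P' : T4Pres ↥(TaF L N')}

attribute [local instance] t2iAlgebra

include hN' Fr hqO in
/-- **`hreg` on chart 2** (`P₂`, chart `x⁻¹`), from the chart-1 theorem by transfer at the
non-cuspidal points; inputs: at most one vertical branch through `𝔫₂` (`hone`), smoothness of the
vertical branches (`hsm`), residue field generated by units of `B₁` at the non-cuspidal points
(`hk`), and the cusps on `C_mid` (`hcusp`) -/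
theorem T4rtTop.hreg_chart2 (T : T4rtTop O π hπ W1 W O' π' C M x1 x P1 P)
    (T' : T4rmLow O π hπ x' P' P1) (hG : T4rtRegG O π hπ W1 P1)
    (hM : T4rmRegM O π hπ W1 P' P1 T'.overA') (hx0 : x ≠ 0)
    (hxver : ∀ V ∈ t4vwVer O π hπ W O' π' C M, x ∈ V ∧ x⁻¹ ∈ V)
    (hvals₂ : P₂.vals = t4vpHor L x⁻¹ ∪ t4vwVer O π hπ W O' π' C M)
    (𝔫₂ : Ideal P₂.B) [h𝔫₂ : 𝔫₂.IsMaximal]
    (hQ : (⟨t4vQ L N' q, t4rt_Q_mem_B hvals₂⟩ : P₂.B) ∈ 𝔫₂)
    (hone : ∀ V ∈ P₂.through 𝔫₂, V ∈ P₂.vert (t4vQ L N' q) →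
      ∀ V' ∈ P₂.through 𝔫₂, V' ∈ P₂.vert (t4vQ L N' q) → V = V')
    (hsm : ∀ (V : ValuationSubring ↥(TaF L (N' * q * q))) (hV : V ∈ P₂.through 𝔫₂),
      V ∈ P₂.vert (t4vQ L N' q) → P₂.SmoothAt 𝔫₂ V hV)
    (hk : (∀ hx2 : x⁻¹ ∈ P₂.B, (⟨x⁻¹, hx2⟩ : P₂.B) ∉ 𝔫₂) → ∀ b : P₂.B, b ∉ 𝔫₂ →
      ∃ c : ↥(TaF L (N' * q * q)), c ∈ P.B ∧ c⁻¹ ∈ P.B ∧ ∃ hc : c ∈ P₂.B, b - ⟨c, hc⟩ ∈ 𝔫₂)
    (hcusp : (∃ hx2 : x⁻¹ ∈ P₂.B, (⟨x⁻¹, hx2⟩ : P₂.B) ∈ 𝔫₂) →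
      t4vOmid O π hπ O' π' C M ∈ P₂.through 𝔫₂ →
      (∀ V ∈ P₂.through 𝔫₂, V ∈ P₂.vert (t4vQ L N' q) → V = t4vOmid O π hπ O' π' C M) →
      P₂.RegAt 𝔫₂) : P₂.RegAt 𝔫₂ := by
  refine t4rt_regAt_of_one hqO hvals₂ 𝔫₂ hQ hone hsm (fun hm honly => ?_)
  by_cases hc : ∃ hx2 : x⁻¹ ∈ P₂.B, (⟨x⁻¹, hx2⟩ : P₂.B) ∈ 𝔫₂
  · exact hcusp hc hm honly
  · have hnc : ∀ hx2 : x⁻¹ ∈ P₂.B, (⟨x⁻¹, hx2⟩ : P₂.B) ∉ 𝔫₂ := fun hx2 h => hc ⟨hx2, h⟩
    obtain ⟨𝔫₁, h𝔫₁, hthr⟩ :=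
      t4rt_exists_chart1 (K := L) hx0 T.vals hvals₂ hxver 𝔫₂ hnc (hk hnc)
    haveI := h𝔫₁
    haveI := h𝔫₂.isPrime
    have hvert : P.vert (t4vQ L N' q) = P₂.vert (t4vQ L N' q) := by
      rw [t4rt_vert hqO T.vals, t4rt_vert hqO hvals₂]
    have hm₁ : t4vOmid O π hπ O' π' C M ∈ P.through 𝔫₁ := by rw [hthr]; exact hm
    have honly₁ : ∀ V ∈ P.through 𝔫₁, V ∈ P.vert (t4vQ L N' q) →
        V = t4vOmid O π hπ O' π' C M := by
      intro V hV hVq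
      rw [hthr] at hV
      rw [hvert] at hVq
      exact honly V hV hVq
    have hmq : t4vOmid O π hπ O' π' C M ∈ P₂.vert (t4vQ L N' q) := by
      rw [t4rt_vert hqO hvals₂]
      exact (mem_t4vwVer O π hπ W O' π' C M _).mpr (Or.inr (Or.inl rfl))
    have hsm₁ : P.SmoothAt 𝔫₁ _ hm₁ :=
      T4Pres.smoothAt_of_through_eq hthr.symm hm hm₁ (hsm _ hm hmq)
    exact T4Pres.regAt_of_through_eq hthr
      (T.regAt_mid hN' Fr hqO T' hG hM 𝔫₁ hm₁ honly₁ hsm₁)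

end Chart2


/-! ### The residue-field hypothesis `hk` from constants -/

section Const

variable {L : Type} [Field L] [Algebra ℚ L] (O : ValuationSubring L) {k : Type*} [Field k]
  (π : ↥O →+* k) [IsDiscreteValuationRing ↥O] (hπ : Function.Surjective π) [IsAlgClosed k]
  {N' q : ℕ} [NeZero N'] [hq : Fact q.Prime] [CharP k q] (hN' : (N' : k) ≠ 0)
  (W1 : T2iAL L N' q) (Fr : T2iFrob k N' q) (W : T4iAL L N' q)
  (hqO : Irreducible ((q : ℕ) : ↥O))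
  {L' : Type*} [Field L'] [Algebra L L'] (O' : ValuationSubring L')
  [IsDiscreteValuationRing ↥O'] (π' : ↥O' →+* k) (C : T4iCyc O O' π π' q)
  (M : T4iMid L L' N' q C.ζ)
  {y : ↥(TaF L (N' * q * q))} {P : T4Pres ↥(TaF L (N' * q * q))}

attribute [local instance] t2iAlgebra t2i_isScalarTower

include hN' W1 Fr hqO in
/-- the constants of `O` lie in the ring of every chart presentation -/
theorem t4rt_const_mem_B (hvals : P.vals = t4vpHor L y ∪ t4vwVer O π hπ W O' π' C M) (c : ↥O) :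
    algebraMap L ↥(TaF L (N' * q * q)) (c : L) ∈ P.B := by
  rw [P.mem_iff]
  intro V hV
  rw [hvals] at hV
  rcases hV with hV | hV
  · exact t4vp_algebraMap_mem_hor hV _
  · have h1 := (mem_t4vInput_Ov_iff O π hπ hN' W1 Fr W hqO O' π' C M _).mp
      ((t4vInput O π hπ hN' W1 Fr W hqO O' π' C M).algebraMap_mem_Ov c)
    rcases (mem_t4vwVer O π hπ W O' π' C M V).mp hV with rfl | rfl | rfl
    · exact h1.1
    · exact h1.2.2
    · exact h1.2.1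

variable {x : ↥(TaF L (N' * q * q))} {P₂ : T4Pres ↥(TaF L (N' * q * q))}

include hN' W1 Fr hqO in
/-- `hk` of `T4rtTop.hreg_chart2` when the residue field of `𝔫₂ ∋ q` is `k` (generated by the
constants of `O`) -/
theorem t4rt_hk_of_res (hvals₁ : P.vals = t4vpHor L x ∪ t4vwVer O π hπ W O' π' C M)
    (hvals₂ : P₂.vals = t4vpHor L x⁻¹ ∪ t4vwVer O π hπ W O' π' C M)
    (𝔫₂ : Ideal P₂.B) (hQ : (⟨t4vQ L N' q, t4rt_Q_mem_B hvals₂⟩ : P₂.B) ∈ 𝔫₂)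
    (hres : ∀ b : P₂.B, ∃ c : ↥O, b - ⟨algebraMap L ↥(TaF L (N' * q * q)) (c : L),
      t4rt_const_mem_B O π hπ hN' W1 Fr W hqO O' π' C M hvals₂ c⟩ ∈ 𝔫₂) :
    ∀ b : P₂.B, b ∉ 𝔫₂ → ∃ c : ↥(TaF L (N' * q * q)), c ∈ P.B ∧ c⁻¹ ∈ P.B ∧
      ∃ hc : c ∈ P₂.B, b - ⟨c, hc⟩ ∈ 𝔫₂ := by
  intro b hb
  obtain ⟨c, hc⟩ := hres b
  have hcu : IsUnit c := by
    by_contra hnu
    have h1 : c ∈ IsLocalRing.maximalIdeal ↥O := (IsLocalRing.mem_maximalIdeal _).mpr hnu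
    rw [hqO.maximalIdeal_eq, Ideal.mem_span_singleton'] at h1
    obtain ⟨c', hc'⟩ := h1
    apply hb
    have h2 : (⟨algebraMap L ↥(TaF L (N' * q * q)) (c : L),
        t4rt_const_mem_B O π hπ hN' W1 Fr W hqO O' π' C M hvals₂ c⟩ : P₂.B) =
        ⟨_, t4rt_const_mem_B O π hπ hN' W1 Fr W hqO O' π' C M hvals₂ c'⟩ *
          ⟨t4vQ L N' q, t4rt_Q_mem_B hvals₂⟩ := by
      apply Subtype.ext
      show algebraMap L ↥(TaF L (N' * q * q)) (c : L) =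
        algebraMap L ↥(TaF L (N' * q * q)) (c' : L) * t4vQ L N' q
      rw [t4vQ, ← map_mul, ← hc']
      rfl
    have h3 := 𝔫₂.add_mem hc (h2 ▸ 𝔫₂.mul_mem_left _ hQ)
    rwa [sub_add_cancel] at h3
  obtain ⟨d, hd⟩ := hcu.exists_right_inv
  have hcd : (c : L) * (d : L) = 1 := congrArg Subtype.val hd
  refine ⟨algebraMap L _ (c : L),
    t4rt_const_mem_B O π hπ hN' W1 Fr W hqO O' π' C M hvals₁ c, ?_,
    t4rt_const_mem_B O π hπ hN' W1 Fr W hqO O' π' C M hvals₂ c, hc⟩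
  rw [← map_inv₀, show ((c : L))⁻¹ = (d : L) from inv_eq_of_mul_eq_one_right hcd]
  exact t4rt_const_mem_B O π hπ hN' W1 Fr W hqO O' π' C M hvals₁ d

end Const

end Fermat.Agent.T4
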