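/-
T4-R (helper1), package CM: **regularity at the cuspidal points of `C_mid` in the chart
`y = 1 / X`, `X = j^Q - j`** (generic variables of `Val.lean`).

* `t4rc_regAt_cusp_chart`: any presentation `P` with `P.vals = t4vpHor L y ∪ {O_inf, O_mid, O_0}`,
  `B = IntCl(L[y]) ∩ 𝒪`, `y = X⁻¹`; the point `𝔫` is cuspidal: `y ∈ 𝔫`.
* `t4rc_regAt_cusp_t4vwPres`: the same for helper2's `t4vwPres hqO Hy hcrt`.
-/
import Fermat.Agent.Lib.T4.Reg.CuspInst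
import Fermat.Agent.Lib.T4.Inst.ValChart

set_option autoImplicit false
set_option linter.unusedSectionVars false
set_option linter.unusedVariables false
set_option linter.style.haveILetI false
set_option synthInstance.maxHeartbeats 400000

open HahnSeries ModularCurve Fermat.Agent.T1 Fermat.Agent.T2 IntermediateField

noncomputable section

namespace Fermat.Agent.T4

section Chart

variable {L : Type} [Field L] [Algebra ℚ L] (O : ValuationSubring L) {k : Type*} [Field k]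
  (π : ↥O →+* k) [IsDiscreteValuationRing ↥O] (hπ : Function.Surjective π) [IsAlgClosed k]
  {N' q : ℕ} [NeZero N'] [hq : Fact q.Prime] [CharP k q] (hN' : (N' : k) ≠ 0)
  (W1 : T2iAL L N' q) (Fr : T2iFrob k N' q) (W : T4iAL L N' q)
  (hqO : Irreducible ((q : ℕ) : ↥O))
  {L' : Type*} [Field L'] [Algebra L L'] (O' : ValuationSubring L')
  [IsDiscreteValuationRing ↥O'] (π' : ↥O' →+* k) (C : T4iCyc O O' π π' q)
  (M : T4iMid L L' N' q C.ζ) {Q : ℕ} (hQ : 2 ≤ Q)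

attribute [local instance] t2iAlgebra t2i_isScalarTower

include hQ in
theorem t4rc_X_ne_zero : t4vX L N' q Q ≠ 0 := by
  intro h
  have h1 := congrArg (fun f : ↥(TaF L (N' * q * q)) =>
    ((f : LaurentSeries L)).coeff (-((Q : ℕ) : ℤ))) h
  have h2 : ((t4vX L N' q Q : ↥(TaF L (N' * q * q))) : LaurentSeries L) =
      jqModC L ^ Q - jqModC L := rfl
  simp only [h2, HahnSeries.coeff_sub, ZeroMemClass.coe_zero, HahnSeries.coeff_zero] at h1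
  rw [coeff_jqModC_pow_self, coeff_jqModC_of_lt] at h1
  · simp at h1
  · have h3 : (2 : ℤ) ≤ Q := by exact_mod_cast hQ
    omega

/-- `T_w = w(T)`: the integrality of `T_w = a1 j · u₂^q` over `L[u₂]` follows from the one of
`T = a1 j · u^q` over `L[u]` by the Atkin–Lehner involution -/
theorem t4rc_hTw_of_hT (W : T4iAL L N' q)
    (hT : IsIntegral ↥(Algebra.adjoin L {(t4vA0 L N' q (taJ N'))⁻¹})
      (t4vA1 L N' q (taJ N') * (t4vA0 L N' q (taJ N'))⁻¹ ^ q)) :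
    IsIntegral ↥(Algebra.adjoin L {(t4vA2 L N' q (taJ N'))⁻¹})
      (t4vA1 L N' q (taJ N') * (t4vA2 L N' q (taJ N'))⁻¹ ^ q) := by
  have h := t4rc_isIntegral_algEquiv W.w hT
  rw [map_mul, map_pow, map_inv₀, W.w_a0, W.w_a1] at h
  exact h

variable (P : T4Pres ↥(TaF L (N' * q * q))) {y : ↥(TaF L (N' * q * q))}
  (hvals : P.vals = t4vpHor L y ∪ t4vwVer O π hπ W O' π' C M)
  (hB : ∀ f : ↥(TaF L (N' * q * q)), f ∈ P.B ↔
    f ∈ t2Int (K := L) y ∧ f ∈ (t4vInput O π hπ hN' W1 Fr W hqO O' π' C M).Ov)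

include hvals hB hQ in
/-- **regularity at the cuspidal points of `C_mid`**, chart `y = 1 / (j^Q - j)` -/
theorem t4rc_regAt_cusp_chart (hy : y = (t4vX L N' q Q)⁻¹) (𝔫 : Ideal P.B) [h𝔫 : 𝔫.IsPrime]
    (hV₀ : t4vOmid O π hπ O' π' C M ∈ P.through 𝔫)
    (honly : ∀ V ∈ P.through 𝔫, V ∈ P.vert (t4vQ L N' q) → V = t4vOmid O π hπ O' π' C M)
    (hsm : P.SmoothAt 𝔫 (t4vOmid O π hπ O' π' C M) hV₀)
    (hy𝔫 : ∀ hyB : y ∈ P.B, (⟨y, hyB⟩ : P.B) ∈ 𝔫)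
    (hT : IsIntegral ↥(Algebra.adjoin L {(t4vA0 L N' q (taJ N'))⁻¹})
      (t4vA1 L N' q (taJ N') * (t4vA0 L N' q (taJ N'))⁻¹ ^ q))
    (hG : t4rcGs k q ∈ IntermediateField.adjoin k {jqModC k}) :
    P.RegAt 𝔫 := by
  have hJ0 : t4vA0 L N' q (taJ N') ≠ 0 := t4rc_a0J_ne_zero
  have hX0 : t4vA0 L N' q (taJ N') ^ Q - t4vA0 L N' q (taJ N') ≠ 0 := by
    have h := t4rc_X_ne_zero (L := L) (N' := N') (q := q) hQ
    rwa [t4vX, ← t4vA0_taJ] at h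
  have hyX : y = (t4vA0 L N' q (taJ N') ^ Q - t4vA0 L N' q (taJ N'))⁻¹ := by
    rw [hy, t4vX, ← t4vA0_taJ]
  have hyu : IsIntegral ↥(Algebra.adjoin L {y}) (t4vA0 L N' q (taJ N'))⁻¹ := by
    rw [hyX]
    exact t4rc_isIntegral_jinv hQ hJ0 hX0
  have hyB : y ∈ P.B := by
    refine (hB _).mpr ⟨t2Int_self y, ?_⟩
    rw [hy]
    exact t4vX_inv_mem O π hπ hN' W1 Fr W hqO O' π' C M hQ
  refine t4rc_regAt_cusp O π hπ hN' W1 Fr W hqO O' π' C M P hvals hB 𝔫 hV₀ honly hsm hyu ?_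
    hT (t4rc_hTw_of_hT W hT) hG
  intro hu
  -- `u^Q = y (1 - u^(Q-1)) ∈ 𝔫`
  have h1 : (⟨(t4vA0 L N' q (taJ N'))⁻¹, hu⟩ : P.B) ^ Q =
      ⟨y, hyB⟩ * (1 - ⟨(t4vA0 L N' q (taJ N'))⁻¹, hu⟩ ^ (Q - 1)) := by
    apply Subtype.ext
    show (t4vA0 L N' q (taJ N'))⁻¹ ^ Q = y * (1 - (t4vA0 L N' q (taJ N'))⁻¹ ^ (Q - 1))
    rw [hyX]
    exact t4rc_jinv_pow_eq (by omega) hJ0 hX0
  have h2 : (⟨(t4vA0 L N' q (taJ N'))⁻¹, hu⟩ : P.B) ^ Q ∈ 𝔫 := by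
    rw [h1]
    exact 𝔫.mul_mem_right _ (hy𝔫 hyB)
  exact h𝔫.mem_of_pow_mem Q h2

end Chart

section Pres

variable {L : Type} [Field L] [Algebra ℚ L] {O : ValuationSubring L} {k : Type*} [Field k]
  {π : ↥O →+* k} [IsDiscreteValuationRing ↥O] {hπ : Function.Surjective π} [IsAlgClosed k]
  {N' q : ℕ} [NeZero N'] [hq : Fact q.Prime] [CharP k q] (hN' : (N' : k) ≠ 0)
  (W1 : T2iAL L N' q) (Fr : T2iFrob k N' q) {W : T4iAL L N' q}
  (hqO : Irreducible ((q : ℕ) : ↥O))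
  {L' : Type*} [Field L'] [Algebra L L'] {O' : ValuationSubring L'}
  [IsDiscreteValuationRing ↥O'] {π' : ↥O' →+* k} {C : T4iCyc O O' π π' q}
  {M : T4iMid L L' N' q C.ζ} {Q : ℕ} (hQ : 2 ≤ Q)

attribute [local instance] t2iAlgebra t2i_isScalarTower

include hN' W1 Fr hQ in
/-- **regularity at the cuspidal points of `C_mid`** for the chart presentation
`t4vwPres hqO Hy hcrt`, `y = 1 / (j^Q - j)` -/
theorem t4rc_regAt_cusp_t4vwPres {y : ↥(TaF L (N' * q * q))}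
    (Hy : T4vwHyp O π W O' π' C M y) (hcrt : T4vwCrt O π hπ W O' π' C M)
    (hy : y = (t4vX L N' q Q)⁻¹) (𝔫 : Ideal (t4vwPres hqO Hy hcrt).B) [h𝔫 : 𝔫.IsPrime]
    (hV₀ : t4vOmid O π hπ O' π' C M ∈ (t4vwPres hqO Hy hcrt).through 𝔫)
    (honly : ∀ V ∈ (t4vwPres hqO Hy hcrt).through 𝔫,
      V ∈ (t4vwPres hqO Hy hcrt).vert (t4vQ L N' q) → V = t4vOmid O π hπ O' π' C M)
    (hsm : (t4vwPres hqO Hy hcrt).SmoothAt 𝔫 (t4vOmid O π hπ O' π' C M) hV₀)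
    (hy𝔫 : ∀ hyB : y ∈ (t4vwPres hqO Hy hcrt).B, (⟨y, hyB⟩ : (t4vwPres hqO Hy hcrt).B) ∈ 𝔫)
    (hT : IsIntegral ↥(Algebra.adjoin L {(t4vA0 L N' q (taJ N'))⁻¹})
      (t4vA1 L N' q (taJ N') * (t4vA0 L N' q (taJ N'))⁻¹ ^ q))
    (hG : t4rcGs k q ∈ IntermediateField.adjoin k {jqModC k}) :
    (t4vwPres hqO Hy hcrt).RegAt 𝔫 :=
  t4rc_regAt_cusp_chart O π hπ hN' W1 Fr W hqO O' π' C M hQ (t4vwPres hqO Hy hcrt)
    (t4vwPres_vals hqO Hy hcrt) (mem_t4vwPres_B hqO Hy hcrt hN' W1 Fr) hy 𝔫 hV₀ honly hsm hy𝔫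
    hT hG

end Pres

end Fermat.Agent.T4
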