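/-
T4-R (helper1), package CM: **regularity at the cuspidal points of `C_mid` at the inertia level**
`L = tbFix 𝔓 ⊤`.

* `t4rc_hT_fix`: `T = a1 j · u^p` is integral over `L[u]`, `u = 1 / a0 j` (T2's cusp package over `ℚ̄`
  + descent `t2d_isIntegral_tbPhiF_iff`);
* `t4rcGs_mem_fix`: `ḡ ∈ κ(j̄)` (from the level `N' = 1`);
* `t4rc_regAt_cusp_fix`: `P.RegAt 𝔫` at the cuspidal points `𝔫 ∋ 1 / X` of `C_mid`, for any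
  presentation `P` of the chart `y = 1 / X`, `X = j^Q - j`, with the dictionaries `hvals`, `hB`.
-/
import Fermat.Agent.Lib.T4.Reg.CuspChart
import Fermat.Agent.Lib.T4.Inst.ValSubH
import Fermat.Agent.Lib.T2.Inst.Cusp
import Fermat.Agent.Lib.T2.Desc.LevelMod

set_option autoImplicit false
set_option linter.unusedSectionVars false
set_option linter.unusedVariables false
set_option linter.style.haveILetI false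
set_option synthInstance.maxHeartbeats 400000

open HahnSeries ModularCurve Fermat.Agent.T1 Fermat.Agent.T2 Fermat.Agent.TW Fermat.Agent.S05Lib

noncomputable section

namespace Fermat.Agent.T4

local notation "Qb" => AlgebraicClosure ℚ

attribute [local instance] t2i_dvr t2i_isAlgClosed t2i_charP t2i_fact t2iAlgebra t2i_isScalarTower

variable (𝔓 : FFPlace) (N' : ℕ) [NeZero N'] (h : ¬ 𝔓.p ∣ N') {ζ : Qb}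
  (hζ : IsPrimitiveRoot ζ 𝔓.p) {Q : ℕ} (hQ : 2 ≤ Q)

/-! ### The integrality of `T` -/

theorem t4rc_tbPhiF_a0j (H : Subgroup 𝔓.I) :
    tbPhiF 𝔓 (N' * 𝔓.p * 𝔓.p) H (t4vA0 ↥(tbFix 𝔓 H) N' 𝔓.p (taJ N')) =
      tbJ (N' * 𝔓.p * 𝔓.p) := by
  apply Subtype.ext
  rw [coe_tbPhiF, coe_t4vA0, coe_taJ]
  exact coeffMap_jqModC _

theorem t4rc_tbPhiF_a1j (H : Subgroup 𝔓.I) :
    tbPhiF 𝔓 (N' * 𝔓.p * 𝔓.p) H (t4vA1 ↥(tbFix 𝔓 H) N' 𝔓.p (taJ N')) =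
      t2cpYq (N' * 𝔓.p * 𝔓.p) 𝔓.p (Dvd.intro_left _ rfl) := by
  apply Subtype.ext
  rw [coe_tbPhiF, coe_t4vA1, coe_taJ, coe_t2cpYq, coeffMap_qExpand, coeffMap_jqModC]

/-- **`T = a1 j · u^p` is integral over `L[u]`**, `u = 1 / a0 j` -/
theorem t4rc_hT_fix (H : Subgroup 𝔓.I) :
    IsIntegral ↥(Algebra.adjoin ↥(tbFix 𝔓 H) {(t4vA0 ↥(tbFix 𝔓 H) N' 𝔓.p (taJ N'))⁻¹})
      (t4vA1 ↥(tbFix 𝔓 H) N' 𝔓.p (taJ N') *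
        (t4vA0 ↥(tbFix 𝔓 H) N' 𝔓.p (taJ N'))⁻¹ ^ 𝔓.p) := by
  refine (t2d_isIntegral_tbPhiF_iff 𝔓 (N' * 𝔓.p * 𝔓.p) H _ _).mpr ?_
  rw [map_mul, map_pow, map_inv₀, t4rc_tbPhiF_a0j, t4rc_tbPhiF_a1j]
  exact t2cp_isIntegral_Y_div (N' * 𝔓.p * 𝔓.p) 𝔓.p (Dvd.intro_left _ rfl)

/-! ### `ḡ ∈ κ(j̄)` -/

/-- **`ḡ = -((-θ j̄) / j̄)^(p-1)` is a rational function of `j̄`** -/
theorem t4rcGs_mem_fix :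
    t4rcGs (IsLocalRing.ResidueField ↥𝔓.P) 𝔓.p ∈
      IntermediateField.adjoin (IsLocalRing.ResidueField ↥𝔓.P)
        {jqModC (IsLocalRing.ResidueField ↥𝔓.P)} := by
  obtain ⟨ζ, hζ⟩ := t4cy_exists_zeta 𝔓
  have h1 : ¬ 𝔓.p ∣ 1 := 𝔓.hp.not_dvd_one
  letI := t4cyAlgebra 𝔓 (le_top : t4cyH 𝔓 ζ ≤ ⊤)
  exact t4rcG_mem (tbFixO 𝔓 ⊤) (tbFixRes 𝔓 ⊤) (tbFixRes_surjective 𝔓 ⊤)
    (t2iALFix 𝔓 ⊤ 1 h1) (t2iFrobFix 𝔓 1) (t4iALFix 𝔓 ⊤ 1 h1) (t4cy_irreducible_p 𝔓)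
    (tbFixO 𝔓 (t4cyH 𝔓 ζ)) (tbFixRes 𝔓 (t4cyH 𝔓 ζ)) (t4iCycFix 𝔓 hζ) (t4vMidFix 𝔓 1 h1 hζ)

/-! ### Regularity at the cusps of `C_mid` -/

include hQ in
/-- **regularity at the cuspidal points of `C_mid`, inertia level**: `P` any presentation of the
chart ring `IntCl(L[y]) ∩ 𝒪`, `y = 1 / (j^Q - j)`, with valuation rings `t4vpHor L y` and the three
verticals; `𝔫 ∋ y` a prime of `B` with `O_mid` as only vertical branch, smooth on `C_mid` -/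
theorem t4rc_regAt_cusp_fix
    (P : T4Pres ↥(tbLevF 𝔓 (N' * 𝔓.p * 𝔓.p) ⊤)) {y : ↥(tbLevF 𝔓 (N' * 𝔓.p * 𝔓.p) ⊤)}
    (hvals :
      letI := t4cyAlgebra 𝔓 (le_top : t4cyH 𝔓 ζ ≤ ⊤)
      P.vals = t4vpHor ↥(tbFix 𝔓 (⊤ : Subgroup 𝔓.I)) y ∪
        t4vwVer (tbFixO 𝔓 ⊤) (tbFixRes 𝔓 ⊤) (tbFixRes_surjective 𝔓 ⊤) (t4iALFix 𝔓 ⊤ N' h)
          (tbFixO 𝔓 (t4cyH 𝔓 ζ)) (tbFixRes 𝔓 (t4cyH 𝔓 ζ)) (t4iCycFix 𝔓 hζ)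
          (t4vMidFix 𝔓 N' h hζ))
    (hB : ∀ f : ↥(tbLevF 𝔓 (N' * 𝔓.p * 𝔓.p) ⊤), f ∈ P.B ↔
      f ∈ t2Int (K := ↥(tbFix 𝔓 (⊤ : Subgroup 𝔓.I))) y ∧ f ∈ (t4vInputFix 𝔓 N' h hζ).Ov)
    (hy : y = (t4vX ↥(tbFix 𝔓 (⊤ : Subgroup 𝔓.I)) N' 𝔓.p Q)⁻¹)
    (𝔫 : Ideal P.B) [h𝔫 : 𝔫.IsPrime]
    (hV₀ : t4vOmidFix 𝔓 N' h hζ ∈ P.through 𝔫)
    (honly : ∀ V ∈ P.through 𝔫, V ∈ P.vert (t4vQFix 𝔓 N') → V = t4vOmidFix 𝔓 N' h hζ)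
    (hsm : P.SmoothAt 𝔫 (t4vOmidFix 𝔓 N' h hζ) hV₀)
    (hy𝔫 : ∀ hyB : y ∈ P.B, (⟨y, hyB⟩ : P.B) ∈ 𝔫) :
    P.RegAt 𝔫 :=
  letI := t4cyAlgebra 𝔓 (le_top : t4cyH 𝔓 ζ ≤ ⊤)
  t4rc_regAt_cusp_chart (tbFixO 𝔓 ⊤) (tbFixRes 𝔓 ⊤) (tbFixRes_surjective 𝔓 ⊤)
    (t2i_natCast_ne_zero 𝔓 h) (t2iALFix 𝔓 ⊤ N' h) (t2iFrobFix 𝔓 N') (t4iALFix 𝔓 ⊤ N' h)
    (t4cy_irreducible_p 𝔓) (tbFixO 𝔓 (t4cyH 𝔓 ζ)) (tbFixRes 𝔓 (t4cyH 𝔓 ζ)) (t4iCycFix 𝔓 hζ)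
    (t4vMidFix 𝔓 N' h hζ) hQ P hvals hB hy 𝔫 hV₀ honly hsm hy𝔫 (t4rc_hT_fix 𝔓 N' ⊤)
    (t4rcGs_mem_fix 𝔓)

end Fermat.Agent.T4
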