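/-
T4-R (helper1), package CM, complement: **the modular equation between `a0 j = j(𝔮)` and
`a1 j = j(𝔮^q)`** in `F = F_{N' q², L}`: `Φ_q(a0 j; a1 j) = 0`, `Φ_q = Igusa.modPhi q hq ∈ ℤ[Y][X]`
monic in `X` (`modPhiK_eval_right`, no substitution needed).
-/
import Fermat.Agent.Lib.T4.Reg.CuspMod

set_option autoImplicit false
set_option linter.unusedSectionVars false
set_option linter.style.haveILetI false

open HahnSeries ModularCurve Fermat.Agent.T1 Fermat.Agent.T2 Polynomial

namespace Fermat.Agent.T4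

/-- `Φ_q(j(𝔮); j(𝔮^q)) = 0` in `K((𝔮))`, with `Φ_q ∈ ℤ[Y][X]` -/
theorem t4rc_modPhi_series0 (K : Type*) [CommRing K] (q : ℕ) [NeZero q] (hq : q.Prime) :
    (Igusa.modPhi q hq).eval₂
      (Polynomial.eval₂RingHom (Int.castRingHom (LaurentSeries K)) (qExpand K q (jqModC K)))
      (jqModC K) = 0 := by
  have h := Igusa.modPhiK_eval_right q hq K
  rw [Igusa.modPhiK, Polynomial.eval₂_map] at h
  have hcomp : (((qExpand K q : LaurentSeries K →+* LaurentSeries K).comp (Igusa.evalJ K)).comp
        (Polynomial.mapRingHom (Int.castRingHom K))) =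
      Polynomial.eval₂RingHom (Int.castRingHom (LaurentSeries K)) (qExpand K q (jqModC K)) := by
    apply Polynomial.ringHom_ext
    · intro a
      have h1 : (Polynomial.C a : Polynomial ℤ) = ((a : ℤ) : Polynomial ℤ) := by
        rw [eq_intCast]
      rw [h1, map_intCast, map_intCast]
    · simp only [RingHom.comp_apply, Polynomial.coe_mapRingHom, Polynomial.map_X,
        Igusa.evalJ_X, Polynomial.coe_eval₂RingHom, Polynomial.eval₂_X]
  rw [hcomp] at h
  exact h

/-- **the modular equation `Φ_q(a0 j; a1 j) = 0`** in `F_{N' q²}` -/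
theorem t4rc_modular_relation0 (L : Type*) [Field L] [Algebra ℚ L] (N' q : ℕ) [NeZero N']
    [NeZero q] (hq : q.Prime) :
    (Igusa.modPhi q hq).eval₂
      (Polynomial.eval₂RingHom (Int.castRingHom ↥(TaF L (N' * q * q)))
        (t4vA1 L N' q (taJ N')))
      (t4vA0 L N' q (taJ N')) = 0 := by
  apply Subtype.ext
  have h := Polynomial.hom_eval₂ (Igusa.modPhi q hq)
    (Polynomial.eval₂RingHom (Int.castRingHom ↥(TaF L (N' * q * q))) (t4vA1 L N' q (taJ N')))
    ((TaF L (N' * q * q)).val : ↥(TaF L (N' * q * q)) →+* LaurentSeries L)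
    (t4vA0 L N' q (taJ N'))
  have hcomp : ((TaF L (N' * q * q)).val : ↥(TaF L (N' * q * q)) →+* LaurentSeries L).comp
      (Polynomial.eval₂RingHom (Int.castRingHom ↥(TaF L (N' * q * q)))
        (t4vA1 L N' q (taJ N'))) =
      Polynomial.eval₂RingHom (Int.castRingHom (LaurentSeries L)) (qExpand L q (jqModC L)) := by
    apply Polynomial.ringHom_ext
    · intro a
      have h1 : (Polynomial.C a : Polynomial ℤ) = ((a : ℤ) : Polynomial ℤ) := by
        rw [eq_intCast]
      rw [h1, map_intCast, map_intCast]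
    · simp only [RingHom.comp_apply, Polynomial.coe_eval₂RingHom, Polynomial.eval₂_X]
      show ((t4vA1 L N' q (taJ N') : ↥(TaF L (N' * q * q))) : LaurentSeries L) = _
      rw [coe_t4vA1, coe_taJ]
  rw [hcomp] at h
  have h1 : (((TaF L (N' * q * q)).val : ↥(TaF L (N' * q * q)) →+* LaurentSeries L)
      (t4vA0 L N' q (taJ N'))) = jqModC L := by
    show ((t4vA0 L N' q (taJ N') : ↥(TaF L (N' * q * q))) : LaurentSeries L) = _
    rw [coe_t4vA0, coe_taJ]
  rw [h1, t4rc_modPhi_series0 L q hq] at h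
  exact h

end Fermat.Agent.T4
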