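/-
T4-R (helper1), package CM: **(K2), cuspidal case** — at a cuspidal point `𝔫 ∋ 1 / x` of the chart
`y = 1 / x`, `x = j^Q - j`, through which `O_0` passes, the elements `a2 f₀`
(`f₀ ∈ taOv N'` integral over `L[1 / X']`) lie in the local ring `B_𝔫`
(= the hypothesis `ha2` of `t4vm_smoothAt_zero`).

Route (all inside `R = B_𝔫`, local and integrally closed): `u₀ = 1 / a0 j ∈ 𝔫`;
Lemma A with `Φ_q(a0 j; a1 j) = 0` gives `u₁ = 1 / a1 j ∈ R`, and `u₀ ≡ u₁^q` on `O_0` makes `u₁` a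
non-unit; Lemma A with `Φ_q(a1 j; a2 j) = 0` gives `u₂ = 1 / a2 j ∈ R`, `u₁ ≡ u₂^q` on `O_0`, so `u₂`
is a non-unit; hence `1 / a2 X' = u₂^Q / (1 - u₂^(Q-1)) ∈ R`, and `a2 f₀` (integral over
`L[1 / a2 X']`, and in `𝒪`) lies in every valuation ring through `𝔫`.
-/
import Fermat.Agent.Lib.T4.Reg.CuspChart
import Fermat.Agent.Lib.T4.Reg.CuspMod0

set_option autoImplicit false
set_option linter.unusedSectionVars false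
set_option linter.unusedVariables false
set_option linter.style.haveILetI false
set_option synthInstance.maxHeartbeats 400000

open HahnSeries ModularCurve Fermat.Agent.T1 Fermat.Agent.T2 IntermediateField

noncomputable section

namespace Fermat.Agent.T4

/-! ### One step of the chain (abstract) -/

namespace T4Pres

variable {F : Type*} [Field F] (P : T4Pres F)

/-- **one step**: `1 / ja` a non-unit of `R = B_𝔫`, `Φ(ja; jb) = 0` with `Φ ∈ ℤ[Y][X]` monic in `X`,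
and `1 / ja ≡ (1 / jb)^q` on a branch `V₀` through `𝔫`.  Then `1 / jb` is a non-unit of `R`. -/
theorem cusp_step (𝔫 : Ideal P.B) [h𝔫 : 𝔫.IsPrime] {V₀ : ValuationSubring F}
    (hV₀ : V₀ ∈ P.through 𝔫) (Φ : Polynomial (Polynomial ℤ)) (hΦ : Φ.Monic) {ja jb : F}
    (ha : ja ≠ 0) (hb : jb ≠ 0)
    (hrel : Φ.eval₂ (Polynomial.eval₂RingHom (Int.castRingHom F) jb) ja = 0) {q : ℕ} (hq : 0 < q)
    (hu : ja⁻¹ ∈ P.loc 𝔫) (hunu : ¬ IsUnit (⟨ja⁻¹, hu⟩ : ↥(P.loc 𝔫)))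
    (hval : V₀.valuation (ja⁻¹ - jb⁻¹ ^ q) < 1) :
    ∃ hub : jb⁻¹ ∈ P.loc 𝔫, ¬ IsUnit (⟨jb⁻¹, hub⟩ : ↥(P.loc 𝔫)) := by
  letI := P.isLocalRing_loc 𝔫
  have hub : jb⁻¹ ∈ P.loc 𝔫 :=
    t4rc_inv_mem (P.loc 𝔫) (fun x hx => P.loc_integrallyClosed 𝔫 hx) (Int.castRingHom F)
      (fun c => by
        rw [eq_intCast]
        exact intCast_mem _ c) Φ hΦ ha hb hrel hu hunu
  refine ⟨hub, fun hunit => ?_⟩
  -- `w = u_a - u_b^q` is a non-unit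
  have hw : ja⁻¹ - jb⁻¹ ^ q ∈ P.loc 𝔫 := sub_mem hu (pow_mem hub q)
  have hwnu : ¬ IsUnit (⟨_, hw⟩ : ↥(P.loc 𝔫)) := P.not_isUnit_of_valuation_lt hV₀ ⟨_, hw⟩ hval
  -- `u_b^q = u_a - w` is a non-unit
  have h1 : (⟨jb⁻¹, hub⟩ : ↥(P.loc 𝔫)) ^ q = ⟨ja⁻¹, hu⟩ + -⟨_, hw⟩ := by
    apply Subtype.ext
    show jb⁻¹ ^ q = ja⁻¹ + -(ja⁻¹ - jb⁻¹ ^ q)
    ring
  have h2 : (⟨ja⁻¹, hu⟩ + -⟨_, hw⟩ : ↥(P.loc 𝔫)) ∈ nonunits ↥(P.loc 𝔫) := by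
    refine IsLocalRing.nonunits_add hunu ?_
    rw [mem_nonunits_iff, IsUnit.neg_iff]
    exact hwnu
  rw [← h1] at h2
  exact h2 (hunit.pow q)

end T4Pres

/-! ### The instance -/

section Inst

variable {L : Type} [Field L] [Algebra ℚ L] (O : ValuationSubring L) {k : Type*} [Field k]
  (π : ↥O →+* k) [IsDiscreteValuationRing ↥O] (hπ : Function.Surjective π) [IsAlgClosed k]
  {N' q : ℕ} [NeZero N'] [hq : Fact q.Prime] [CharP k q] (hN' : (N' : k) ≠ 0)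
  (W1 : T2iAL L N' q) (Fr : T2iFrob k N' q) (W : T4iAL L N' q)
  (hqO : Irreducible ((q : ℕ) : ↥O))
  {L' : Type*} [Field L'] [Algebra L L'] (O' : ValuationSubring L')
  [IsDiscreteValuationRing ↥O'] (π' : ↥O' →+* k) (C : T4iCyc O O' π π' q)
  (M : T4iMid L L' N' q C.ζ) {Q : ℕ} (hQ : 2 ≤ Q)

attribute [local instance] t2iAlgebra t2i_isScalarTower

variable (P : T4Pres ↥(TaF L (N' * q * q))) {y : ↥(TaF L (N' * q * q))}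
  (hvals : P.vals = t4vpHor L y ∪ t4vwVer O π hπ W O' π' C M)
  (hB : ∀ f : ↥(TaF L (N' * q * q)), f ∈ P.B ↔
    f ∈ t2Int (K := L) y ∧ f ∈ (t4vInput O π hπ hN' W1 Fr W hqO O' π' C M).Ov)

include hB hQ in
/-- **`u₂ = 1 / a2 j` is a non-unit of `B_𝔫`** at a cuspidal point of `C_0` -/
theorem t4rck_u2 (hy : y = (t4vX L N' q Q)⁻¹) (𝔫 : Ideal P.B) [h𝔫 : 𝔫.IsPrime]
    (h0 : t4vO0 O π hπ W ∈ P.through 𝔫)
    (hy𝔫 : ∀ hyB : y ∈ P.B, (⟨y, hyB⟩ : P.B) ∈ 𝔫) :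
    ∃ hu2 : (t4vA2 L N' q (taJ N'))⁻¹ ∈ P.loc 𝔫,
      ¬ IsUnit (⟨(t4vA2 L N' q (taJ N'))⁻¹, hu2⟩ : ↥(P.loc 𝔫)) := by
  classical
  letI := P.isLocalRing_loc 𝔫
  have hjG := t4vr_taJ_gauss (N' := N') O π
  have hj0 : jqModC k ≠ 0 := jqModC_ne_zero_of_nontrivial k
  have hqinj : ∀ x : LaurentSeries k, x ≠ 0 → qExpand k q x ≠ 0 := fun x hx h0 =>
    hx ((map_eq_zero_iff _ (qExpand k q).injective).mp h0)
  have hJ0 : t4vA0 L N' q (taJ N') ≠ 0 := t4rc_a0J_ne_zero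
  have htaJ : (taJ N' : ↥(TaF L N')) ≠ 0 := by
    intro h
    have h1 := congrArg (fun x : ↥(TaF L N') => (x : LaurentSeries L)) h
    simp only [coe_taJ, ZeroMemClass.coe_zero] at h1
    exact jqModC_ne_zero_of_nontrivial L h1
  have hJ1 : t4vA1 L N' q (taJ N') ≠ 0 := (map_ne_zero _).mpr htaJ
  have hJ2 : t4vA2 L N' q (taJ N') ≠ 0 := (map_ne_zero _).mpr htaJ
  have hX0 : t4vA0 L N' q (taJ N') ^ Q - t4vA0 L N' q (taJ N') ≠ 0 := by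
    have h := t4rc_X_ne_zero (L := L) (N' := N') (q := q) hQ
    rwa [t4vX, ← t4vA0_taJ] at h
  have hyX : y = (t4vA0 L N' q (taJ N') ^ Q - t4vA0 L N' q (taJ N'))⁻¹ := by
    rw [hy, t4vX, ← t4vA0_taJ]
  have hyu : IsIntegral ↥(Algebra.adjoin L {y}) (t4vA0 L N' q (taJ N'))⁻¹ := by
    rw [hyX]
    exact t4rc_isIntegral_jinv hQ hJ0 hX0
  have hyB : y ∈ P.B := by
    refine (hB _).mpr ⟨t2Int_self y, ?_⟩
    rw [hy]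
    exact t4vX_inv_mem O π hπ hN' W1 Fr W hqO O' π' C M hQ
  -- the three `u`'s in `𝒪`
  set I := t4vInput O π hπ hN' W1 Fr W hqO O' π' C M with hI
  set J0 : ↥I.Ov := ⟨t4vA0 L N' q (taJ N'), t4v_a0_mem O π hπ hN' W1 Fr W hqO O' π' C M hjG⟩
    with hJ0def
  set J1 : ↥I.Ov := ⟨t4vA1 L N' q (taJ N'), t4v_a1_mem O π hπ hN' W1 Fr W hqO O' π' C M hjG⟩
    with hJ1def
  set J2 : ↥I.Ov := ⟨t4vA2 L N' q (taJ N'), t4v_a2_mem O π hπ hN' W1 Fr W hqO O' π' C M hjG⟩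
    with hJ2def
  have hOvu0 : (t4vA0 L N' q (taJ N'))⁻¹ ∈ I.Ov := by
    refine t4ve_inv_mem O π hπ hN' W1 Fr W hqO O' π' C M J0 ?_ ?_ ?_
    · rw [hJ0def, t4v_ρ₁_a0 O π hπ hN' W1 Fr W hqO O' π' C M hjG, t4vr_taJ_rho]
      exact hj0
    · rw [hJ0def, t4v_ρ₂_a0 O π hπ hN' W1 Fr W hqO O' π' C M hjG, t4vr_taJ_rho]
      exact hj0
    · rw [hJ0def, t4v_ρ₃_a0 O π hπ hN' W1 Fr W hqO O' π' C M hjG, t4vr_taJ_rho]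
      exact hqinj _ (hqinj _ hj0)
  have hOvu1 : (t4vA1 L N' q (taJ N'))⁻¹ ∈ I.Ov := by
    refine t4ve_inv_mem O π hπ hN' W1 Fr W hqO O' π' C M J1 ?_ ?_ ?_
    · rw [hJ1def, t4v_ρ₁_a1 O π hπ hN' W1 Fr W hqO O' π' C M hjG, t4vr_taJ_rho]
      exact hqinj _ hj0
    · rw [hJ1def, t4v_ρ₂_a1 O π hπ hN' W1 Fr W hqO O' π' C M hjG, t4vr_taJ_rho]
      exact hqinj _ hj0
    · rw [hJ1def, t4v_ρ₃_a1 O π hπ hN' W1 Fr W hqO O' π' C M hjG, t4vr_taJ_rho]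
      exact hqinj _ hj0
  have hOvu2 : (t4vA2 L N' q (taJ N'))⁻¹ ∈ I.Ov := by
    refine t4ve_inv_mem O π hπ hN' W1 Fr W hqO O' π' C M J2 ?_ ?_ ?_
    · rw [hJ2def, t4v_ρ₁_a2 O π hπ hN' W1 Fr W hqO O' π' C M hjG, t4vr_taJ_rho]
      exact hqinj _ (hqinj _ hj0)
    · rw [hJ2def, t4v_ρ₂_a2 O π hπ hN' W1 Fr W hqO O' π' C M hjG, t4vr_taJ_rho]
      exact hj0
    · rw [hJ2def, t4v_ρ₃_a2 O π hπ hN' W1 Fr W hqO O' π' C M hjG, t4vr_taJ_rho]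
      exact hj0
  -- the reductions of the `u`'s on `O_0`
  have hρinv : ∀ (J : ↥I.Ov) (hJi : (J : ↥(TaF L (N' * q * q)))⁻¹ ∈ I.Ov)
      (hJne : (J : ↥(TaF L (N' * q * q))) ≠ 0), I.ρ₃ ⟨_, hJi⟩ = (I.ρ₃ J)⁻¹ := by
    intro J hJi hJne
    have h1 : J * ⟨_, hJi⟩ = (1 : ↥I.Ov) := Subtype.ext (mul_inv_cancel₀ hJne)
    have h2 := congrArg I.ρ₃ h1
    rw [map_mul, map_one] at h2
    exact eq_inv_of_mul_eq_one_right h2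
  have hρ0 : I.ρ₃ ⟨_, hOvu0⟩ = (qExpand k q (qExpand k q (jqModC k)))⁻¹ := by
    rw [hρinv J0 hOvu0 hJ0, hJ0def, t4v_ρ₃_a0 O π hπ hN' W1 Fr W hqO O' π' C M hjG, t4vr_taJ_rho]
  have hρ1 : I.ρ₃ ⟨_, hOvu1⟩ = (qExpand k q (jqModC k))⁻¹ := by
    rw [hρinv J1 hOvu1 hJ1, hJ1def, t4v_ρ₃_a1 O π hπ hN' W1 Fr W hqO O' π' C M hjG, t4vr_taJ_rho]
  have hρ2 : I.ρ₃ ⟨_, hOvu2⟩ = (jqModC k)⁻¹ := by
    rw [hρinv J2 hOvu2 hJ2, hJ2def, t4v_ρ₃_a2 O π hπ hN' W1 Fr W hqO O' π' C M hjG, t4vr_taJ_rho]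
  have hval01 : (t4vO0 O π hπ W).valuation
      ((t4vA0 L N' q (taJ N'))⁻¹ - (t4vA1 L N' q (taJ N'))⁻¹ ^ q) < 1 := by
    have h := (t4vr_ρ₃_eq_iff O π hπ hN' W1 Fr W hqO O' π' C M ⟨_, hOvu0⟩ (⟨_, hOvu1⟩ ^ q)).mp ?_
    · exact h
    · rw [map_pow, hρ0, hρ1, inv_pow, ← map_pow, t2i_jq_pow]
  have hval12 : (t4vO0 O π hπ W).valuation
      ((t4vA1 L N' q (taJ N'))⁻¹ - (t4vA2 L N' q (taJ N'))⁻¹ ^ q) < 1 := by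
    have h := (t4vr_ρ₃_eq_iff O π hπ hN' W1 Fr W hqO O' π' C M ⟨_, hOvu1⟩ (⟨_, hOvu2⟩ ^ q)).mp ?_
    · exact h
    · rw [map_pow, hρ1, hρ2, inv_pow, t2i_jq_pow]
  -- `u₀ ∈ 𝔫`
  have huB : (t4vA0 L N' q (taJ N'))⁻¹ ∈ P.B := (hB _).mpr ⟨hyu, hOvu0⟩
  have hul : (t4vA0 L N' q (taJ N'))⁻¹ ∈ P.loc 𝔫 := P.B_le_loc 𝔫 huB
  have hu𝔫 : (⟨(t4vA0 L N' q (taJ N'))⁻¹, huB⟩ : P.B) ∈ 𝔫 := by
    have h1 : (⟨(t4vA0 L N' q (taJ N'))⁻¹, huB⟩ : P.B) ^ Q =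
        ⟨y, hyB⟩ * (1 - ⟨(t4vA0 L N' q (taJ N'))⁻¹, huB⟩ ^ (Q - 1)) := by
      apply Subtype.ext
      show (t4vA0 L N' q (taJ N'))⁻¹ ^ Q = y * (1 - (t4vA0 L N' q (taJ N'))⁻¹ ^ (Q - 1))
      rw [hyX]
      exact t4rc_jinv_pow_eq (by omega) hJ0 hX0
    have h2 : (⟨(t4vA0 L N' q (taJ N'))⁻¹, huB⟩ : P.B) ^ Q ∈ 𝔫 := by
      rw [h1]
      exact 𝔫.mul_mem_right _ (hy𝔫 hyB)
    exact h𝔫.mem_of_pow_mem Q h2
  have hunu : ¬ IsUnit (⟨_, hul⟩ : ↥(P.loc 𝔫)) := P.not_isUnit_of_mem 𝔫 huB hu𝔫 hul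
  -- the two steps
  obtain ⟨hu1, hu1nu⟩ := P.cusp_step 𝔫 h0 (Igusa.modPhi q hq.out) (Igusa.modPhi_monic q hq.out)
    hJ0 hJ1 (t4rc_modular_relation0 L N' q hq.out) hq.out.pos hul hunu hval01
  exact P.cusp_step 𝔫 h0 (Igusa.modPhi q hq.out) (Igusa.modPhi_monic q hq.out)
    hJ1 hJ2 (t4rc_modular_relation L N' q hq.out) hq.out.pos hu1 hu1nu hval12

include hvals hB hQ in
/-- **(K2), cuspidal case**: `a2 f₀ ∈ B_𝔫` -/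
theorem t4rck_a2_mem_loc (hy : y = (t4vX L N' q Q)⁻¹) (𝔫 : Ideal P.B) [h𝔫 : 𝔫.IsPrime]
    (h0 : t4vO0 O π hπ W ∈ P.through 𝔫)
    (hy𝔫 : ∀ hyB : y ∈ P.B, (⟨y, hyB⟩ : P.B) ∈ 𝔫)
    (f0 : ↥(taOv O π hπ N'))
    (hf0 : (f0 : ↥(TaF L N')) ∈ t2Int (K := L) (t4vX' L N' Q)⁻¹) :
    t4vA2 L N' q (f0 : ↥(TaF L N')) ∈ P.loc 𝔫 := by
  classical
  letI := P.isLocalRing_loc 𝔫
  obtain ⟨hu2, hu2nu⟩ := t4rck_u2 O π hπ hN' W1 Fr W hqO O' π' C M hQ P hB hy 𝔫 h0 hy𝔫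
  set J2 : ↥(TaF L (N' * q * q)) := t4vA2 L N' q (taJ N') with hJ2def
  have htaJ : (taJ N' : ↥(TaF L N')) ≠ 0 := by
    intro h'
    have h2 := congrArg (fun x : ↥(TaF L N') => (x : LaurentSeries L)) h'
    simp only [coe_taJ, ZeroMemClass.coe_zero] at h2
    exact jqModC_ne_zero_of_nontrivial L h2
  have hJ2 : J2 ≠ 0 := (map_ne_zero (t4vA2 L N' q)).mpr htaJ
  have hQ1 : Q - 1 ≠ 0 := by omega
  -- `c = 1 - u₂^(Q-1)` is a unit of `B_𝔫`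
  have hm : -(J2⁻¹ ^ (Q - 1)) ∈ P.loc 𝔫 := neg_mem (pow_mem hu2 _)
  have hmnu : ¬ IsUnit (⟨_, hm⟩ : ↥(P.loc 𝔫)) := by
    intro hunit
    apply hu2nu
    have h1 : (⟨_, hm⟩ : ↥(P.loc 𝔫)) = -(⟨J2⁻¹, hu2⟩ ^ (Q - 1)) := rfl
    rw [h1, IsUnit.neg_iff] at hunit
    exact (isUnit_pow_iff hQ1).mp hunit
  have hci : (1 + -(J2⁻¹ ^ (Q - 1)))⁻¹ ∈ P.loc 𝔫 := t4rc_one_add_inv_mem (P.loc 𝔫) hm hmnu
  -- `1 / (a2 X') = u₂^Q / c`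
  have hXinv : (J2 ^ Q - J2)⁻¹ ∈ P.loc 𝔫 := by
    have h1 : (J2 ^ Q - J2)⁻¹ = J2⁻¹ ^ Q * (1 + -(J2⁻¹ ^ (Q - 1)))⁻¹ := by
      have h2 : J2 ^ Q - J2 = J2 ^ Q * (1 + -(J2⁻¹ ^ (Q - 1))) := by
        obtain ⟨m, rfl⟩ : ∃ m, Q = m + 1 := ⟨Q - 1, by omega⟩
        rw [Nat.add_sub_cancel]
        have hju : J2 * J2⁻¹ = 1 := mul_inv_cancel₀ hJ2
        calc J2 ^ (m + 1) - J2 = J2 ^ (m + 1) - J2 * (J2 * J2⁻¹) ^ m := by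
              rw [hju, one_pow, mul_one]
          _ = J2 ^ (m + 1) * (1 + -(J2⁻¹ ^ m)) := by ring
      rw [h2, mul_inv, ← inv_pow]
    rw [h1]
    exact mul_mem (pow_mem hu2 Q) hci
  -- `a2 f₀` is integral over `L[1 / a2 X']`
  have hint : IsIntegral ↥(Algebra.adjoin L {(J2 ^ Q - J2)⁻¹})
      (t4vA2 L N' q (f0 : ↥(TaF L N'))) := by
    have h1 := t2d_isIntegral_map (RingHom.id L)
      (t4vA2 L N' q : ↥(TaF L N') →+* ↥(TaF L (N' * q * q)))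
      (fun c => (t4vA2 L N' q).commutes c) (mem_t2Int.mp hf0)
    have h2 : (t4vA2 L N' q : ↥(TaF L N') →+* ↥(TaF L (N' * q * q))) (t4vX' L N' Q)⁻¹ =
        (J2 ^ Q - J2)⁻¹ := by
      show t4vA2 L N' q (t4vX' L N' Q)⁻¹ = _
      rw [map_inv₀, t4vX', map_sub, map_pow]
    rw [h2] at h1
    exact h1
  -- membership in every valuation ring through `𝔫`
  intro V hV
  have h1 : V ∈ P.vals := hV.1
  rw [hvals] at h1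
  rcases h1 with hVh | hVv
  · exact t4rc_mem_of_isIntegral V (fun c => t4vp_algebraMap_mem_hor hVh c) (hXinv V hV) hint
  · have hOv := (mem_t4vInput_Ov_iff O π hπ hN' W1 Fr W hqO O' π' C M _).mp
      (t4v_a2_mem O π hπ hN' W1 Fr W hqO O' π' C M ((mem_taOv_iff O π hπ N' _).mp f0.2))
    rcases (mem_t4vwVer O π hπ W O' π' C M V).mp hVv with rfl | rfl | rfl
    · exact hOv.1
    · exact hOv.2.2
    · exact hOv.2.1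

end Inst

end Fermat.Agent.T4
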