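/-
T4-R (helper1), package CM: **(K2), non-cuspidal case and the combined statement** — at every point
`𝔫` of the chart `y = 1 / x`, `x = j^Q - j`, through which `O_0` passes, the elements `a2 f₀`
(`f₀ ∈ taOv N'` integral over `L[1 / X']`) lie in the local ring `B_𝔫` (`t4rck_K2` = the hypothesis
`ha2` of `t4vm_smoothAt_zero`).

Non-cuspidal case (`y ∉ 𝔫`): `x` is a unit of `R = B_𝔫`; `Y = a2 X' ∈ R` (integral over `L[x]`, and
in `𝒪`); `Y^(q²) ≡ x` on `O_0` (`Φ² x̄ = x̄^(q²)`), so `Y` is a unit of `R`; `a2 f₀` is integral over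
`L[1 / Y]` and lies in `𝒪`.  Cuspidal case: `CuspK2.lean`.
-/
import Fermat.Agent.Lib.T4.Reg.CuspK2

set_option autoImplicit false
set_option linter.unusedSectionVars false
set_option linter.unusedVariables false
set_option linter.style.haveILetI false
set_option synthInstance.maxHeartbeats 400000

open HahnSeries ModularCurve Fermat.Agent.T1 Fermat.Agent.T2 IntermediateField

noncomputable section

namespace Fermat.Agent.T4

section Inst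

variable {L : Type} [Field L] [Algebra ℚ L] (O : ValuationSubring L) {k : Type*} [Field k]
  (π : ↥O →+* k) [IsDiscreteValuationRing ↥O] (hπ : Function.Surjective π) [IsAlgClosed k]
  {N' q : ℕ} [NeZero N'] [hq : Fact q.Prime] [CharP k q] (hN' : (N' : k) ≠ 0)
  (W1 : T2iAL L N' q) (Fr : T2iFrob k N' q) (W : T4iAL L N' q)
  (hqO : Irreducible ((q : ℕ) : ↥O))
  {L' : Type*} [Field L'] [Algebra L L'] (O' : ValuationSubring L')
  [IsDiscreteValuationRing ↥O'] (π' : ↥O' →+* k) (C : T4iCyc O O' π π' q)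
  (M : T4iMid L L' N' q C.ζ) {Q : ℕ} (hQ : 2 ≤ Q)

attribute [local instance] t2iAlgebra t2i_isScalarTower

variable (P : T4Pres ↥(TaF L (N' * q * q))) {y : ↥(TaF L (N' * q * q))}
  (hvals : P.vals = t4vpHor L y ∪ t4vwVer O π hπ W O' π' C M)
  (hB : ∀ f : ↥(TaF L (N' * q * q)), f ∈ P.B ↔
    f ∈ t2Int (K := L) y ∧ f ∈ (t4vInput O π hπ hN' W1 Fr W hqO O' π' C M).Ov)

/-! ### The non-cuspidal case -/

omit [IsAlgClosed k] in
/-- `Φ² x̄ = x̄^(q²)` for `x̄ = j̄^Q - j̄` -/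
theorem t4rck_frob_X (k : Type*) [Field k] (q : ℕ) [hq : Fact q.Prime] [CharP k q] (Q : ℕ) :
    qExpand k q (qExpand k q (jqModC k ^ Q - jqModC k)) =
      (jqModC k ^ Q - jqModC k) ^ (q * q) := by
  haveI : CharP (LaurentSeries k) q :=
    charP_of_injective_algebraMap (algebraMap k (LaurentSeries k)).injective q
  have h1 : qExpand k q (qExpand k q (jqModC k)) = jqModC k ^ (q * q) := by
    rw [← t2i_jq_pow k q, map_pow, ← t2i_jq_pow k q, ← pow_mul]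
  rw [map_sub, map_sub, map_pow, map_pow, h1, ← pow_two, sub_pow_char_pow, ← pow_mul, ← pow_mul,
    mul_comm]

include hvals hB hQ in
/-- **(K2), non-cuspidal case**: `a2 f₀ ∈ B_𝔫` when `y = 1 / x ∉ 𝔫`, given that `a2 X'` is integral
over `L[x]` -/
theorem t4rck_a2_mem_loc_A (hy : y = (t4vX L N' q Q)⁻¹) (𝔫 : Ideal P.B) [h𝔫 : 𝔫.IsPrime]
    (h0 : t4vO0 O π hπ W ∈ P.through 𝔫)
    (hyn : ∃ hyB : y ∈ P.B, (⟨y, hyB⟩ : P.B) ∉ 𝔫)
    (hA : IsIntegral ↥(Algebra.adjoin L {t4vX L N' q Q}) (t4vA2 L N' q (t4vX' L N' Q)))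
    (f0 : ↥(taOv O π hπ N'))
    (hf0 : (f0 : ↥(TaF L N')) ∈ t2Int (K := L) (t4vX' L N' Q)⁻¹) :
    t4vA2 L N' q (f0 : ↥(TaF L N')) ∈ P.loc 𝔫 := by
  classical
  letI := P.isLocalRing_loc 𝔫
  obtain ⟨hyB, hy𝔫⟩ := hyn
  set I := t4vInput O π hπ hN' W1 Fr W hqO O' π' C M with hI
  have hx0 : t4vX L N' q Q ≠ 0 := t4rc_X_ne_zero hQ
  rw [t4vX_eq] at hy hA hx0
  set x : ↥(TaF L (N' * q * q)) := t4vA0 L N' q (t4vX' L N' Q) with hxdef
  set Y : ↥(TaF L (N' * q * q)) := t4vA2 L N' q (t4vX' L N' Q) with hYdef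
  have hX'G : TaGauss O π ((t4vX' L N' Q : ↥(TaF L N')) : LaurentSeries L) :=
    (mem_taOv_iff O π hπ N' _).mp (t4vX'_mem O π hπ)
  have hX'ρ : taRhoFun O π ((t4vX' L N' Q : ↥(TaF L N')) : LaurentSeries L) =
      jqModC k ^ Q - jqModC k := by
    have h2 := t4vX'_res (N' := N') (Q := Q) O π hπ
    rwa [taResN_eq_taRhoFun] at h2
  -- `x` is a unit of `B_𝔫`
  have hxl : x ∈ P.loc 𝔫 := by
    refine P.mem_loc_iff.mpr ⟨⟨y, hyB⟩, hy𝔫, ?_⟩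
    show y * x ∈ P.B
    rw [hy, inv_mul_cancel₀ hx0]
    exact P.B.one_mem
  have hxil : x⁻¹ ∈ P.loc 𝔫 := by
    rw [← hy]
    exact P.B_le_loc 𝔫 hyB
  have hxu : IsUnit (⟨x, hxl⟩ : ↥(P.loc 𝔫)) := (t4rc_isUnit_iff (P.loc 𝔫) hxl).mpr ⟨hx0, hxil⟩
  -- `Y ∈ B_𝔫`
  have hxOv : x ∈ I.Ov := t4v_a0_mem O π hπ hN' W1 Fr W hqO O' π' C M hX'G
  have hYOv : Y ∈ I.Ov := t4v_a2_mem O π hπ hN' W1 Fr W hqO O' π' C M hX'G
  have hOvloc : ∀ f : ↥(TaF L (N' * q * q)), f ∈ I.Ov →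
      ∀ V ∈ t4vwVer O π hπ W O' π' C M, f ∈ V := by
    intro f hf V hVv
    have hOv := (mem_t4vInput_Ov_iff O π hπ hN' W1 Fr W hqO O' π' C M _).mp hf
    rcases (mem_t4vwVer O π hπ W O' π' C M V).mp hVv with rfl | rfl | rfl
    · exact hOv.1
    · exact hOv.2.2
    · exact hOv.2.1
  have hYl : Y ∈ P.loc 𝔫 := by
    intro V hV
    have h1 : V ∈ P.vals := hV.1
    rw [hvals] at h1
    rcases h1 with hVh | hVv
    · exact t4rc_mem_of_isIntegral V (fun c => t4vp_algebraMap_mem_hor hVh c) (hxl V hV) hA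
    · exact hOvloc Y hYOv V hVv
  -- `Y^(q²) ≡ x` on `O_0`
  have hval : (t4vO0 O π hπ W).valuation (Y ^ (q * q) - x) < 1 := by
    have h := (t4vr_ρ₃_eq_iff O π hπ hN' W1 Fr W hqO O' π' C M (⟨Y, hYOv⟩ ^ (q * q))
      ⟨x, hxOv⟩).mp ?_
    · exact h
    · rw [map_pow, t4v_ρ₃_a2 O π hπ hN' W1 Fr W hqO O' π' C M hX'G,
        t4v_ρ₃_a0 O π hπ hN' W1 Fr W hqO O' π' C M hX'G, hX'ρ, t4rck_frob_X]
  have hwl : Y ^ (q * q) - x ∈ P.loc 𝔫 := sub_mem (pow_mem hYl _) hxl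
  have hwnu : ¬ IsUnit (⟨_, hwl⟩ : ↥(P.loc 𝔫)) := P.not_isUnit_of_valuation_lt h0 ⟨_, hwl⟩ hval
  -- `Y` is a unit of `B_𝔫`
  have hYu : IsUnit (⟨Y, hYl⟩ : ↥(P.loc 𝔫)) := by
    have h1 : (⟨Y, hYl⟩ : ↥(P.loc 𝔫)) ^ (q * q) = ⟨x, hxl⟩ + ⟨_, hwl⟩ := by
      apply Subtype.ext
      show Y ^ (q * q) = x + (Y ^ (q * q) - x)
      ring
    have h2 : IsUnit ((⟨Y, hYl⟩ : ↥(P.loc 𝔫)) ^ (q * q)) := by
      rw [h1]
      exact t4rc_isUnit_add _ hxu hwnu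
    have hqq : q * q ≠ 0 := Nat.mul_ne_zero hq.out.ne_zero hq.out.ne_zero
    exact (isUnit_pow_iff hqq).mp h2
  have hYi : Y⁻¹ ∈ P.loc 𝔫 := ((t4rc_isUnit_iff (P.loc 𝔫) hYl).mp hYu).2
  -- `a2 f₀` is integral over `L[1 / Y]`
  have hint : IsIntegral ↥(Algebra.adjoin L {Y⁻¹}) (t4vA2 L N' q (f0 : ↥(TaF L N'))) := by
    have h1 := t2d_isIntegral_map (RingHom.id L)
      (t4vA2 L N' q : ↥(TaF L N') →+* ↥(TaF L (N' * q * q)))
      (fun c => (t4vA2 L N' q).commutes c) (mem_t2Int.mp hf0)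
    have h2 : (t4vA2 L N' q : ↥(TaF L N') →+* ↥(TaF L (N' * q * q))) (t4vX' L N' Q)⁻¹ = Y⁻¹ := by
      show t4vA2 L N' q (t4vX' L N' Q)⁻¹ = _
      rw [map_inv₀]
    rw [h2] at h1
    exact h1
  intro V hV
  have h1 : V ∈ P.vals := hV.1
  rw [hvals] at h1
  rcases h1 with hVh | hVv
  · exact t4rc_mem_of_isIntegral V (fun c => t4vp_algebraMap_mem_hor hVh c) (hYi V hV) hint
  · exact hOvloc _ (t4v_a2_mem O π hπ hN' W1 Fr W hqO O' π' C M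
      ((mem_taOv_iff O π hπ N' _).mp f0.2)) V hVv

include hvals hB hQ in
/-- **(K2)**: `a2 f₀ ∈ B_𝔫` at every point `𝔫` of the chart `y = 1 / x` on `C_0`
(= `ha2` of `t4vm_smoothAt_zero`), given that `a2 X'` is integral over `L[x]` -/
theorem t4rck_K2 (hy : y = (t4vX L N' q Q)⁻¹) (𝔫 : Ideal P.B) [h𝔫 : 𝔫.IsPrime]
    (hA : IsIntegral ↥(Algebra.adjoin L {t4vX L N' q Q}) (t4vA2 L N' q (t4vX' L N' Q)))
    (h0 : t4vO0 O π hπ W ∈ P.through 𝔫) (f0 : ↥(taOv O π hπ N'))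
    (hf0 : (f0 : ↥(TaF L N')) ∈ t2Int (K := L) (t4vX' L N' Q)⁻¹) :
    t4vA2 L N' q (f0 : ↥(TaF L N')) ∈ P.loc 𝔫 := by
  have hyB : y ∈ P.B := by
    refine (hB _).mpr ⟨t2Int_self y, ?_⟩
    rw [hy]
    exact t4vX_inv_mem O π hπ hN' W1 Fr W hqO O' π' C M hQ
  by_cases hc : (⟨y, hyB⟩ : P.B) ∈ 𝔫
  · exact t4rck_a2_mem_loc O π hπ hN' W1 Fr W hqO O' π' C M hQ P hvals hB hy 𝔫 h0
      (fun _ => hc) f0 hf0
  · exact t4rck_a2_mem_loc_A O π hπ hN' W1 Fr W hqO O' π' C M hQ P hvals hB hy 𝔫 h0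
      ⟨hyB, hc⟩ hA f0 hf0

end Inst

end Fermat.Agent.T4
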