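/-
T4-R (helper9), (LI-3), inertia level: the fields `res'_B` and `gr` of helper6's level bundle
`T4rLev` for the base `t2iBaseFix 𝔓 H N hN` (level `N`, `𝔓.p ∤ N`), in "dictionary form"
(`b ∈ P'.B ↔ b integral over L[x] ∧ b ∈ 𝒪`), for both charts `x = j` and `x = j^Q - j`:

* `t4ri3_isIntegral_pow_sub`, `t4ri3_isIntegral_X_iff` : `IntCl(K[y^Q - y]) = IntCl(K[y])`;
* **`t4ri3_res_mem_j`, `t4ri3_res_mem_X`** (`res'_B`): the reduction of an element of `𝒪` integral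
  over `L[j]` (resp. `L[j^Q - j]`) lies in `R' = t2R (tbBarJ 𝔓 N)`;
* **`t4ri3_gr_j`, `t4ri3_gr_X`** (`gr`, `4 ∣ N ∨ 9 ∣ N`): every element of `R'` is such a reduction
  (= T2's good reduction `t2gr_GR1_j`).
-/
import Fermat.Agent.Lib.T2.Inst.GoodRedH
import Fermat.Agent.Lib.T4.Reg.LevInst3

set_option autoImplicit false
set_option linter.unusedSectionVars false
set_option linter.unusedVariables false
set_option linter.style.haveILetI false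
set_option synthInstance.maxHeartbeats 400000

open HahnSeries ModularCurve Fermat.Agent.TW Fermat.Agent.S05Lib AlgebraicCurve
  Fermat.Agent.Curve IntermediateField Fermat.Agent.T1 Fermat.Agent.T2 Polynomial

noncomputable section

namespace Fermat.Agent.T4

/-! ### `IntCl(K[y^Q - y]) = IntCl(K[y])` -/

section Chart

variable {K F : Type*} [Field K] [Field F] [Algebra K F]

/-- `y` is integral over `K[y^Q - y]` -/
theorem t4ri3_isIntegral_pow_sub (y : F) {Q : ℕ} (hQ : 2 ≤ Q) :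
    IsIntegral ↥(Algebra.adjoin K {y ^ Q - y}) y := by
  set a : ↥(Algebra.adjoin K {y ^ Q - y}) :=
    ⟨y ^ Q - y, Algebra.self_mem_adjoin_singleton K _⟩ with ha
  refine ⟨X ^ Q - (X + Polynomial.C a), Polynomial.monic_X_pow_sub ?_, ?_⟩
  · rw [Polynomial.degree_X_add_C]
    exact_mod_cast (by omega : 1 < Q)
  · rw [Polynomial.eval₂_sub, Polynomial.eval₂_pow, Polynomial.eval₂_X, Polynomial.eval₂_add,
      Polynomial.eval₂_X, Polynomial.eval₂_C]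
    show y ^ Q - (y + (y ^ Q - y)) = 0
    ring

theorem t4ri3_pow_sub_mem_adjoin (y : F) (Q : ℕ) : y ^ Q - y ∈ Algebra.adjoin K {y} :=
  Subalgebra.sub_mem _ (Subalgebra.pow_mem _ (Algebra.self_mem_adjoin_singleton K _) _)
    (Algebra.self_mem_adjoin_singleton K _)

/-- integrality over `K[y^Q - y]` is integrality over `K[y]` -/
theorem t4ri3_isIntegral_X_iff (y : F) {Q : ℕ} (hQ : 2 ≤ Q) (f : F) :
    IsIntegral ↥(Algebra.adjoin K {y ^ Q - y}) f ↔ IsIntegral ↥(Algebra.adjoin K {y}) f := by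
  have h := t2c_t2R_eq (k := K) (t4ri3_pow_sub_mem_adjoin (K := K) y Q)
    (t4ri3_isIntegral_pow_sub (K := K) y hQ)
  rw [← mem_t2R, ← mem_t2R, h]

end Chart

/-! ### `res'_B` and `gr` at the inertia level -/

section Fix

variable (𝔓 : FFPlace) (H : Subgroup 𝔓.I) [H.FiniteIndex] (N : ℕ) [NeZero N] (hN : ¬ 𝔓.p ∣ N)

/-- **`res'_B`, chart `j`** -/
theorem t4ri3_res_mem_j (f : ↥(tbLevF 𝔓 N H)) (hf : f ∈ (t2iBaseFix 𝔓 H N hN).Ov)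
    (hint : IsIntegral ↥(Algebra.adjoin ↥(tbFix 𝔓 H) {tbLevJ 𝔓 N H}) f) :
    (t2iBaseFix 𝔓 H N hN).res ⟨f, hf⟩ ∈
      t2R (k := IsLocalRing.ResidueField ↥𝔓.P) (tbBarJ 𝔓 N) := by
  have h := (t2grChartJ 𝔓 H N hN).int1 f hf hint
  rw [mem_t2R, ← t2grChartJ_xb 𝔓 H N hN]
  exact h

/-- **`res'_B`, chart `x = j^Q - j`** -/
theorem t4ri3_res_mem_X {Q : ℕ} (hQ : 2 ≤ Q) (f : ↥(tbLevF 𝔓 N H))
    (hf : f ∈ (t2iBaseFix 𝔓 H N hN).Ov)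
    (hint : IsIntegral ↥(Algebra.adjoin ↥(tbFix 𝔓 H) {tbLevJ 𝔓 N H ^ Q - tbLevJ 𝔓 N H}) f) :
    (t2iBaseFix 𝔓 H N hN).res ⟨f, hf⟩ ∈
      t2R (k := IsLocalRing.ResidueField ↥𝔓.P) (tbBarJ 𝔓 N) :=
  t4ri3_res_mem_j 𝔓 H N hN f hf ((t4ri3_isIntegral_X_iff _ hQ f).mp hint)

variable (h49 : 4 ∣ N ∨ 9 ∣ N)

include h49 in
/-- **`gr`, chart `j`** -/
theorem t4ri3_gr_j {t : ↥(tbBarF 𝔓 N)}
    (ht : t ∈ t2R (k := IsLocalRing.ResidueField ↥𝔓.P) (tbBarJ 𝔓 N)) :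
    ∃ f, ∃ hf : f ∈ (t2iBaseFix 𝔓 H N hN).Ov,
      IsIntegral ↥(Algebra.adjoin ↥(tbFix 𝔓 H) {tbLevJ 𝔓 N H}) f ∧
        (t2iBaseFix 𝔓 H N hN).res ⟨f, hf⟩ = t :=
  t2gr_GR1_j 𝔓 H N hN h49 ht

include h49 in
/-- **`gr`, chart `x = j^Q - j`** -/
theorem t4ri3_gr_X {Q : ℕ} (hQ : 2 ≤ Q) {t : ↥(tbBarF 𝔓 N)}
    (ht : t ∈ t2R (k := IsLocalRing.ResidueField ↥𝔓.P) (tbBarJ 𝔓 N)) :
    ∃ f, ∃ hf : f ∈ (t2iBaseFix 𝔓 H N hN).Ov,
      IsIntegral ↥(Algebra.adjoin ↥(tbFix 𝔓 H) {tbLevJ 𝔓 N H ^ Q - tbLevJ 𝔓 N H}) f ∧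
        (t2iBaseFix 𝔓 H N hN).res ⟨f, hf⟩ = t := by
  obtain ⟨f, hf, hint, hres⟩ := t2gr_GR1_j 𝔓 H N hN h49 ht
  exact ⟨f, hf, (t4ri3_isIntegral_X_iff _ hQ f).mpr hint, hres⟩

end Fix

end Fermat.Agent.T4
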