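/-
T4-R (helper7): the REG1 level bundle `T4rLev` at a DVR level — **(LI-1), level-`N'` half: the chart
presentation `P'` of level `N'`** (chart `X = j^Q - j`, `2 ≤ Q`, one vertical valuation ring
`V' = taOv O π hπ N'`), built with helper8's `t4vpChart`.

Generic `(L, O, π, k)` with uniformiser `q`; the only hypothesis which is not available generically is
`hgen : IsFunctionFieldGen L F' X` (at the inertia level: `t4vc_gen_X_level`).

* `t4ri1X L N' Q = j^Q - j`, `t4ri1_dvr` (the Gauss valuation ring of any level is a DVR),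
  `t4ri1_valuation_q`, `t4ri1_tr`;
* `t4ri1Pres … hgen : T4Pres F'` with `mem_t4ri1Pres_B : f ∈ P'.B ↔ f ∈ t2Int X ∧ f ∈ V'`,
  `t4ri1Pres_vals`, **`t4ri1_V'_mem`**, **`t4ri1_vert'`**, **`t4ri1_O_mem`**, **`t4ri1_j'_mem`**;
* `t4ri1_fin : ∃ e, T2Fin (t2iBase O π hπ N' hN') X e`, **`t4ri1_noeth'`**, **`t4ri1_ft'`**.
-/
import Fermat.Agent.Lib.T4.Inst.PresInst
import Fermat.Agent.Lib.T4.Inst.PresNoeth
import Fermat.Agent.Lib.T4.Inst.ChartInt
import Fermat.Agent.Lib.T4.Reg.LevInstRed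
import Fermat.Agent.Lib.T4.Reg.LevInst3H

set_option autoImplicit false
set_option linter.unusedSectionVars false
set_option linter.unusedVariables false
set_option linter.style.haveILetI false
set_option synthInstance.maxHeartbeats 400000

open HahnSeries ModularCurve Fermat.Agent.T1 Fermat.Agent.T2 IntermediateField
  Fermat.Agent.Curve

noncomputable section

namespace Fermat.Agent.T4

theorem t4ri1_xbar_transcendental (k : Type*) [Field k] {Q : ℕ} (hQ : 2 ≤ Q) :
    Transcendental k (jqModC k ^ Q - jqModC k) := by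
  have h1 := Fermat.Agent.Igusa.transcendental_jqModC k
  have h2 : jqModC k ^ Q - jqModC k =
      Polynomial.aeval (jqModC k) ((Polynomial.X : Polynomial k) ^ Q - Polynomial.X) := by
    simp
  rw [h2]
  have hdeg : ((Polynomial.X : Polynomial k) ^ Q - Polynomial.X).natDegree = Q := by
    rw [Polynomial.natDegree_sub_eq_left_of_natDegree_lt]
    · exact Polynomial.natDegree_X_pow Q
    · rw [Polynomial.natDegree_X_pow, Polynomial.natDegree_X]
      omega
  have hlc : ((Polynomial.X : Polynomial k) ^ Q - Polynomial.X).leadingCoeff = 1 := by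
    have hm : ((Polynomial.X : Polynomial k) ^ Q - Polynomial.X).Monic :=
      Polynomial.monic_X_pow_sub (by
        rw [Polynomial.degree_X]
        exact_mod_cast (by omega : 1 < Q))
    exact hm
  refine h1.aeval _ (by rw [hdeg]; omega) ?_
  rw [hlc]
  exact one_mem _

variable {L : Type*} [Field L] [Algebra ℚ L] (O : ValuationSubring L) {k : Type*} [Field k]
  (π : ↥O →+* k) [IsDiscreteValuationRing ↥O] (hπ : Function.Surjective π) [IsAlgClosed k]
  {N' q : ℕ} [NeZero N'] [hq : Fact q.Prime] [CharP k q] (hN' : (N' : k) ≠ 0)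
  (hqO : Irreducible ((q : ℕ) : ↥O))

/-! ### The Gauss valuation ring of level `N` is a discrete valuation ring -/

section Dvr

variable (N : ℕ) [NeZero N]

theorem t4ri1_q_ne_zero : ((q : ℕ) : ↥(TaF L N)) ≠ 0 := by
  haveI := t4ri_char0 L
  haveI : CharZero ↥(TaF L N) :=
    charZero_of_injective_algebraMap (algebraMap L ↥(TaF L N)).injective
  exact Nat.cast_ne_zero.mpr hq.out.ne_zero

theorem t4ri1_taResN_q :
    taResN O π hπ N ⟨((q : ℕ) : ↥(TaF L N)), t4rir_q_mem O π hπ N⟩ = 0 := by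
  have h1 : (⟨((q : ℕ) : ↥(TaF L N)), t4rir_q_mem O π hπ N⟩ : ↥(taOv O π hπ N)) =
      ⟨algebraMap L ↥(TaF L N) ((((q : ℕ) : ↥O) : ↥O) : L), algebraMap_mem_taOv O π hπ N _⟩ :=
    Subtype.ext (t4rir_algebraMap_q O N).symm
  rw [h1, taResN_algebraMap, map_natCast, CharP.cast_eq_zero, map_zero]

theorem t4ri1_q_inv_notMem : (((q : ℕ) : ↥(TaF L N)))⁻¹ ∉ taOv O π hπ N := by
  intro h
  have h1 : (⟨((q : ℕ) : ↥(TaF L N)), t4rir_q_mem O π hπ N⟩ : ↥(taOv O π hπ N)) * ⟨_, h⟩ = 1 :=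
    Subtype.ext (mul_inv_cancel₀ (t4ri1_q_ne_zero N))
  have h2 := congrArg (taResN O π hπ N) h1
  rw [map_mul, map_one, t4ri1_taResN_q, zero_mul] at h2
  exact zero_ne_one h2

include hqO in
/-- the Gauss valuation ring of level `N` is a discrete valuation ring -/
theorem t4ri1_dvr : IsDiscreteValuationRing ↥(taOv O π hπ N) := by
  refine t4vs_dvr_of_decomp _ (t4rir_q_mem O π hπ N) (t4ri1_q_inv_notMem O π hπ N) ?_
  intro f hf
  obtain ⟨n, u, hu, hui, e⟩ := ta_exists_zpow_mul_unitN O π hπ N hqO f hf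
  exact ⟨n, u, hu, hui, by rw [e, t4rir_algebraMap_q]⟩

theorem t4ri1_valuation_q :
    (taOv O π hπ N).valuation (algebraMap L ↥(TaF L N) ((q : ℕ) : L)) < 1 := by
  rw [map_natCast]
  exact t4vs_valuation_lt_one _ (t4rir_q_mem O π hπ N) (t4ri1_q_inv_notMem O π hπ N)

/-- **(tr)** at the Gauss valuation of level `N` -/
theorem t4ri1_tr (y : ↥(TaF L N)) (hy : TaGauss O π (y : LaurentSeries L))
    (ht : Transcendental k (taRhoFun O π (y : LaurentSeries L)))
    (P : Polynomial L) (hP : ∀ n, P.coeff n ∈ O) (hu : ∃ n, O.valuation (P.coeff n) = 1) :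
    ∀ V ∈ ({taOv O π hπ N} : Set (ValuationSubring ↥(TaF L N))),
      V.valuation (Polynomial.aeval y P) = 1 := by
  intro V hV
  rw [Set.mem_singleton_iff] at hV
  subst hV
  obtain ⟨a0, a1, a2⟩ := t4vw_tr_one O π O π (RingHom.id L) (fun a => a.2) (fun a => rfl)
    (algebraMap ↥(TaF L N) (LaurentSeries L))
    (fun c => coe_algebraMap_taF (N := N) c) y hy ht P hP hu
  have hne : Polynomial.aeval y P ≠ 0 := fun h0 => a0 (by rw [h0, map_zero])
  refine t4vs_valuation_unit _ hne a1 ?_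
  show TaGauss O π (((Polynomial.aeval y P)⁻¹ : ↥(TaF L N)) : LaurentSeries L)
  have : (((Polynomial.aeval y P)⁻¹ : ↥(TaF L N)) : LaurentSeries L) =
      (algebraMap ↥(TaF L N) (LaurentSeries L) (Polynomial.aeval y P))⁻¹ :=
    map_inv₀ (algebraMap ↥(TaF L N) (LaurentSeries L)) _
  rw [this]
  exact a2

/-- the Chinese remainder theorem for a single valuation ring -/
theorem t4ri1_crt (V₀ : ValuationSubring ↥(TaF L N)) (c : ↥(TaF L N)) :
    ∀ V ∈ ({V₀} : Set (ValuationSubring ↥(TaF L N))), ∀ n : ℕ, ∃ e : ↥(TaF L N),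
      (∀ V' ∈ ({V₀} : Set (ValuationSubring ↥(TaF L N))), e ∈ V') ∧ V.valuation e = 1 ∧
      ∀ V' ∈ ({V₀} : Set (ValuationSubring ↥(TaF L N))), V' ≠ V →
        V'.valuation e ≤ V'.valuation c ^ n := by
  intro V hV n
  rw [Set.mem_singleton_iff] at hV
  subst hV
  refine ⟨1, fun V' _ => V'.one_mem, map_one _, fun V' hV' hne => ?_⟩
  rw [Set.mem_singleton_iff] at hV'
  exact absurd hV' hne

end Dvr

/-! ### The chart `X = j^Q - j` of level `N'` -/

variable (L N') in
/-- the chart coordinate `X = j^Q - j` of level `N'` -/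
def t4ri1X (Q : ℕ) : ↥(TaF L N') := taJ (L := L) N' ^ Q - taJ N'

variable {Q : ℕ}

theorem t4ri1X_mem : t4ri1X L N' Q ∈ taOv O π hπ N' :=
  sub_mem (pow_mem (taJ_mem_taOv O π hπ N') Q) (taJ_mem_taOv O π hπ N')

theorem t4ri1_taResN_X :
    taResN O π hπ N' ⟨t4ri1X L N' Q, t4ri1X_mem O π hπ⟩ = jqModC k ^ Q - jqModC k := by
  have h1 : (⟨t4ri1X L N' Q, t4ri1X_mem O π hπ⟩ : ↥(taOv O π hπ N')) =
      ⟨taJ N', taJ_mem_taOv O π hπ N'⟩ ^ Q - ⟨taJ N', taJ_mem_taOv O π hπ N'⟩ := rfl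
  rw [h1, map_sub, map_pow, taResN_taJ]

variable (hQ : 2 ≤ Q) (hgen : IsFunctionFieldGen L ↥(TaF L N') (t4ri1X L N' Q))

include hgen in
theorem t4ri1_isSeparable : Algebra.IsSeparable ↥L⟮t4ri1X L N' Q⟯ ↥(TaF L N') := by
  haveI := hgen.finite
  haveI : CharZero L := t4ri_char0 L
  exact Algebra.IsAlgebraic.isSeparable_of_perfectField

include hQ hqO in
/-- **the chart presentation `P'` of level `N'`**: `B = IntCl(L[X]) ∩ V'` -/
def t4ri1Pres : T4Pres ↥(TaF L N') :=
  haveI := t4ri1_isSeparable hgen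
  (t4vpChart hgen O ((q : ℕ) : L) (t4rir_q_ne_zero L q)
    ({taOv O π hπ N'} : Set (ValuationSubring ↥(TaF L N'))) (Set.finite_singleton _)
    (fun V hV => by
      rw [Set.mem_singleton_iff] at hV
      subst hV
      exact t4ri1_dvr O π hπ hqO N')
    (fun V hV => by
      rw [Set.mem_singleton_iff] at hV
      subst hV
      exact t4ri1_valuation_q O π hπ N')
    (t4ri1_crt N' (taOv O π hπ N') _)
    (t4ri1_tr O π hπ N' (t4ri1X L N' Q) (t4ri1X_mem O π hπ)
      (by
        have h : taRhoFun O π ((t4ri1X L N' Q : ↥(TaF L N')) : LaurentSeries L) =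
            jqModC k ^ Q - jqModC k := t4ri1_taResN_X (Q := Q) O π hπ
        rw [h]
        exact t4ri1_xbar_transcendental k hQ))).pres

theorem t4ri1Pres_vals :
    (t4ri1Pres O π hπ hqO hQ hgen).vals =
      t4vpHor L (t4ri1X L N' Q) ∪ {taOv O π hπ N'} := rfl

/-- `B' = IntCl(L[X]) ∩ V'` -/
theorem mem_t4ri1Pres_B (f : ↥(TaF L N')) :
    f ∈ (t4ri1Pres O π hπ hqO hQ hgen).B ↔
      f ∈ t2Int (K := L) (t4ri1X L N' Q) ∧ f ∈ taOv O π hπ N' := by
  haveI := t4ri1_isSeparable hgen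
  unfold t4ri1Pres
  rw [mem_t4vpChart_B]
  constructor
  · rintro ⟨h1, h2⟩
    exact ⟨h1, h2 _ rfl⟩
  · rintro ⟨h1, h2⟩
    refine ⟨h1, fun V hV => ?_⟩
    rw [Set.mem_singleton_iff] at hV
    rw [hV]
    exact h2

/-- **`V'_mem`** -/
theorem t4ri1_V'_mem : taOv O π hπ N' ∈ (t4ri1Pres O π hπ hqO hQ hgen).vals := by
  rw [t4ri1Pres_vals]
  exact Or.inr rfl

/-- **`vert'`** -/
theorem t4ri1_vert' (V : ValuationSubring ↥(TaF L N'))
    (hV : V ∈ (t4ri1Pres O π hπ hqO hQ hgen).vals)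
    (hVq : V.valuation ((q : ℕ) : ↥(TaF L N')) < 1) : V = taOv O π hπ N' := by
  rw [t4ri1Pres_vals] at hV
  rcases hV with hV | hV
  · exfalso
    have h1 := t4vp_valuation_const hV (t4rir_q_ne_zero L q)
    rw [map_natCast] at h1
    exact hVq.ne h1
  · exact hV

/-- **`O_mem`** -/
theorem t4ri1_O_mem (c : L) (hc : c ∈ O.toSubring) :
    algebraMap L ↥(TaF L N') c ∈ (t4ri1Pres O π hπ hqO hQ hgen).B := by
  rw [mem_t4ri1Pres_B]
  refine ⟨?_, algebraMap_mem_taOv O π hπ N' ⟨c, hc⟩⟩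
  show IsIntegral ↥(Algebra.adjoin L {t4ri1X L N' Q}) (algebraMap L ↥(TaF L N') c)
  exact isIntegral_algebraMap (R := ↥(Algebra.adjoin L {t4ri1X L N' Q})) (A := ↥(TaF L N'))
    (x := algebraMap L ↥(Algebra.adjoin L {t4ri1X L N' Q}) c)

/-- **`j'_mem`** -/
theorem t4ri1_j'_mem : taJ (L := L) N' ∈ (t4ri1Pres O π hπ hqO hQ hgen).B := by
  rw [mem_t4ri1Pres_B]
  refine ⟨?_, taJ_mem_taOv O π hπ N'⟩
  exact t4ri3_isIntegral_pow_sub (K := L) (taJ (L := L) N') hQ

/-! ### Finiteness: `noeth'` and `ft'` -/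

include hN' hqO hQ hgen in
/-- **finiteness of the chart ring of level `N'`** over `O[X]` -/
theorem t4ri1_fin : ∃ e : ℕ, T2Fin (t2iBase O π hπ N' hN') (t4ri1X L N' Q) e := by
  haveI : IsDiscreteValuationRing ↥(t2iBase O π hπ N' hN').A :=
    (inferInstance : IsDiscreteValuationRing ↥O)
  let Ch : T2sChart (t2iBase O π hπ N' hN') :=
    { x := t4ri1X L N' Q
      tr := hgen.transcendental
      mem := t4ri1X_mem O π hπ
      trρ := by
        rw [← transcendental_algebraMap_iff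
          (algebraMap ↥(modularFunctionFieldFullC k N') (LaurentSeries k)).injective]
        show Transcendental k (taResN O π hπ N' ⟨t4ri1X L N' Q, t4ri1X_mem O π hπ⟩)
        rw [t4ri1_taResN_X]
        exact t4ri1_xbar_transcendental k hQ
      ϖ := ((q : ℕ) : ↥O)
      irr := hqO }
  haveI : FiniteDimensional ↥(L⟮Ch.x⟯) ↥(TaF L N') := hgen.finite
  haveI : Algebra.IsSeparable ↥(L⟮Ch.x⟯) ↥(TaF L N') := t4ri1_isSeparable hgen
  refine t4vc_fin Ch ?_ ?_ ?_
  · intro f hf hint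
    exact t4vc_int_level_X O π hπ N' hN' hQ hf hint
  · intro f hf
    refine ta_mem_of_isIntegral (taOv O π hπ N') ?_ hf
    rintro ⟨r, hr⟩
    show r ∈ taOv O π hπ N'
    induction hr using Algebra.adjoin_induction with
    | mem y hy =>
      rw [Set.mem_singleton_iff] at hy
      rw [hy]
      exact t4ri1X_mem O π hπ
    | algebraMap a => exact algebraMap_mem_taOv O π hπ N' a
    | add y z _ _ hy hz => exact (taOv O π hπ N').add_mem _ _ hy hz
    | mul y z _ _ hy hz => exact (taOv O π hπ N').mul_mem _ _ hy hz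
  · intro h0
    have h0' : t4ri1X L N' Q = 0 := h0
    exact hgen.transcendental (h0' ▸ isAlgebraic_zero)

include hN' in
/-- **`noeth'`** -/
theorem t4ri1_noeth' : IsNoetherianRing ↥(t4ri1Pres O π hπ hqO hQ hgen).B := by
  obtain ⟨e, he⟩ := t4ri1_fin O π hπ hN' hqO hQ hgen
  haveI : IsNoetherianRing ↥(t2iBase O π hπ N' hN').A :=
    (inferInstance : IsNoetherianRing ↥O)
  exact t4vq_isNoetherianRing (t2iBase O π hπ N' hN') he (t4ri1X_mem O π hπ) _
    (mem_t4ri1Pres_B O π hπ hqO hQ hgen)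

include hN' in
/-- **`ft'`**: `P'.B` is generated as a ring by the image of `O` and finitely many elements -/
theorem t4ri1_ft' : ∃ s : Finset ↥(TaF L N'),
    (∀ x ∈ s, x ∈ (t4ri1Pres O π hπ hqO hQ hgen).B) ∧
    ∀ b ∈ (t4ri1Pres O π hπ hqO hQ hgen).B,
      b ∈ Subring.closure (((O.toSubring.map (algebraMap L ↥(TaF L N')) :
        Subring ↥(TaF L N')) : Set ↥(TaF L N')) ∪ ↑s) := by
  classical
  obtain ⟨e, S, hS, hgenS⟩ := t4ri1_fin O π hπ hN' hqO hQ hgen
  refine ⟨insert (t4ri1X L N' Q) S, ?_, ?_⟩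
  · intro x hx
    rw [Finset.mem_insert] at hx
    rw [mem_t4ri1Pres_B]
    rcases hx with rfl | hx
    · exact ⟨t2Int_self _, t4ri1X_mem O π hπ⟩
    · exact (hS x hx).1
  · intro b hb
    rw [mem_t4ri1Pres_B] at hb
    obtain ⟨c, hc⟩ := hgenS b hb
    set T : Subring ↥(TaF L N') := Subring.closure
      (((O.toSubring.map (algebraMap L ↥(TaF L N')) : Subring ↥(TaF L N')) :
        Set ↥(TaF L N')) ∪ ↑(insert (t4ri1X L N' Q) S)) with hT
    have hO : ∀ a : ↥O, algebraMap L ↥(TaF L N') (a : L) ∈ T := fun a =>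
      Subring.subset_closure (Or.inl ⟨(a : L), a.2, rfl⟩)
    have hX : t4ri1X L N' Q ∈ T :=
      Subring.subset_closure (Or.inr (Finset.mem_coe.mpr (Finset.mem_insert_self _ _)))
    have hSm : ∀ s ∈ S, s ∈ T := fun s hs =>
      Subring.subset_closure (Or.inr (Finset.mem_coe.mpr (Finset.mem_insert_of_mem hs)))
    have heval : ∀ p : Polynomial ↥O,
        (t2iBase O π hπ N' hN').evalA (t4ri1X L N' Q) p ∈ T := by
      intro p
      rw [T2Base.evalA, Polynomial.eval₂_eq_sum_range]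
      exact Subring.sum_mem T (fun i _ => T.mul_mem (hO _) (T.pow_mem hX i))
    rw [hc]
    exact Subring.sum_mem T (fun s hs => T.mul_mem (heval _) (hSm s hs))

end Fermat.Agent.T4
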