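/-
T4-R (helper7): the REG1 level bundle `T4rLev` (helper6's `LevDefs.lean`) at a DVR level —
**(LI-2): the reduction tables `N' → N' q`**.

Generic setting of `Lib/T2/Inst/ChartH.lean`: `(L, O, π, k)` a DVR level with uniformiser `q` (the
residue characteristic), `N'` invertible in `k`, `F' = TaF L N'`, `F1 = TaF L (N' * q)`,
`α = heckeAlphaBar L N' q`, `β = heckeBetaBar L N' q`, `V' = taOv O π hπ N'`,
`Vinf = taOv O π hπ (N' * q)`, `V0 = Vinf.comap W1.w`, `E = modularFunctionFieldFullC k N'`.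

* base ring: `t4ri_char0`, `t4ri_frac_O`, `t4ri_nat_inv`, `t4ri_charE`;
* level `N'`: `res' := t2iRes O π hπ N' hN'`, `t4ri_ker'`, `t4ri_unit'`, `t4ri_res'_O`
  (`res'_surj = t2iRes_surjective`);
* **`t4rir_taResN_mem`**: the residue map of `Vinf` takes values in `E` (on ALL of `Vinf`);
  `t4riRhoInf : ↥Vinf →+* E`, `t4riRho0 : ↥V0 →+* E`, `t4ri_ker_inf/_ker_0/_unit_inf/_unit_0`;
* `t4ri_α_inf/_α_0/_β_inf/_β_0` and the table `t4ri_ρinf_α = res'`, `t4ri_ρ0_α = Φ ∘ res'`,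
  `t4ri_ρinf_β = Φ ∘ res'`, `t4ri_ρ0_β = res'` (`Φ = t2fePhi k q N'`);
* `t4ri_fin1`, `t4ri_deg1`.
-/
import Fermat.Agent.Lib.T2.Inst.ChartH
import Fermat.Agent.Lib.T2.Inst.FrobE

set_option autoImplicit false
set_option linter.unusedSectionVars false
set_option linter.unusedVariables false
set_option linter.style.haveILetI false
set_option synthInstance.maxHeartbeats 400000

open HahnSeries ModularCurve Fermat.Agent.T1 Fermat.Agent.T2 IntermediateField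

noncomputable section

namespace Fermat.Agent.T4

variable {L : Type*} [Field L] [Algebra ℚ L] (O : ValuationSubring L) {k : Type*} [Field k]
  (π : ↥O →+* k) [IsDiscreteValuationRing ↥O] (hπ : Function.Surjective π) [IsAlgClosed k]
  {N' q : ℕ} [NeZero N'] [hq : Fact q.Prime] [CharP k q] (hN' : (N' : k) ≠ 0)
  (W1 : T2iAL L N' q) (Fr : T2iFrob k N' q)
  (hqO : Irreducible ((q : ℕ) : ↥O))

attribute [local instance] t2iAlgebra t2i_isScalarTower

/-! ### The base ring -/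

variable (L) in
theorem t4ri_char0 : CharZero L := algebraRat.charZero L

variable (L q) in
theorem t4rir_q_ne_zero : ((q : ℕ) : L) ≠ 0 := by
  haveI := t4ri_char0 L
  exact Nat.cast_ne_zero.mpr hq.out.ne_zero

include hqO in
/-- every element of `L` becomes integral after multiplication with a power of `q` -/
theorem t4ri_frac_O (c : L) : ∃ n : ℕ, ((q : ℕ) : L) ^ n * c ∈ O := by
  by_cases hc : c ∈ O
  · exact ⟨0, by rwa [pow_zero, one_mul]⟩
  have hc0 : c ≠ 0 := fun h => hc (h ▸ O.zero_mem)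
  have hinv : c⁻¹ ∈ O := (O.mem_or_inv_mem c).resolve_left hc
  have hx0 : (⟨c⁻¹, hinv⟩ : ↥O) ≠ 0 := fun h => inv_ne_zero hc0 (congrArg Subtype.val h)
  obtain ⟨n, hn⟩ := IsDiscreteValuationRing.associated_pow_irreducible hx0 hqO
  obtain ⟨u, hu⟩ := hn
  refine ⟨n, ?_⟩
  have h1 : c⁻¹ * ((u : ↥O) : L) = ((q : ℕ) : L) ^ n := by
    have := congrArg Subtype.val hu
    simpa using this
  rw [← h1, mul_comm c⁻¹, mul_assoc, inv_mul_cancel₀ hc0, mul_one]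
  exact (u : ↥O).2

include hπ in
/-- the integers prime to `q` are units of `O` -/
theorem t4ri_nat_inv (m : ℕ) (hm : ¬ q ∣ m) : ((m : L))⁻¹ ∈ O := by
  have h1 : π ((m : ℕ) : ↥O) ≠ 0 := by
    rw [map_natCast]
    intro h0
    exact hm ((CharP.cast_eq_zero_iff k q m).mp h0)
  have hmax : (RingHom.ker π).IsMaximal := RingHom.ker_isMaximal_of_surjective π hπ
  have h2 : ((m : ℕ) : ↥O) ∉ IsLocalRing.maximalIdeal ↥O := by
    rw [← IsLocalRing.eq_maximalIdeal hmax, RingHom.mem_ker]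
    exact h1
  rw [IsLocalRing.mem_maximalIdeal, mem_nonunits_iff, not_not] at h2
  obtain ⟨u, hu⟩ := isUnit_iff_exists_inv.mp h2
  have h3 : ((m : ℕ) : L) * ((u : ↥O) : L) = 1 := by
    have := congrArg Subtype.val hu
    simpa using this
  have h4 : ((m : ℕ) : L)⁻¹ = ((u : ↥O) : L) := inv_eq_of_mul_eq_one_right h3
  rw [h4]
  exact u.2

variable (k N' q) in
theorem t4ri_charE : CharP ↥(modularFunctionFieldFullC k N') q :=
  charP_of_injective_algebraMap (algebraMap k ↥(modularFunctionFieldFullC k N')).injective q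

/-! ### The uniformiser `q` at a level `N` -/

theorem t4rir_algebraMap_q (N : ℕ) [NeZero N] :
    algebraMap L ↥(TaF L N) ((((q : ℕ) : ↥O) : ↥O) : L) = ((q : ℕ) : ↥(TaF L N)) := by
  have h1 : ((((q : ℕ) : ↥O) : ↥O) : L) = ((q : ℕ) : L) := by push_cast; rfl
  rw [h1, map_natCast]

include hqO in
/-- the kernel of the residue map is generated by `q` -/
theorem t4rir_ker (N : ℕ) [NeZero N] (x : ↥(taOv O π hπ N)) (hx : taResN O π hπ N x = 0) :
    ∃ y : ↥(taOv O π hπ N), (x : ↥(TaF L N)) = ((q : ℕ) : ↥(TaF L N)) * (y : ↥(TaF L N)) := by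
  obtain ⟨y, hy⟩ := (taResN_eq_zero_iff O π hπ N hqO x).mp hx
  exact ⟨y, by rw [hy, t4rir_algebraMap_q]⟩

include hqO in
theorem t4rir_taResN_q_mul (N : ℕ) [NeZero N] (y : ↥(TaF L N)) (hy : y ∈ taOv O π hπ N)
    (h : ((q : ℕ) : ↥(TaF L N)) * y ∈ taOv O π hπ N) :
    taResN O π hπ N ⟨((q : ℕ) : ↥(TaF L N)) * y, h⟩ = 0 := by
  rw [taResN_eq_zero_iff O π hπ N hqO]
  exact ⟨⟨y, hy⟩, by rw [t4rir_algebraMap_q]⟩

theorem t4rir_q_mem (N : ℕ) [NeZero N] : ((q : ℕ) : ↥(TaF L N)) ∈ taOv O π hπ N := by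
  rw [← t4rir_algebraMap_q O]
  exact algebraMap_mem_taOv O π hπ N _

include hqO in
/-- every element of `F_N` becomes Gauss-integral after multiplication with a power of `q` -/
theorem t4rir_exists_pow_mul_mem (N : ℕ) [NeZero N] (f : ↥(TaF L N)) :
    ∃ m : ℕ, ((q : ℕ) : ↥(TaF L N)) ^ m * f ∈ taOv O π hπ N := by
  rcases eq_or_ne f 0 with rfl | hf0
  · exact ⟨0, by rw [mul_zero]; exact (taOv O π hπ N).zero_mem⟩
  obtain ⟨n, u, hu, -, hfu⟩ := ta_exists_zpow_mul_unitN O π hπ N hqO f hf0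
  rw [t4rir_algebraMap_q] at hfu
  have hq0 : ((q : ℕ) : ↥(TaF L N)) ≠ 0 := by
    rw [← t4rir_algebraMap_q O]
    intro h0
    rw [map_eq_zero] at h0
    exact hqO.ne_zero (Subtype.ext h0)
  refine ⟨(-n).toNat, ?_⟩
  have h1 : ((q : ℕ) : ↥(TaF L N)) ^ (-n).toNat * f =
      ((q : ℕ) : ↥(TaF L N)) ^ (((-n).toNat : ℤ) + n).toNat * u := by
    have hnn : (0 : ℤ) ≤ ((-n).toNat : ℤ) + n := by
      have := Int.self_le_toNat (-n)
      omega
    rw [hfu, ← mul_assoc, ← zpow_natCast, ← zpow_add₀ hq0, ← zpow_natCast,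
      Int.toNat_of_nonneg hnn]
  rw [h1]
  exact (taOv O π hπ N).mul_mem _ _ (pow_mem (t4rir_q_mem O π hπ N) _) hu

/-! ### Level `N'` -/

include hqO in
theorem t4ri_ker' (x : ↥(taOv O π hπ N')) (hx : t2iRes O π hπ N' hN' x = 0) :
    ∃ y : ↥(taOv O π hπ N'), (x : ↥(TaF L N')) = ((q : ℕ) : ↥(TaF L N')) * (y : ↥(TaF L N')) := by
  apply t4rir_ker O π hπ hqO N' x
  have := congrArg (Subtype.val : ↥(modularFunctionFieldFullC k N') → LaurentSeries k) hx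
  rwa [coe_t2iRes] at this

theorem t4ri_unit' (x : ↥(taOv O π hπ N')) (hx : t2iRes O π hπ N' hN' x ≠ 0) :
    ((x : ↥(TaF L N')))⁻¹ ∈ taOv O π hπ N' := by
  apply inv_mem_taOv_of_taResN_ne_zero O π hπ N' x
  intro h0
  apply hx
  apply Subtype.ext
  rw [coe_t2iRes, h0]
  rfl

theorem t4ri_res'_O (c : ↥O) (h : algebraMap L ↥(TaF L N') (c : L) ∈ taOv O π hπ N') :
    t2iRes O π hπ N' hN' ⟨algebraMap L ↥(TaF L N') (c : L), h⟩ =
      algebraMap k ↥(modularFunctionFieldFullC k N') (π c) :=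
  (t2iBase O π hπ N' hN').res_algebraMap c

/-! ### The residue maps of level `N' q` take values in `E` -/

include hN' W1 Fr hqO in
/-- **the residue map of the Gauss valuation ring of level `N' q` takes values in
`E = k(j̄(q^d) : d ∣ N')`** (on all of `Vinf`, not only on `𝒪 = Vinf ∩ V0`) -/
theorem t4rir_taResN_mem (f : ↥(taOv O π hπ (N' * q))) :
    taResN O π hπ (N' * q) f ∈ modularFunctionFieldFullC k N' := by
  set I := t2iInput O π hπ hN' W1 Fr with hI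
  -- `ε` with residues `(1, 0)`
  have hε : t2iEps (L := L) (N' := N') (q := q) ∈ (t2iBase2 O π hπ hN' W1 Fr).Ov :=
    t2i_Eps_mem O π hπ hN' W1 Fr
  have hres := t2i_res_Eps O π hπ hN' W1 Fr
  have hε1 : taResN O π hπ (N' * q) ⟨t2iEps (L := L) (N' := N') (q := q), hε.1⟩ = 1 := by
    have := congrArg (fun p : ↥(modularFunctionFieldFullC k N') × ↥(modularFunctionFieldFullC k N') =>
      ((p.1 : ↥(modularFunctionFieldFullC k N')) : LaurentSeries k)) hres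
    simpa [t2i_coe_res_fst] using this
  have hε2 : taResN O π hπ (N' * q) ⟨W1.w (t2iEps (L := L) (N' := N') (q := q)), hε.2⟩ = 0 := by
    have := congrArg (fun p : ↥(modularFunctionFieldFullC k N') × ↥(modularFunctionFieldFullC k N') =>
      ((p.2 : ↥(modularFunctionFieldFullC k N')) : LaurentSeries k)) hres
    simpa [t2i_coe_res_snd] using this
  obtain ⟨e', he'⟩ := t4rir_ker O π hπ hqO (N' * q) _ hε2
  have he'' : W1.w (t2iEps (L := L) (N' := N') (q := q)) =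
      ((q : ℕ) : ↥(TaF L (N' * q))) * (e' : ↥(TaF L (N' * q))) := he'
  obtain ⟨m, hm⟩ := t4rir_exists_pow_mul_mem O π hπ hqO (N' * q) (W1.w (f : ↥(TaF L (N' * q))))
  -- `g = f ε^m ∈ 𝒪`
  have hg1 : (f : ↥(TaF L (N' * q))) * t2iEps (L := L) (N' := N') (q := q) ^ m ∈
      taOv O π hπ (N' * q) :=
    (taOv O π hπ (N' * q)).mul_mem _ _ f.2 (pow_mem hε.1 m)
  have hg2 : W1.w ((f : ↥(TaF L (N' * q))) * t2iEps (L := L) (N' := N') (q := q) ^ m) ∈
      taOv O π hπ (N' * q) := by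
    rw [map_mul, map_pow, he'', mul_pow, ← mul_assoc, mul_comm (W1.w (f : ↥(TaF L (N' * q))))]
    exact (taOv O π hπ (N' * q)).mul_mem _ _ hm (pow_mem e'.2 m)
  have hg : (f : ↥(TaF L (N' * q))) * t2iEps (L := L) (N' := N') (q := q) ^ m ∈ I.Ov :=
    ⟨hg1, hg2⟩
  have hmem := I.ρ₁_mem ⟨_, hg⟩
  have h1 : I.ρ₁ ⟨_, hg⟩ = taResN O π hπ (N' * q) f := by
    rw [T2kInput.ρ₁_apply]
    show taResN O π hπ (N' * q) ⟨(f : ↥(TaF L (N' * q))) *
      t2iEps (L := L) (N' := N') (q := q) ^ m, hg1⟩ = _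
    have h2 : (⟨(f : ↥(TaF L (N' * q))) * t2iEps (L := L) (N' := N') (q := q) ^ m, hg1⟩ :
        ↥(taOv O π hπ (N' * q))) = f * ⟨t2iEps (L := L) (N' := N') (q := q), hε.1⟩ ^ m := rfl
    rw [h2, map_mul, map_pow, hε1, one_pow, mul_one]
  rw [← h1]
  exact hmem

/-- the reduction at `∞` of level `N' q`, with values in `E` -/
def t4riRhoInf : ↥(taOv O π hπ (N' * q)) →+* ↥(modularFunctionFieldFullC k N') :=
  (taResN O π hπ (N' * q)).codRestrict (modularFunctionFieldFullC k N').toSubring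
    (t4rir_taResN_mem O π hπ hN' W1 Fr hqO)

theorem coe_t4riRhoInf (f : ↥(taOv O π hπ (N' * q))) :
    ((t4riRhoInf O π hπ hN' W1 Fr hqO f : ↥(modularFunctionFieldFullC k N')) : LaurentSeries k) =
      taResN O π hπ (N' * q) f := rfl

/-- `w : V0 → Vinf` -/
def t4riW0 : ↥((taOv O π hπ (N' * q)).comap
      (W1.w : ↥(TaF L (N' * q)) →+* ↥(TaF L (N' * q)))) →+* ↥(taOv O π hπ (N' * q)) :=
  ((W1.w : ↥(TaF L (N' * q)) →+* ↥(TaF L (N' * q))).comp
    ((taOv O π hπ (N' * q)).comap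
      (W1.w : ↥(TaF L (N' * q)) →+* ↥(TaF L (N' * q)))).subtype).codRestrict
    (taOv O π hπ (N' * q)) (fun f => f.2)

theorem coe_t4riW0 (f : ↥((taOv O π hπ (N' * q)).comap
      (W1.w : ↥(TaF L (N' * q)) →+* ↥(TaF L (N' * q))))) :
    ((t4riW0 O π hπ W1 f : ↥(taOv O π hπ (N' * q))) : ↥(TaF L (N' * q))) =
      W1.w (f : ↥(TaF L (N' * q))) := rfl

/-- the reduction at `0` of level `N' q`, with values in `E` -/
def t4riRho0 : ↥((taOv O π hπ (N' * q)).comap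
      (W1.w : ↥(TaF L (N' * q)) →+* ↥(TaF L (N' * q)))) →+* ↥(modularFunctionFieldFullC k N') :=
  (t4riRhoInf O π hπ hN' W1 Fr hqO).comp (t4riW0 O π hπ W1)

theorem coe_t4riRho0 (f : ↥((taOv O π hπ (N' * q)).comap
      (W1.w : ↥(TaF L (N' * q)) →+* ↥(TaF L (N' * q))))) :
    ((t4riRho0 O π hπ hN' W1 Fr hqO f : ↥(modularFunctionFieldFullC k N')) : LaurentSeries k) =
      taResN O π hπ (N' * q) ⟨W1.w (f : ↥(TaF L (N' * q))), f.2⟩ := rfl

theorem t4ri_ker_inf (x : ↥(taOv O π hπ (N' * q)))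
    (hx : t4riRhoInf O π hπ hN' W1 Fr hqO x = 0) :
    ∃ y : ↥(taOv O π hπ (N' * q)),
      (x : ↥(TaF L (N' * q))) = ((q : ℕ) : ↥(TaF L (N' * q))) * (y : ↥(TaF L (N' * q))) := by
  apply t4rir_ker O π hπ hqO (N' * q) x
  have := congrArg (Subtype.val : ↥(modularFunctionFieldFullC k N') → LaurentSeries k) hx
  rwa [coe_t4riRhoInf] at this

theorem t4ri_ker_0 (x : ↥((taOv O π hπ (N' * q)).comap
      (W1.w : ↥(TaF L (N' * q)) →+* ↥(TaF L (N' * q)))))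
    (hx : t4riRho0 O π hπ hN' W1 Fr hqO x = 0) :
    ∃ y : ↥((taOv O π hπ (N' * q)).comap
        (W1.w : ↥(TaF L (N' * q)) →+* ↥(TaF L (N' * q)))),
      (x : ↥(TaF L (N' * q))) = ((q : ℕ) : ↥(TaF L (N' * q))) * (y : ↥(TaF L (N' * q))) := by
  obtain ⟨y, hy⟩ := t4ri_ker_inf O π hπ hN' W1 Fr hqO (t4riW0 O π hπ W1 x) hx
  rw [coe_t4riW0] at hy
  refine ⟨⟨W1.w (y : ↥(TaF L (N' * q))), ?_⟩, ?_⟩
  · show W1.w (W1.w (y : ↥(TaF L (N' * q)))) ∈ taOv O π hπ (N' * q)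
    rw [W1.w_w]
    exact y.2
  · show (x : ↥(TaF L (N' * q))) = ((q : ℕ) : ↥(TaF L (N' * q))) * W1.w (y : ↥(TaF L (N' * q)))
    have h1 := congrArg W1.w hy
    rw [W1.w_w, map_mul, map_natCast] at h1
    exact h1

theorem t4ri_unit_inf (x : ↥(taOv O π hπ (N' * q)))
    (hx : t4riRhoInf O π hπ hN' W1 Fr hqO x ≠ 0) :
    ((x : ↥(TaF L (N' * q))))⁻¹ ∈ taOv O π hπ (N' * q) := by
  apply inv_mem_taOv_of_taResN_ne_zero O π hπ (N' * q) x
  intro h0
  apply hx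
  apply Subtype.ext
  rw [coe_t4riRhoInf, h0]
  rfl

theorem t4ri_unit_0 (x : ↥((taOv O π hπ (N' * q)).comap
      (W1.w : ↥(TaF L (N' * q)) →+* ↥(TaF L (N' * q)))))
    (hx : t4riRho0 O π hπ hN' W1 Fr hqO x ≠ 0) :
    ((x : ↥(TaF L (N' * q))))⁻¹ ∈ (taOv O π hπ (N' * q)).comap
      (W1.w : ↥(TaF L (N' * q)) →+* ↥(TaF L (N' * q))) := by
  have h1 := t4ri_unit_inf O π hπ hN' W1 Fr hqO (t4riW0 O π hπ W1 x) hx
  rw [coe_t4riW0] at h1
  rw [ValuationSubring.mem_comap]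
  show W1.w ((x : ↥(TaF L (N' * q))))⁻¹ ∈ taOv O π hπ (N' * q)
  rw [map_inv₀]
  exact h1

/-! ### The degeneracy maps and the verticals -/

theorem t4ri_α_inf (x : ↥(TaF L N')) (hx : x ∈ taOv O π hπ N') :
    heckeAlphaBar L N' q x ∈ taOv O π hπ (N' * q) := by
  rw [mem_taOv_iff, coe_heckeAlphaBar]
  exact hx

theorem t4ri_β_inf (x : ↥(TaF L N')) (hx : x ∈ taOv O π hπ N') :
    heckeBetaBar L N' q x ∈ taOv O π hπ (N' * q) := by
  rw [mem_taOv_iff, coe_heckeBetaBar]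
  exact t2i_taGauss_qExpand O π q hx

theorem t4ri_α_0 (x : ↥(TaF L N')) (hx : x ∈ taOv O π hπ N') :
    heckeAlphaBar L N' q x ∈ (taOv O π hπ (N' * q)).comap
      (W1.w : ↥(TaF L (N' * q)) →+* ↥(TaF L (N' * q))) := by
  rw [ValuationSubring.mem_comap]
  show W1.w (heckeAlphaBar L N' q x) ∈ taOv O π hπ (N' * q)
  rw [W1.w_alpha]
  exact t4ri_β_inf O π hπ x hx

theorem t4ri_β_0 (x : ↥(TaF L N')) (hx : x ∈ taOv O π hπ N') :
    heckeBetaBar L N' q x ∈ (taOv O π hπ (N' * q)).comap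
      (W1.w : ↥(TaF L (N' * q)) →+* ↥(TaF L (N' * q))) := by
  rw [ValuationSubring.mem_comap]
  show W1.w (heckeBetaBar L N' q x) ∈ taOv O π hπ (N' * q)
  rw [W1.w_beta]
  exact t4ri_α_inf O π hπ x hx

section Table

variable [PerfectRing k q]

/-- `ρinf ∘ α = res'` -/
theorem t4ri_ρinf_α (x : ↥(TaF L N')) (hx : x ∈ taOv O π hπ N') :
    t4riRhoInf O π hπ hN' W1 Fr hqO ⟨heckeAlphaBar L N' q x, t4ri_α_inf O π hπ x hx⟩ =
      t2iRes O π hπ N' hN' ⟨x, hx⟩ := by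
  apply Subtype.ext
  rw [coe_t4riRhoInf, coe_t2iRes, taResN_eq_taRhoFun, taResN_eq_taRhoFun]
  show taRhoFun O π ((heckeAlphaBar L N' q x : ↥(TaF L (N' * q))) : LaurentSeries L) = _
  rw [coe_heckeAlphaBar]

/-- `ρinf ∘ β = Φ ∘ res'` -/
theorem t4ri_ρinf_β (x : ↥(TaF L N')) (hx : x ∈ taOv O π hπ N') :
    t4riRhoInf O π hπ hN' W1 Fr hqO ⟨heckeBetaBar L N' q x, t4ri_β_inf O π hπ x hx⟩ =
      t2fePhi k q N' (t2iRes O π hπ N' hN' ⟨x, hx⟩) := by
  apply Subtype.ext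
  rw [coe_t4riRhoInf, coe_t2fePhi, coe_t2iRes, taResN_eq_taRhoFun, taResN_eq_taRhoFun]
  show taRhoFun O π ((heckeBetaBar L N' q x : ↥(TaF L (N' * q))) : LaurentSeries L) = _
  rw [coe_heckeBetaBar]
  exact t2i_taRhoFun_qExpand O π q hx

/-- `ρ0 ∘ α = Φ ∘ res'` -/
theorem t4ri_ρ0_α (x : ↥(TaF L N')) (hx : x ∈ taOv O π hπ N') :
    t4riRho0 O π hπ hN' W1 Fr hqO ⟨heckeAlphaBar L N' q x, t4ri_α_0 O π hπ W1 x hx⟩ =
      t2fePhi k q N' (t2iRes O π hπ N' hN' ⟨x, hx⟩) := by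
  rw [← t4ri_ρinf_β O π hπ hN' W1 Fr hqO x hx]
  show t4riRhoInf O π hπ hN' W1 Fr hqO (t4riW0 O π hπ W1 _) = _
  congr 1
  apply Subtype.ext
  rw [coe_t4riW0]
  exact W1.w_alpha x

/-- `ρ0 ∘ β = res'` -/
theorem t4ri_ρ0_β (x : ↥(TaF L N')) (hx : x ∈ taOv O π hπ N') :
    t4riRho0 O π hπ hN' W1 Fr hqO ⟨heckeBetaBar L N' q x, t4ri_β_0 O π hπ W1 x hx⟩ =
      t2iRes O π hπ N' hN' ⟨x, hx⟩ := by
  rw [← t4ri_ρinf_α O π hπ hN' W1 Fr hqO x hx]
  show t4riRhoInf O π hπ hN' W1 Fr hqO (t4riW0 O π hπ W1 _) = _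
  congr 1
  apply Subtype.ext
  rw [coe_t4riW0]
  exact W1.w_beta x

end Table

/-! ### The degree -/

include O π hπ hN' in
theorem t4ri_fin1 :
    @Module.Finite ↥(TaF L N') ↥(TaF L (N' * q)) _ _
      ((heckeAlphaBar L N' q : ↥(TaF L N') →ₐ[L] ↥(TaF L (N' * q))) :
        ↥(TaF L N') →+* ↥(TaF L (N' * q))).toAlgebra.toModule :=
  (t2i_finrank_le O π hπ N' q hN').1

include O π hπ hN' in
theorem t4ri_deg1 :
    @Module.finrank ↥(TaF L N') ↥(TaF L (N' * q)) _ _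
      ((heckeAlphaBar L N' q : ↥(TaF L N') →ₐ[L] ↥(TaF L (N' * q))) :
        ↥(TaF L N') →+* ↥(TaF L (N' * q))).toAlgebra.toModule ≤ q + 1 :=
  (t2i_finrank_le O π hπ N' q hN').2

end Fermat.Agent.T4
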