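/-
T4-R (helper1), package CB: **the modular-equation integrality facts "(iii)" and `β_B`**.

With `j' = taJ N'`, `j1 = taJ (N' q)`, `Y1 = β j' = j(𝔮^q)` at level `N' q`:

* Fix level `L = tbFix 𝔓 H`: `Y1` is integral over `L[j1]` (`t4rcb_isIntegral_Y1`), `j1` is integral
  over `L[Y1]` (`t4rcb_isIntegral_J1`, `p ∤ N'`) — T2's cusp package over `ℚ̄` + the descent
  `t2d_isIntegral_tbPhiF_iff`;
* charts `X = j^Q - j`: `β X'` is integral over `L[y1]`, `y1 = j1^Q - j1`, and conversely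
  (`t4rcb_isIntegral_betaX`, `t4rcb_isIntegral_y1_of_betaX`);
* level `N' q²`: `x = t4vX L N' p Q` and `x_β = β₂ y1` are integral over each other
  (`t4rcb_isIntegral_x_of_xβ`, `t4rcb_isIntegral_xβ_of_x`);
* **`β_B`** (`t4rcb_mapB`, dictionary form): `β` maps the chart ring `P'.B = IntCl(L[x']) ∩ 𝒪'` into
  `P1.B = IntCl(L[y1]) ∩ 𝒪¹`.
-/
import Fermat.Agent.Lib.T4.Reg.CuspFix
import Fermat.Agent.Lib.T2.Inst.CuspAL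
import Fermat.Agent.Lib.T4.Reg.LevInst3H
import Fermat.Agent.Lib.T4.Reg.LevInstRed
import Fermat.Agent.Lib.T4.Reg.LevInstP
import Fermat.Agent.Lib.T4.Inst.PresLow

set_option autoImplicit false
set_option linter.unusedSectionVars false
set_option linter.unusedVariables false
set_option linter.style.haveILetI false
set_option synthInstance.maxHeartbeats 400000

open HahnSeries ModularCurve Fermat.Agent.T1 Fermat.Agent.T2 Fermat.Agent.TW Fermat.Agent.S05Lib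

noncomputable section

namespace Fermat.Agent.T4

local notation "Qb" => AlgebraicClosure ℚ

attribute [local instance] t2i_dvr t2i_isAlgClosed t2i_charP t2i_fact t2iAlgebra t2i_isScalarTower

/-! ### Generic algebra -/

section Alg

variable {K F F' : Type*} [Field K] [Field F] [Field F'] [Algebra K F] [Algebra K F']

/-- `y` integral over `K[x]` ⟹ `y^Q - y` integral over `K[x^Q - x]` -/
theorem t4rcb_isIntegral_chart {x y : F} {Q : ℕ} (hQ : 2 ≤ Q)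
    (h : IsIntegral ↥(Algebra.adjoin K {x}) y) :
    IsIntegral ↥(Algebra.adjoin K {x ^ Q - x}) (y ^ Q - y) := by
  rw [t4ri3_isIntegral_X_iff x hQ]
  exact (h.pow Q).sub h

/-- a `K`-algebra homomorphism transports integrality over `K[x]` to integrality over `K[φ x]` -/
theorem t4rcb_isIntegral_algHom (φ : F →ₐ[K] F') {x f : F}
    (h : IsIntegral ↥(Algebra.adjoin K {x}) f) :
    IsIntegral ↥(Algebra.adjoin K {φ x}) (φ f) :=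
  t2d_isIntegral_map (RingHom.id K) (φ : F →+* F') (fun c => φ.commutes c) h

end Alg

/-! ### Level `N' p` at the Fix level -/

section FixOne

variable (𝔓 : FFPlace) (N' : ℕ) [NeZero N'] (H : Subgroup 𝔓.I)

theorem t4rcb_tbPhiF_j1 :
    tbPhiF 𝔓 (N' * 𝔓.p) H (taJ (L := ↥(tbFix 𝔓 H)) (N' * 𝔓.p)) = tbJ (N' * 𝔓.p) :=
  tbPhiF_tbLevJ 𝔓 (N' * 𝔓.p) H

theorem t4rcb_tbPhiF_Y1 :
    tbPhiF 𝔓 (N' * 𝔓.p) H (heckeBetaBar ↥(tbFix 𝔓 H) N' 𝔓.p (taJ N')) =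
      t2cpYq (N' * 𝔓.p) 𝔓.p (dvd_mul_left 𝔓.p N') := by
  apply Subtype.ext
  rw [coe_tbPhiF, coe_heckeBetaBar, coe_taJ, coe_t2cpYq, coeffMap_qExpand, coeffMap_jqModC]

/-- **`Y1 = j(𝔮^p)` is integral over `L[j1]`** -/
theorem t4rcb_isIntegral_Y1 :
    IsIntegral ↥(Algebra.adjoin ↥(tbFix 𝔓 H) {taJ (L := ↥(tbFix 𝔓 H)) (N' * 𝔓.p)})
      (heckeBetaBar ↥(tbFix 𝔓 H) N' 𝔓.p (taJ N')) := by
  refine (t2d_isIntegral_tbPhiF_iff 𝔓 (N' * 𝔓.p) H _ _).mpr ?_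
  rw [t4rcb_tbPhiF_j1, t4rcb_tbPhiF_Y1]
  exact t2cp_isIntegral_Y (N' * 𝔓.p) 𝔓.p (dvd_mul_left 𝔓.p N')

/-- **`j1` is integral over `L[Y1]`** (`p ∤ N'`) -/
theorem t4rcb_isIntegral_J1 (h : ¬ 𝔓.p ∣ N') :
    IsIntegral ↥(Algebra.adjoin ↥(tbFix 𝔓 H) {heckeBetaBar ↥(tbFix 𝔓 H) N' 𝔓.p (taJ N')})
      (taJ (L := ↥(tbFix 𝔓 H)) (N' * 𝔓.p)) := by
  refine (t2d_isIntegral_tbPhiF_iff 𝔓 (N' * 𝔓.p) H _ _).mpr ?_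
  rw [t4rcb_tbPhiF_j1, t4rcb_tbPhiF_Y1, ← t2cpYw_eq]
  exact t2cp_isIntegral_J_of_Y N' 𝔓.p h

/-- **`β X'` is integral over `L[y1]`**, `X' = j'^Q - j'`, `y1 = j1^Q - j1` -/
theorem t4rcb_isIntegral_betaX {Q : ℕ} (hQ : 2 ≤ Q) :
    IsIntegral ↥(Algebra.adjoin ↥(tbFix 𝔓 H)
        {taJ (L := ↥(tbFix 𝔓 H)) (N' * 𝔓.p) ^ Q - taJ (L := ↥(tbFix 𝔓 H)) (N' * 𝔓.p)})
      (heckeBetaBar ↥(tbFix 𝔓 H) N' 𝔓.p (taJ N' ^ Q - taJ N')) := by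
  rw [map_sub, map_pow]
  exact t4rcb_isIntegral_chart hQ (t4rcb_isIntegral_Y1 𝔓 N' H)

/-- **`y1` is integral over `L[β X']`** (`p ∤ N'`) -/
theorem t4rcb_isIntegral_y1_of_betaX (h : ¬ 𝔓.p ∣ N') {Q : ℕ} (hQ : 2 ≤ Q) :
    IsIntegral ↥(Algebra.adjoin ↥(tbFix 𝔓 H)
        {heckeBetaBar ↥(tbFix 𝔓 H) N' 𝔓.p (taJ N' ^ Q - taJ N')})
      (taJ (L := ↥(tbFix 𝔓 H)) (N' * 𝔓.p) ^ Q - taJ (L := ↥(tbFix 𝔓 H)) (N' * 𝔓.p)) := by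
  rw [map_sub, map_pow]
  exact t4rcb_isIntegral_chart hQ (t4rcb_isIntegral_J1 𝔓 N' H h)

end FixOne

/-! ### Level `N' p²` -/

section Two

variable {L : Type} [Field L] [Algebra ℚ L] (N' q : ℕ) [NeZero N'] [hq : Fact q.Prime]

/-- `α₂ j1 = a0 j'` -/
theorem t4rcb_alpha_j1 :
    heckeAlphaBar L (N' * q) q (taJ (N' * q)) = t4vA0 L N' q (taJ N') := by
  apply Subtype.ext
  rw [coe_heckeAlphaBar, coe_t4vA0, coe_taJ, coe_taJ]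

/-- `β₂ j1 = a1 j'` -/
theorem t4rcb_beta_j1 :
    heckeBetaBar L (N' * q) q (taJ (N' * q)) = t4vA1 L N' q (taJ N') := by
  apply Subtype.ext
  rw [coe_heckeBetaBar, coe_t4vA1, coe_taJ, coe_taJ]

/-- `α₂ y1 = x` -/
theorem t4rcb_alpha_y1 (Q : ℕ) :
    heckeAlphaBar L (N' * q) q (taJ (N' * q) ^ Q - taJ (N' * q)) = t4vX L N' q Q := by
  rw [map_sub, map_pow, t4rcb_alpha_j1, t4vA0_taJ]
  rfl

/-- `x_β = β₂ y1 = (a1 j')^Q - a1 j'` -/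
theorem t4rcb_beta_y1 (Q : ℕ) :
    heckeBetaBar L (N' * q) q (taJ (N' * q) ^ Q - taJ (N' * q)) =
      t4vA1 L N' q (taJ N') ^ Q - t4vA1 L N' q (taJ N') := by
  rw [map_sub, map_pow, t4rcb_beta_j1]

theorem t4rcb_t4vX_eq (Q : ℕ) :
    t4vX L N' q Q = t4vA0 L N' q (taJ N') ^ Q - t4vA0 L N' q (taJ N') := by
  rw [t4vA0_taJ]
  rfl

end Two

section FixTwo

variable (𝔓 : FFPlace) (N' : ℕ) [NeZero N'] (H : Subgroup 𝔓.I)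

/-- `a1 j'` is integral over `L[a0 j']` -/
theorem t4rcb_isIntegral_a1_of_a0 :
    IsIntegral ↥(Algebra.adjoin ↥(tbFix 𝔓 H) {t4vA0 ↥(tbFix 𝔓 H) N' 𝔓.p (taJ N')})
      (t4vA1 ↥(tbFix 𝔓 H) N' 𝔓.p (taJ N')) := by
  refine (t2d_isIntegral_tbPhiF_iff 𝔓 (N' * 𝔓.p * 𝔓.p) H _ _).mpr ?_
  rw [t4rc_tbPhiF_a0j, t4rc_tbPhiF_a1j]
  exact t2cp_isIntegral_Y (N' * 𝔓.p * 𝔓.p) 𝔓.p (Dvd.intro_left _ rfl)

/-- `a0 j'` is integral over `L[a1 j']` (`p ∤ N'`) -/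
theorem t4rcb_isIntegral_a0_of_a1 (h : ¬ 𝔓.p ∣ N') :
    IsIntegral ↥(Algebra.adjoin ↥(tbFix 𝔓 H) {t4vA1 ↥(tbFix 𝔓 H) N' 𝔓.p (taJ N')})
      (t4vA0 ↥(tbFix 𝔓 H) N' 𝔓.p (taJ N')) := by
  have h1 := t4rcb_isIntegral_algHom (heckeAlphaBar ↥(tbFix 𝔓 H) (N' * 𝔓.p) 𝔓.p)
    (t4rcb_isIntegral_J1 𝔓 N' H h)
  rw [t4rcb_alpha_j1] at h1
  exact h1

/-- **`x = j^Q - j` is integral over `L[x_β]`**, `x_β = β₂ (j1^Q - j1)` (`p ∤ N'`) -/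
theorem t4rcb_isIntegral_x_of_xβ (h : ¬ 𝔓.p ∣ N') {Q : ℕ} (hQ : 2 ≤ Q) :
    IsIntegral ↥(Algebra.adjoin ↥(tbFix 𝔓 H)
        {heckeBetaBar ↥(tbFix 𝔓 H) (N' * 𝔓.p) 𝔓.p
          (taJ (L := ↥(tbFix 𝔓 H)) (N' * 𝔓.p) ^ Q - taJ (L := ↥(tbFix 𝔓 H)) (N' * 𝔓.p))})
      (t4vX ↥(tbFix 𝔓 H) N' 𝔓.p Q) := by
  rw [t4rcb_beta_y1, t4rcb_t4vX_eq]
  exact t4rcb_isIntegral_chart hQ (t4rcb_isIntegral_a0_of_a1 𝔓 N' H h)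

/-- **`x_β` is integral over `L[x]`** -/
theorem t4rcb_isIntegral_xβ_of_x {Q : ℕ} (hQ : 2 ≤ Q) :
    IsIntegral ↥(Algebra.adjoin ↥(tbFix 𝔓 H) {t4vX ↥(tbFix 𝔓 H) N' 𝔓.p Q})
      (heckeBetaBar ↥(tbFix 𝔓 H) (N' * 𝔓.p) 𝔓.p
        (taJ (L := ↥(tbFix 𝔓 H)) (N' * 𝔓.p) ^ Q - taJ (L := ↥(tbFix 𝔓 H)) (N' * 𝔓.p))) := by
  rw [t4rcb_beta_y1, t4rcb_t4vX_eq]
  exact t4rcb_isIntegral_chart hQ (t4rcb_isIntegral_a1_of_a0 𝔓 N' H)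

end FixTwo

/-! ### `β_B` -/

section MapB

variable {L : Type*} [Field L] [Algebra ℚ L] (O : ValuationSubring L) {k : Type*} [Field k]
  (π : ↥O →+* k) [IsDiscreteValuationRing ↥O] (hπ : Function.Surjective π) [IsAlgClosed k]
  {N' q : ℕ} [NeZero N'] [hq : Fact q.Prime] [CharP k q] (hN' : (N' : k) ≠ 0)
  (W1 : T2iAL L N' q) (Fr : T2iFrob k N' q)

/-- **`β_B`** (dictionary form): `β` maps `P'.B = IntCl(L[x']) ∩ 𝒪'` into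
`P1.B = IntCl(L[y1]) ∩ 𝒪¹`, given that `β x'` is integral over `L[y1]` -/
theorem t4rcb_mapB (P' : T4Pres ↥(TaF L N')) (P1 : T4Pres ↥(TaF L (N' * q)))
    {x' : ↥(TaF L N')} {y1 : ↥(TaF L (N' * q))}
    (hB' : ∀ f, f ∈ P'.B ↔ f ∈ t2Int (K := L) x' ∧ f ∈ taOv O π hπ N')
    (hB1 : ∀ f, f ∈ P1.B ↔ f ∈ t2Int (K := L) y1 ∧ f ∈ (t2iBase2 O π hπ hN' W1 Fr).Ov)
    (hint : IsIntegral ↥(Algebra.adjoin L {y1}) (heckeBetaBar L N' q x')) :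
    ∀ b ∈ P'.B, heckeBetaBar L N' q b ∈ P1.B := by
  intro b hb
  rw [hB'] at hb
  rw [hB1]
  refine ⟨?_, ?_⟩
  · have h1 : IsIntegral ↥(Algebra.adjoin L {heckeBetaBar L N' q x'}) (heckeBetaBar L N' q b) :=
      t4rcb_isIntegral_algHom (heckeBetaBar L N' q) (mem_t2Int.mp hb.1)
    exact mem_t2Int.mpr (t2c_isIntegral_trans hint h1)
  · rw [t2i_mem_Ov_iff]
    exact ⟨t4ri_β_inf O π hπ b hb.2, t4ri_β_0 O π hπ W1 b hb.2⟩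

/-- the `α`-analogue (`α_B`), for completeness -/
theorem t4rcb_mapA (P' : T4Pres ↥(TaF L N')) (P1 : T4Pres ↥(TaF L (N' * q)))
    {x' : ↥(TaF L N')} {y1 : ↥(TaF L (N' * q))}
    (hB' : ∀ f, f ∈ P'.B ↔ f ∈ t2Int (K := L) x' ∧ f ∈ taOv O π hπ N')
    (hB1 : ∀ f, f ∈ P1.B ↔ f ∈ t2Int (K := L) y1 ∧ f ∈ (t2iBase2 O π hπ hN' W1 Fr).Ov)
    (hint : IsIntegral ↥(Algebra.adjoin L {y1}) (heckeAlphaBar L N' q x')) :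
    ∀ b ∈ P'.B, heckeAlphaBar L N' q b ∈ P1.B := by
  intro b hb
  rw [hB'] at hb
  rw [hB1]
  refine ⟨?_, ?_⟩
  · have h1 : IsIntegral ↥(Algebra.adjoin L {heckeAlphaBar L N' q x'}) (heckeAlphaBar L N' q b) :=
      t4rcb_isIntegral_algHom (heckeAlphaBar L N' q) (mem_t2Int.mp hb.1)
    exact mem_t2Int.mpr (t2c_isIntegral_trans hint h1)
  · rw [t2i_mem_Ov_iff]
    exact ⟨t4ri_α_inf O π hπ b hb.2, t4ri_α_0 O π hπ W1 b hb.2⟩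

end MapB

/-! ### `β_B` for the presentations `t4ri1Pres` (level `N'`) and `t4vwPres1` (level `N' q`) -/

section Wrap

variable {L : Type} [Field L] [Algebra ℚ L] (O : ValuationSubring L) {k : Type*} [Field k]
  (π : ↥O →+* k) [IsDiscreteValuationRing ↥O] (hπ : Function.Surjective π) [IsAlgClosed k]
  {N' q : ℕ} [NeZero N'] [hq : Fact q.Prime] [CharP k q] (hN' : (N' : k) ≠ 0)
  (W1 : T2iAL L N' q) (Fr : T2iFrob k N' q) (hqO : Irreducible ((q : ℕ) : ↥O))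
  {Q : ℕ} (hQ : 2 ≤ Q)
  (hgen : Fermat.Agent.Curve.IsFunctionFieldGen L ↥(TaF L N') (t4ri1X L N' Q))
  {y1 : ↥(TaF L (N' * q))} (Hy1 : T4vwHyp1 O π W1 y1)

include hN' Fr in
/-- **`T4rLev.β_B`** for `P' = t4ri1Pres`, `P1 = t4vwPres1` -/
theorem t4rcb_β_B
    (hint : IsIntegral ↥(Algebra.adjoin L {y1}) (heckeBetaBar L N' q (t4ri1X L N' Q))) :
    ∀ b ∈ (t4ri1Pres O π hπ hqO hQ hgen).B,
      heckeBetaBar L N' q b ∈ (t4vwPres1 (hπ := hπ) hqO Hy1).B :=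
  t4rcb_mapB O π hπ hN' W1 Fr _ _ (mem_t4ri1Pres_B O π hπ hqO hQ hgen)
    (mem_t4vwPres1_B hqO Hy1 hN' Fr) hint

include hN' Fr in
/-- **`T4rLev.α_B`** for `P' = t4ri1Pres`, `P1 = t4vwPres1` -/
theorem t4rcb_α_B
    (hint : IsIntegral ↥(Algebra.adjoin L {y1}) (heckeAlphaBar L N' q (t4ri1X L N' Q))) :
    ∀ b ∈ (t4ri1Pres O π hπ hqO hQ hgen).B,
      heckeAlphaBar L N' q b ∈ (t4vwPres1 (hπ := hπ) hqO Hy1).B :=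
  t4rcb_mapA O π hπ hN' W1 Fr _ _ (mem_t4ri1Pres_B O π hπ hqO hQ hgen)
    (mem_t4vwPres1_B hqO Hy1 hN' Fr) hint

end Wrap

section WrapFix

variable (𝔓 : FFPlace) (N' : ℕ) [NeZero N'] (h : ¬ 𝔓.p ∣ N') {Q : ℕ} (hQ : 2 ≤ Q)
  (hgen : Fermat.Agent.Curve.IsFunctionFieldGen ↥(tbFix 𝔓 (⊤ : Subgroup 𝔓.I))
    ↥(TaF ↥(tbFix 𝔓 (⊤ : Subgroup 𝔓.I)) N') (t4ri1X ↥(tbFix 𝔓 (⊤ : Subgroup 𝔓.I)) N' Q))
  (Hy1 : T4vwHyp1 (tbFixO 𝔓 ⊤) (tbFixRes 𝔓 ⊤) (t2iALFix 𝔓 ⊤ N' h)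
    (taJ (L := ↥(tbFix 𝔓 (⊤ : Subgroup 𝔓.I))) (N' * 𝔓.p) ^ Q -
      taJ (L := ↥(tbFix 𝔓 (⊤ : Subgroup 𝔓.I))) (N' * 𝔓.p)))

/-- **`β_B` at the inertia level**, charts `X' = j'^Q - j'`, `y1 = j1^Q - j1` -/
theorem t4rcb_β_B_fix :
    ∀ b ∈ (t4ri1Pres (tbFixO 𝔓 ⊤) (tbFixRes 𝔓 ⊤) (tbFixRes_surjective 𝔓 ⊤)
        (t4cy_irreducible_p 𝔓) hQ hgen).B,
      heckeBetaBar ↥(tbFix 𝔓 (⊤ : Subgroup 𝔓.I)) N' 𝔓.p b ∈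
        (t4vwPres1 (hπ := tbFixRes_surjective 𝔓 ⊤) (t4cy_irreducible_p 𝔓) Hy1).B :=
  t4rcb_β_B (tbFixO 𝔓 ⊤) (tbFixRes 𝔓 ⊤) (tbFixRes_surjective 𝔓 ⊤) (t2i_natCast_ne_zero 𝔓 h)
    (t2iALFix 𝔓 ⊤ N' h) (t2iFrobFix 𝔓 N') (t4cy_irreducible_p 𝔓) hQ hgen Hy1
    (t4rcb_isIntegral_betaX 𝔓 N' ⊤ hQ)

end WrapFix

end Fermat.Agent.T4
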