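/-
T4-R (helper1), package CB part 2: **the full integrality table of the three `j`-functions**
`J0 = a0 j = j(𝔮)`, `J1 = a1 j = j(𝔮^p)`, `J2 = a2 j = j(𝔮^{p²})` at level `N' p²`, at the Fix level
`L = tbFix 𝔓 H`: each `Ji` is integral over `L[Jk]` (T2's cusp package over `ℚ̄`, descended with
`t2d_isIntegral_tbPhiF_iff`, and conjugated by the Atkin–Lehner involution `w_{p²}`), the chart
forms for `X = j^Q - j`, and the consequences for a valuation ring `V ⊇ L` (the poles of `J0`,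
`J1`, `J2` coincide) — the modular-equation inputs of (K2).
-/
import Fermat.Agent.Lib.T4.Reg.CuspBeta

set_option autoImplicit false
set_option linter.unusedSectionVars false
set_option linter.unusedVariables false
set_option linter.style.haveILetI false
set_option synthInstance.maxHeartbeats 400000

open HahnSeries ModularCurve Fermat.Agent.T1 Fermat.Agent.T2 Fermat.Agent.TW Fermat.Agent.S05Lib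

noncomputable section

namespace Fermat.Agent.T4

local notation "Qb" => AlgebraicClosure ℚ

attribute [local instance] t2i_dvr t2i_isAlgClosed t2i_charP t2i_fact t2iAlgebra t2i_isScalarTower

/-! ### Conjugation by `w_{q²}` (generic) -/

section Conj

variable {L : Type*} [Field L] [Algebra ℚ L] {N' q : ℕ} [NeZero N'] [NeZero q]
  (W : T4iAL L N' q) {f g : ↥(TaF L N')}

include W in
theorem t4rct_conj_02 (h : IsIntegral ↥(Algebra.adjoin L {t4vA0 L N' q f}) (t4vA2 L N' q g)) :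
    IsIntegral ↥(Algebra.adjoin L {t4vA2 L N' q f}) (t4vA0 L N' q g) := by
  have h1 := t4rc_isIntegral_algEquiv W.w h
  rwa [W.w_a0, W.w_a2] at h1

include W in
theorem t4rct_conj_01 (h : IsIntegral ↥(Algebra.adjoin L {t4vA0 L N' q f}) (t4vA1 L N' q g)) :
    IsIntegral ↥(Algebra.adjoin L {t4vA2 L N' q f}) (t4vA1 L N' q g) := by
  have h1 := t4rc_isIntegral_algEquiv W.w h
  rwa [W.w_a0, W.w_a1] at h1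

include W in
theorem t4rct_conj_10 (h : IsIntegral ↥(Algebra.adjoin L {t4vA1 L N' q f}) (t4vA0 L N' q g)) :
    IsIntegral ↥(Algebra.adjoin L {t4vA1 L N' q f}) (t4vA2 L N' q g) := by
  have h1 := t4rc_isIntegral_algEquiv W.w h
  rwa [W.w_a1, W.w_a0] at h1

end Conj

/-! ### The table at the Fix level -/

section Fix

variable (𝔓 : FFPlace) (N' : ℕ) [NeZero N'] (H : Subgroup 𝔓.I)

theorem t4rct_tbPhiF_a2j :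
    tbPhiF 𝔓 (N' * 𝔓.p * 𝔓.p) H (t4vA2 ↥(tbFix 𝔓 H) N' 𝔓.p (taJ N')) =
      t2cpYq (N' * 𝔓.p * 𝔓.p) (𝔓.p * 𝔓.p) ⟨N', by ring⟩ := by
  apply Subtype.ext
  rw [coe_tbPhiF, coe_t4vA2, coe_taJ, coe_t2cpYq, coeffMap_qExpand, coeffMap_qExpand,
    coeffMap_jqModC, qExpand_qExpand]

/-- `J1` is integral over `L[J0]` -/
theorem t4rct_a1_of_a0 :
    IsIntegral ↥(Algebra.adjoin ↥(tbFix 𝔓 H) {t4vA0 ↥(tbFix 𝔓 H) N' 𝔓.p (taJ N')})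
      (t4vA1 ↥(tbFix 𝔓 H) N' 𝔓.p (taJ N')) :=
  t4rcb_isIntegral_a1_of_a0 𝔓 N' H

/-- `J2` is integral over `L[J0]` -/
theorem t4rct_a2_of_a0 :
    IsIntegral ↥(Algebra.adjoin ↥(tbFix 𝔓 H) {t4vA0 ↥(tbFix 𝔓 H) N' 𝔓.p (taJ N')})
      (t4vA2 ↥(tbFix 𝔓 H) N' 𝔓.p (taJ N')) := by
  refine (t2d_isIntegral_tbPhiF_iff 𝔓 (N' * 𝔓.p * 𝔓.p) H _ _).mpr ?_
  rw [t4rc_tbPhiF_a0j, t4rct_tbPhiF_a2j]
  exact t2cp_isIntegral_Y (N' * 𝔓.p * 𝔓.p) (𝔓.p * 𝔓.p) ⟨N', by ring⟩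

variable (h : ¬ 𝔓.p ∣ N')

include h in
/-- `J0` is integral over `L[J1]` -/
theorem t4rct_a0_of_a1 :
    IsIntegral ↥(Algebra.adjoin ↥(tbFix 𝔓 H) {t4vA1 ↥(tbFix 𝔓 H) N' 𝔓.p (taJ N')})
      (t4vA0 ↥(tbFix 𝔓 H) N' 𝔓.p (taJ N')) :=
  t4rcb_isIntegral_a0_of_a1 𝔓 N' H h

include h in
/-- `J2` is integral over `L[J1]` -/
theorem t4rct_a2_of_a1 :
    IsIntegral ↥(Algebra.adjoin ↥(tbFix 𝔓 H) {t4vA1 ↥(tbFix 𝔓 H) N' 𝔓.p (taJ N')})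
      (t4vA2 ↥(tbFix 𝔓 H) N' 𝔓.p (taJ N')) :=
  t4rct_conj_10 (t4iALFix 𝔓 H N' h) (t4rct_a0_of_a1 𝔓 N' H h)

include h in
/-- **`J0` is integral over `L[J2]`** -/
theorem t4rct_a0_of_a2 :
    IsIntegral ↥(Algebra.adjoin ↥(tbFix 𝔓 H) {t4vA2 ↥(tbFix 𝔓 H) N' 𝔓.p (taJ N')})
      (t4vA0 ↥(tbFix 𝔓 H) N' 𝔓.p (taJ N')) :=
  t4rct_conj_02 (t4iALFix 𝔓 H N' h) (t4rct_a2_of_a0 𝔓 N' H)

include h in
/-- `J1` is integral over `L[J2]` -/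
theorem t4rct_a1_of_a2 :
    IsIntegral ↥(Algebra.adjoin ↥(tbFix 𝔓 H) {t4vA2 ↥(tbFix 𝔓 H) N' 𝔓.p (taJ N')})
      (t4vA1 ↥(tbFix 𝔓 H) N' 𝔓.p (taJ N')) :=
  t4rct_conj_01 (t4iALFix 𝔓 H N' h) (t4rct_a1_of_a0 𝔓 N' H)

/-! ### Chart forms -/

variable {Q : ℕ} (hQ : 2 ≤ Q)

theorem t4rct_a2_X' :
    t4vA2 ↥(tbFix 𝔓 H) N' 𝔓.p (t4vX' ↥(tbFix 𝔓 H) N' Q) =
      t4vA2 ↥(tbFix 𝔓 H) N' 𝔓.p (taJ N') ^ Q - t4vA2 ↥(tbFix 𝔓 H) N' 𝔓.p (taJ N') := by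
  rw [t4vX', map_sub, map_pow]

theorem t4rct_a1_X' :
    t4vA1 ↥(tbFix 𝔓 H) N' 𝔓.p (t4vX' ↥(tbFix 𝔓 H) N' Q) =
      t4vA1 ↥(tbFix 𝔓 H) N' 𝔓.p (taJ N') ^ Q - t4vA1 ↥(tbFix 𝔓 H) N' 𝔓.p (taJ N') := by
  rw [t4vX', map_sub, map_pow]

include hQ in
/-- **`a2 X'` is integral over `L[x]`**, `x = t4vX = a0 X'` -/
theorem t4rct_a2X_of_x :
    IsIntegral ↥(Algebra.adjoin ↥(tbFix 𝔓 H) {t4vX ↥(tbFix 𝔓 H) N' 𝔓.p Q})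
      (t4vA2 ↥(tbFix 𝔓 H) N' 𝔓.p (t4vX' ↥(tbFix 𝔓 H) N' Q)) := by
  rw [t4rct_a2_X', t4rcb_t4vX_eq]
  exact t4rcb_isIntegral_chart hQ (t4rct_a2_of_a0 𝔓 N' H)

include hQ in
/-- `a1 X'` is integral over `L[x]` -/
theorem t4rct_a1X_of_x :
    IsIntegral ↥(Algebra.adjoin ↥(tbFix 𝔓 H) {t4vX ↥(tbFix 𝔓 H) N' 𝔓.p Q})
      (t4vA1 ↥(tbFix 𝔓 H) N' 𝔓.p (t4vX' ↥(tbFix 𝔓 H) N' Q)) := by
  rw [t4rct_a1_X', t4rcb_t4vX_eq]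
  exact t4rcb_isIntegral_chart hQ (t4rct_a1_of_a0 𝔓 N' H)

include hQ h in
/-- **`x` is integral over `L[a2 X']`** -/
theorem t4rct_x_of_a2X :
    IsIntegral ↥(Algebra.adjoin ↥(tbFix 𝔓 H)
        {t4vA2 ↥(tbFix 𝔓 H) N' 𝔓.p (t4vX' ↥(tbFix 𝔓 H) N' Q)})
      (t4vX ↥(tbFix 𝔓 H) N' 𝔓.p Q) := by
  rw [t4rct_a2_X', t4rcb_t4vX_eq]
  exact t4rcb_isIntegral_chart hQ (t4rct_a0_of_a2 𝔓 N' H h)

include hQ h in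
/-- `x` is integral over `L[a1 X']` -/
theorem t4rct_x_of_a1X :
    IsIntegral ↥(Algebra.adjoin ↥(tbFix 𝔓 H)
        {t4vA1 ↥(tbFix 𝔓 H) N' 𝔓.p (t4vX' ↥(tbFix 𝔓 H) N' Q)})
      (t4vX ↥(tbFix 𝔓 H) N' 𝔓.p Q) := by
  rw [t4rct_a1_X', t4rcb_t4vX_eq]
  exact t4rcb_isIntegral_chart hQ (t4rct_a0_of_a1 𝔓 N' H h)

/-! ### Valuation rings: the poles of `J0`, `J1`, `J2` coincide -/

variable (V : ValuationSubring ↥(tbLevF 𝔓 (N' * 𝔓.p * 𝔓.p) H))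
  (hL : ∀ c : ↥(tbFix 𝔓 H), algebraMap ↥(tbFix 𝔓 H) ↥(tbLevF 𝔓 (N' * 𝔓.p * 𝔓.p) H) c ∈ V)

include hL h in
/-- a pole of `J0` is a pole of `J2` -/
theorem t4rct_a2_notMem (h0 : t4vA0 ↥(tbFix 𝔓 H) N' 𝔓.p (taJ N') ∉ V) :
    t4vA2 ↥(tbFix 𝔓 H) N' 𝔓.p (taJ N') ∉ V :=
  fun h2 => h0 (t4rc_mem_of_isIntegral V hL h2 (t4rct_a0_of_a2 𝔓 N' H h))

include hL h in
/-- a pole of `J0` is a pole of `J1` -/
theorem t4rct_a1_notMem (h0 : t4vA0 ↥(tbFix 𝔓 H) N' 𝔓.p (taJ N') ∉ V) :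
    t4vA1 ↥(tbFix 𝔓 H) N' 𝔓.p (taJ N') ∉ V :=
  fun h1 => h0 (t4rc_mem_of_isIntegral V hL h1 (t4rct_a0_of_a1 𝔓 N' H h))

include hL in
/-- a pole of `J2` is a pole of `J0` -/
theorem t4rct_a0_notMem_of_a2 (h2 : t4vA2 ↥(tbFix 𝔓 H) N' 𝔓.p (taJ N') ∉ V) :
    t4vA0 ↥(tbFix 𝔓 H) N' 𝔓.p (taJ N') ∉ V :=
  fun h0 => h2 (t4rc_mem_of_isIntegral V hL h0 (t4rct_a2_of_a0 𝔓 N' H))

include hL hQ h in
/-- **(K2), cuspidal case**: at a pole of `x` (i.e. `x⁻¹` in the maximal ideal of `V ⊇ L`), `a2 f₀` lies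
in `V` for every `f₀` integral over `L[X'⁻¹]` -/
theorem t4rct_a2_mem_of_pole (hx : t4vX ↥(tbFix 𝔓 H) N' 𝔓.p Q ∉ V)
    {f0 : ↥(TaF ↥(tbFix 𝔓 H) N')}
    (hf0 : IsIntegral ↥(Algebra.adjoin ↥(tbFix 𝔓 H) {(t4vX' ↥(tbFix 𝔓 H) N' Q)⁻¹}) f0) :
    t4vA2 ↥(tbFix 𝔓 H) N' 𝔓.p f0 ∈ V := by
  have h1 : t4vA2 ↥(tbFix 𝔓 H) N' 𝔓.p (t4vX' ↥(tbFix 𝔓 H) N' Q) ∉ V := fun h2 =>
    hx (t4rc_mem_of_isIntegral V hL h2 (t4rct_x_of_a2X 𝔓 N' H h hQ))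
  have h2 : (t4vA2 ↥(tbFix 𝔓 H) N' 𝔓.p (t4vX' ↥(tbFix 𝔓 H) N' Q))⁻¹ ∈ V :=
    (V.mem_or_inv_mem _).resolve_left h1
  have h3 := t4rcb_isIntegral_algHom (t4vA2 ↥(tbFix 𝔓 H) N' 𝔓.p) hf0
  rw [map_inv₀] at h3
  exact t4rc_mem_of_isIntegral V hL h2 h3

end Fix

end Fermat.Agent.T4
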