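/-
T4-R (helper1), package CM: **(K2) at the inertia level** `L = tbFix 𝔓 ⊤`: for any presentation `P`
of the chart `y = 1 / x`, `x = j^Q - j`, of level `N' p²` (dictionaries `hvals`, `hB`), at every point
`𝔫` on `C_0` the elements `a2 f₀` (`f₀ ∈ taOv N'` integral over `L[1 / X']`) lie in `B_𝔫`
(= `ha2` of `t4vm_smoothAt_zero`, `hK2` of `t4nc2_hsm`).  No hypotheses left.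
-/
import Fermat.Agent.Lib.T4.Reg.CuspK2A
import Fermat.Agent.Lib.T4.Reg.CuspTable

set_option autoImplicit false
set_option linter.unusedSectionVars false
set_option linter.unusedVariables false
set_option linter.style.haveILetI false
set_option synthInstance.maxHeartbeats 400000

open HahnSeries ModularCurve Fermat.Agent.T1 Fermat.Agent.T2 Fermat.Agent.TW Fermat.Agent.S05Lib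

noncomputable section

namespace Fermat.Agent.T4

local notation "Qb" => AlgebraicClosure ℚ

attribute [local instance] t2i_dvr t2i_isAlgClosed t2i_charP t2i_fact t2iAlgebra t2i_isScalarTower

variable (𝔓 : FFPlace) (N' : ℕ) [NeZero N'] (h : ¬ 𝔓.p ∣ N') {ζ : Qb}
  (hζ : IsPrimitiveRoot ζ 𝔓.p) {Q : ℕ} (hQ : 2 ≤ Q)

include hQ in
/-- **(K2) at the inertia level** -/
theorem t4rck_K2_fix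
    (P : T4Pres ↥(tbLevF 𝔓 (N' * 𝔓.p * 𝔓.p) ⊤)) {y : ↥(tbLevF 𝔓 (N' * 𝔓.p * 𝔓.p) ⊤)}
    (hvals :
      letI := t4cyAlgebra 𝔓 (le_top : t4cyH 𝔓 ζ ≤ ⊤)
      P.vals = t4vpHor ↥(tbFix 𝔓 (⊤ : Subgroup 𝔓.I)) y ∪
        t4vwVer (tbFixO 𝔓 ⊤) (tbFixRes 𝔓 ⊤) (tbFixRes_surjective 𝔓 ⊤) (t4iALFix 𝔓 ⊤ N' h)
          (tbFixO 𝔓 (t4cyH 𝔓 ζ)) (tbFixRes 𝔓 (t4cyH 𝔓 ζ)) (t4iCycFix 𝔓 hζ)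
          (t4vMidFix 𝔓 N' h hζ))
    (hB : ∀ f : ↥(tbLevF 𝔓 (N' * 𝔓.p * 𝔓.p) ⊤), f ∈ P.B ↔
      f ∈ t2Int (K := ↥(tbFix 𝔓 (⊤ : Subgroup 𝔓.I))) y ∧ f ∈ (t4vInputFix 𝔓 N' h hζ).Ov)
    (hy : y = (t4vX ↥(tbFix 𝔓 (⊤ : Subgroup 𝔓.I)) N' 𝔓.p Q)⁻¹)
    (𝔫 : Ideal P.B) [h𝔫 : 𝔫.IsPrime]
    (h0 : t4vO0Fix 𝔓 N' h ∈ P.through 𝔫)
    (f0 : ↥(taOv (tbFixO 𝔓 ⊤) (tbFixRes 𝔓 ⊤) (tbFixRes_surjective 𝔓 ⊤) N'))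
    (hf0 : (f0 : ↥(TaF ↥(tbFix 𝔓 (⊤ : Subgroup 𝔓.I)) N')) ∈
      t2Int (K := ↥(tbFix 𝔓 (⊤ : Subgroup 𝔓.I)))
        (t4vX' ↥(tbFix 𝔓 (⊤ : Subgroup 𝔓.I)) N' Q)⁻¹) :
    t4vA2 ↥(tbFix 𝔓 (⊤ : Subgroup 𝔓.I)) N' 𝔓.p (f0 : ↥(TaF ↥(tbFix 𝔓 (⊤ : Subgroup 𝔓.I)) N')) ∈
      P.loc 𝔫 :=
  letI := t4cyAlgebra 𝔓 (le_top : t4cyH 𝔓 ζ ≤ ⊤)
  t4rck_K2 (tbFixO 𝔓 ⊤) (tbFixRes 𝔓 ⊤) (tbFixRes_surjective 𝔓 ⊤)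
    (t2i_natCast_ne_zero 𝔓 h) (t2iALFix 𝔓 ⊤ N' h) (t2iFrobFix 𝔓 N') (t4iALFix 𝔓 ⊤ N' h)
    (t4cy_irreducible_p 𝔓) (tbFixO 𝔓 (t4cyH 𝔓 ζ)) (tbFixRes 𝔓 (t4cyH 𝔓 ζ)) (t4iCycFix 𝔓 hζ)
    (t4vMidFix 𝔓 N' h hζ) hQ P hvals hB hy 𝔫 (t4rct_a2X_of_x 𝔓 N' ⊤ hQ) h0 f0 hf0

end Fermat.Agent.T4
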