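/-
T4-R (helper6): **Kähler–Nakayama** — derivations preserve a "smooth" local ring.

`R → A` commutative rings, `A` local with `𝔪_A = (ϖ, u)`, `ϖ` coming from `R`, every element of `A`
congruent to an element of `R` modulo `𝔪_A`, and `Ω[A⁄R]` a finite `A`-module (e.g. `A` essentially
of finite type over `R`).  Then `Ω[A⁄R] = A · du`, hence for every `R`-derivation `d : A → M`
(`M` any `A`-module) `d a ∈ A · d u`.

Application (T4-R): `A` = local ring of the smooth model of `X₀(N')` at a closed point of the special
fibre, `R` = the base DVR, `ϖ = q`, `u` a function whose reduction is a uniformiser at the point;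
`d` = the restriction of `θ/θu`; conclusion: `θ/θu` maps `A` into `A`.
-/
import Mathlib

set_option autoImplicit false

open KaehlerDifferential

namespace Fermat.Agent.T4

variable {R A : Type*} [CommRing R] [CommRing A] [Algebra R A] [IsLocalRing A]

/-- `Ω[A⁄R]` is generated by `du` if `𝔪_A = (ϖ, u)` with `ϖ ∈ R` and `R → A ⧸ 𝔪_A` is onto. -/
theorem t4r_kaehler_span [Module.Finite A (Ω[A⁄R])] (ϖ : R) (u : A)
    (hm : IsLocalRing.maximalIdeal A = Ideal.span {algebraMap R A ϖ, u})
    (hres : ∀ a : A, ∃ r : R, a - algebraMap R A r ∈ IsLocalRing.maximalIdeal A) :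
    Submodule.span A {D R A u} = ⊤ := by
  set N : Submodule A (Ω[A⁄R]) := Submodule.span A {D R A u} with hN
  have hfg : (⊤ : Submodule A (Ω[A⁄R])).FG := Module.Finite.fg_top
  have hle : (⊤ : Submodule A (Ω[A⁄R])) ≤ N ⊔ IsLocalRing.maximalIdeal A • ⊤ := by
    have hspan : Submodule.span A (Set.range (D R A)) ≤
        N ⊔ IsLocalRing.maximalIdeal A • (⊤ : Submodule A (Ω[A⁄R])) := by
      rw [Submodule.span_le]
      rintro _ ⟨a, rfl⟩
      obtain ⟨r, hr⟩ := hres a
      rw [hm, Ideal.mem_span_pair] at hr
      obtain ⟨b, c, hbc⟩ := hr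
      have ha : a = algebraMap R A r + (b * algebraMap R A ϖ + c * u) := by
        rw [hbc]; ring
      have hD : D R A a = algebraMap R A ϖ • D R A b + u • D R A c + c • D R A u := by
        rw [ha, map_add, Derivation.map_algebraMap, zero_add, map_add, Derivation.leibniz,
          Derivation.leibniz, Derivation.map_algebraMap, smul_zero, zero_add]
        abel
      have hϖ : algebraMap R A ϖ ∈ IsLocalRing.maximalIdeal A := by
        rw [hm]; exact Ideal.subset_span (by simp)
      have hu : u ∈ IsLocalRing.maximalIdeal A := by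
        rw [hm]; exact Ideal.subset_span (by simp)
      show D R A a ∈ N ⊔ IsLocalRing.maximalIdeal A • (⊤ : Submodule A (Ω[A⁄R]))
      rw [hD]
      refine Submodule.add_mem _ (Submodule.add_mem _ ?_ ?_) ?_
      · exact Submodule.mem_sup_right (Submodule.smul_mem_smul hϖ Submodule.mem_top)
      · exact Submodule.mem_sup_right (Submodule.smul_mem_smul hu Submodule.mem_top)
      · exact Submodule.mem_sup_left (Submodule.smul_mem _ _ (Submodule.subset_span rfl))
    rw [KaehlerDifferential.span_range_derivation] at hspan
    exact hspan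
  exact top_le_iff.mp (Submodule.le_of_le_smul_of_le_jacobson_bot hfg
    (IsLocalRing.maximalIdeal_le_jacobson ⊥) hle)

/-- **Kähler–Nakayama**: every `R`-derivation of `A` takes values in `A · d u`. -/
theorem t4r_derivation_mem [Module.Finite A (Ω[A⁄R])] (ϖ : R) (u : A)
    (hm : IsLocalRing.maximalIdeal A = Ideal.span {algebraMap R A ϖ, u})
    (hres : ∀ a : A, ∃ r : R, a - algebraMap R A r ∈ IsLocalRing.maximalIdeal A)
    {M : Type*} [AddCommGroup M] [Module A M] [Module R M] [IsScalarTower R A M]
    (d : Derivation R A M) (a : A) : ∃ c : A, d a = c • d u := by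
  have h : D R A a ∈ Submodule.span A {D R A u} := by
    rw [t4r_kaehler_span ϖ u hm hres]; exact Submodule.mem_top
  obtain ⟨c, hc⟩ := Submodule.mem_span_singleton.mp h
  refine ⟨c, ?_⟩
  have h1 : d.liftKaehlerDifferential (D R A a) = d a := Derivation.liftKaehlerDifferential_comp_D d a
  have h2 : d.liftKaehlerDifferential (D R A u) = d u := Derivation.liftKaehlerDifferential_comp_D d u
  rw [← h1, ← hc, map_smul, h2]

end Fermat.Agent.T4
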