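/-
T4-R (helper7, for helper6's REG1 datum): **derivations preserve the local ring of a smooth point**
= Kähler–Nakayama (`t4r_derivation_mem`) applied to `P.loc 𝔫`.

`P : T4Pres F` a presentation of the chart ring `B`, `𝔫` a prime of `B`, `O₀ ≤ B` a base subring
over which `B` is of finite type (or over which `B_𝔫` is essentially of finite type), `ϖ ∈ O₀` and
`u ∈ B_𝔫` non-units of `B_𝔫` generating its maximal ideal, the residue field of `B_𝔫` covered by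
`O₀`.  Then every derivation `D` of `F` which kills `O₀` and satisfies `D u ∈ B_𝔫` preserves `B_𝔫`.
-/
import Mathlib
import Fermat.Agent.Lib.T4.Local.Loc
import Fermat.Agent.Lib.T4.Reg.AlgKaehler

set_option autoImplicit false
set_option linter.style.haveILetI false

namespace Fermat.Agent.T4

variable {F : Type*} [Field F]

/-- units of a subring of a field -/
theorem t4rk_isUnit_iff (S : Subring F) (x : ↥S) :
    IsUnit x ↔ (x : F) ≠ 0 ∧ (x : F)⁻¹ ∈ S := by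
  constructor
  · intro hu
    obtain ⟨y, hy⟩ := isUnit_iff_exists_inv.mp hu
    have h1 : (x : F) * (y : F) = 1 := by
      have := congrArg Subtype.val hy
      simpa using this
    have hx0 : (x : F) ≠ 0 := left_ne_zero_of_mul_eq_one h1
    refine ⟨hx0, ?_⟩
    have : (x : F)⁻¹ = (y : F) := inv_eq_of_mul_eq_one_right h1
    rw [this]; exact y.2
  · rintro ⟨hx0, hinv⟩
    refine isUnit_iff_exists_inv.mpr ⟨⟨_, hinv⟩, ?_⟩
    apply Subtype.ext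
    show (x : F) * (x : F)⁻¹ = 1
    exact mul_inv_cancel₀ hx0

/-- the restriction of a derivation of `F` killing `O₀` to an `O₀`-derivation `A → F` -/
noncomputable def t4rkDer (O₀ A : Subring F) (hOA : O₀ ≤ A) (D : Derivation ℤ F F)
    (hD0 : ∀ c ∈ O₀, D c = 0) :
    letI : Algebra ↥O₀ ↥A := (Subring.inclusion hOA).toAlgebra
    Derivation ↥O₀ ↥A F :=
  letI : Algebra ↥O₀ ↥A := (Subring.inclusion hOA).toAlgebra
  Derivation.mk'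
    { toFun := fun a => D (a : F)
      map_add' := fun a b => by
        show D ((a + b : ↥A) : F) = D (a : F) + D (b : F)
        rw [Subring.coe_add, map_add]
      map_smul' := fun r a => by
        show D ((r • a : ↥A) : F) = r • D (a : F)
        have h1 : ((r • a : ↥A) : F) = (r : F) * (a : F) := rfl
        rw [h1, Derivation.leibniz, hD0 (r : F) r.2, smul_zero, add_zero]
        rfl }
    (fun a b => by
      show D ((a * b : ↥A) : F) = a • D (b : F) + b • D (a : F)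
      rw [Subring.coe_mul, Derivation.leibniz]
      rfl)

theorem t4rkDer_apply (O₀ A : Subring F) (hOA : O₀ ≤ A) (D : Derivation ℤ F F)
    (hD0 : ∀ c ∈ O₀, D c = 0) (a : ↥A) :
    letI : Algebra ↥O₀ ↥A := (Subring.inclusion hOA).toAlgebra
    t4rkDer O₀ A hOA D hD0 a = D (a : F) := rfl

/-- **Kähler–Nakayama in a subring of a field**: `A ≤ F` a local subring, essentially of finite type
over `O₀ ≤ A`, with `𝔪_A = (ϖ, u)`, `ϖ ∈ O₀`, and residue field covered by `O₀`.  A derivation `D`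
of `F` which kills `O₀` and satisfies `D u ∈ A` preserves `A`. -/
theorem t4rk_derivation_subring (O₀ A : Subring F) (hOA : O₀ ≤ A) [IsLocalRing ↥A]
    (hess : letI : Algebra ↥O₀ ↥A := (Subring.inclusion hOA).toAlgebra
      Algebra.EssFiniteType ↥O₀ ↥A)
    (ϖ u : F) (hϖ : ϖ ∈ O₀) (hu : u ∈ A)
    (hϖ1 : ϖ⁻¹ ∈ A → ϖ = 0) (hu1 : u⁻¹ ∈ A → u = 0)
    (hm : ∀ x ∈ A, x⁻¹ ∉ A → ∃ a ∈ A, ∃ b ∈ A, x = ϖ * a + u * b)
    (hres : ∀ x ∈ A, ∃ c ∈ O₀, (x - c)⁻¹ ∉ A ∨ x = c)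
    (D : Derivation ℤ F F) (hD0 : ∀ c ∈ O₀, D c = 0) (hDu : D u ∈ A) :
    ∀ x ∈ A, D x ∈ A := by
  letI : Algebra ↥O₀ ↥A := (Subring.inclusion hOA).toAlgebra
  haveI : Algebra.EssFiniteType ↥O₀ ↥A := hess
  haveI : IsScalarTower ↥O₀ ↥A F := IsScalarTower.of_algebraMap_eq (fun _ => rfl)
  -- non-units
  have hnu : ∀ x : ↥A, x ∈ IsLocalRing.maximalIdeal ↥A ↔ ((x : F) = 0 ∨ (x : F)⁻¹ ∉ A) := by
    intro x
    rw [IsLocalRing.mem_maximalIdeal, mem_nonunits_iff, t4rk_isUnit_iff]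
    tauto
  have hϖm : algebraMap ↥O₀ ↥A ⟨ϖ, hϖ⟩ ∈ IsLocalRing.maximalIdeal ↥A := by
    rw [hnu]
    show ϖ = 0 ∨ ϖ⁻¹ ∉ A
    by_cases h : ϖ⁻¹ ∈ A
    · exact Or.inl (hϖ1 h)
    · exact Or.inr h
  have hum : (⟨u, hu⟩ : ↥A) ∈ IsLocalRing.maximalIdeal ↥A := by
    rw [hnu]
    show u = 0 ∨ u⁻¹ ∉ A
    by_cases h : u⁻¹ ∈ A
    · exact Or.inl (hu1 h)
    · exact Or.inr h
  have hm' : IsLocalRing.maximalIdeal ↥A =
      Ideal.span {algebraMap ↥O₀ ↥A ⟨ϖ, hϖ⟩, (⟨u, hu⟩ : ↥A)} := by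
    apply le_antisymm
    · intro x hx
      rw [hnu] at hx
      rcases eq_or_ne (x : F) 0 with h0 | h0
      · have : x = 0 := Subtype.ext h0
        rw [this]; exact Ideal.zero_mem _
      · have hx' : (x : F)⁻¹ ∉ A := hx.resolve_left h0
        obtain ⟨a, ha, b, hb, hab⟩ := hm (x : F) x.2 hx'
        rw [Ideal.mem_span_pair]
        refine ⟨⟨a, ha⟩, ⟨b, hb⟩, ?_⟩
        apply Subtype.ext
        show a * ϖ + b * u = (x : F)
        rw [hab]; ring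
    · rw [Ideal.span_le]
      intro x hx
      rcases hx with rfl | rfl
      · exact hϖm
      · exact hum
  have hres' : ∀ a : ↥A, ∃ r : ↥O₀, a - algebraMap ↥O₀ ↥A r ∈ IsLocalRing.maximalIdeal ↥A := by
    intro a
    obtain ⟨c, hc, h⟩ := hres (a : F) a.2
    refine ⟨⟨c, hc⟩, ?_⟩
    rw [hnu]
    show (a : F) - c = 0 ∨ ((a : F) - c)⁻¹ ∉ A
    rcases h with h | h
    · exact Or.inr h
    · exact Or.inl (sub_eq_zero.mpr h)
  intro x hx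
  obtain ⟨c, hc⟩ := t4r_derivation_mem (⟨ϖ, hϖ⟩ : ↥O₀) (⟨u, hu⟩ : ↥A) hm' hres'
    (t4rkDer O₀ A hOA D hD0) ⟨x, hx⟩
  have h1 : D x = (c : F) * D u := hc
  rw [h1]
  exact A.mul_mem c.2 hDu

/-- the subring generated by `O₀` and a finite subset of `A` lies in the corresponding adjoin -/
theorem t4rk_closure_le_adjoin (O₀ A : Subring F) (hOA : O₀ ≤ A) (s : Finset F) [DecidablePred (· ∈ A)]
    (hs : ∀ x ∈ s, x ∈ A) :
    letI : Algebra ↥O₀ ↥A := (Subring.inclusion hOA).toAlgebra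
    Subring.closure ((O₀ : Set F) ∪ ↑s) ≤
      (Algebra.adjoin ↥O₀ ((s.subtype (· ∈ A) : Finset ↥A) : Set ↥A)).toSubring.map A.subtype := by
  letI : Algebra ↥O₀ ↥A := (Subring.inclusion hOA).toAlgebra
  rw [Subring.closure_le]
  rintro x (hx | hx)
  · exact ⟨algebraMap ↥O₀ ↥A ⟨x, hx⟩, Subalgebra.algebraMap_mem _ _, rfl⟩
  · refine ⟨⟨x, hs x hx⟩, Algebra.subset_adjoin ?_, rfl⟩
    rw [Finset.mem_coe, Finset.mem_subtype]
    exact hx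

/-- a criterion for a subring `A` of a field to be essentially of finite type over `O₀ ≤ A`: every
element of `A` is a fraction `y / t` with `y, t` in the subring generated by `O₀` and a fixed finite
subset of `A`, `t` a unit of `A`. -/
theorem t4rk_essFiniteType (O₀ A : Subring F) (hOA : O₀ ≤ A)
    (hft : ∃ s : Finset F, (∀ x ∈ s, x ∈ A) ∧
      ∀ x ∈ A, ∃ t ∈ Subring.closure ((O₀ : Set F) ∪ ↑s),
        t ≠ 0 ∧ t⁻¹ ∈ A ∧ x * t ∈ Subring.closure ((O₀ : Set F) ∪ ↑s)) :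
    letI : Algebra ↥O₀ ↥A := (Subring.inclusion hOA).toAlgebra
    Algebra.EssFiniteType ↥O₀ ↥A := by
  classical
  letI : Algebra ↥O₀ ↥A := (Subring.inclusion hOA).toAlgebra
  obtain ⟨s, hs, hgen⟩ := hft
  rw [Algebra.essFiniteType_iff]
  refine ⟨s.subtype (· ∈ A), fun x => ?_⟩
  have hle := t4rk_closure_le_adjoin O₀ A hOA s hs
  obtain ⟨t, ht, ht0, htinv, hxt⟩ := hgen (x : F) x.2
  obtain ⟨t', ht', htt'⟩ := hle ht
  obtain ⟨y, hy, hyx⟩ := hle hxt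
  refine ⟨t', ht', ?_, ?_⟩
  · rw [t4rk_isUnit_iff]
    have h1 : (t' : F) = t := htt'
    rw [h1]
    exact ⟨ht0, htinv⟩
  · have : x * t' = y := by
      apply Subtype.ext
      show (x : F) * (t' : F) = (y : F)
      have h1 : (t' : F) = t := htt'
      have h2 : (y : F) = (x : F) * t := hyx
      rw [h1, h2]
    rw [this]
    exact hy

namespace T4Pres

variable (P : T4Pres F)

/-- `B` is of finite type over `O₀` if it is generated by `O₀` and finitely many elements -/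
theorem finiteType_of_closure (O₀ : Subring F) (hO : O₀ ≤ P.B)
    (hft : ∃ s : Finset F, (∀ x ∈ s, x ∈ P.B) ∧
      ∀ b ∈ P.B, b ∈ Subring.closure ((O₀ : Set F) ∪ ↑s)) :
    letI : Algebra ↥O₀ ↥P.B := (Subring.inclusion hO).toAlgebra
    Algebra.FiniteType ↥O₀ ↥P.B := by
  classical
  letI : Algebra ↥O₀ ↥P.B := (Subring.inclusion hO).toAlgebra
  obtain ⟨s, hs, hgen⟩ := hft
  refine ⟨⟨s.subtype (· ∈ P.B), ?_⟩⟩
  rw [eq_top_iff]
  rintro ⟨b, hb⟩ -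
  set T : Subalgebra ↥O₀ ↥P.B := Algebra.adjoin ↥O₀ ((s.subtype (· ∈ P.B) : Finset ↥P.B) : Set ↥P.B)
    with hT
  have hle : Subring.closure ((O₀ : Set F) ∪ ↑s) ≤ T.toSubring.map P.B.subtype := by
    rw [Subring.closure_le]
    rintro x (hx | hx)
    · exact ⟨algebraMap ↥O₀ ↥P.B ⟨x, hx⟩, T.algebraMap_mem _, rfl⟩
    · refine ⟨⟨x, hs x hx⟩, Algebra.subset_adjoin ?_, rfl⟩
      rw [Finset.mem_coe, Finset.mem_subtype]
      exact hx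
  obtain ⟨y, hy, hyb⟩ := hle (hgen b hb)
  have : y = ⟨b, hb⟩ := Subtype.ext hyb
  rw [← this]
  exact hy

/-- **derivations preserve the local ring of a smooth point**: Kähler–Nakayama for `P.loc 𝔫`. -/
theorem derivation_mem_loc (𝔫 : Ideal P.B) [𝔫.IsPrime] (O₀ : Subring F) (hO : O₀ ≤ P.B)
    (hft : ∃ s : Finset F, (∀ x ∈ s, x ∈ P.B) ∧
      ∀ b ∈ P.B, b ∈ Subring.closure ((O₀ : Set F) ∪ ↑s))
    (ϖ u : F) (hϖ : ϖ ∈ O₀) (hu : u ∈ P.loc 𝔫)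
    (hϖ1 : ϖ⁻¹ ∈ P.loc 𝔫 → ϖ = 0) (hu1 : u⁻¹ ∈ P.loc 𝔫 → u = 0)
    (hm : ∀ x ∈ P.loc 𝔫, x⁻¹ ∉ P.loc 𝔫 → ∃ a ∈ P.loc 𝔫, ∃ b ∈ P.loc 𝔫, x = ϖ * a + u * b)
    (hres : ∀ x ∈ P.loc 𝔫, ∃ c ∈ O₀, (x - c)⁻¹ ∉ P.loc 𝔫 ∨ x = c)
    (D : Derivation ℤ F F) (hD0 : ∀ c ∈ O₀, D c = 0) (hDu : D u ∈ P.loc 𝔫) :
    ∀ x ∈ P.loc 𝔫, D x ∈ P.loc 𝔫 := by
  haveI := P.isLocalRing_loc 𝔫
  have hOA : O₀ ≤ P.loc 𝔫 := hO.trans (P.B_le_loc 𝔫)
  refine t4rk_derivation_subring O₀ (P.loc 𝔫) hOA ?_ ϖ u hϖ hu hϖ1 hu1 hm hres D hD0 hDu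
  letI a1 : Algebra ↥O₀ ↥P.B := (Subring.inclusion hO).toAlgebra
  letI a2 : Algebra ↥P.B ↥(P.loc 𝔫) := P.locAlgebra 𝔫
  letI a3 : Algebra ↥O₀ ↥(P.loc 𝔫) := (Subring.inclusion hOA).toAlgebra
  haveI : IsScalarTower ↥O₀ ↥P.B ↥(P.loc 𝔫) := IsScalarTower.of_algebraMap_eq (fun _ => rfl)
  haveI : Algebra.FiniteType ↥O₀ ↥P.B := P.finiteType_of_closure O₀ hO hft
  haveI := P.isLocalization_loc 𝔫
  haveI : Algebra.EssFiniteType ↥P.B ↥(P.loc 𝔫) :=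
    Algebra.EssFiniteType.of_isLocalization ↥(P.loc 𝔫) 𝔫.primeCompl
  exact Algebra.EssFiniteType.comp ↥O₀ ↥P.B ↥(P.loc 𝔫)

/-- variant of `derivation_mem_loc` assuming only that `B_𝔫` is a ring of fractions of a subring
generated by `O₀` and finitely many elements of `B_𝔫` -/
theorem derivation_mem_loc' (𝔫 : Ideal P.B) [𝔫.IsPrime] (O₀ : Subring F) (hOA : O₀ ≤ P.loc 𝔫)
    (hft : ∃ s : Finset F, (∀ x ∈ s, x ∈ P.loc 𝔫) ∧
      ∀ x ∈ P.loc 𝔫, ∃ t ∈ Subring.closure ((O₀ : Set F) ∪ ↑s),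
        t ≠ 0 ∧ t⁻¹ ∈ P.loc 𝔫 ∧ x * t ∈ Subring.closure ((O₀ : Set F) ∪ ↑s))
    (ϖ u : F) (hϖ : ϖ ∈ O₀) (hu : u ∈ P.loc 𝔫)
    (hϖ1 : ϖ⁻¹ ∈ P.loc 𝔫 → ϖ = 0) (hu1 : u⁻¹ ∈ P.loc 𝔫 → u = 0)
    (hm : ∀ x ∈ P.loc 𝔫, x⁻¹ ∉ P.loc 𝔫 → ∃ a ∈ P.loc 𝔫, ∃ b ∈ P.loc 𝔫, x = ϖ * a + u * b)
    (hres : ∀ x ∈ P.loc 𝔫, ∃ c ∈ O₀, (x - c)⁻¹ ∉ P.loc 𝔫 ∨ x = c)
    (D : Derivation ℤ F F) (hD0 : ∀ c ∈ O₀, D c = 0) (hDu : D u ∈ P.loc 𝔫) :
    ∀ x ∈ P.loc 𝔫, D x ∈ P.loc 𝔫 := by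
  haveI := P.isLocalRing_loc 𝔫
  exact t4rk_derivation_subring O₀ (P.loc 𝔫) hOA (t4rk_essFiniteType O₀ (P.loc 𝔫) hOA hft)
    ϖ u hϖ hu hϖ1 hu1 hm hres D hD0 hDu

end T4Pres

end Fermat.Agent.T4
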