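/-
T4-R (helper6): pure algebra for the per-point construction of the two-branch datum.

* `t4rl_exists_eval`: an ideal with residue field `k` is the kernel of an evaluation `R →ₐ[k] k`;
* `t4rl_isIntegral_iff`: integrality over a subalgebra in terms of polynomials over the field;
* `t4rl_closed_of_fractions`: a ring of fractions of an integrally closed ring is integrally closed;
* `t4rl_closed_of_equiv`: transport of integral closedness along a ring automorphism;
* `t4rl_node_local`: local form of the node ideal: for `g ∈ 𝔭` there is `z ∉ 𝔭` with `ev (z g) = 0`.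
-/
import Mathlib

set_option autoImplicit false
set_option linter.unusedSectionVars false
set_option linter.unusedVariables false

open Polynomial

namespace Fermat.Agent.T4

/-- an ideal with residue field `k` is the kernel of an evaluation map -/
theorem t4rl_exists_eval {k R : Type*} [Field k] [CommRing R] [Algebra k R] (I : Ideal R)
    (hI : I ≠ ⊤) (h : ∀ x : R, ∃ c : k, x - algebraMap k R c ∈ I) :
    ∃ e : R →ₐ[k] k, ∀ x, e x = 0 ↔ x ∈ I := by
  have : Nontrivial (R ⧸ I) := Ideal.Quotient.nontrivial_iff.mpr hI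
  have hbij : Function.Bijective (Algebra.ofId k (R ⧸ I)) := by
    constructor
    · exact (algebraMap k (R ⧸ I)).injective
    · intro y
      obtain ⟨x, rfl⟩ := Ideal.Quotient.mk_surjective y
      obtain ⟨c, hc⟩ := h x
      refine ⟨c, ?_⟩
      rw [Algebra.ofId_apply]
      have h1 : algebraMap k (R ⧸ I) c = Ideal.Quotient.mk I (algebraMap k R c) := rfl
      rw [h1, eq_comm, Ideal.Quotient.mk_eq_mk_iff_sub_mem]
      exact hc
  let φ : k ≃ₐ[k] (R ⧸ I) := AlgEquiv.ofBijective (Algebra.ofId k (R ⧸ I)) hbij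
  refine ⟨(φ.symm : (R ⧸ I) →ₐ[k] k).comp (Ideal.Quotient.mkₐ k I), fun x => ?_⟩
  rw [AlgHom.comp_apply]
  show φ.symm (Ideal.Quotient.mkₐ k I x) = 0 ↔ x ∈ I
  rw [map_eq_zero_iff _ φ.symm.injective, Ideal.Quotient.mkₐ_eq_mk, Ideal.Quotient.eq_zero_iff_mem]

section Closed

variable {k E : Type*} [Field k] [Field E] [Algebra k E]

/-- integrality over a subalgebra, in terms of polynomials over the field -/
theorem t4rl_isIntegral_iff (R : Subalgebra k E) (x : E) :
    IsIntegral ↥R x ↔ ∃ P : E[X], P.Monic ∧ (∀ i, P.coeff i ∈ R) ∧ P.eval x = 0 := by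
  constructor
  · rintro ⟨p, hp, hpx⟩
    refine ⟨p.map (algebraMap ↥R E), hp.map _, fun i => ?_, ?_⟩
    · rw [coeff_map]
      exact (p.coeff i).2
    · rw [eval_map]
      exact hpx
  · rintro ⟨P, hP, hc, hPx⟩
    have hc' : (↑P.coeffs : Set E) ⊆ R.toSubring := by
      intro y hy
      obtain ⟨i, -, rfl⟩ := (mem_coeffs_iff.mp hy)
      exact hc i
    refine ⟨P.toSubring R.toSubring hc', ?_, ?_⟩
    · exact (monic_toSubring P R.toSubring hc').mpr hP
    · have h1 : (P.toSubring R.toSubring hc').map (algebraMap ↥R E) = P :=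
        map_toSubring P R.toSubring hc'
      rw [← eval_map, h1]
      exact hPx

/-- **a ring of fractions of an integrally closed ring is integrally closed** -/
theorem t4rl_closed_of_fractions (R' R₁ : Subalgebra k E)
    (hfrac : ∀ x ∈ R₁, ∃ s ∈ R', s⁻¹ ∈ R₁ ∧ s ≠ 0 ∧ s * x ∈ R')
    (hle : R' ≤ R₁)
    (hcl : ∀ x : E, IsIntegral ↥R' x → x ∈ R') (x : E) (hx : IsIntegral ↥R₁ x) : x ∈ R₁ := by
  classical
  obtain ⟨P, hP, hc, hPx⟩ := (t4rl_isIntegral_iff R₁ x).mp hx
  -- a common denominator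
  choose! d hd using fun i => hfrac (P.coeff i) (hc i)
  set s : E := ∏ i ∈ P.support, d i with hs
  have hsR' : s ∈ R' := Subalgebra.prod_mem _ (fun i _ => (hd i).1)
  have hsinv : s⁻¹ ∈ R₁ := by
    rw [hs, ← Finset.prod_inv_distrib]
    exact Subalgebra.prod_mem _ (fun i _ => (hd i).2.1)
  have hs0 : s ≠ 0 := Finset.prod_ne_zero_iff.mpr (fun i _ => (hd i).2.2.1)
  have hsc : ∀ i, s * P.coeff i ∈ R' := by
    intro i
    by_cases hi : i ∈ P.support
    · rw [hs, ← Finset.mul_prod_erase _ _ hi, mul_assoc, mul_comm (∏ j ∈ P.support.erase i, d j),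
        ← mul_assoc]
      exact R'.mul_mem (hd i).2.2.2 (Subalgebra.prod_mem _ (fun j _ => (hd j).1))
    · rw [notMem_support_iff.mp hi, mul_zero]
      exact R'.zero_mem
  -- `s x` is integral over `R'`
  have hint : IsIntegral ↥R' (s * x) := by
    rw [t4rl_isIntegral_iff]
    refine ⟨scaleRoots P s, (monic_scaleRoots_iff s).mpr hP, fun i => ?_, ?_⟩
    · rw [coeff_scaleRoots]
      by_cases hi : i = P.natDegree
      · rw [hi, hP.coeff_natDegree, Nat.sub_self, pow_zero, mul_one]
        exact R'.one_mem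
      · by_cases hi' : i < P.natDegree
        · have h1 : P.natDegree - i = (P.natDegree - i - 1) + 1 := by omega
          have h3 : P.coeff i * s ^ (P.natDegree - i - 1 + 1) =
              (s * P.coeff i) * s ^ (P.natDegree - i - 1) := by ring
          rw [h1, h3]
          exact R'.mul_mem (hsc i) (R'.pow_mem hsR' _)
        · have h2 : P.coeff i = 0 := coeff_eq_zero_of_natDegree_lt (by omega)
          rw [h2, zero_mul]
          exact R'.zero_mem
    · have := scaleRoots_eval₂_mul (p := P) (RingHom.id E) x s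
      simp only [RingHom.id_apply, eval₂_id] at this
      rw [this, hPx, mul_zero]
  have h1 : s * x ∈ R₁ := hle (hcl _ hint)
  have h2 : x = s⁻¹ * (s * x) := by rw [← mul_assoc, inv_mul_cancel₀ hs0, one_mul]
  rw [h2]
  exact R₁.mul_mem hsinv h1

/-- transport of integral closedness along a ring automorphism -/
theorem t4rl_closed_of_equiv (ψ : E ≃+* E) (R₁ R₀ : Subalgebra k E)
    (h10 : ∀ x ∈ R₀, ψ.symm x ∈ R₁) (h01 : ∀ x ∈ R₁, ψ x ∈ R₀)
    (hcl : ∀ x : E, IsIntegral ↥R₁ x → x ∈ R₁) (x : E) (hx : IsIntegral ↥R₀ x) : x ∈ R₀ := by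
  obtain ⟨P, hP, hc, hPx⟩ := (t4rl_isIntegral_iff R₀ x).mp hx
  have hint : IsIntegral ↥R₁ (ψ.symm x) := by
    rw [t4rl_isIntegral_iff]
    refine ⟨P.map (ψ.symm : E →+* E), hP.map _, fun i => ?_, ?_⟩
    · rw [coeff_map]
      exact h10 _ (hc i)
    · rw [eval_map]
      have h2 := hom_eval₂ P (RingHom.id E) (ψ.symm : E →+* E) x
      rw [eval₂_id, hPx, map_zero, RingHom.comp_id] at h2
      exact h2.symm
  have h1 := h01 _ (hcl _ hint)
  rwa [RingEquiv.apply_symm_apply] at h1

end Closed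

/-- **local form of the node ideal**: for `g ∈ 𝔭` there is `z ∉ 𝔭` with `ev (z g) = 0` -/
theorem t4rl_node_local {k R : Type*} [Field k] [CommRing R] [Algebra k R] {n : ℕ}
    (ev : R →ₐ[k] (Fin n → k)) (𝔭 : Ideal R) [h𝔭 : 𝔭.IsMaximal] (g : R) (hg : g ∈ 𝔭) :
    ∃ z : R, z ∉ 𝔭 ∧ ev (z * g) = 0 := by
  classical
  -- the component evaluations
  let evi : Fin n → (R →ₐ[k] k) := fun i => (Pi.evalAlgHom k (fun _ : Fin n => k) i).comp ev
  have hevi : ∀ i x, evi i x = ev x i := fun i x => rfl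
  have hmax : ∀ i, (RingHom.ker (evi i : R →+* k)).IsMaximal := by
    intro i
    apply RingHom.ker_isMaximal_of_surjective
    intro c
    exact ⟨algebraMap k R c, by rw [AlgHom.coe_toRingHom, AlgHom.commutes]; rfl⟩
  have hz : ∀ i, ∃ z : R, z ∉ 𝔭 ∧ (RingHom.ker (evi i : R →+* k) ≠ 𝔭 → evi i z = 0) := by
    intro i
    by_cases hi : RingHom.ker (evi i : R →+* k) = 𝔭
    · exact ⟨1, (Ideal.ne_top_iff_one 𝔭).mp h𝔭.ne_top, fun h => absurd hi h⟩
    · have hnle : ¬ RingHom.ker (evi i : R →+* k) ≤ 𝔭 := by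
        intro hle
        exact hi ((hmax i).eq_of_le h𝔭.ne_top hle)
      obtain ⟨z, hz1, hz2⟩ := Set.not_subset.mp hnle
      exact ⟨z, hz2, fun _ => hz1⟩
  choose z hz1 hz2 using hz
  refine ⟨∏ i, z i, ?_, ?_⟩
  · intro hmem
    obtain ⟨i, -, hi⟩ := (Ideal.IsPrime.prod_mem_iff (hp := h𝔭.isPrime)).mp hmem
    exact hz1 i hi
  · funext i
    rw [Pi.zero_apply, ← hevi, map_mul]
    by_cases hi : RingHom.ker (evi i : R →+* k) = 𝔭
    · have : g ∈ RingHom.ker (evi i : R →+* k) := hi ▸ hg
      rw [RingHom.mem_ker] at this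
      have h2 : evi i g = 0 := this
      rw [h2, mul_zero]
    · have h1 : evi i (∏ j, z j) = 0 := by
        rw [map_prod]
        exact Finset.prod_eq_zero (Finset.mem_univ i) (hz2 i hi)
      rw [h1, zero_mul]

end Fermat.Agent.T4
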