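/-
T4-R (helper6): basic consequences of the level bundle `T4rLev`.

* generic: `t4rl_valuation_lt_one_iff` (a valuation subring with a reduction map whose kernel is
  generated by `ϖ` and whose non-kernel elements are units);
* `q` in the chart rings, `V'.valuation x < 1 ↔ res' x = 0`, same for `Vinf`, `V0`;
* the kernel of `res'` on `B'` is `q B'`; `V'` passes through `𝔫'` iff `q ∈ 𝔫'`;
* horizontal valuation rings have `q` as a unit.
-/
import Fermat.Agent.Lib.T4.Reg.LevDefs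
import Fermat.Agent.Lib.T4.Local.Loc

set_option autoImplicit false
set_option linter.unusedSectionVars false
set_option linter.unusedVariables false

namespace Fermat.Agent.T4

/-- a valuation subring with a reduction map: non-units are exactly the elements of the kernel -/
theorem t4rl_valuation_lt_one_iff {K R : Type*} [Field K] [CommRing R] [Nontrivial R]
    (V : ValuationSubring K) (ρ : ↥V →+* R)
    (hunit : ∀ x : ↥V, ρ x ≠ 0 → ((x : K))⁻¹ ∈ V) (x : ↥V) :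
    V.valuation (x : K) < 1 ↔ ρ x = 0 := by
  constructor
  · intro hlt
    by_contra hne
    have h1 := hunit x hne
    have h2 : V.valuation ((x : K))⁻¹ ≤ 1 := (V.valuation_le_one_iff _).mpr h1
    rw [map_inv₀] at h2
    have hx0 : (x : K) ≠ 0 := by
      intro h0
      apply hne
      have : x = 0 := Subtype.ext h0
      rw [this, map_zero]
    have h3 : 0 < V.valuation (x : K) := zero_lt_iff.mpr ((Valuation.ne_zero_iff _).mpr hx0)
    have h4 : 1 ≤ V.valuation (x : K) := (inv_le_one₀ h3).mp h2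
    exact absurd hlt (not_lt.mpr h4)
  · intro h0
    have h1 : V.valuation (x : K) ≤ 1 := (V.valuation_le_one_iff _).mpr x.2
    rcases lt_or_eq_of_le h1 with h | h
    · exact h
    · exfalso
      have hu : IsUnit x := (V.valuation_eq_one_iff x).mpr h
      have := hu.map ρ
      rw [h0] at this
      exact not_isUnit_zero this

namespace T4rLev

variable {L F' F1 E Eh k : Type*} [Field L] [Field F'] [Field F1] [Algebra L F'] [Algebra L F1]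
  [Field E] [Field Eh] [Field k] [Algebra k E] (Lv : T4rLev L F' F1 E Eh k)

include Lv in
theorem charZero' : CharZero F' :=
  haveI := Lv.char0
  charZero_of_injective_algebraMap (algebraMap L F').injective

include Lv in
theorem charZero1 : CharZero F1 :=
  haveI := Lv.char0
  charZero_of_injective_algebraMap (algebraMap L F1).injective

theorem q_ne' : (Lv.q : F') ≠ 0 :=
  haveI := Lv.charZero'
  Nat.cast_ne_zero.mpr Lv.hq.ne_zero

theorem q_ne1 : (Lv.q : F1) ≠ 0 :=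
  haveI := Lv.charZero1
  Nat.cast_ne_zero.mpr Lv.hq.ne_zero

theorem q_mem_B' : (Lv.q : F') ∈ Lv.P'.B := natCast_mem _ _

theorem q_mem_B1 : (Lv.q : F1) ∈ Lv.P1.B := natCast_mem _ _

theorem B'_le_V' {b : F'} (hb : b ∈ Lv.P'.B) : b ∈ Lv.V' := Lv.P'.B_le Lv.V'_mem hb

theorem B1_le_Vinf {b : F1} (hb : b ∈ Lv.P1.B) : b ∈ Lv.Vinf := Lv.P1.B_le Lv.Vinf_mem hb

theorem B1_le_V0 {b : F1} (hb : b ∈ Lv.P1.B) : b ∈ Lv.V0 := Lv.P1.B_le Lv.V0_mem hb

theorem res'_q (h : (Lv.q : F') ∈ Lv.V') : Lv.res' ⟨(Lv.q : F'), h⟩ = 0 := by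
  have := Lv.charE
  have h1 : (⟨(Lv.q : F'), h⟩ : ↥Lv.V') = ((Lv.q : ℕ) : ↥Lv.V') := Subtype.ext (by simp)
  rw [h1, map_natCast]
  exact CharP.cast_eq_zero E Lv.q

theorem ρinf_q (h : (Lv.q : F1) ∈ Lv.Vinf) : Lv.ρinf ⟨(Lv.q : F1), h⟩ = 0 := by
  have := Lv.charE
  have h1 : (⟨(Lv.q : F1), h⟩ : ↥Lv.Vinf) = ((Lv.q : ℕ) : ↥Lv.Vinf) := Subtype.ext (by simp)
  rw [h1, map_natCast]
  exact CharP.cast_eq_zero E Lv.q

theorem ρ0_q (h : (Lv.q : F1) ∈ Lv.V0) : Lv.ρ0 ⟨(Lv.q : F1), h⟩ = 0 := by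
  have := Lv.charE
  have h1 : (⟨(Lv.q : F1), h⟩ : ↥Lv.V0) = ((Lv.q : ℕ) : ↥Lv.V0) := Subtype.ext (by simp)
  rw [h1, map_natCast]
  exact CharP.cast_eq_zero E Lv.q

theorem val'_lt_one_iff (x : ↥Lv.V') : Lv.V'.valuation (x : F') < 1 ↔ Lv.res' x = 0 :=
  t4rl_valuation_lt_one_iff Lv.V' Lv.res' Lv.unit' x

theorem valinf_lt_one_iff (x : ↥Lv.Vinf) : Lv.Vinf.valuation (x : F1) < 1 ↔ Lv.ρinf x = 0 :=
  t4rl_valuation_lt_one_iff Lv.Vinf Lv.ρinf Lv.unit_inf x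

theorem val0_lt_one_iff (x : ↥Lv.V0) : Lv.V0.valuation (x : F1) < 1 ↔ Lv.ρ0 x = 0 :=
  t4rl_valuation_lt_one_iff Lv.V0 Lv.ρ0 Lv.unit_0 x

theorem val'_q : Lv.V'.valuation (Lv.q : F') < 1 :=
  (Lv.val'_lt_one_iff ⟨_, Lv.B'_le_V' Lv.q_mem_B'⟩).mpr (Lv.res'_q _)

theorem valinf_q : Lv.Vinf.valuation (Lv.q : F1) < 1 :=
  (Lv.valinf_lt_one_iff ⟨_, Lv.B1_le_Vinf Lv.q_mem_B1⟩).mpr (Lv.ρinf_q _)

theorem val0_q : Lv.V0.valuation (Lv.q : F1) < 1 :=
  (Lv.val0_lt_one_iff ⟨_, Lv.B1_le_V0 Lv.q_mem_B1⟩).mpr (Lv.ρ0_q _)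

/-- horizontal valuation rings of level `N'`: `q` is a unit -/
theorem val_q_of_ne' {V : ValuationSubring F'} (hV : V ∈ Lv.P'.vals) (hne : V ≠ Lv.V') :
    V.valuation (Lv.q : F') = 1 := by
  have h1 : V.valuation (Lv.q : F') ≤ 1 :=
    (V.valuation_le_one_iff _).mpr (Lv.P'.B_le hV Lv.q_mem_B')
  rcases lt_or_eq_of_le h1 with h | h
  · exact absurd (Lv.vert' V hV h) hne
  · exact h

/-- horizontal valuation rings of level `N' q`: `q` is a unit -/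
theorem val_q_of_ne1 {V : ValuationSubring F1} (hV : V ∈ Lv.P1.vals) (hne1 : V ≠ Lv.Vinf)
    (hne2 : V ≠ Lv.V0) : V.valuation (Lv.q : F1) = 1 := by
  have h1 : V.valuation (Lv.q : F1) ≤ 1 :=
    (V.valuation_le_one_iff _).mpr (Lv.P1.B_le hV Lv.q_mem_B1)
  rcases lt_or_eq_of_le h1 with h | h
  · rcases Lv.vert1 V hV h with h2 | h2
    · exact absurd h2 hne1
    · exact absurd h2 hne2
  · exact h

/-- the kernel of `res'` on `B'` is `q B'` -/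
theorem exists_of_res'_eq_zero {b : F'} (hb : b ∈ Lv.P'.B)
    (h0 : Lv.res' ⟨b, Lv.B'_le_V' hb⟩ = 0) : ∃ b' ∈ Lv.P'.B, b = (Lv.q : F') * b' := by
  obtain ⟨y, hy⟩ := Lv.ker' _ h0
  refine ⟨(y : F'), ?_, hy⟩
  rw [Lv.P'.mem_iff]
  intro V hV
  by_cases hVV : V = Lv.V'
  · rw [hVV]; exact y.2
  · have h1 := Lv.val_q_of_ne' hV hVV
    have h2 : V.valuation b ≤ 1 := (V.valuation_le_one_iff _).mpr (Lv.P'.B_le hV hb)
    have h3 : b = (Lv.q : F') * (y : F') := hy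
    rw [h3, map_mul, h1, one_mul] at h2
    exact (V.valuation_le_one_iff _).mp h2

/-- the element `q` of `B'` -/
def qB : ↥Lv.P'.B := ⟨(Lv.q : F'), Lv.q_mem_B'⟩

/-- `V'` passes through every point containing `q` -/
theorem V'_through {𝔫' : Ideal ↥Lv.P'.B} (hq : Lv.qB ∈ 𝔫') : Lv.V' ∈ Lv.P'.through 𝔫' := by
  refine ⟨Lv.V'_mem, fun b hb => ?_⟩
  have h0 : Lv.res' ⟨(b : F'), Lv.B'_le_V' b.2⟩ = 0 := (Lv.val'_lt_one_iff _).mp hb
  obtain ⟨b', hb', hbb⟩ := Lv.exists_of_res'_eq_zero b.2 h0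
  have : b = Lv.qB * ⟨b', hb'⟩ := Subtype.ext hbb
  rw [this]
  exact 𝔫'.mul_mem_right _ hq

/-- a point through which `V'` passes contains `q` -/
theorem q_mem_of_through {𝔫' : Ideal ↥Lv.P'.B} (h : Lv.V' ∈ Lv.P'.through 𝔫') : Lv.qB ∈ 𝔫' :=
  h.2 Lv.qB Lv.val'_q

/-- the constants of `O` in `B'` -/
def cB (c : ↥Lv.O) : ↥Lv.P'.B := ⟨algebraMap L F' (c : L), Lv.O_mem c c.2⟩

theorem res'_cB (c : ↥Lv.O) :
    Lv.res' ⟨((Lv.cB c : ↥Lv.P'.B) : F'), Lv.B'_le_V' (Lv.cB c).2⟩ = algebraMap k E (Lv.π c) :=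
  Lv.res'_O c _

/-- `res'` on `B'`, with values in `R'` -/
def resB : ↥Lv.P'.B →+* ↥Lv.R' :=
  (Lv.res'.comp (Subring.inclusion (fun b hb => Lv.B'_le_V' hb :
    Lv.P'.B ≤ Lv.V'.toSubring))).codRestrict Lv.R'.toSubring
    (fun b => Lv.res'_B (b : F') b.2 (Lv.B'_le_V' b.2))

theorem coe_resB (b : ↥Lv.P'.B) :
    ((Lv.resB b : ↥Lv.R') : E) = Lv.res' ⟨(b : F'), Lv.B'_le_V' b.2⟩ := rfl

theorem resB_surjective : Function.Surjective Lv.resB := by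
  intro x
  obtain ⟨b, hb, h, hx⟩ := Lv.gr (x : E) x.2
  exact ⟨⟨b, hb⟩, Subtype.ext hx⟩

theorem resB_cB (c : ↥Lv.O) : Lv.resB (Lv.cB c) = algebraMap k ↥Lv.R' (Lv.π c) :=
  Subtype.ext (Lv.res'_cB c)

theorem resB_qB : Lv.resB Lv.qB = 0 := Subtype.ext (Lv.res'_q _)

theorem resB_eq_zero_iff (b : ↥Lv.P'.B) : Lv.resB b = 0 ↔ ∃ b' : ↥Lv.P'.B, b = Lv.qB * b' := by
  constructor
  · intro h
    have h0 : Lv.res' ⟨(b : F'), Lv.B'_le_V' b.2⟩ = 0 := by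
      rw [← Lv.coe_resB, h]; rfl
    obtain ⟨b', hb', hbb⟩ := Lv.exists_of_res'_eq_zero b.2 h0
    exact ⟨⟨b', hb'⟩, Subtype.ext hbb⟩
  · rintro ⟨b', rfl⟩
    rw [map_mul, Lv.resB_qB, zero_mul]

end T4rLev

end Fermat.Agent.T4
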