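/-
T4-R (helper6): the local ring `A = B'_𝔫'` of level `N'` at a closed point `𝔫' ∋ q`.

* `T4rLev.pt 𝔫'` : the point of `R' = res' B'` (a maximal ideal), `resB_mem_pt_iff`;
* `T4rLev.red 𝔫' hq : A →+* E` (the reduction), kernel `q A` (`exists_of_red_eq_zero`);
* `exists_const` : the residue field of `A` is the image of `O`;
* `exists_unif` : a local coordinate `u ∈ 𝔫'` with `θ (res' u) ≠ 0`, `𝔫'` locally generated by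
  `(q, u)`; `exists_of_mem_maximalIdeal` : `𝔪_A = (q, u)`.
-/
import Fermat.Agent.Lib.T4.Reg.LevBasic
import Fermat.Agent.Lib.T4.Reg.LevAlg
import Fermat.Agent.Lib.T4.Local.Norm

set_option autoImplicit false
set_option linter.unusedSectionVars false
set_option linter.unusedVariables false
set_option linter.style.haveILetI false

namespace Fermat.Agent.T4

/-- elements of `B` outside `𝔫` are units of `B_𝔫` -/
theorem t4rl_inv_mem_loc {F : Type*} [Field F] (P : T4Pres F) {𝔫 : Ideal ↥P.B} {c : ↥P.B}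
    (hc : c ∉ 𝔫) : ((c : F))⁻¹ ∈ P.loc 𝔫 := by
  intro V hV
  rw [← V.valuation_le_one_iff, map_inv₀, P.valuation_eq_one_of_not_mem hV hc, inv_one]

namespace T4rLev

variable {L F' F1 E Eh k : Type*} [Field L] [Field F'] [Field F1] [Algebra L F'] [Algebra L F1]
  [Field E] [Field Eh] [Field k] [Algebra k E] (Lv : T4rLev L F' F1 E Eh k)
  (𝔫' : Ideal ↥Lv.P'.B) [h𝔫 : 𝔫'.IsMaximal] (hq : Lv.qB ∈ 𝔫')

/-- the point of `R'` below `𝔫'` -/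
def pt : Ideal ↥Lv.R' := 𝔫'.map Lv.resB

omit h𝔫 in
theorem mem_pt {x : ↥Lv.R'} : x ∈ Lv.pt 𝔫' ↔ ∃ b ∈ 𝔫', Lv.resB b = x :=
  Ideal.mem_map_iff_of_surjective _ Lv.resB_surjective

omit h𝔫 in
include hq in
theorem resB_mem_pt_iff (b : ↥Lv.P'.B) : Lv.resB b ∈ Lv.pt 𝔫' ↔ b ∈ 𝔫' := by
  constructor
  · intro h
    obtain ⟨b₁, hb₁, hbb⟩ := (Lv.mem_pt 𝔫').mp h
    have h0 : Lv.resB (b - b₁) = 0 := by rw [map_sub, hbb, sub_self]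
    obtain ⟨b', hb'⟩ := (Lv.resB_eq_zero_iff _).mp h0
    have : b = b₁ + Lv.qB * b' := by rw [← hb']; ring
    rw [this]
    exact 𝔫'.add_mem hb₁ (𝔫'.mul_mem_right _ hq)
  · intro h
    exact (Lv.mem_pt 𝔫').mpr ⟨b, h, rfl⟩

include hq in
theorem pt_isMaximal : (Lv.pt 𝔫').IsMaximal := by
  refine (Ideal.map_eq_top_or_isMaximal_of_surjective _ Lv.resB_surjective h𝔫).resolve_left ?_
  intro htop
  have h1 : Lv.resB 1 ∈ Lv.pt 𝔫' := by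
    show Lv.resB 1 ∈ Ideal.map Lv.resB 𝔫'
    rw [htop]; exact Submodule.mem_top
  exact (Ideal.ne_top_iff_one 𝔫').mp h𝔫.ne_top ((Lv.resB_mem_pt_iff 𝔫' hq 1).mp h1)

omit h𝔫 in
include hq in
theorem loc_le_V' {a : F'} (ha : a ∈ Lv.P'.loc 𝔫') : a ∈ Lv.V' := ha _ (Lv.V'_through hq)

/-- the reduction of the local ring -/
def red : ↥(Lv.P'.loc 𝔫') →+* E :=
  Lv.res'.comp (Subring.inclusion (fun a ha => Lv.loc_le_V' 𝔫' hq ha :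
    Lv.P'.loc 𝔫' ≤ Lv.V'.toSubring))

omit h𝔫 in
theorem red_apply (a : ↥(Lv.P'.loc 𝔫')) :
    Lv.red 𝔫' hq a = Lv.res' ⟨(a : F'), Lv.loc_le_V' 𝔫' hq a.2⟩ := rfl

omit h𝔫 in
theorem red_locIncl (b : ↥Lv.P'.B) :
    Lv.red 𝔫' hq (Lv.P'.locIncl 𝔫' b) = ((Lv.resB b : ↥Lv.R') : E) := rfl

omit h𝔫 in
/-- the kernel of `red` is `q A` -/
theorem exists_of_red_eq_zero (a : ↥(Lv.P'.loc 𝔫')) (h0 : Lv.red 𝔫' hq a = 0) :
    ∃ a' : ↥(Lv.P'.loc 𝔫'), a = (Lv.q : ↥(Lv.P'.loc 𝔫')) * a' := by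
  obtain ⟨y, hy⟩ := Lv.ker' _ h0
  have hyloc : (y : F') ∈ Lv.P'.loc 𝔫' := by
    intro V hV
    by_cases hVV : V = Lv.V'
    · rw [hVV]; exact y.2
    · have h1 := Lv.val_q_of_ne' hV.1 hVV
      have h2 : V.valuation (a : F') ≤ 1 := (V.valuation_le_one_iff _).mpr (a.2 V hV)
      have h3 : (a : F') = (Lv.q : F') * (y : F') := hy
      rw [h3, map_mul, h1, one_mul] at h2
      exact (V.valuation_le_one_iff _).mp h2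
  refine ⟨⟨_, hyloc⟩, Subtype.ext ?_⟩
  rw [Subring.coe_mul, Subring.coe_natCast]
  exact hy

omit h𝔫 in
theorem red_q : Lv.red 𝔫' hq (Lv.q : ↥(Lv.P'.loc 𝔫')) = 0 := by
  have := Lv.charE
  rw [map_natCast]
  exact CharP.cast_eq_zero E Lv.q

/-- fraction form of the elements of `A` -/
theorem exists_den (a : ↥(Lv.P'.loc 𝔫')) :
    ∃ c b : ↥Lv.P'.B, c ∉ 𝔫' ∧ (c : F') * (a : F') = (b : F') := by
  obtain ⟨c, hc, hca⟩ := Lv.P'.mem_loc_iff.mp a.2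
  exact ⟨c, ⟨_, hca⟩, hc, rfl⟩

include hq in
/-- the residue field of `A` is the image of `O` -/
theorem exists_const (a : ↥(Lv.P'.loc 𝔫')) :
    letI := Lv.P'.isLocalRing_loc 𝔫'
    ∃ c : ↥Lv.O, a - Lv.P'.locIncl 𝔫' (Lv.cB c) ∈ IsLocalRing.maximalIdeal ↥(Lv.P'.loc 𝔫') := by
  letI := Lv.P'.isLocalRing_loc 𝔫'
  obtain ⟨c, b, hc, hcab⟩ := Lv.exists_den 𝔫' a
  have hmax := Lv.pt_isMaximal 𝔫' hq
  obtain ⟨κ₁, h1⟩ := Lv.R'_pt _ hmax (Lv.resB b)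
  obtain ⟨κ₂, h2⟩ := Lv.R'_pt _ hmax (Lv.resB c)
  have hκ₂ : κ₂ ≠ 0 := by
    rintro rfl
    rw [map_zero, sub_zero] at h2
    exact hc ((Lv.resB_mem_pt_iff 𝔫' hq c).mp h2)
  obtain ⟨c₀, hc₀⟩ := Lv.π_surj (κ₁ / κ₂)
  refine ⟨c₀, ?_⟩
  rw [Lv.P'.mem_maximalIdeal_loc_iff]
  refine ⟨b - c * Lv.cB c₀, c, ?_, hc, ?_⟩
  · rw [← Lv.resB_mem_pt_iff 𝔫' hq, map_sub, map_mul, Lv.resB_cB, hc₀]
    have h3 : Lv.resB b - Lv.resB c * algebraMap k ↥Lv.R' (κ₁ / κ₂) =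
        (Lv.resB b - algebraMap k ↥Lv.R' κ₁) -
          (Lv.resB c - algebraMap k ↥Lv.R' κ₂) * algebraMap k ↥Lv.R' (κ₁ / κ₂) := by
      have h4 : algebraMap k ↥Lv.R' κ₂ * algebraMap k ↥Lv.R' (κ₁ / κ₂) =
          algebraMap k ↥Lv.R' κ₁ := by
        rw [← map_mul, mul_div_cancel₀ _ hκ₂]
      rw [sub_mul, h4]
      ring
    rw [h3]
    exact (Lv.pt 𝔫').sub_mem h1 ((Lv.pt 𝔫').mul_mem_right _ h2)
  · show (c : F') * ((a : F') - algebraMap L F' (c₀ : L)) =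
      (b : F') - (c : F') * algebraMap L F' (c₀ : L)
    rw [mul_sub, hcab]

omit h𝔫 in
theorem θ_one : Lv.θ 1 = 0 := by
  have h := Lv.θ_mul 1 1
  simp only [mul_one, one_mul] at h
  have : Lv.θ 1 + 0 = Lv.θ 1 + Lv.θ 1 := by rw [add_zero]; exact h
  exact (add_left_cancel this).symm

omit h𝔫 in
theorem θ_unif_aux (t j : Eh) (ht : Lv.θ t = 0) : Lv.θ (t * (1 + t * j)) = t * t * Lv.θ j := by
  rw [Lv.θ_mul, map_add, Lv.θ_one, Lv.θ_mul, ht]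
  ring

/-- the `j`-function as an element of `B'` -/
def jB : ↥Lv.P'.B := ⟨Lv.j', Lv.j'_mem⟩

omit h𝔫 in
theorem θ_jB : Lv.θ (Lv.ι ((Lv.resB Lv.jB : ↥Lv.R') : E)) ≠ 0 := Lv.θ_j' _

include hq in
/-- **a local coordinate**: `u ∈ 𝔫'` with `θ (res' u) ≠ 0` such that `𝔫'` is generated by `(q, u)`
locally at `𝔫'` -/
theorem exists_unif : ∃ u : ↥Lv.P'.B, u ∈ 𝔫' ∧ Lv.θ (Lv.ι ((Lv.resB u : ↥Lv.R') : E)) ≠ 0 ∧
    ∀ b ∈ 𝔫', ∃ s : ↥Lv.P'.B, s ∉ 𝔫' ∧ ∃ y z : ↥Lv.P'.B, s * b = u * y + Lv.qB * z := by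
  have hmax := Lv.pt_isMaximal 𝔫' hq
  obtain ⟨t, ht, hgen⟩ := Lv.R'_unif _ hmax
  obtain ⟨u₀, hu₀, hu₀t⟩ := (Lv.mem_pt 𝔫').mp ht
  have gen₀ : ∀ b ∈ 𝔫', ∃ s : ↥Lv.P'.B, s ∉ 𝔫' ∧ ∃ y z : ↥Lv.P'.B,
      s * b = u₀ * y + Lv.qB * z := by
    intro b hb
    obtain ⟨sb, hsb, yb, hsy⟩ := hgen (Lv.resB b) ((Lv.resB_mem_pt_iff 𝔫' hq b).mpr hb)
    obtain ⟨s, rfl⟩ := Lv.resB_surjective sb
    obtain ⟨y, rfl⟩ := Lv.resB_surjective yb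
    have hs : s ∉ 𝔫' := fun h => hsb ((Lv.resB_mem_pt_iff 𝔫' hq s).mpr h)
    have h0 : Lv.resB (s * b - u₀ * y) = 0 := by
      rw [map_sub, map_mul, map_mul, hu₀t, hsy, sub_self]
    obtain ⟨z, hz⟩ := (Lv.resB_eq_zero_iff _).mp h0
    exact ⟨s, hs, y, z, by rw [← hz]; ring⟩
  by_cases hθ : Lv.θ (Lv.ι ((Lv.resB u₀ : ↥Lv.R') : E)) ≠ 0
  · exact ⟨u₀, hu₀, hθ, gen₀⟩
  push Not at hθ
  -- `t ≠ 0`
  have ht0 : (t : E) ≠ 0 := by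
    intro h0
    have ht0' : t = 0 := Subtype.ext h0
    have hbot : ∀ x ∈ Lv.pt 𝔫', x = 0 := by
      intro x hx
      obtain ⟨s, hs, y, hsy⟩ := hgen x hx
      rw [ht0', zero_mul] at hsy
      rcases mul_eq_zero.mp hsy with h | h
      · exact absurd (h ▸ (Lv.pt 𝔫').zero_mem) hs
      · exact h
    obtain ⟨c, hc⟩ := Lv.R'_pt _ hmax (Lv.resB Lv.jB)
    have h1 := hbot _ hc
    rw [sub_eq_zero] at h1
    apply Lv.θ_jB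
    rw [h1]
    exact Lv.θ_const c
  set w : ↥Lv.P'.B := 1 + u₀ * Lv.jB with hw
  have hw𝔫 : w ∉ 𝔫' := by
    intro h
    apply (Ideal.ne_top_iff_one 𝔫').mp h𝔫.ne_top
    have : (1 : ↥Lv.P'.B) = w - u₀ * Lv.jB := by rw [hw]; ring
    rw [this]
    exact 𝔫'.sub_mem h (𝔫'.mul_mem_right _ hu₀)
  refine ⟨u₀ * w, 𝔫'.mul_mem_right _ hu₀, ?_, ?_⟩
  · have h1 : ((Lv.resB (u₀ * w) : ↥Lv.R') : E) =
        ((Lv.resB u₀ : ↥Lv.R') : E) * (1 + ((Lv.resB u₀ : ↥Lv.R') : E) *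
          ((Lv.resB Lv.jB : ↥Lv.R') : E)) := by
      rw [hw, map_mul, map_add, map_one, map_mul]
      rfl
    have h2 : Lv.ι (((Lv.resB u₀ : ↥Lv.R') : E) * (1 + ((Lv.resB u₀ : ↥Lv.R') : E) *
          ((Lv.resB Lv.jB : ↥Lv.R') : E))) =
        Lv.ι ((Lv.resB u₀ : ↥Lv.R') : E) * (1 + Lv.ι ((Lv.resB u₀ : ↥Lv.R') : E) *
          Lv.ι ((Lv.resB Lv.jB : ↥Lv.R') : E)) := by
      rw [map_mul, map_add, map_one, map_mul]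
    rw [h1, h2, Lv.θ_unif_aux _ _ hθ]
    refine mul_ne_zero (mul_ne_zero ?_ ?_) Lv.θ_jB
    · rw [hu₀t]; exact (map_ne_zero Lv.ι).mpr ht0
    · rw [hu₀t]; exact (map_ne_zero Lv.ι).mpr ht0
  · intro b hb
    obtain ⟨s, hs, y, z, hsyz⟩ := gen₀ b hb
    refine ⟨w * s, ?_, y, w * z, ?_⟩
    · intro h
      rcases h𝔫.isPrime.mem_or_mem h with h | h
      · exact hw𝔫 h
      · exact hs h
    · rw [mul_assoc, hsyz]
      ring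

/-- `𝔪_A = (q, u)` -/
theorem exists_of_mem_maximalIdeal {u : ↥Lv.P'.B}
    (hgen : ∀ b ∈ 𝔫', ∃ s : ↥Lv.P'.B, s ∉ 𝔫' ∧ ∃ y z : ↥Lv.P'.B, s * b = u * y + Lv.qB * z)
    (x : ↥(Lv.P'.loc 𝔫')) :
    letI := Lv.P'.isLocalRing_loc 𝔫'
    x ∈ IsLocalRing.maximalIdeal ↥(Lv.P'.loc 𝔫') →
      ∃ a₁ a₂ : ↥(Lv.P'.loc 𝔫'), x = (Lv.q : ↥(Lv.P'.loc 𝔫')) * a₁ + Lv.P'.locIncl 𝔫' u * a₂ := by
  letI := Lv.P'.isLocalRing_loc 𝔫'
  intro hx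
  obtain ⟨b, c, hb, hc, hcx⟩ := (Lv.P'.mem_maximalIdeal_loc_iff 𝔫' x).mp hx
  obtain ⟨s, hs, y, z, hsyz⟩ := hgen b hb
  have hsc : s * c ∉ 𝔫' := by
    intro h
    rcases h𝔫.isPrime.mem_or_mem h with h | h
    · exact hs h
    · exact hc h
  have hd := t4rl_inv_mem_loc Lv.P' hsc
  have hsc0 : ((s * c : ↥Lv.P'.B) : F') ≠ 0 := by
    intro h0
    apply hsc
    have : s * c = 0 := Subtype.ext h0
    rw [this]; exact 𝔫'.zero_mem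
  refine ⟨Lv.P'.locIncl 𝔫' z * ⟨_, hd⟩, Lv.P'.locIncl 𝔫' y * ⟨_, hd⟩, Subtype.ext ?_⟩
  have h1 : (s : F') * (b : F') = (u : F') * (y : F') + (Lv.q : F') * (z : F') := by
    have := congrArg (fun t : ↥Lv.P'.B => (t : F')) hsyz
    simpa [qB] using this
  have h2 : ((s * c : ↥Lv.P'.B) : F') = (s : F') * (c : F') := rfl
  show (x : F') = (((Lv.q : ℕ) : ↥(Lv.P'.loc 𝔫')) : F') * ((z : F') * ((s * c : ↥Lv.P'.B) : F')⁻¹) +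
    (u : F') * ((y : F') * ((s * c : ↥Lv.P'.B) : F')⁻¹)
  rw [Subring.coe_natCast]
  have h3 : (x : F') * ((s * c : ↥Lv.P'.B) : F') = (s : F') * (b : F') := by
    rw [h2, ← hcx]; ring
  field_simp
  rw [h3, h1]
  ring

end T4rLev

end Fermat.Agent.T4
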