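/-
T4-R (helper6): the two branch rings `R₁ = red A` (point `P₁`) and `R₀ = ψ R₁` (point `P₀`) of a
closed point `𝔫' ∋ q` of level `N'`, their evaluations `e1`, `e0`, uniformisers `ū = red u`,
`s = ψ ū`, and integral closedness.
-/
import Fermat.Agent.Lib.T4.Reg.LevLoc

set_option autoImplicit false
set_option linter.unusedSectionVars false
set_option linter.unusedVariables false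
set_option linter.style.haveILetI false

namespace Fermat.Agent.T4

namespace T4rLev

variable {L F' F1 E Eh k : Type*} [Field L] [Field F'] [Field F1] [Algebra L F'] [Algebra L F1]
  [Field E] [Field Eh] [Field k] [Algebra k E] (Lv : T4rLev L F' F1 E Eh k)
  (𝔫' : Ideal ↥Lv.P'.B) [h𝔫 : 𝔫'.IsMaximal] (hq : Lv.qB ∈ 𝔫')

/-- `u` is a local coordinate at `𝔫'` -/
def IsCoord (u : ↥Lv.P'.B) : Prop :=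
  u ∈ 𝔫' ∧ Lv.θ (Lv.ι ((Lv.resB u : ↥Lv.R') : E)) ≠ 0 ∧
    ∀ b ∈ 𝔫', ∃ s : ↥Lv.P'.B, s ∉ 𝔫' ∧ ∃ y z : ↥Lv.P'.B, s * b = u * y + Lv.qB * z

include hq in
theorem exists_isCoord : ∃ u, Lv.IsCoord 𝔫' u := Lv.exists_unif 𝔫' hq

omit h𝔫 in
/-- the constants lift to `A` -/
theorem exists_red_eq_const (c : k) :
    ∃ a : ↥(Lv.P'.loc 𝔫'), Lv.red 𝔫' hq a = algebraMap k E c := by
  obtain ⟨c₀, rfl⟩ := Lv.π_surj c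
  refine ⟨Lv.P'.locIncl 𝔫' (Lv.cB c₀), ?_⟩
  rw [Lv.red_locIncl, Lv.resB_cB]
  rfl

/-- the branch ring at `P₁` -/
def R₁ : Subalgebra k E where
  carrier := Set.range (Lv.red 𝔫' hq)
  mul_mem' := by
    rintro _ _ ⟨a, rfl⟩ ⟨b, rfl⟩
    exact ⟨a * b, map_mul _ _ _⟩
  add_mem' := by
    rintro _ _ ⟨a, rfl⟩ ⟨b, rfl⟩
    exact ⟨a + b, map_add _ _ _⟩
  algebraMap_mem' := fun c => Lv.exists_red_eq_const 𝔫' hq c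

omit h𝔫 in
theorem mem_R₁ {x : E} : x ∈ Lv.R₁ 𝔫' hq ↔ ∃ a, Lv.red 𝔫' hq a = x := Iff.rfl

omit h𝔫 in
theorem red_mem_R₁ (a : ↥(Lv.P'.loc 𝔫')) : Lv.red 𝔫' hq a ∈ Lv.R₁ 𝔫' hq := ⟨a, rfl⟩

omit h𝔫 in
theorem R'_le_R₁ : Lv.R' ≤ Lv.R₁ 𝔫' hq := by
  intro x hx
  obtain ⟨b, hb⟩ := Lv.resB_surjective ⟨x, hx⟩
  refine ⟨Lv.P'.locIncl 𝔫' b, ?_⟩
  rw [Lv.red_locIncl 𝔫' hq b, hb]

/-- `red`, with values in `R₁` -/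
def redR₁ : ↥(Lv.P'.loc 𝔫') →+* ↥(Lv.R₁ 𝔫' hq) :=
  (Lv.red 𝔫' hq).codRestrict (Lv.R₁ 𝔫' hq).toSubring (Lv.red_mem_R₁ 𝔫' hq)

omit h𝔫 in
theorem coe_redR₁ (a : ↥(Lv.P'.loc 𝔫')) :
    ((Lv.redR₁ 𝔫' hq a : ↥(Lv.R₁ 𝔫' hq)) : E) = Lv.red 𝔫' hq a := rfl

omit h𝔫 in
theorem redR₁_surjective : Function.Surjective (Lv.redR₁ 𝔫' hq) := by
  rintro ⟨x, a, rfl⟩
  exact ⟨a, rfl⟩

include hq in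
/-- elements outside `𝔫'` have nonzero reduction -/
theorem resB_ne_zero {c : ↥Lv.P'.B} (hc : c ∉ 𝔫') : ((Lv.resB c : ↥Lv.R') : E) ≠ 0 := by
  intro h0
  apply hc
  have : Lv.resB c = 0 := Subtype.ext h0
  rw [← Lv.resB_mem_pt_iff 𝔫' hq, this]
  exact (Lv.pt 𝔫').zero_mem

/-- fraction form of `R₁` -/
theorem exists_frac_R₁ (x : E) (hx : x ∈ Lv.R₁ 𝔫' hq) :
    ∃ s ∈ Lv.R', s⁻¹ ∈ Lv.R₁ 𝔫' hq ∧ s ≠ 0 ∧ s * x ∈ Lv.R' := by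
  obtain ⟨a, rfl⟩ := hx
  obtain ⟨c, b, hc, hcab⟩ := Lv.exists_den 𝔫' a
  have hs0 := Lv.resB_ne_zero 𝔫' hq hc
  have hd := t4rl_inv_mem_loc Lv.P' hc
  have hc0 : (c : F') ≠ 0 := by
    intro h0
    apply hc
    have : c = 0 := Subtype.ext h0
    rw [this]; exact 𝔫'.zero_mem
  refine ⟨((Lv.resB c : ↥Lv.R') : E), (Lv.resB c).2, ?_, hs0, ?_⟩
  · refine ⟨⟨_, hd⟩, ?_⟩
    have h1 : Lv.red 𝔫' hq ⟨_, hd⟩ * Lv.red 𝔫' hq (Lv.P'.locIncl 𝔫' c) = 1 := by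
      rw [← map_mul]
      have : (⟨_, hd⟩ : ↥(Lv.P'.loc 𝔫')) * Lv.P'.locIncl 𝔫' c = 1 :=
        Subtype.ext (inv_mul_cancel₀ hc0)
      rw [this, map_one]
    rw [Lv.red_locIncl] at h1
    exact eq_inv_of_mul_eq_one_left h1
  · have h1 : ((Lv.resB c : ↥Lv.R') : E) * Lv.red 𝔫' hq a = ((Lv.resB b : ↥Lv.R') : E) := by
      rw [← Lv.red_locIncl 𝔫' hq c, ← Lv.red_locIncl 𝔫' hq b, ← map_mul]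
      congr 1
      exact Subtype.ext hcab
    rw [h1]
    exact (Lv.resB b).2

/-- `R₁` is integrally closed in `E` -/
theorem closed_R₁ (x : E) (hx : IsIntegral ↥(Lv.R₁ 𝔫' hq) x) : x ∈ Lv.R₁ 𝔫' hq :=
  t4rl_closed_of_fractions Lv.R' (Lv.R₁ 𝔫' hq) (Lv.exists_frac_R₁ 𝔫' hq) (Lv.R'_le_R₁ 𝔫' hq)
    Lv.R'_closed x hx

variable {u : ↥Lv.P'.B} (hu : Lv.IsCoord 𝔫' u)

/-- the uniformiser of `R₁` -/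
def tR₁ (u : ↥Lv.P'.B) : ↥(Lv.R₁ 𝔫' hq) := Lv.redR₁ 𝔫' hq (Lv.P'.locIncl 𝔫' u)

omit h𝔫 in
theorem coe_tR₁ (u : ↥Lv.P'.B) :
    ((Lv.tR₁ 𝔫' hq u : ↥(Lv.R₁ 𝔫' hq)) : E) = ((Lv.resB u : ↥Lv.R') : E) := rfl

include hu in
/-- every element of `R₁` is a constant modulo `ū` -/
theorem exists_const_R₁ (x : ↥(Lv.R₁ 𝔫' hq)) :
    ∃ c : k, x - algebraMap k ↥(Lv.R₁ 𝔫' hq) c ∈ Ideal.span {Lv.tR₁ 𝔫' hq u} := by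
  letI := Lv.P'.isLocalRing_loc 𝔫'
  obtain ⟨a, rfl⟩ := Lv.redR₁_surjective 𝔫' hq x
  obtain ⟨c₀, hc₀⟩ := Lv.exists_const 𝔫' hq a
  obtain ⟨a₁, a₂, h12⟩ := Lv.exists_of_mem_maximalIdeal 𝔫' hu.2.2 _ hc₀
  refine ⟨Lv.π c₀, Ideal.mem_span_singleton'.mpr ⟨Lv.redR₁ 𝔫' hq a₂, ?_⟩⟩
  apply Subtype.ext
  have h1 := congrArg (Lv.red 𝔫' hq) h12
  rw [map_sub, map_add, map_mul, map_mul, Lv.red_q, zero_mul, zero_add, Lv.red_locIncl,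
    Lv.resB_cB] at h1
  rw [Subalgebra.coe_mul, Subalgebra.coe_sub, Lv.coe_redR₁, Lv.coe_redR₁, Lv.coe_tR₁, mul_comm]
  exact h1.symm

include hu in
/-- `ū` is not a unit of `R₁` -/
theorem span_tR₁_ne_top : Ideal.span {Lv.tR₁ 𝔫' hq u} ≠ ⊤ := by
  letI := Lv.P'.isLocalRing_loc 𝔫'
  intro htop
  have h1 : (1 : ↥(Lv.R₁ 𝔫' hq)) ∈ Ideal.span {Lv.tR₁ 𝔫' hq u} := by rw [htop]; exact Submodule.mem_top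
  obtain ⟨y, hy⟩ := Ideal.mem_span_singleton'.mp h1
  obtain ⟨a₂, rfl⟩ := Lv.redR₁_surjective 𝔫' hq y
  have h0 : Lv.red 𝔫' hq (1 - a₂ * Lv.P'.locIncl 𝔫' u) = 0 := by
    have := congrArg (fun z : ↥(Lv.R₁ 𝔫' hq) => (z : E)) hy
    simp only [Subalgebra.coe_mul, Subalgebra.coe_one] at this
    rw [map_sub, map_one, map_mul]
    rw [sub_eq_zero]
    exact this.symm
  obtain ⟨a', ha'⟩ := Lv.exists_of_red_eq_zero 𝔫' hq _ h0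
  -- `1 = a₂ u + q a' ∈ 𝔪_A`
  have hum : Lv.P'.locIncl 𝔫' u ∈ IsLocalRing.maximalIdeal ↥(Lv.P'.loc 𝔫') := by
    rw [Lv.P'.mem_maximalIdeal_loc_iff]
    exact ⟨u, 1, hu.1, (Ideal.ne_top_iff_one 𝔫').mp h𝔫.ne_top, by simp [T4Pres.coe_locIncl]⟩
  have hqm : (Lv.q : ↥(Lv.P'.loc 𝔫')) ∈ IsLocalRing.maximalIdeal ↥(Lv.P'.loc 𝔫') := by
    rw [Lv.P'.mem_maximalIdeal_loc_iff]
    exact ⟨Lv.qB, 1, hq, (Ideal.ne_top_iff_one 𝔫').mp h𝔫.ne_top, by simp [qB]⟩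
  have h2 : (1 : ↥(Lv.P'.loc 𝔫')) = a₂ * Lv.P'.locIncl 𝔫' u + (Lv.q : ↥(Lv.P'.loc 𝔫')) * a' := by
    rw [← ha']; ring
  have h3 : (1 : ↥(Lv.P'.loc 𝔫')) ∈ IsLocalRing.maximalIdeal ↥(Lv.P'.loc 𝔫') := by
    rw [h2]
    exact Ideal.add_mem _ (Ideal.mul_mem_left _ _ hum) (Ideal.mul_mem_right _ _ hqm)
  exact (Ideal.ne_top_iff_one _).mp (IsLocalRing.maximalIdeal.isMaximal _).ne_top h3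

include hu in
theorem exists_e1 : ∃ e : ↥(Lv.R₁ 𝔫' hq) →ₐ[k] k,
    ∀ x, e x = 0 ↔ x ∈ Ideal.span {Lv.tR₁ 𝔫' hq u} :=
  t4rl_exists_eval _ (Lv.span_tR₁_ne_top 𝔫' hq hu) (Lv.exists_const_R₁ 𝔫' hq hu)

/-- the evaluation at `P₁` -/
noncomputable def e1 : ↥(Lv.R₁ 𝔫' hq) →ₐ[k] k := (Lv.exists_e1 𝔫' hq hu).choose

theorem e1_eq_zero_iff (x : ↥(Lv.R₁ 𝔫' hq)) :
    Lv.e1 𝔫' hq hu x = 0 ↔ ∃ y, x = Lv.tR₁ 𝔫' hq u * y := by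
  rw [e1, (Lv.exists_e1 𝔫' hq hu).choose_spec x, Ideal.mem_span_singleton']
  constructor
  · rintro ⟨y, hy⟩; exact ⟨y, by rw [← hy, mul_comm]⟩
  · rintro ⟨y, hy⟩; exact ⟨y, by rw [hy, mul_comm]⟩

theorem e1_tR₁ : Lv.e1 𝔫' hq hu (Lv.tR₁ 𝔫' hq u) = 0 :=
  (Lv.e1_eq_zero_iff 𝔫' hq hu _).mpr ⟨1, (mul_one _).symm⟩

/-! ### The second branch -/

/-- the branch ring at `P₀`: `R₀ = ψ R₁` -/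
def R₀ : Subalgebra k E where
  carrier := {x | Lv.ψ.symm x ∈ Lv.R₁ 𝔫' hq}
  mul_mem' := by
    intro a b ha hb
    show Lv.ψ.symm (a * b) ∈ Lv.R₁ 𝔫' hq
    rw [map_mul]
    exact (Lv.R₁ 𝔫' hq).mul_mem ha hb
  add_mem' := by
    intro a b ha hb
    show Lv.ψ.symm (a + b) ∈ Lv.R₁ 𝔫' hq
    rw [map_add]
    exact (Lv.R₁ 𝔫' hq).add_mem ha hb
  algebraMap_mem' := by
    intro c
    obtain ⟨c', hc'⟩ := Lv.ψ_symm_const c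
    show Lv.ψ.symm (algebraMap k E c) ∈ Lv.R₁ 𝔫' hq
    rw [hc']
    exact (Lv.R₁ 𝔫' hq).algebraMap_mem c'

omit h𝔫 in
theorem mem_R₀ {x : E} : x ∈ Lv.R₀ 𝔫' hq ↔ Lv.ψ.symm x ∈ Lv.R₁ 𝔫' hq := Iff.rfl

omit h𝔫 in
theorem ψ_mem_R₀ {x : E} (hx : x ∈ Lv.R₁ 𝔫' hq) : Lv.ψ x ∈ Lv.R₀ 𝔫' hq := by
  rw [mem_R₀, RingEquiv.symm_apply_apply]
  exact hx

/-- `ψ : R₁ → R₀` -/
def ψ10 (x : ↥(Lv.R₁ 𝔫' hq)) : ↥(Lv.R₀ 𝔫' hq) := ⟨Lv.ψ (x : E), Lv.ψ_mem_R₀ 𝔫' hq x.2⟩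

/-- `ψ⁻¹ : R₀ → R₁` -/
def ψ01 (y : ↥(Lv.R₀ 𝔫' hq)) : ↥(Lv.R₁ 𝔫' hq) := ⟨Lv.ψ.symm (y : E), y.2⟩

omit h𝔫 in
theorem ψ10_ψ01 (y : ↥(Lv.R₀ 𝔫' hq)) : Lv.ψ10 𝔫' hq (Lv.ψ01 𝔫' hq y) = y :=
  Subtype.ext (Lv.ψ.apply_symm_apply _)

omit h𝔫 in
theorem ψ01_ψ10 (x : ↥(Lv.R₁ 𝔫' hq)) : Lv.ψ01 𝔫' hq (Lv.ψ10 𝔫' hq x) = x :=
  Subtype.ext (Lv.ψ.symm_apply_apply _)

omit h𝔫 in
theorem ψ10_mul (x y : ↥(Lv.R₁ 𝔫' hq)) :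
    Lv.ψ10 𝔫' hq (x * y) = Lv.ψ10 𝔫' hq x * Lv.ψ10 𝔫' hq y :=
  Subtype.ext (map_mul Lv.ψ _ _)

omit h𝔫 in
theorem ψ01_mul (x y : ↥(Lv.R₀ 𝔫' hq)) :
    Lv.ψ01 𝔫' hq (x * y) = Lv.ψ01 𝔫' hq x * Lv.ψ01 𝔫' hq y :=
  Subtype.ext (map_mul Lv.ψ.symm _ _)

omit h𝔫 in
theorem ψ01_one : Lv.ψ01 𝔫' hq 1 = 1 := Subtype.ext (map_one Lv.ψ.symm)

/-- the uniformiser of `R₀` -/
def sR₀ (u : ↥Lv.P'.B) : ↥(Lv.R₀ 𝔫' hq) := Lv.ψ10 𝔫' hq (Lv.tR₁ 𝔫' hq u)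

omit h𝔫 in
theorem coe_sR₀ (u : ↥Lv.P'.B) :
    ((Lv.sR₀ 𝔫' hq u : ↥(Lv.R₀ 𝔫' hq)) : E) = Lv.ψ ((Lv.resB u : ↥Lv.R') : E) := rfl

include hu in
theorem exists_const_R₀ (y : ↥(Lv.R₀ 𝔫' hq)) :
    ∃ c : k, y - algebraMap k ↥(Lv.R₀ 𝔫' hq) c ∈ Ideal.span {Lv.sR₀ 𝔫' hq u} := by
  obtain ⟨c, hc⟩ := Lv.exists_const_R₁ 𝔫' hq hu (Lv.ψ01 𝔫' hq y)
  obtain ⟨z, hz⟩ := Ideal.mem_span_singleton'.mp hc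
  obtain ⟨c', hc'⟩ := Lv.ψ_const c
  refine ⟨c', Ideal.mem_span_singleton'.mpr ⟨Lv.ψ10 𝔫' hq z, ?_⟩⟩
  apply Subtype.ext
  have h1 := congrArg (fun t : ↥(Lv.R₁ 𝔫' hq) => Lv.ψ (t : E)) hz
  simp only [Subalgebra.coe_mul, Subalgebra.coe_sub, map_mul, map_sub] at h1
  have h2 : Lv.ψ (((Lv.ψ01 𝔫' hq y : ↥(Lv.R₁ 𝔫' hq)) : E)) = (y : E) := Lv.ψ.apply_symm_apply _
  have h3 : ((algebraMap k ↥(Lv.R₁ 𝔫' hq) c : ↥(Lv.R₁ 𝔫' hq)) : E) = algebraMap k E c := rfl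
  rw [h2, h3, hc'] at h1
  rw [Subalgebra.coe_mul, Subalgebra.coe_sub]
  exact h1

include hu in
theorem span_sR₀_ne_top : Ideal.span {Lv.sR₀ 𝔫' hq u} ≠ ⊤ := by
  intro htop
  apply Lv.span_tR₁_ne_top 𝔫' hq hu
  have h1 : (1 : ↥(Lv.R₀ 𝔫' hq)) ∈ Ideal.span {Lv.sR₀ 𝔫' hq u} := by
    rw [htop]; exact Submodule.mem_top
  obtain ⟨y, hy⟩ := Ideal.mem_span_singleton'.mp h1
  rw [Ideal.eq_top_iff_one]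
  refine Ideal.mem_span_singleton'.mpr ⟨Lv.ψ01 𝔫' hq y, ?_⟩
  have h2 := congrArg (Lv.ψ01 𝔫' hq) hy
  rw [Lv.ψ01_mul, Lv.ψ01_one, sR₀, Lv.ψ01_ψ10] at h2
  exact h2

include hu in
theorem exists_e0 : ∃ e : ↥(Lv.R₀ 𝔫' hq) →ₐ[k] k,
    ∀ x, e x = 0 ↔ x ∈ Ideal.span {Lv.sR₀ 𝔫' hq u} :=
  t4rl_exists_eval _ (Lv.span_sR₀_ne_top 𝔫' hq hu) (Lv.exists_const_R₀ 𝔫' hq hu)

/-- the evaluation at `P₀` -/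
noncomputable def e0 : ↥(Lv.R₀ 𝔫' hq) →ₐ[k] k := (Lv.exists_e0 𝔫' hq hu).choose

theorem e0_eq_zero_iff (x : ↥(Lv.R₀ 𝔫' hq)) :
    Lv.e0 𝔫' hq hu x = 0 ↔ ∃ y, x = Lv.sR₀ 𝔫' hq u * y := by
  rw [e0, (Lv.exists_e0 𝔫' hq hu).choose_spec x, Ideal.mem_span_singleton']
  constructor
  · rintro ⟨y, hy⟩; exact ⟨y, by rw [← hy, mul_comm]⟩
  · rintro ⟨y, hy⟩; exact ⟨y, by rw [hy, mul_comm]⟩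

theorem e0_sR₀ : Lv.e0 𝔫' hq hu (Lv.sR₀ 𝔫' hq u) = 0 :=
  (Lv.e0_eq_zero_iff 𝔫' hq hu _).mpr ⟨1, (mul_one _).symm⟩

/-- `R₀` is integrally closed in `E` -/
theorem closed_R₀ (x : E) (hx : IsIntegral ↥(Lv.R₀ 𝔫' hq) x) : x ∈ Lv.R₀ 𝔫' hq :=
  t4rl_closed_of_equiv Lv.ψ (Lv.R₁ 𝔫' hq) (Lv.R₀ 𝔫' hq) (fun _ h => h)
    (fun _ h => Lv.ψ_mem_R₀ 𝔫' hq h) (Lv.closed_R₁ 𝔫' hq) x hx

omit h𝔫 in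
/-- `Φ R₁ ⊆ R₀` -/
theorem Φ_mem_R₀ {x : E} (hx : x ∈ Lv.R₁ 𝔫' hq) : Lv.Φ x ∈ Lv.R₀ 𝔫' hq := by
  rw [Lv.Φ_eq]
  exact (Lv.R₀ 𝔫' hq).pow_mem (Lv.ψ_mem_R₀ 𝔫' hq hx) _

omit h𝔫 in
/-- `Φ ū = s^q` -/
theorem Φ_tR₁ (u : ↥Lv.P'.B) :
    Lv.Φ ((Lv.tR₁ 𝔫' hq u : ↥(Lv.R₁ 𝔫' hq)) : E) =
      ((Lv.sR₀ 𝔫' hq u ^ Lv.q * 1 : ↥(Lv.R₀ 𝔫' hq)) : E) := by
  rw [Lv.Φ_eq, mul_one, Subalgebra.coe_pow]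
  rfl

end T4rLev

end Fermat.Agent.T4
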