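/-
T4-R (helper6): the chart ring of level `N' q` over a closed point of level `N'`:

* `αB βB : B' →+* B1`, the reductions `rinfB r0B : B1 →+* E` and their tables;
* the algebra structures `algA`, `algB` (through `α`), integrality of `B1` over `A`;
* `exists_mul_mem_B1` (denominators), `int_loc` (= the field `int` of `T4rTwo`);
* the node ideals `Tinf`, `T0 ⊆ R'` contain the kernel of the evaluation map of the bundle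
  (`mem_Tinf_of_ev`, `mem_T0_of_ev`).
-/
import Fermat.Agent.Lib.T4.Reg.LevBranch

set_option autoImplicit false
set_option linter.unusedSectionVars false
set_option linter.unusedVariables false
set_option linter.style.haveILetI false

namespace Fermat.Agent.T4

namespace T4rLev

variable {L F' F1 E Eh k : Type*} [Field L] [Field F'] [Field F1] [Algebra L F'] [Algebra L F1]
  [Field E] [Field Eh] [Field k] [Algebra k E] (Lv : T4rLev L F' F1 E Eh k)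

/-- `α` on the chart rings -/
def αB : ↥Lv.P'.B →+* ↥Lv.P1.B :=
  ((Lv.α : F' →+* F1).comp Lv.P'.B.subtype).codRestrict Lv.P1.B (fun b => Lv.α_B b b.2)

/-- `β` on the chart rings -/
def βB : ↥Lv.P'.B →+* ↥Lv.P1.B :=
  ((Lv.β : F' →+* F1).comp Lv.P'.B.subtype).codRestrict Lv.P1.B (fun b => Lv.β_B b b.2)

theorem coe_αB (b : ↥Lv.P'.B) : ((Lv.αB b : ↥Lv.P1.B) : F1) = Lv.α (b : F') := rfl

theorem coe_βB (b : ↥Lv.P'.B) : ((Lv.βB b : ↥Lv.P1.B) : F1) = Lv.β (b : F') := rfl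

/-- the reduction at `∞` on `B1` -/
def rinfB : ↥Lv.P1.B →+* E :=
  Lv.ρinf.comp (Subring.inclusion (fun b hb => Lv.B1_le_Vinf hb : Lv.P1.B ≤ Lv.Vinf.toSubring))

/-- the reduction at `0` on `B1` -/
def r0B : ↥Lv.P1.B →+* E :=
  Lv.ρ0.comp (Subring.inclusion (fun b hb => Lv.B1_le_V0 hb : Lv.P1.B ≤ Lv.V0.toSubring))

theorem rinfB_apply (c : ↥Lv.P1.B) : Lv.rinfB c = Lv.ρinf ⟨(c : F1), Lv.B1_le_Vinf c.2⟩ := rfl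

theorem r0B_apply (c : ↥Lv.P1.B) : Lv.r0B c = Lv.ρ0 ⟨(c : F1), Lv.B1_le_V0 c.2⟩ := rfl

theorem rinfB_αB (g : ↥Lv.P'.B) : Lv.rinfB (Lv.αB g) = ((Lv.resB g : ↥Lv.R') : E) :=
  Lv.ρinf_α (g : F') (Lv.B'_le_V' g.2)

theorem r0B_αB (g : ↥Lv.P'.B) : Lv.r0B (Lv.αB g) = Lv.Φ ((Lv.resB g : ↥Lv.R') : E) :=
  Lv.ρ0_α (g : F') (Lv.B'_le_V' g.2)

theorem rinfB_βB (g : ↥Lv.P'.B) : Lv.rinfB (Lv.βB g) = Lv.Φ ((Lv.resB g : ↥Lv.R') : E) :=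
  Lv.ρinf_β (g : F') (Lv.B'_le_V' g.2)

theorem r0B_βB (g : ↥Lv.P'.B) : Lv.r0B (Lv.βB g) = ((Lv.resB g : ↥Lv.R') : E) :=
  Lv.ρ0_β (g : F') (Lv.B'_le_V' g.2)

/-- `Φ` preserves `R'` -/
theorem Φ_mem_R' {x : E} (hx : x ∈ Lv.R') : Lv.Φ x ∈ Lv.R' := by
  rw [Lv.Φ_eq]
  exact Lv.R'.pow_mem (Lv.ψ_R' x hx) _

/-! ### The node ideals -/

/-- the ideal of the `r ∈ R'` with `(r, 0) ∈ res B1` -/
def Tinf : Ideal ↥Lv.R' where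
  carrier := {r | ∃ c : ↥Lv.P1.B, Lv.rinfB c = (r : E) ∧ Lv.r0B c = 0}
  add_mem' := by
    rintro r r' ⟨c, h1, h2⟩ ⟨c', h1', h2'⟩
    exact ⟨c + c', by rw [map_add, h1, h1']; rfl, by rw [map_add, h2, h2', add_zero]⟩
  zero_mem' := ⟨0, by rw [map_zero]; rfl, map_zero _⟩
  smul_mem' := by
    rintro x r ⟨c, h1, h2⟩
    obtain ⟨g, rfl⟩ := Lv.resB_surjective x
    refine ⟨Lv.αB g * c, ?_, ?_⟩
    · rw [map_mul, h1, Lv.rinfB_αB]; rfl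
    · rw [map_mul, h2, mul_zero]

/-- the ideal of the `r ∈ R'` with `(0, r) ∈ res B1` -/
def T0 : Ideal ↥Lv.R' where
  carrier := {r | ∃ c : ↥Lv.P1.B, Lv.rinfB c = 0 ∧ Lv.r0B c = (r : E)}
  add_mem' := by
    rintro r r' ⟨c, h1, h2⟩ ⟨c', h1', h2'⟩
    exact ⟨c + c', by rw [map_add, h1, h1', add_zero], by rw [map_add, h2, h2']; rfl⟩
  zero_mem' := ⟨0, map_zero _, by rw [map_zero]; rfl⟩
  smul_mem' := by
    rintro x r ⟨c, h1, h2⟩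
    obtain ⟨g, rfl⟩ := Lv.resB_surjective x
    refine ⟨Lv.βB g * c, ?_, ?_⟩
    · rw [map_mul, h1, mul_zero]
    · rw [map_mul, h2, Lv.r0B_βB]; rfl

theorem mem_Tinf {r : ↥Lv.R'} :
    r ∈ Lv.Tinf ↔ ∃ c : ↥Lv.P1.B, Lv.rinfB c = (r : E) ∧ Lv.r0B c = 0 := Iff.rfl

theorem mem_T0 {r : ↥Lv.R'} :
    r ∈ Lv.T0 ↔ ∃ c : ↥Lv.P1.B, Lv.rinfB c = 0 ∧ Lv.r0B c = (r : E) := Iff.rfl

theorem sub_mem_Tinf (f g : ↥Lv.R') (hg : (g : E) = Lv.Φ (Lv.Φ (f : E))) : f - g ∈ Lv.Tinf := by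
  obtain ⟨a, rfl⟩ := Lv.resB_surjective f
  obtain ⟨a₂, ha₂⟩ := Lv.resB_surjective ⟨Lv.Φ ((Lv.resB a : ↥Lv.R') : E), Lv.Φ_mem_R' (Lv.resB a).2⟩
  have ha₂' : ((Lv.resB a₂ : ↥Lv.R') : E) = Lv.Φ ((Lv.resB a : ↥Lv.R') : E) := by rw [ha₂]
  refine ⟨Lv.αB a - Lv.βB a₂, ?_, ?_⟩
  · rw [map_sub, Lv.rinfB_αB, Lv.rinfB_βB, ha₂', Subalgebra.coe_sub, hg]
  · rw [map_sub, Lv.r0B_αB, Lv.r0B_βB, ha₂', sub_self]

theorem sub_mem_T0 (f g : ↥Lv.R') (hg : (g : E) = Lv.Φ (Lv.Φ (f : E))) : f - g ∈ Lv.T0 := by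
  obtain ⟨a, rfl⟩ := Lv.resB_surjective f
  obtain ⟨a₂, ha₂⟩ := Lv.resB_surjective ⟨Lv.Φ ((Lv.resB a : ↥Lv.R') : E), Lv.Φ_mem_R' (Lv.resB a).2⟩
  have ha₂' : ((Lv.resB a₂ : ↥Lv.R') : E) = Lv.Φ ((Lv.resB a : ↥Lv.R') : E) := by rw [ha₂]
  refine ⟨Lv.βB a - Lv.αB a₂, ?_, ?_⟩
  · rw [map_sub, Lv.rinfB_βB, Lv.rinfB_αB, ha₂', sub_self]
  · rw [map_sub, Lv.r0B_βB, Lv.r0B_αB, ha₂', Subalgebra.coe_sub, hg]

/-- **the node ideal, local form at a point `𝔭` of `R'`** -/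
theorem exists_mul_mem_T (𝔭 : Ideal ↥Lv.R') [𝔭.IsMaximal] (g : ↥Lv.R') (hg : g ∈ 𝔭) :
    ∃ z : ↥Lv.R', z ∉ 𝔭 ∧ z * g ∈ Lv.Tinf ∧ z * g ∈ Lv.T0 := by
  obtain ⟨n, ev, hev⟩ := Lv.node
  obtain ⟨z, hz, hzg⟩ := t4rl_node_local ev 𝔭 g hg
  exact ⟨z, hz, hev _ Lv.sub_mem_Tinf _ hzg, hev _ Lv.sub_mem_T0 _ hzg⟩

end T4rLev

end Fermat.Agent.T4
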