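/-
T4-R (helper6): the abstract two-branch datum (level `N' q` over a point of level `N'`).

`A` = the local ring of the smooth model of level `N'` at a closed point `P₁` (maximal ideal
`(q₀, u)`), `F` = the function field of level `N' q`, `C = integralClosure A F` the semilocal ring of
the points over `P₁`.  The two vertical valuation rings `Vinf, V0 ⊆ F` with reductions
`ρinf, ρ0` into the residue function field `E` (a `k`-algebra, `char = q`), with
`ρinf ∘ ι = red`, `ρ0 ∘ ι = Φ ∘ red` (`Φ` the Frobenius-type endomorphism of `E`).  The branch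
rings `R₁ = red A` (point `P₁`) and `R₀ ⊇ Φ R₁` (point `P₀`, `Φ`-preimage of `P₁`) are
"discrete valuation `k`-algebras with residue field `k`" (residue maps `e1, e0`, uniformisers
`red u`, `s`, `Φ (red u) = s^q · unit`).

`T4rTwo.rinf, T4rTwo.r0 : C →+* E` are the two reductions on `C`, `T4rTwo.S` the image of
`(rinf, r0)` in `R₁ × R₀`.
-/
import Mathlib

set_option autoImplicit false
set_option linter.unusedSectionVars false
set_option linter.unusedVariables false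

namespace Fermat.Agent.T4

/-- integral elements lie in every valuation ring containing the base -/
theorem t4r_mem_valSubring_of_integral {R L : Type*} [CommRing R] [Field L] [Algebra R L]
    (V₁ : ValuationSubring L) (hV : ∀ x : R, algebraMap R L x ∈ V₁) {y : L}
    (hy : IsIntegral R y) : y ∈ V₁ := by
  have : IsIntegrallyClosedIn V₁.toSubring L := inferInstanceAs (IsIntegrallyClosedIn V₁ L)
  have hle : (integralClosure R L).toSubring ≤ V₁.toSubring :=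
    Subring.integralClosure_le_iff.mpr hV
  exact hle hy

/-- the abstract two-branch datum -/
structure T4rTwo (A F E k : Type*) [CommRing A] [IsDomain A] [Field F] [Algebra A F] [Field E] [Field k]
    [Algebra k E] where
  /-- the residue characteristic -/
  q : ℕ
  hq : 2 ≤ q
  /-- the uniformiser of the base -/
  q₀ : A
  /-- the local coordinate -/
  u : A
  /-- the vertical valuation ring at `∞` -/
  Vinf : ValuationSubring F
  /-- the vertical valuation ring at `0` -/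
  V0 : ValuationSubring F
  /-- the reduction at `∞` -/
  ρinf : ↥Vinf →+* E
  /-- the reduction at `0` -/
  ρ0 : ↥V0 →+* E
  ker_inf : ∀ x : ↥Vinf, ρinf x = 0 → ∃ y : ↥Vinf, (x : F) = algebraMap A F q₀ * (y : F)
  ker_0 : ∀ x : ↥V0, ρ0 x = 0 → ∃ y : ↥V0, (x : F) = algebraMap A F q₀ * (y : F)
  unit_inf : ∀ x : ↥Vinf, ρinf x ≠ 0 → ((x : F))⁻¹ ∈ Vinf
  unit_0 : ∀ x : ↥V0, ρ0 x ≠ 0 → ((x : F))⁻¹ ∈ V0
  mem_inf : ∀ a : A, algebraMap A F a ∈ Vinf
  mem_0 : ∀ a : A, algebraMap A F a ∈ V0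
  q₀_ne : algebraMap A F q₀ ≠ 0
  /-- the branch ring at `P₁` -/
  R₁ : Subalgebra k E
  /-- the branch ring at `P₀` -/
  R₀ : Subalgebra k E
  /-- the reduction of `A` -/
  red : A →+* E
  red_mem : ∀ a, red a ∈ R₁
  red_surj : ∀ x ∈ R₁, ∃ a, red a = x
  red_q₀ : red q₀ = 0
  /-- the Frobenius-type endomorphism -/
  Φ : E →ₐ[k] E
  ρinf_A : ∀ a, ρinf ⟨algebraMap A F a, mem_inf a⟩ = red a
  ρ0_A : ∀ a, ρ0 ⟨algebraMap A F a, mem_0 a⟩ = Φ (red a)
  const : ∀ c : k, ∃ a : A, red a = algebraMap k E c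
  /-- evaluation at `P₁` -/
  e1 : ↥R₁ →ₐ[k] k
  /-- evaluation at `P₀` -/
  e0 : ↥R₀ →ₐ[k] k
  h1 : ∀ x : ↥R₁, e1 x = 0 → ∃ y : ↥R₁, (x : E) = red u * (y : E)
  e1_u : e1 ⟨red u, red_mem u⟩ = 0
  /-- the uniformiser at `P₀` -/
  s : ↥R₀
  e0_s : e0 s = 0
  h0 : ∀ x : ↥R₀, e0 x = 0 → ∃ y : ↥R₀, x = s * y
  Φ_mem : ∀ x ∈ R₁, Φ x ∈ R₀
  /-- `Φ (red u) = s^q · unit` -/
  ε : ↥R₀
  /-- the inverse of `ε` -/
  ε' : ↥R₀
  Φ_u : Φ (red u) = ((s ^ q * ε : ↥R₀) : E)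
  ε_mul : ε * ε' = 1
  closed₁ : ∀ x : E, IsIntegral ↥R₁ x → x ∈ R₁
  closed₀ : ∀ x : E, IsIntegral ↥R₀ x → x ∈ R₀
  /-- (Int): `C ∩ q₀ (Vinf ∩ V0) = q₀ C` -/
  int : ∀ c : F, IsIntegral A c → ∀ o : F, o ∈ Vinf → o ∈ V0 → c = algebraMap A F q₀ * o →
    IsIntegral A o
  /-- the node ideal, first branch -/
  node₁ : ∀ x : ↥R₁, ∃ (c : F) (_ : IsIntegral A c) (h₁ : c ∈ Vinf) (h₂ : c ∈ V0),
    ρinf ⟨c, h₁⟩ = red u * (x : E) ∧ ρ0 ⟨c, h₂⟩ = 0
  /-- the node ideal, second branch -/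
  node₀ : ∀ y : ↥R₀, ∃ (c : F) (_ : IsIntegral A c) (h₁ : c ∈ Vinf) (h₂ : c ∈ V0),
    ρinf ⟨c, h₁⟩ = 0 ∧ ρ0 ⟨c, h₂⟩ = ((s * y : ↥R₀) : E)

namespace T4rTwo

variable {A F E k : Type*} [CommRing A] [IsDomain A] [Field F] [Algebra A F] [Field E] [Field k] [Algebra k E]
  (T : T4rTwo A F E k)

theorem mem_Vinf {c : F} (hc : IsIntegral A c) : c ∈ T.Vinf :=
  t4r_mem_valSubring_of_integral T.Vinf T.mem_inf hc

theorem mem_V0 {c : F} (hc : IsIntegral A c) : c ∈ T.V0 :=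
  t4r_mem_valSubring_of_integral T.V0 T.mem_0 hc

/-- `C → Vinf` -/
def toVinf : ↥(integralClosure A F) →+* ↥T.Vinf where
  toFun c := ⟨c, T.mem_Vinf c.2⟩
  map_one' := rfl
  map_mul' _ _ := rfl
  map_zero' := rfl
  map_add' _ _ := rfl

/-- `C → V0` -/
def toV0 : ↥(integralClosure A F) →+* ↥T.V0 where
  toFun c := ⟨c, T.mem_V0 c.2⟩
  map_one' := rfl
  map_mul' _ _ := rfl
  map_zero' := rfl
  map_add' _ _ := rfl

/-- the reduction at `∞` on `C` -/
def rinf : ↥(integralClosure A F) →+* E := T.ρinf.comp T.toVinf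

/-- the reduction at `0` on `C` -/
def r0 : ↥(integralClosure A F) →+* E := T.ρ0.comp T.toV0

theorem rinf_apply (c : ↥(integralClosure A F)) : T.rinf c = T.ρinf ⟨c, T.mem_Vinf c.2⟩ := rfl

theorem r0_apply (c : ↥(integralClosure A F)) : T.r0 c = T.ρ0 ⟨c, T.mem_V0 c.2⟩ := rfl

theorem rinf_algebraMap (a : A) : T.rinf (algebraMap A ↥(integralClosure A F) a) = T.red a :=
  T.ρinf_A a

theorem r0_algebraMap (a : A) : T.r0 (algebraMap A ↥(integralClosure A F) a) = T.Φ (T.red a) :=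
  T.ρ0_A a

/-- `red`, with values in `R₁` -/
def redR : A →+* ↥T.R₁ := T.red.codRestrict T.R₁.toSubring T.red_mem

/-- `Φ ∘ red`, with values in `R₀` -/
def redR0 : A →+* ↥T.R₀ :=
  ((T.Φ : E →+* E).comp T.red).codRestrict T.R₀.toSubring
    (fun a => T.Φ_mem _ (T.red_mem a))

theorem coe_redR (a : A) : ((T.redR a : ↥T.R₁) : E) = T.red a := rfl

theorem coe_redR0 (a : A) : ((T.redR0 a : ↥T.R₀) : E) = T.Φ (T.red a) := rfl

/-- `rinf c ∈ R₁` -/
theorem rinf_mem (c : ↥(integralClosure A F)) : T.rinf c ∈ T.R₁ := by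
  apply T.closed₁
  obtain ⟨p, hp, hpc⟩ := integralClosure.isIntegral c
  refine ⟨p.map T.redR, hp.map _, ?_⟩
  have h1 := congrArg T.rinf hpc
  rw [Polynomial.hom_eval₂, map_zero] at h1
  rw [Polynomial.eval₂_map]
  have h2 : (algebraMap ↥T.R₁ E).comp T.redR =
      T.rinf.comp (algebraMap A ↥(integralClosure A F)) := by
    ext a
    exact (T.rinf_algebraMap a).symm
  rw [h2]
  exact h1

/-- `r0 c ∈ R₀` -/
theorem r0_mem (c : ↥(integralClosure A F)) : T.r0 c ∈ T.R₀ := by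
  apply T.closed₀
  obtain ⟨p, hp, hpc⟩ := integralClosure.isIntegral c
  refine ⟨p.map T.redR0, hp.map _, ?_⟩
  have h1 := congrArg T.r0 hpc
  rw [Polynomial.hom_eval₂, map_zero] at h1
  rw [Polynomial.eval₂_map]
  have h2 : (algebraMap ↥T.R₀ E).comp T.redR0 =
      T.r0.comp (algebraMap A ↥(integralClosure A F)) := by
    ext a
    exact (T.r0_algebraMap a).symm
  rw [h2]
  exact h1

/-- the two reductions, with values in `R₁ × R₀` -/
def rr : ↥(integralClosure A F) →+* ↥T.R₁ × ↥T.R₀ :=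
  (T.rinf.codRestrict T.R₁.toSubring T.rinf_mem).prod (T.r0.codRestrict T.R₀.toSubring T.r0_mem)

theorem rr_fst (c : ↥(integralClosure A F)) : (((T.rr c).1 : ↥T.R₁) : E) = T.rinf c := rfl

theorem rr_snd (c : ↥(integralClosure A F)) : (((T.rr c).2 : ↥T.R₀) : E) = T.r0 c := rfl

/-- the kernel of `rr` is `q₀ C` -/
theorem exists_of_rr_eq_zero (c : ↥(integralClosure A F)) (h : T.rr c = 0) :
    ∃ c' : ↥(integralClosure A F), c = algebraMap A ↥(integralClosure A F) T.q₀ * c' := by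
  have h1 : T.rinf c = 0 := by
    have := congrArg (fun x : ↥T.R₁ × ↥T.R₀ => ((x.1 : ↥T.R₁) : E)) h
    simpa only [rr_fst, Prod.fst_zero, ZeroMemClass.coe_zero] using this
  have h2 : T.r0 c = 0 := by
    have := congrArg (fun x : ↥T.R₁ × ↥T.R₀ => ((x.2 : ↥T.R₀) : E)) h
    simpa only [rr_snd, Prod.snd_zero, ZeroMemClass.coe_zero] using this
  obtain ⟨y, hy⟩ := T.ker_inf _ h1
  obtain ⟨z, hz⟩ := T.ker_0 _ h2
  have hyz : (y : F) = (z : F) := by
    have : algebraMap A F T.q₀ * (y : F) = algebraMap A F T.q₀ * (z : F) := by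
      rw [← hy, ← hz]
      rfl
    exact mul_left_cancel₀ T.q₀_ne this
  have hint : IsIntegral A (y : F) :=
    T.int (c : F) c.2 (y : F) y.2 (hyz ▸ z.2) hy
  exact ⟨⟨y, hint⟩, Subtype.ext hy⟩

/-- the constants lift to `A` -/
theorem rr_const (c : k) : ∃ a : A, T.rr (algebraMap A ↥(integralClosure A F) a) =
    algebraMap k (↥T.R₁ × ↥T.R₀) c := by
  obtain ⟨a, ha⟩ := T.const c
  refine ⟨a, ?_⟩
  apply Prod.ext
  · apply Subtype.ext
    rw [rr_fst, rinf_algebraMap, ha]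
    rfl
  · apply Subtype.ext
    rw [rr_snd, r0_algebraMap, ha, AlgHom.commutes]
    rfl

/-- the image of `C` in `R₁ × R₀` -/
def S : Subalgebra k (↥T.R₁ × ↥T.R₀) where
  carrier := Set.range T.rr
  mul_mem' := by
    rintro _ _ ⟨a, rfl⟩ ⟨b, rfl⟩
    exact ⟨a * b, map_mul _ _ _⟩
  add_mem' := by
    rintro _ _ ⟨a, rfl⟩ ⟨b, rfl⟩
    exact ⟨a + b, map_add _ _ _⟩
  algebraMap_mem' := by
    intro c
    obtain ⟨a, ha⟩ := T.rr_const c
    exact ⟨_, ha⟩

theorem mem_S {x : ↥T.R₁ × ↥T.R₀} : x ∈ T.S ↔ ∃ c, T.rr c = x := Iff.rfl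

theorem rr_mem_S (c : ↥(integralClosure A F)) : T.rr c ∈ T.S := ⟨c, rfl⟩

end T4rTwo

end Fermat.Agent.T4
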