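/-
T4-R (helper6): integrality over the local ring `A = B'_𝔫'` (algebra structure through `α`):

* `algA`, `algB`, `isIntegral_of_mem_B1`, `mem_B1_of_isIntegral`, `exists_mul_mem_B1`;
* `int_loc` : `C ∩ q (Vinf ∩ V0) = q C` (the field `int` of `T4rTwo`);
* `node₁_loc`, `node₀_loc` : the node ideal at the two branches (fields `node₁`, `node₀`).
-/
import Fermat.Agent.Lib.T4.Reg.LevNode
import Fermat.Agent.Lib.T4.Reg.TwoDefs

set_option autoImplicit false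
set_option linter.unusedSectionVars false
set_option linter.unusedVariables false
set_option linter.style.haveILetI false

namespace Fermat.Agent.T4

namespace T4rLev

variable {L F' F1 E Eh k : Type*} [Field L] [Field F'] [Field F1] [Algebra L F'] [Algebra L F1]
  [Field E] [Field Eh] [Field k] [Algebra k E] (Lv : T4rLev L F' F1 E Eh k)
  (𝔫' : Ideal ↥Lv.P'.B)

/-- `F1` as an algebra over `A = B'_𝔫'`, through `α` -/
@[reducible] def algA : Algebra ↥(Lv.P'.loc 𝔫') F1 :=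
  ((Lv.α : F' →+* F1).comp (Lv.P'.loc 𝔫').subtype).toAlgebra

/-- `F1` as an algebra over `B'`, through `α` -/
@[reducible] def algB : Algebra ↥Lv.P'.B F1 :=
  ((Lv.α : F' →+* F1).comp Lv.P'.B.subtype).toAlgebra

attribute [local instance] T4rLev.algA T4rLev.algB

theorem algebraMap_A (a : ↥(Lv.P'.loc 𝔫')) :
    algebraMap ↥(Lv.P'.loc 𝔫') F1 a = Lv.α (a : F') := rfl

theorem algebraMap_Bα (b : ↥Lv.P'.B) : algebraMap ↥Lv.P'.B F1 b = Lv.α (b : F') := rfl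

theorem isScalarTower_BA :
    letI := Lv.P'.locAlgebra 𝔫'
    IsScalarTower ↥Lv.P'.B ↥(Lv.P'.loc 𝔫') F1 :=
  letI := Lv.P'.locAlgebra 𝔫'
  IsScalarTower.of_algebraMap_eq (fun b => rfl)

/-- elements of `B1` are integral over `A` -/
theorem isIntegral_of_mem_B1 {x : F1} (hx : x ∈ Lv.P1.B) : IsIntegral ↥(Lv.P'.loc 𝔫') x := by
  letI := Lv.P'.locAlgebra 𝔫'
  haveI := Lv.isScalarTower_BA 𝔫'
  have h1 : IsIntegral ↥Lv.P'.B x := Lv.int1 x hx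
  exact h1.tower_top

/-- elements integral over `B'` lie in `B1` -/
theorem mem_B1_of_isIntegral {x : F1} (hx : IsIntegral ↥Lv.P'.B x) : x ∈ Lv.P1.B := by
  rw [Lv.P1.mem_iff]
  intro V hV
  exact t4r_mem_valSubring_of_integral (R := ↥Lv.P'.B) V
    (fun b : ↥Lv.P'.B => Lv.P1.B_le hV (Lv.α_B (b : F') b.2)) hx

variable [h𝔫 : 𝔫'.IsMaximal]

/-- denominators: an element integral over `A` becomes an element of `B1` after multiplication by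
some `α s`, `s ∉ 𝔫'` -/
theorem exists_mul_mem_B1 {c : F1} (hc : IsIntegral ↥(Lv.P'.loc 𝔫') c) :
    ∃ s : ↥Lv.P'.B, s ∉ 𝔫' ∧ Lv.α (s : F') * c ∈ Lv.P1.B := by
  letI := Lv.P'.locAlgebra 𝔫'
  haveI := Lv.isScalarTower_BA 𝔫'
  haveI : IsLocalization.AtPrime ↥(Lv.P'.loc 𝔫') 𝔫' := Lv.P'.isLocalization_loc 𝔫'
  obtain ⟨⟨s, hs⟩, hsc⟩ :=
    IsIntegral.exists_multiple_integral_of_isLocalization 𝔫'.primeCompl c hc
  refine ⟨s, hs, Lv.mem_B1_of_isIntegral ?_⟩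
  rw [Submonoid.smul_def, Algebra.smul_def] at hsc
  exact hsc

variable (hq : Lv.qB ∈ 𝔫')

omit h𝔫 in
include hq in
theorem α_loc_mem_Vinf (a : ↥(Lv.P'.loc 𝔫')) : Lv.α (a : F') ∈ Lv.Vinf :=
  Lv.α_inf _ (Lv.loc_le_V' 𝔫' hq a.2)

omit h𝔫 in
include hq in
theorem α_loc_mem_V0 (a : ↥(Lv.P'.loc 𝔫')) : Lv.α (a : F') ∈ Lv.V0 :=
  Lv.α_0 _ (Lv.loc_le_V' 𝔫' hq a.2)

omit h𝔫 in
theorem ρinf_α_loc (a : ↥(Lv.P'.loc 𝔫')) (h : Lv.α (a : F') ∈ Lv.Vinf) :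
    Lv.ρinf ⟨Lv.α (a : F'), h⟩ = Lv.red 𝔫' hq a :=
  Lv.ρinf_α (a : F') (Lv.loc_le_V' 𝔫' hq a.2)

omit h𝔫 in
theorem ρ0_α_loc (a : ↥(Lv.P'.loc 𝔫')) (h : Lv.α (a : F') ∈ Lv.V0) :
    Lv.ρ0 ⟨Lv.α (a : F'), h⟩ = Lv.Φ (Lv.red 𝔫' hq a) :=
  Lv.ρ0_α (a : F') (Lv.loc_le_V' 𝔫' hq a.2)

include hq in
/-- **(Int)**: `C ∩ q (Vinf ∩ V0) = q C` -/
theorem int_loc (c : F1) (hc : IsIntegral ↥(Lv.P'.loc 𝔫') c) (o : F1) (ho1 : o ∈ Lv.Vinf)
    (ho2 : o ∈ Lv.V0) (h : c = (Lv.q : F1) * o) : IsIntegral ↥(Lv.P'.loc 𝔫') o := by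
  obtain ⟨s, hs, hsc⟩ := Lv.exists_mul_mem_B1 𝔫' hc
  have hs0 : (s : F') ≠ 0 := by
    intro h0
    apply hs
    have : s = 0 := Subtype.ext h0
    rw [this]; exact 𝔫'.zero_mem
  -- `α s * o ∈ B1`
  have hso : Lv.α (s : F') * o ∈ Lv.P1.B := by
    rw [Lv.P1.mem_iff]
    intro V hV
    by_cases h1 : V = Lv.Vinf
    · rw [h1]
      exact Lv.Vinf.mul_mem _ _ (Lv.α_inf _ (Lv.B'_le_V' s.2)) ho1
    by_cases h2 : V = Lv.V0
    · rw [h2]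
      exact Lv.V0.mul_mem _ _ (Lv.α_0 _ (Lv.B'_le_V' s.2)) ho2
    have hq1 := Lv.val_q_of_ne1 hV h1 h2
    have h3 : V.valuation (Lv.α (s : F') * c) ≤ 1 :=
      (V.valuation_le_one_iff _).mpr (Lv.P1.B_le hV hsc)
    rw [h, ← mul_assoc, mul_comm (Lv.α (s : F')), mul_assoc, map_mul, hq1, one_mul] at h3
    exact (V.valuation_le_one_iff _).mp h3
  have h4 := Lv.isIntegral_of_mem_B1 𝔫' hso
  have hd := t4rl_inv_mem_loc Lv.P' hs
  have h5 : o = algebraMap ↥(Lv.P'.loc 𝔫') F1 ⟨_, hd⟩ * (Lv.α (s : F') * o) := by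
    rw [Lv.algebraMap_A, ← mul_assoc, ← map_mul]
    show o = Lv.α ((s : F')⁻¹ * (s : F')) * o
    rw [inv_mul_cancel₀ hs0, map_one, one_mul]
  rw [h5]
  exact IsIntegral.mul isIntegral_algebraMap h4

end T4rLev

end Fermat.Agent.T4
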