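/-
T4-R (helper6): the node ideal at the two branches over a closed point of level `N'`
(fields `node₁`, `node₀` of `T4rTwo`).
-/
import Fermat.Agent.Lib.T4.Reg.LevInt

set_option autoImplicit false
set_option linter.unusedSectionVars false
set_option linter.unusedVariables false
set_option linter.style.haveILetI false

namespace Fermat.Agent.T4

namespace T4rLev

variable {L F' F1 E Eh k : Type*} [Field L] [Field F'] [Field F1] [Algebra L F'] [Algebra L F1]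
  [Field E] [Field Eh] [Field k] [Algebra k E] (Lv : T4rLev L F' F1 E Eh k)
  (𝔫' : Ideal ↥Lv.P'.B) [h𝔫 : 𝔫'.IsMaximal] (hq : Lv.qB ∈ 𝔫')

attribute [local instance] T4rLev.algA T4rLev.algB

/-- `ψ⁻¹` on `R'` -/
def ψR'symm : ↥Lv.R' →+* ↥Lv.R' :=
  ((Lv.ψ.symm : E →+* E).comp Lv.R'.toSubring.subtype).codRestrict Lv.R'.toSubring
    (fun x => Lv.ψ_symm_R' _ x.2)

omit h𝔫 in
theorem coe_ψR'symm (x : ↥Lv.R') : ((Lv.ψR'symm x : ↥Lv.R') : E) = Lv.ψ.symm (x : E) := rfl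

omit h𝔫 in
theorem ψR'symm_surjective : Function.Surjective Lv.ψR'symm := by
  intro y
  exact ⟨⟨Lv.ψ (y : E), Lv.ψ_R' _ y.2⟩, Subtype.ext (Lv.ψ.symm_apply_apply _)⟩

/-- the point `P₀ = ψ P₁` of `R'` -/
def pt0 : Ideal ↥Lv.R' := (Lv.pt 𝔫').comap Lv.ψR'symm

omit h𝔫 in
theorem mem_pt0 {x : ↥Lv.R'} : x ∈ Lv.pt0 𝔫' ↔ Lv.ψR'symm x ∈ Lv.pt 𝔫' := Iff.rfl

include hq in
theorem pt0_isMaximal : (Lv.pt0 𝔫').IsMaximal := by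
  haveI := Lv.pt_isMaximal 𝔫' hq
  exact Ideal.comap_isMaximal_of_surjective Lv.ψR'symm Lv.ψR'symm_surjective

/-- every element of `A` is `b / σ` and `u a = (u b) / σ` -/
theorem exists_den_mul (u : ↥Lv.P'.B) (hu : u ∈ 𝔫') (a : ↥(Lv.P'.loc 𝔫')) :
    ∃ σ b : ↥Lv.P'.B, σ ∉ 𝔫' ∧ b ∈ 𝔫' ∧
      Lv.P'.locIncl 𝔫' σ * (Lv.P'.locIncl 𝔫' u * a) = Lv.P'.locIncl 𝔫' b := by
  obtain ⟨c, hc, hca⟩ := Lv.P'.mem_loc_iff.mp a.2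
  refine ⟨c, u * ⟨_, hca⟩, hc, 𝔫'.mul_mem_right _ hu, Subtype.ext ?_⟩
  show (c : F') * ((u : F') * (a : F')) = (u : F') * ((c : F') * (a : F'))
  ring

variable {u : ↥Lv.P'.B} (hu : Lv.IsCoord 𝔫' u)

include hu in
/-- **the node ideal, first branch** -/
theorem node₁_loc (x : ↥(Lv.R₁ 𝔫' hq)) :
    ∃ (c : F1) (_ : IsIntegral ↥(Lv.P'.loc 𝔫') c) (h₁ : c ∈ Lv.Vinf) (h₂ : c ∈ Lv.V0),
      Lv.ρinf ⟨c, h₁⟩ = ((Lv.tR₁ 𝔫' hq u : ↥(Lv.R₁ 𝔫' hq)) : E) * (x : E) ∧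
        Lv.ρ0 ⟨c, h₂⟩ = 0 := by
  obtain ⟨a, rfl⟩ := Lv.redR₁_surjective 𝔫' hq x
  obtain ⟨σ, b, hσ, hb, hσb⟩ := Lv.exists_den_mul 𝔫' u hu.1 a
  haveI := Lv.pt_isMaximal 𝔫' hq
  have hg : Lv.resB b ∈ Lv.pt 𝔫' := (Lv.resB_mem_pt_iff 𝔫' hq b).mpr hb
  obtain ⟨z, hz, hzT, -⟩ := Lv.exists_mul_mem_T (Lv.pt 𝔫') _ hg
  obtain ⟨c₁, hc₁i, hc₁0⟩ := Lv.mem_Tinf.mp hzT
  obtain ⟨ζ, rfl⟩ := Lv.resB_surjective z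
  have hζ : ζ ∉ 𝔫' := fun h => hz ((Lv.resB_mem_pt_iff 𝔫' hq ζ).mpr h)
  have hζσ : ζ * σ ∉ 𝔫' := by
    intro h
    rcases h𝔫.isPrime.mem_or_mem h with h | h
    · exact hζ h
    · exact hσ h
  have hd := t4rl_inv_mem_loc Lv.P' hζσ
  set d : ↥(Lv.P'.loc 𝔫') := ⟨_, hd⟩ with hdd
  have hζσ0 : ((ζ * σ : ↥Lv.P'.B) : F') ≠ 0 := by
    intro h0
    apply hζσ
    have : ζ * σ = 0 := Subtype.ext h0
    rw [this]; exact 𝔫'.zero_mem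
  have hdmul : Lv.P'.locIncl 𝔫' (ζ * σ) * d = 1 := Subtype.ext (mul_inv_cancel₀ hζσ0)
  have hαd1 := Lv.α_loc_mem_Vinf 𝔫' hq d
  have hαd2 := Lv.α_loc_mem_V0 𝔫' hq d
  have hm1 : (c₁ : F1) * Lv.α (d : F') ∈ Lv.Vinf :=
    Lv.Vinf.mul_mem _ _ (Lv.B1_le_Vinf c₁.2) hαd1
  have hm2 : (c₁ : F1) * Lv.α (d : F') ∈ Lv.V0 := Lv.V0.mul_mem _ _ (Lv.B1_le_V0 c₁.2) hαd2
  refine ⟨(c₁ : F1) * Lv.α (d : F'), ?_, hm1, hm2, ?_, ?_⟩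
  · exact IsIntegral.mul (Lv.isIntegral_of_mem_B1 𝔫' c₁.2)
      (isIntegral_algebraMap (R := ↥(Lv.P'.loc 𝔫')) (x := d))
  · have h1 : (⟨(c₁ : F1) * Lv.α (d : F'), hm1⟩ : ↥Lv.Vinf) =
        ⟨(c₁ : F1), Lv.B1_le_Vinf c₁.2⟩ * ⟨Lv.α (d : F'), hαd1⟩ := Subtype.ext rfl
    rw [h1, map_mul, Lv.ρinf_α_loc 𝔫' hq d hαd1, ← Lv.rinfB_apply, hc₁i, Subalgebra.coe_mul]
    -- `z g red d = red (u a)`
    have h2 := congrArg (Lv.red 𝔫' hq) hσb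
    rw [map_mul, Lv.red_locIncl, Lv.red_locIncl] at h2
    have h3 := congrArg (Lv.red 𝔫' hq) hdmul
    rw [map_mul, Lv.red_locIncl, map_mul, map_one, Subalgebra.coe_mul] at h3
    rw [Lv.coe_tR₁, Lv.coe_redR₁]
    have h4 : Lv.red 𝔫' hq (Lv.P'.locIncl 𝔫' u * a) =
        ((Lv.resB u : ↥Lv.R') : E) * Lv.red 𝔫' hq a := by
      rw [map_mul, Lv.red_locIncl]
    rw [← h4, ← h2]
    calc ((Lv.resB ζ : ↥Lv.R') : E) * (((Lv.resB σ : ↥Lv.R') : E) *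
          Lv.red 𝔫' hq (Lv.P'.locIncl 𝔫' u * a)) * Lv.red 𝔫' hq d
        = (((Lv.resB ζ : ↥Lv.R') : E) * ((Lv.resB σ : ↥Lv.R') : E) * Lv.red 𝔫' hq d) *
          Lv.red 𝔫' hq (Lv.P'.locIncl 𝔫' u * a) := by ring
      _ = Lv.red 𝔫' hq (Lv.P'.locIncl 𝔫' u * a) := by rw [h3, one_mul]
  · have h1 : (⟨(c₁ : F1) * Lv.α (d : F'), hm2⟩ : ↥Lv.V0) =
        ⟨(c₁ : F1), Lv.B1_le_V0 c₁.2⟩ * ⟨Lv.α (d : F'), hαd2⟩ := Subtype.ext rfl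
    rw [h1, map_mul, ← Lv.r0B_apply, hc₁0, zero_mul]

include hu in
/-- **the node ideal, second branch** -/
theorem node₀_loc (y : ↥(Lv.R₀ 𝔫' hq)) :
    ∃ (c : F1) (_ : IsIntegral ↥(Lv.P'.loc 𝔫') c) (h₁ : c ∈ Lv.Vinf) (h₂ : c ∈ Lv.V0),
      Lv.ρinf ⟨c, h₁⟩ = 0 ∧
        Lv.ρ0 ⟨c, h₂⟩ = ((Lv.sR₀ 𝔫' hq u * y : ↥(Lv.R₀ 𝔫' hq)) : E) := by
  obtain ⟨a, ha⟩ := Lv.redR₁_surjective 𝔫' hq (Lv.ψ01 𝔫' hq y)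
  have hay : Lv.ψ (Lv.red 𝔫' hq a) = (y : E) := by
    have h1 : Lv.red 𝔫' hq a = Lv.ψ.symm (y : E) := by
      have := congrArg (fun t : ↥(Lv.R₁ 𝔫' hq) => (t : E)) ha
      exact this
    rw [h1, RingEquiv.apply_symm_apply]
  obtain ⟨σ, b, hσ, hb, hσb⟩ := Lv.exists_den_mul 𝔫' u hu.1 a
  have h2 : ((Lv.resB σ : ↥Lv.R') : E) * (((Lv.resB u : ↥Lv.R') : E) * Lv.red 𝔫' hq a) =
      ((Lv.resB b : ↥Lv.R') : E) := by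
    have := congrArg (Lv.red 𝔫' hq) hσb
    rw [map_mul, map_mul, Lv.red_locIncl, Lv.red_locIncl, Lv.red_locIncl] at this
    exact this
  haveI := Lv.pt_isMaximal 𝔫' hq
  haveI := Lv.pt0_isMaximal 𝔫' hq
  -- the element `g₀ = ψ (res b)` of the point `P₀`
  set g₀ : ↥Lv.R' := ⟨Lv.ψ ((Lv.resB b : ↥Lv.R') : E), Lv.ψ_R' _ (Lv.resB b).2⟩ with hg₀
  have hg₀m : g₀ ∈ Lv.pt0 𝔫' := by
    rw [mem_pt0]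
    have : Lv.ψR'symm g₀ = Lv.resB b := Subtype.ext (Lv.ψ.symm_apply_apply _)
    rw [this]
    exact (Lv.resB_mem_pt_iff 𝔫' hq b).mpr hb
  obtain ⟨z, hz, -, hzT⟩ := Lv.exists_mul_mem_T (Lv.pt0 𝔫') g₀ hg₀m
  obtain ⟨c₁, hc₁i, hc₁0⟩ := Lv.mem_T0.mp hzT
  set σ₀ : ↥Lv.R' := ⟨Lv.ψ ((Lv.resB σ : ↥Lv.R') : E), Lv.ψ_R' _ (Lv.resB σ).2⟩ with hσ₀
  have hσ₀m : σ₀ ∉ Lv.pt0 𝔫' := by
    rw [mem_pt0]
    have : Lv.ψR'symm σ₀ = Lv.resB σ := Subtype.ext (Lv.ψ.symm_apply_apply _)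
    rw [this]
    exact fun h => hσ ((Lv.resB_mem_pt_iff 𝔫' hq σ).mp h)
  set m : ↥Lv.R' := z * σ₀ with hm
  have hmm : m ∉ Lv.pt0 𝔫' := by
    intro h
    rcases (Lv.pt0_isMaximal 𝔫' hq).isPrime.mem_or_mem h with h | h
    · exact hz h
    · exact hσ₀m h
  have hm0 : (m : E) ≠ 0 := by
    intro h0
    apply hmm
    have : m = 0 := Subtype.ext h0
    rw [this]; exact (Lv.pt0 𝔫').zero_mem
  have hz0 : (z : E) ≠ 0 := by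
    intro h0
    apply hm0
    rw [hm, Subalgebra.coe_mul, h0, zero_mul]
  obtain ⟨μ, hμ⟩ := Lv.resB_surjective (Lv.ψR'symm m)
  obtain ⟨ν, hν⟩ := Lv.resB_surjective m
  have hμ𝔫 : μ ∉ 𝔫' := by
    intro h
    apply hmm
    rw [mem_pt0, ← hμ]
    exact (Lv.resB_mem_pt_iff 𝔫' hq μ).mpr h
  have hμE : Lv.ψ ((Lv.resB μ : ↥Lv.R') : E) = (m : E) := by
    rw [hμ, Lv.coe_ψR'symm, RingEquiv.apply_symm_apply]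
  have hd := t4rl_inv_mem_loc Lv.P' hμ𝔫
  set d : ↥(Lv.P'.loc 𝔫') := ⟨_, hd⟩ with hdd
  have hμ0 : (μ : F') ≠ 0 := by
    intro h0
    apply hμ𝔫
    have : μ = 0 := Subtype.ext h0
    rw [this]; exact 𝔫'.zero_mem
  have hdmul : Lv.P'.locIncl 𝔫' μ * d = 1 := Subtype.ext (mul_inv_cancel₀ hμ0)
  have hred_d : ((Lv.resB μ : ↥Lv.R') : E) * Lv.red 𝔫' hq d = 1 := by
    have := congrArg (Lv.red 𝔫' hq) hdmul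
    rw [map_mul, map_one, Lv.red_locIncl] at this
    exact this
  -- `Φ (red d) = (m ^ q)⁻¹`
  have hΦd : Lv.Φ (Lv.red 𝔫' hq d) * (m : E) ^ Lv.q = 1 := by
    have h3 := congrArg Lv.Φ hred_d
    rw [map_mul, map_one, Lv.Φ_eq ((Lv.resB μ : ↥Lv.R') : E), hμE, mul_comm] at h3
    exact h3
  have hαd1 := Lv.α_loc_mem_Vinf 𝔫' hq d
  have hαd2 := Lv.α_loc_mem_V0 𝔫' hq d
  -- the element `c₂ = β ν ^ (q - 1) * α d`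
  set c₂ : F1 := ((Lv.βB ν : ↥Lv.P1.B) : F1) ^ (Lv.q - 1) * Lv.α (d : F') with hc₂
  have hβ1 : ((Lv.βB ν : ↥Lv.P1.B) : F1) ^ (Lv.q - 1) ∈ Lv.Vinf :=
    Lv.Vinf.pow_mem (Lv.B1_le_Vinf (Lv.βB ν).2) _
  have hβ2 : ((Lv.βB ν : ↥Lv.P1.B) : F1) ^ (Lv.q - 1) ∈ Lv.V0 :=
    Lv.V0.pow_mem (Lv.B1_le_V0 (Lv.βB ν).2) _
  have hc₂1 : c₂ ∈ Lv.Vinf := Lv.Vinf.mul_mem _ _ hβ1 hαd1
  have hc₂2 : c₂ ∈ Lv.V0 := Lv.V0.mul_mem _ _ hβ2 hαd2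
  have hm1 : (c₁ : F1) * c₂ ∈ Lv.Vinf := Lv.Vinf.mul_mem _ _ (Lv.B1_le_Vinf c₁.2) hc₂1
  have hm2 : (c₁ : F1) * c₂ ∈ Lv.V0 := Lv.V0.mul_mem _ _ (Lv.B1_le_V0 c₁.2) hc₂2
  refine ⟨(c₁ : F1) * c₂, ?_, hm1, hm2, ?_, ?_⟩
  · refine IsIntegral.mul (Lv.isIntegral_of_mem_B1 𝔫' c₁.2) (IsIntegral.mul ?_
      (isIntegral_algebraMap (R := ↥(Lv.P'.loc 𝔫')) (x := d)))
    exact IsIntegral.pow (Lv.isIntegral_of_mem_B1 𝔫' (Lv.βB ν).2) _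
  · have h1 : (⟨(c₁ : F1) * c₂, hm1⟩ : ↥Lv.Vinf) =
        ⟨(c₁ : F1), Lv.B1_le_Vinf c₁.2⟩ * ⟨c₂, hc₂1⟩ := Subtype.ext rfl
    rw [h1, map_mul, ← Lv.rinfB_apply, hc₁i, zero_mul]
  · have h1 : (⟨(c₁ : F1) * c₂, hm2⟩ : ↥Lv.V0) =
        ⟨(c₁ : F1), Lv.B1_le_V0 c₁.2⟩ * (⟨((Lv.βB ν : ↥Lv.P1.B) : F1), Lv.B1_le_V0 (Lv.βB ν).2⟩ ^
          (Lv.q - 1) * ⟨Lv.α (d : F'), hαd2⟩) := Subtype.ext rfl
    rw [h1, map_mul, map_mul, map_pow, ← Lv.r0B_apply, ← Lv.r0B_apply, hc₁0, Lv.r0B_βB, hν,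
      Lv.ρ0_α_loc 𝔫' hq d hαd2]
    -- algebra in `E`
    have hq1 : Lv.q - 1 + 1 = Lv.q := Nat.sub_add_cancel Lv.hq.one_lt.le
    have h5 : (m : E) ^ (Lv.q - 1) * Lv.Φ (Lv.red 𝔫' hq d) * (m : E) = 1 := by
      calc (m : E) ^ (Lv.q - 1) * Lv.Φ (Lv.red 𝔫' hq d) * (m : E)
          = Lv.Φ (Lv.red 𝔫' hq d) * ((m : E) ^ (Lv.q - 1 + 1)) := by rw [pow_succ]; ring
        _ = 1 := by rw [hq1, hΦd]
    have h6 : ((z * g₀ : ↥Lv.R') : E) = (m : E) * Lv.ψ (((Lv.resB u : ↥Lv.R') : E) *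
        Lv.red 𝔫' hq a) := by
      rw [Subalgebra.coe_mul, hm, Subalgebra.coe_mul, hg₀, hσ₀]
      show (z : E) * Lv.ψ ((Lv.resB b : ↥Lv.R') : E) = _
      rw [← h2, map_mul]
      ring
    have h7 : ((Lv.sR₀ 𝔫' hq u * y : ↥(Lv.R₀ 𝔫' hq)) : E) =
        Lv.ψ (((Lv.resB u : ↥Lv.R') : E) * Lv.red 𝔫' hq a) := by
      rw [Subalgebra.coe_mul, Lv.coe_sR₀, ← hay, ← map_mul]
    rw [h6, h7]
    calc (m : E) * Lv.ψ (((Lv.resB u : ↥Lv.R') : E) * Lv.red 𝔫' hq a) *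
          ((m : E) ^ (Lv.q - 1) * Lv.Φ (Lv.red 𝔫' hq d))
        = ((m : E) ^ (Lv.q - 1) * Lv.Φ (Lv.red 𝔫' hq d) * (m : E)) *
          Lv.ψ (((Lv.resB u : ↥Lv.R') : E) * Lv.red 𝔫' hq a) := by ring
      _ = Lv.ψ (((Lv.resB u : ↥Lv.R') : E) * Lv.red 𝔫' hq a) := by rw [h5, one_mul]

end T4rLev

end Fermat.Agent.T4
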