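/-
T4-R (helper6): the two-branch datum `T4rTwo` of the level bundle at a closed point `𝔫' ∋ q` of
level `N'` with a local coordinate `u`.
-/
import Fermat.Agent.Lib.T4.Reg.LevNodeLoc

set_option autoImplicit false
set_option linter.unusedSectionVars false
set_option linter.unusedVariables false
set_option linter.style.haveILetI false

namespace Fermat.Agent.T4

namespace T4rLev

variable {L F' F1 E Eh k : Type*} [Field L] [Field F'] [Field F1] [Algebra L F'] [Algebra L F1]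
  [Field E] [Field Eh] [Field k] [Algebra k E] (Lv : T4rLev L F' F1 E Eh k)
  (𝔫' : Ideal ↥Lv.P'.B) [h𝔫 : 𝔫'.IsMaximal] (hq : Lv.qB ∈ 𝔫')
  {u : ↥Lv.P'.B} (hu : Lv.IsCoord 𝔫' u)

attribute [local instance] T4rLev.algA T4rLev.algB

omit h𝔫 in
theorem algebraMap_q : algebraMap ↥(Lv.P'.loc 𝔫') F1 (Lv.q : ↥(Lv.P'.loc 𝔫')) = (Lv.q : F1) :=
  map_natCast _ _

/-- **the two-branch datum at `𝔫'`** -/
noncomputable def two : T4rTwo ↥(Lv.P'.loc 𝔫') F1 E k where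
  q := Lv.q
  hq := Lv.hq.two_le
  q₀ := (Lv.q : ↥(Lv.P'.loc 𝔫'))
  u := Lv.P'.locIncl 𝔫' u
  Vinf := Lv.Vinf
  V0 := Lv.V0
  ρinf := Lv.ρinf
  ρ0 := Lv.ρ0
  ker_inf := fun x hx => by rw [Lv.algebraMap_q]; exact Lv.ker_inf x hx
  ker_0 := fun x hx => by rw [Lv.algebraMap_q]; exact Lv.ker_0 x hx
  unit_inf := Lv.unit_inf
  unit_0 := Lv.unit_0
  mem_inf := Lv.α_loc_mem_Vinf 𝔫' hq
  mem_0 := Lv.α_loc_mem_V0 𝔫' hq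
  q₀_ne := by rw [Lv.algebraMap_q]; exact Lv.q_ne1
  R₁ := Lv.R₁ 𝔫' hq
  R₀ := Lv.R₀ 𝔫' hq
  red := Lv.red 𝔫' hq
  red_mem := Lv.red_mem_R₁ 𝔫' hq
  red_surj := fun x hx => hx
  red_q₀ := Lv.red_q 𝔫' hq
  Φ := Lv.Φ
  ρinf_A := fun a => Lv.ρinf_α_loc 𝔫' hq a _
  ρ0_A := fun a => Lv.ρ0_α_loc 𝔫' hq a _
  const := Lv.exists_red_eq_const 𝔫' hq
  e1 := Lv.e1 𝔫' hq hu
  e0 := Lv.e0 𝔫' hq hu
  h1 := fun x hx => by
    obtain ⟨y, hy⟩ := (Lv.e1_eq_zero_iff 𝔫' hq hu x).mp hx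
    exact ⟨y, by rw [hy]; rfl⟩
  e1_u := Lv.e1_tR₁ 𝔫' hq hu
  s := Lv.sR₀ 𝔫' hq u
  e0_s := Lv.e0_sR₀ 𝔫' hq hu
  h0 := fun x hx => (Lv.e0_eq_zero_iff 𝔫' hq hu x).mp hx
  Φ_mem := fun x hx => Lv.Φ_mem_R₀ 𝔫' hq hx
  ε := 1
  ε' := 1
  Φ_u := Lv.Φ_tR₁ 𝔫' hq u
  ε_mul := one_mul 1
  closed₁ := Lv.closed_R₁ 𝔫' hq
  closed₀ := Lv.closed_R₀ 𝔫' hq
  int := fun c hc o ho1 ho2 h => by
    rw [Lv.algebraMap_q] at h
    exact Lv.int_loc 𝔫' hq c hc o ho1 ho2 h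
  node₁ := Lv.node₁_loc 𝔫' hq hu
  node₀ := Lv.node₀_loc 𝔫' hq hu

end T4rLev

end Fermat.Agent.T4
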