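/-
T4-R (helper6): the local ring `A = B'_𝔫'` of a closed point of level `N'` is a regular local ring
of dimension two: `q` is a prime element, `A ⧸ (q)` is a principal ideal ring, `A` is factorial,
noetherian, integrally closed with fraction field `F'`; `𝔪_A = (q, u)`.
-/
import Fermat.Agent.Lib.T4.Reg.LevTwo
import Fermat.Agent.Lib.T4.Local.Ufd

set_option autoImplicit false
set_option linter.unusedSectionVars false
set_option linter.unusedVariables false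
set_option linter.style.haveILetI false

namespace Fermat.Agent.T4

/-- a noetherian local domain with principal maximal ideal is a principal ideal ring -/
theorem t4rl_pid_of_local {Q : Type*} [CommRing Q] [IsDomain Q] [IsLocalRing Q]
    [IsNoetherianRing Q] (t : Q) (h : ∀ x ∈ IsLocalRing.maximalIdeal Q, ∃ y, x = t * y)
    (ht : t ∈ IsLocalRing.maximalIdeal Q) : IsPrincipalIdealRing Q := by
  have hp : (IsLocalRing.maximalIdeal Q).IsPrincipal := by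
    refine ⟨⟨t, le_antisymm ?_ ?_⟩⟩
    · intro x hx
      obtain ⟨y, rfl⟩ := h x hx
      exact Ideal.mem_span_singleton'.mpr ⟨y, mul_comm _ _⟩
    · rw [Ideal.submodule_span_eq, Ideal.span_le]
      intro x hx
      rw [Set.mem_singleton_iff] at hx
      rw [hx]; exact ht
  exact ((tfae_of_isNoetherianRing_of_isLocalRing_of_isDomain (R := Q)).out 4 0).mp hp

namespace T4rLev

variable {L F' F1 E Eh k : Type*} [Field L] [Field F'] [Field F1] [Algebra L F'] [Algebra L F1]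
  [Field E] [Field Eh] [Field k] [Algebra k E] (Lv : T4rLev L F' F1 E Eh k)
  (𝔫' : Ideal ↥Lv.P'.B) [h𝔫 : 𝔫'.IsMaximal] (hq : Lv.qB ∈ 𝔫')
  {u : ↥Lv.P'.B} (hu : Lv.IsCoord 𝔫' u)

omit h𝔫 in
theorem qA_ne_zero : (Lv.q : ↥(Lv.P'.loc 𝔫')) ≠ 0 := by
  intro h0
  apply Lv.q_ne'
  have := congrArg (fun t : ↥(Lv.P'.loc 𝔫') => (t : F')) h0
  simpa using this

omit h𝔫 in
theorem span_q_eq_ker :
    Ideal.span {(Lv.q : ↥(Lv.P'.loc 𝔫'))} = RingHom.ker (Lv.red 𝔫' hq) := by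
  apply le_antisymm
  · rw [Ideal.span_le]
    intro x hx
    rw [Set.mem_singleton_iff] at hx
    rw [hx, SetLike.mem_coe, RingHom.mem_ker]
    exact Lv.red_q 𝔫' hq
  · intro x hx
    obtain ⟨a', ha'⟩ := Lv.exists_of_red_eq_zero 𝔫' hq x (RingHom.mem_ker.mp hx)
    rw [ha']
    exact Ideal.mul_mem_right _ _ (Ideal.mem_span_singleton_self _)

omit h𝔫 in
include hq in
/-- `q` is a prime element of `A` -/
theorem prime_qA : Prime (Lv.q : ↥(Lv.P'.loc 𝔫')) := by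
  rw [← Ideal.span_singleton_prime (Lv.qA_ne_zero 𝔫'), Lv.span_q_eq_ker 𝔫' hq]
  exact RingHom.ker_isPrime _

include hq in
theorem qA_mem_maximalIdeal :
    letI := Lv.P'.isLocalRing_loc 𝔫'
    (Lv.q : ↥(Lv.P'.loc 𝔫')) ∈ IsLocalRing.maximalIdeal ↥(Lv.P'.loc 𝔫') := by
  letI := Lv.P'.isLocalRing_loc 𝔫'
  rw [Lv.P'.mem_maximalIdeal_loc_iff]
  exact ⟨Lv.qB, 1, hq, (Ideal.ne_top_iff_one 𝔫').mp h𝔫.ne_top, by simp [qB]⟩

include hu in
theorem uA_mem_maximalIdeal :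
    letI := Lv.P'.isLocalRing_loc 𝔫'
    Lv.P'.locIncl 𝔫' u ∈ IsLocalRing.maximalIdeal ↥(Lv.P'.loc 𝔫') := by
  letI := Lv.P'.isLocalRing_loc 𝔫'
  rw [Lv.P'.mem_maximalIdeal_loc_iff]
  exact ⟨u, 1, hu.1, (Ideal.ne_top_iff_one 𝔫').mp h𝔫.ne_top, by simp [T4Pres.coe_locIncl]⟩

include hq hu in
/-- `A ⧸ (q)` is a principal ideal ring -/
theorem pid_quot :
    IsPrincipalIdealRing (↥(Lv.P'.loc 𝔫') ⧸ Ideal.span {(Lv.q : ↥(Lv.P'.loc 𝔫'))}) := by
  letI := Lv.P'.isLocalRing_loc 𝔫'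
  haveI := Lv.noeth'
  haveI := Lv.P'.isNoetherianRing_loc 𝔫'
  have hprime : (Ideal.span {(Lv.q : ↥(Lv.P'.loc 𝔫'))}).IsPrime :=
    (Ideal.span_singleton_prime (Lv.qA_ne_zero 𝔫')).mpr (Lv.prime_qA 𝔫' hq)
  haveI : IsDomain (↥(Lv.P'.loc 𝔫') ⧸ Ideal.span {(Lv.q : ↥(Lv.P'.loc 𝔫'))}) :=
    Ideal.Quotient.isDomain _
  haveI : IsLocalRing (↥(Lv.P'.loc 𝔫') ⧸ Ideal.span {(Lv.q : ↥(Lv.P'.loc 𝔫'))}) :=
    IsLocalRing.of_surjective' (Ideal.Quotient.mk _) Ideal.Quotient.mk_surjective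
  refine t4rl_pid_of_local (Ideal.Quotient.mk _ (Lv.P'.locIncl 𝔫' u)) ?_ ?_
  · intro x hx
    obtain ⟨a, rfl⟩ := Ideal.Quotient.mk_surjective x
    have ha : a ∈ IsLocalRing.maximalIdeal ↥(Lv.P'.loc 𝔫') := by
      by_contra hcon
      have hunit : IsUnit a := by
        rw [← IsLocalRing.notMem_maximalIdeal]; exact hcon
      exact (IsLocalRing.mem_maximalIdeal _).mp hx (hunit.map _)
    obtain ⟨a₁, a₂, h12⟩ := Lv.exists_of_mem_maximalIdeal 𝔫' hu.2.2 a ha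
    refine ⟨Ideal.Quotient.mk _ a₂, ?_⟩
    rw [h12, map_add, map_mul, map_mul]
    have : Ideal.Quotient.mk (Ideal.span {(Lv.q : ↥(Lv.P'.loc 𝔫'))})
        (Lv.q : ↥(Lv.P'.loc 𝔫')) = 0 :=
      Ideal.Quotient.eq_zero_iff_mem.mpr (Ideal.mem_span_singleton_self _)
    rw [this, zero_mul, zero_add]
  · rw [IsLocalRing.mem_maximalIdeal, mem_nonunits_iff]
    intro hunit
    obtain ⟨y, hy⟩ := hunit.exists_right_inv
    obtain ⟨b, rfl⟩ := Ideal.Quotient.mk_surjective y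
    rw [← map_mul, ← map_one (Ideal.Quotient.mk _), Ideal.Quotient.eq,
      Ideal.mem_span_singleton'] at hy
    obtain ⟨c, hc⟩ := hy
    have h1 : (1 : ↥(Lv.P'.loc 𝔫')) = Lv.P'.locIncl 𝔫' u * b - c * (Lv.q : ↥(Lv.P'.loc 𝔫')) := by
      rw [hc]; ring
    have h2 : (1 : ↥(Lv.P'.loc 𝔫')) ∈ IsLocalRing.maximalIdeal ↥(Lv.P'.loc 𝔫') := by
      rw [h1]
      exact Ideal.sub_mem _ (Ideal.mul_mem_right _ _ (Lv.uA_mem_maximalIdeal 𝔫' hu))
        (Ideal.mul_mem_left _ _ (Lv.qA_mem_maximalIdeal 𝔫' hq))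
    exact (Ideal.ne_top_iff_one _).mp (IsLocalRing.maximalIdeal.isMaximal _).ne_top h2

include hq hu in
/-- **`A` is factorial** -/
theorem ufd_A : UniqueFactorizationMonoid ↥(Lv.P'.loc 𝔫') := by
  letI := Lv.P'.isLocalRing_loc 𝔫'
  haveI := Lv.noeth'
  haveI := Lv.P'.isNoetherianRing_loc 𝔫'
  haveI := Lv.pid_quot 𝔫' hq hu
  exact t4l_ufd (Lv.prime_qA 𝔫' hq)

end T4rLev

end Fermat.Agent.T4
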