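/-
T4-R (helper6): two small abstract lemmas.

* `t4r_adjoin_eq_top` — **monogenic Nakayama**: a finite algebra `C` over a local ring `A` which is
  generated by `v` modulo `ϖ C` (`ϖ ∈ 𝔪_A`) is generated by `v`.
* `t4r_div_mem` — **division lemma**: `C ⊆ Ov` subrings of a field with `C ∩ q Ov = q C`; if
  `D δ = q ^ e η` with `D, δ ∈ C`, `η ∈ Cˣ`, then `C ∩ D Ov = D C`.
-/
import Mathlib

set_option autoImplicit false

namespace Fermat.Agent.T4

/-- monogenic Nakayama -/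
theorem t4r_adjoin_eq_top {A C : Type*} [CommRing A] [IsLocalRing A] [CommRing C] [Algebra A C]
    [Module.Finite A C] (ϖ : A) (hϖ : ϖ ∈ IsLocalRing.maximalIdeal A) (v : C)
    (h : ∀ c : C, ∃ p ∈ Algebra.adjoin A {v}, ∃ c' : C, c = p + algebraMap A C ϖ * c') :
    Algebra.adjoin A {v} = ⊤ := by
  set N : Submodule A C := Subalgebra.toSubmodule (Algebra.adjoin A {v}) with hN
  have hfg : (⊤ : Submodule A C).FG := Module.Finite.fg_top
  have hle : (⊤ : Submodule A C) ≤ N ⊔ IsLocalRing.maximalIdeal A • ⊤ := by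
    intro c _
    obtain ⟨p, hp, c', rfl⟩ := h c
    refine Submodule.add_mem _ (Submodule.mem_sup_left hp) (Submodule.mem_sup_right ?_)
    rw [← Algebra.smul_def]
    exact Submodule.smul_mem_smul hϖ Submodule.mem_top
  have h1 : (⊤ : Submodule A C) ≤ N :=
    Submodule.le_of_le_smul_of_le_jacobson_bot hfg (IsLocalRing.maximalIdeal_le_jacobson ⊥) hle
  rw [eq_top_iff]
  intro c _
  exact h1 Submodule.mem_top

section Div

variable {L : Type*} [Field L] (C Ov : Subring L)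

/-- `C ∩ q Ov = q C` implies `C ∩ q ^ e Ov = q ^ e C` -/
theorem t4r_pow_div_mem (q : L) (hq : ∀ b ∈ C, ∀ o ∈ Ov, b = q * o → o ∈ C)
    (hqOv : q ∈ Ov) (e : ℕ) : ∀ b ∈ C, ∀ o ∈ Ov, b = q ^ e * o → o ∈ C := by
  induction e with
  | zero =>
    intro b hb o _ h
    rw [pow_zero, one_mul] at h
    exact h ▸ hb
  | succ e ih =>
    intro b hb o ho h
    have h1 : q ^ e * o ∈ C := by
      refine hq b hb (q ^ e * o) (Ov.mul_mem (Ov.pow_mem hqOv e) ho) ?_
      rw [h, pow_succ]; ring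
    exact ih _ h1 o ho rfl

/-- **division lemma** -/
theorem t4r_div_mem (hCO : C ≤ Ov) (q : L) (hqC : q ∈ C)
    (hq : ∀ b ∈ C, ∀ o ∈ Ov, b = q * o → o ∈ C)
    (D δ η η' : L) (hδ : δ ∈ C) (hη : η ∈ C) (hη' : η' ∈ C) (hηη' : η * η' = 1)
    (e : ℕ) (hD : D * δ = q ^ e * η) :
    ∀ b ∈ C, ∀ o ∈ Ov, b = D * o → o ∈ C := by
  intro b hb o ho h
  have h1 : b * δ = q ^ e * (η * o) := by
    rw [h]; calc D * o * δ = (D * δ) * o := by ring
      _ = q ^ e * η * o := by rw [hD]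
      _ = _ := by ring
  have h2 : η * o ∈ C :=
    t4r_pow_div_mem C Ov q hq (hCO hqC) e (b * δ) (C.mul_mem hb hδ) (η * o)
      (Ov.mul_mem (hCO hη) ho) h1
  have h3 : o = η' * (η * o) := by
    rw [← mul_assoc, mul_comm η' η, hηη', one_mul]
  rw [h3]
  exact C.mul_mem hη' h2

end Div

end Fermat.Agent.T4
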