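/-
T4-R (helper6): derivations and polynomial evaluation.

* `t4rDsum δ s p = Σ δ(coeff p i) s^i` for an additive map `δ`;
* `t4r_deriv_eval₂`: `d(G(v)) = G^d(v) + G'(v) d v` for a derivation `d` of `F` which preserves
  the coefficient ring `A` (`d ∘ ι = ι ∘ dA`);
* `t4r_deriv_adjoin_mem`: if `c • d` maps `ι(A)` and `v` into a subring `C ∋ v`, `C ⊇ ι(A)`, then
  it maps `A[v]` into `C`.
-/
import Mathlib

set_option autoImplicit false
set_option linter.unusedSectionVars false

namespace Fermat.Agent.T4

open Polynomial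

section Dsum

variable {R S T : Type*} [Semiring R] [Semiring S] [Semiring T]

/-- `Σ δ(coeff p i) s^i` -/
def t4rDsum (δ : R →+ S) (s : S) (p : R[X]) : S := p.sum fun i c => δ c * s ^ i

theorem t4rDsum_add (δ : R →+ S) (s : S) (p p' : R[X]) :
    t4rDsum δ s (p + p') = t4rDsum δ s p + t4rDsum δ s p' := by
  unfold t4rDsum
  exact Polynomial.sum_add_index p p' _ (fun i => by simp) (fun i a b => by simp [add_mul])

theorem t4rDsum_zero (δ : R →+ S) (s : S) : t4rDsum δ s 0 = 0 := by
  unfold t4rDsum
  exact Polynomial.sum_zero_index _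

theorem t4rDsum_monomial (δ : R →+ S) (s : S) (n : ℕ) (c : R) :
    t4rDsum δ s (monomial n c) = δ c * s ^ n := by
  unfold t4rDsum
  exact Polynomial.sum_monomial_index c _ (by simp)

/-- `t4rDsum` as an additive map -/
def t4rDsumHom (δ : R →+ S) (s : S) : R[X] →+ S where
  toFun := t4rDsum δ s
  map_zero' := t4rDsum_zero δ s
  map_add' := t4rDsum_add δ s

@[simp] theorem t4rDsumHom_apply (δ : R →+ S) (s : S) (p : R[X]) :
    t4rDsumHom δ s p = t4rDsum δ s p := rfl

/-- a ring homomorphism can be moved inside -/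
theorem t4rDsum_ringHom (δ : R →+ S) (s : S) (ρ : S →+* T) (p : R[X]) :
    ρ (t4rDsum δ s p) = t4rDsum (ρ.toAddMonoidHom.comp δ) (ρ s) p := by
  induction p using Polynomial.induction_on' with
  | add p p' hp hp' => rw [t4rDsum_add, t4rDsum_add, map_add, hp, hp']
  | monomial n c =>
    rw [t4rDsum_monomial, t4rDsum_monomial, map_mul, map_pow]
    rfl

/-- the coefficients can be mapped first -/
theorem t4rDsum_map {R' : Type*} [Semiring R'] (f : R →+* R') (δ : R' →+ S) (s : S) (p : R[X]) :
    t4rDsum δ s (p.map f) = t4rDsum (δ.comp f.toAddMonoidHom) s p := by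
  induction p using Polynomial.induction_on' with
  | add p p' hp hp' => rw [Polynomial.map_add, t4rDsum_add, t4rDsum_add, hp, hp']
  | monomial n c =>
    rw [Polynomial.map_monomial, t4rDsum_monomial, t4rDsum_monomial]
    rfl

/-- congruence in the additive map, on the coefficients of `p` -/
theorem t4rDsum_congr (δ δ' : R →+ S) (s : S) (p : R[X]) (h : ∀ i, δ (p.coeff i) = δ' (p.coeff i)) :
    t4rDsum δ s p = t4rDsum δ' s p := by
  unfold t4rDsum Polynomial.sum
  exact Finset.sum_congr rfl fun i _ => by show δ (p.coeff i) * s ^ i = δ' (p.coeff i) * s ^ i; rw [h i]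

end Dsum

section DsumRing

variable {R S : Type*} [Ring R] [Ring S]

theorem t4rDsum_sub (δ : R →+ S) (s : S) (p p' : R[X]) :
    t4rDsum δ s (p - p') = t4rDsum δ s p - t4rDsum δ s p' :=
  map_sub (t4rDsumHom δ s) p p'

theorem t4rDsum_neg (δ : R →+ S) (s : S) (p : R[X]) :
    t4rDsum δ s (-p) = -t4rDsum δ s p :=
  map_neg (t4rDsumHom δ s) p

end DsumRing

section Deriv

variable {R₀ A F : Type*} [CommRing R₀] [CommRing A] [CommRing F] [Algebra R₀ F]
  (d : Derivation R₀ F F) (ι : A →+* F) (dA : A →+ A)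

/-- **chain rule**: `d(G(v)) = G^d(v) + G'(v) d v` -/
theorem t4r_deriv_eval₂ (hd : ∀ a, d (ι a) = ι (dA a)) (v : F) (G : A[X]) :
    d (G.eval₂ ι v) =
      t4rDsum (ι.toAddMonoidHom.comp dA) v G + (derivative G).eval₂ ι v * d v := by
  induction G using Polynomial.induction_on' with
  | add p p' hp hp' =>
    rw [eval₂_add, map_add, hp, hp', t4rDsum_add, derivative_add, eval₂_add]
    ring
  | monomial n a =>
    rw [eval₂_monomial, Derivation.leibniz, Derivation.leibniz_pow, hd, t4rDsum_monomial,
      derivative_monomial, eval₂_monomial]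
    simp only [smul_eq_mul, nsmul_eq_mul, AddMonoidHom.coe_comp, RingHom.toAddMonoidHom_eq_coe,
      AddMonoidHom.coe_coe, Function.comp_apply, map_mul, map_natCast]
    ring

end Deriv

section Adjoin

variable {A F : Type*} [CommRing A] [CommRing F] [Algebra A F]

/-- if an additive Leibniz-type map `e` (`e (x y) = x e y + y e x`, e.g. `c • d`) maps `A` and `v`
into a subalgebra `C ∋ v`, then it maps `A[v]` into `C` -/
theorem t4r_deriv_adjoin_mem (e : F →+ F) (he : ∀ x y, e (x * y) = x * e y + y * e x)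
    (C : Subalgebra A F) (v : F) (hv : v ∈ C) (heA : ∀ a : A, e (algebraMap A F a) ∈ C)
    (hev : e v ∈ C) : ∀ y ∈ Algebra.adjoin A {v}, e y ∈ C := by
  have hle : Algebra.adjoin A {v} ≤ C := Algebra.adjoin_le (by simpa using hv)
  intro y hy
  induction hy using Algebra.adjoin_induction with
  | mem x hx =>
    rw [Set.mem_singleton_iff] at hx
    rw [hx]; exact hev
  | algebraMap a => exact heA a
  | add x y hx hy hx' hy' =>
    rw [map_add]; exact C.add_mem hx' hy'
  | mul x y hx hy hx' hy' =>
    rw [he]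
    exact C.add_mem (C.mul_mem (hle hx) hy') (C.mul_mem (hle hy) hx')

end Adjoin

end Fermat.Agent.T4
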