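/-
T4-R (helper6): the reduction of the minimal polynomial of a generator at a two-branch point.

`E` a field of characteristic `q`, `Φ : E →+* E` a "Frobenius-type" endomorphism.  Let `G ∈ E[X]` be
monic of degree `q + 1` with a root `a`, such that `Φ(G)` has a root `s ∉ Φ(E)` with `s ^ q = Φ g`.
Then `G = (X - a)(X^q - g)` (`t4r_frob_factor`), hence
* `G'(a) = a^q - g ≠ 0` (`t4r_frob_deriv_fst`),
* `Φ(G)'(s) = 0` (`t4r_frob_deriv_snd`),
* for a derivation `D` of `E`:  `Σ Φ(D(coeff G i)) s^i = Φ(D g) (Φ a - s)` (`t4r_frob_dcoeff`).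
-/
import Mathlib

set_option autoImplicit false
set_option linter.unusedSectionVars false

namespace Fermat.Agent.T4

open Polynomial

section FrobPoly

variable {E : Type*} [Field E] (q : ℕ) [hq : Fact q.Prime] [CharP E q] (Φ : E →+* E)

/-- if `Φ g = s ^ q` and `s ∉ Φ(E)` then `g` is not a `q`-th power -/
theorem t4r_frob_not_pow {s g : E} (hg : Φ g = s ^ q) (hns : ∀ y, Φ y ≠ s) (b : E) :
    b ^ q ≠ g := by
  intro hb
  apply hns b
  have h1 : (Φ b) ^ q = s ^ q := by rw [← map_pow, hb, hg]
  exact frobenius_inj E q h1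

/-- the factorisation of the reduced minimal polynomial -/
theorem t4r_frob_factor (G : E[X]) (hG : G.Monic) (hdeg : G.natDegree ≤ q + 1) (a s g : E)
    (ha : G.eval a = 0) (hs : (G.map Φ).eval s = 0) (hg : Φ g = s ^ q) (hns : ∀ y, Φ y ≠ s) :
    G = (X - C a) * (X ^ q - C g) := by
  have hq0 : 0 < q := hq.out.pos
  have hirr : Irreducible (X ^ q - C g : E[X]) :=
    X_pow_sub_C_irreducible_of_prime hq.out (t4r_frob_not_pow q Φ hg hns)
  have hmon : (X ^ q - C g : E[X]).Monic := monic_X_pow_sub_C g hq0.ne'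
  -- `X^q - g` divides `G`
  have hdvd : (X ^ q - C g : E[X]) ∣ G := by
    by_contra hnd
    have hcop : IsCoprime (X ^ q - C g : E[X]) G := (hirr.coprime_iff_not_dvd).mpr hnd
    obtain ⟨u, v, huv⟩ := hcop
    have h1 := congrArg (fun p : E[X] => (p.map Φ).eval s) huv
    simp only [Polynomial.map_add, Polynomial.map_mul, Polynomial.map_sub, Polynomial.map_pow,
      Polynomial.map_X, Polynomial.map_C, Polynomial.map_one, eval_add, eval_mul, eval_sub,
      eval_pow, eval_X, eval_C, eval_one, hs, hg, sub_self, mul_zero, add_zero] at h1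
    exact zero_ne_one h1
  obtain ⟨M, hM⟩ := hdvd
  have hM0 : M ≠ 0 := by
    rintro rfl
    rw [mul_zero] at hM
    rw [hM] at hG
    exact (Polynomial.not_monic_zero) hG
  have hMmon : M.Monic := by
    have := hG
    rw [hM] at this
    exact hmon.of_mul_monic_left this
  have hne : a ^ q - g ≠ 0 := sub_ne_zero.mpr (t4r_frob_not_pow q Φ hg hns a)
  have hMa : M.eval a = 0 := by
    have h1 := ha
    rw [hM, eval_mul] at h1
    have h2 : (X ^ q - C g : E[X]).eval a = a ^ q - g := by simp
    rw [h2] at h1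
    exact (mul_eq_zero.mp h1).resolve_left hne
  have hMdeg : M.natDegree = 1 := by
    have h1 := congrArg natDegree hM
    rw [hmon.natDegree_mul hMmon, natDegree_X_pow_sub_C] at h1
    have h2 : M.natDegree ≠ 0 := by
      intro h0
      have h3 : M = 1 := by
        rw [Polynomial.eq_C_of_natDegree_eq_zero h0] at hMmon ⊢
        have h4 : M.coeff 0 = 1 := by
          have := hMmon.leadingCoeff
          rwa [leadingCoeff_C] at this
        rw [h4, C_1]
      rw [h3, eval_one] at hMa
      exact one_ne_zero hMa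
    omega
  -- `M = X - m`
  have hMX : M = X + C (M.coeff 0) := by
    have := hMmon.eq_X_add_C hMdeg
    exact this
  -- the root `a`
  have hroot : (a ^ q - g) * (a + M.coeff 0) = 0 := by
    have h1 := ha
    rw [hM, eval_mul, hMX] at h1
    simpa using h1
  have hm : M.coeff 0 = -a := by
    have := (mul_eq_zero.mp hroot).resolve_left hne
    linear_combination this
  rw [hM, hMX, hm, C_neg]
  ring

/-- `G'(a) = a^q - g` -/
theorem t4r_frob_deriv_fst (a g : E) :
    (derivative ((X - C a) * (X ^ q - C g) : E[X])).eval a = a ^ q - g := by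
  simp [derivative_mul]

/-- `Φ(G)'(s) = 0` -/
theorem t4r_frob_deriv_snd (a s g : E) (hg : Φ g = s ^ q) :
    (derivative (((X - C a) * (X ^ q - C g) : E[X]).map Φ)).eval s = 0 := by
  have hq' : ((q : ℕ) : E) = 0 := CharP.cast_eq_zero E q
  simp only [Polynomial.map_mul, Polynomial.map_sub, Polynomial.map_pow, Polynomial.map_X,
    Polynomial.map_C, derivative_mul, derivative_sub, derivative_X, derivative_C, sub_zero,
    one_mul, derivative_X_pow, eval_add, eval_mul, eval_sub, eval_pow, eval_X, eval_C,
    hg, sub_self, zero_add]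
  rw [hq', zero_mul, mul_zero]

/-- the expanded form -/
theorem t4r_frob_expand (a g : E) :
    ((X - C a) * (X ^ q - C g) : E[X]) =
      monomial (q + 1) 1 - monomial q a - monomial 1 g + monomial 0 (a * g) := by
  rw [← C_mul_X_pow_eq_monomial, ← C_mul_X_pow_eq_monomial, ← C_mul_X_pow_eq_monomial,
    ← C_mul_X_pow_eq_monomial, C_mul, C_1]
  ring

end FrobPoly

end Fermat.Agent.T4
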