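/-
T4-R (helper6): the local algebra of a two-branch point of the special fibre.

`R₁, R₀` two "discrete valuation `k`-algebras with residue field `k`" (only used through the
residue maps `e1, e0` and the generators `t, s` of their kernels), `τ = s^q · unit`, and
`S ⊆ R₁ × R₀` a `k`-subalgebra containing `ū = (t, τ)`, `t R₁ × 0` and `0 × s R₀` (the reduction of
the semilocal ring of the curve at the points over a point of the lower level).  If `w ∈ S` has second
component `b + s · unit` and either `S` is "glued" (`e1 x.1 = e0 x.2` on `S`) or `e1 w.1 ≠ b` and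
`(1, 0) ∈ S`, then `S = k[w] + ū S` (`t4r_node_local`): `S / ū S` is generated by `w`.
-/
import Mathlib

set_option autoImplicit false
set_option linter.unusedSectionVars false
set_option linter.unusedVariables false

namespace Fermat.Agent.T4

section NodeLocal

variable {k R₁ R₀ : Type*} [Field k] [CommRing R₁] [CommRing R₀] [Algebra k R₁] [Algebra k R₀]
  (e1 : R₁ →ₐ[k] k) (e0 : R₀ →ₐ[k] k) (t : R₁) (s : R₀)
  (h1 : ∀ x, e1 x = 0 → t ∣ x) (h0 : ∀ x, e0 x = 0 → s ∣ x) (ht : e1 t = 0) (hs : e0 s = 0)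
  (q : ℕ) (τ ε ε' : R₀) (hτ : τ = s ^ q * ε) (hε : ε * ε' = 1)
  (S : Subalgebra k (R₁ × R₀))
  (hS1 : ∀ x : R₁, (t * x, (0 : R₀)) ∈ S) (hS0 : ∀ y : R₀, ((0 : R₁), s * y) ∈ S)
  (w : R₁ × R₀) (b : k) (β : R₀) (hβ : e0 β ≠ 0) (hw0 : w.2 = algebraMap k R₀ b + s * β)

include h0 hs hβ hw0 in
/-- Step 1: the second component can be matched modulo `s^(n+1)` by a polynomial in `w - b`
without constant term -/
theorem t4r_node_step (n : ℕ) (h' : R₀) (hh' : e0 h' = 0) :
    ∃ p' ∈ Algebra.adjoin k {w}, ∃ r : R₀,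
      h' = ((w - algebraMap k (R₁ × R₀) b) * p').2 + s ^ (n + 1) * r := by
  have hw'2 : (w - algebraMap k (R₁ × R₀) b).2 = s * β := by
    rw [Prod.snd_sub, hw0, Prod.algebraMap_apply]
    ring
  induction n with
  | zero =>
    obtain ⟨r, hr⟩ := h0 h' hh'
    exact ⟨0, Subalgebra.zero_mem _, r, by rw [mul_zero, Prod.snd_zero, zero_add, zero_add, pow_one, hr]⟩
  | succ n ih =>
    obtain ⟨p', hp', r, hr⟩ := ih
    set c : k := e0 r / e0 β ^ (n + 1) with hc
    have h2 : e0 (r - algebraMap k R₀ c * β ^ (n + 1)) = 0 := by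
      rw [map_sub, map_mul, map_pow, AlgHom.commutes, hc]
      simp only [Algebra.algebraMap_self, RingHom.id_apply]
      rw [div_mul_cancel₀ _ (pow_ne_zero _ hβ), sub_self]
    obtain ⟨r', hr'⟩ := h0 _ h2
    have hwmem : w - algebraMap k (R₁ × R₀) b ∈ Algebra.adjoin k {w} :=
      Subalgebra.sub_mem _ (Algebra.self_mem_adjoin_singleton k w) (Subalgebra.algebraMap_mem _ b)
    refine ⟨p' + algebraMap k (R₁ × R₀) c * (w - algebraMap k (R₁ × R₀) b) ^ n,
      Subalgebra.add_mem _ hp' (Subalgebra.mul_mem _ (Subalgebra.algebraMap_mem _ c)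
        (Subalgebra.pow_mem _ hwmem n)), r', ?_⟩
    have h3 : r = algebraMap k R₀ c * β ^ (n + 1) + s * r' := by rw [← hr']; ring
    rw [hr, mul_add, Prod.snd_add]
    have h4 : ((w - algebraMap k (R₁ × R₀) b) *
        (algebraMap k (R₁ × R₀) c * (w - algebraMap k (R₁ × R₀) b) ^ n)).2 =
        algebraMap k R₀ c * (s * β) ^ (n + 1) := by
      rw [Prod.snd_mul, Prod.snd_mul, Prod.pow_snd, hw'2, Prod.algebraMap_apply]
      ring
    rw [h4]
    conv_lhs => rw [h3]
    ring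

include h1 h0 ht hs hτ hε hS1 hS0 hβ hw0 in
/-- **the reduction of a two-branch semilocal ring is generated by `w` modulo `ū`** -/
theorem t4r_node_local (hq : 2 ≤ q) (hu : (t, τ) ∈ S) (hw : w ∈ S)
    (hcase : (∀ x ∈ S, e1 x.1 = e0 x.2) ∨ (e1 w.1 ≠ b ∧ ((1 : R₁), (0 : R₀)) ∈ S)) :
    ∀ x ∈ S, ∃ p ∈ Algebra.adjoin k {w}, ∃ y ∈ S, x = p + (t, τ) * y := by
  intro x hx
  have hadj : Algebra.adjoin k {w} ≤ S := Algebra.adjoin_le (by simpa using hw)
  set w' : R₁ × R₀ := w - algebraMap k (R₁ × R₀) b with hw'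
  have hw'mem : w' ∈ Algebra.adjoin k {w} :=
    Subalgebra.sub_mem _ (Algebra.self_mem_adjoin_singleton k w) (Subalgebra.algebraMap_mem _ b)
  have hw'2 : w'.2 = s * β := by
    rw [hw', Prod.snd_sub, hw0, Prod.algebraMap_apply]
    ring
  have hw'1 : w'.1 = w.1 - algebraMap k R₁ b := by
    rw [hw', Prod.fst_sub, Prod.algebraMap_apply]
  -- Step 0 and Step 1
  set γ : k := e0 x.2 with hγ
  have hx0 : e0 (x.2 - algebraMap k R₀ γ) = 0 := by
    rw [map_sub, AlgHom.commutes, hγ]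
    simp
  obtain ⟨p', hp', r, hr⟩ := t4r_node_step e0 s h0 hs w b β hβ hw0 q _ hx0
  set x₁ : R₁ × R₀ := x - algebraMap k (R₁ × R₀) γ - w' * p' with hx₁
  have hx₁S : x₁ ∈ S :=
    S.sub_mem (S.sub_mem hx (S.algebraMap_mem γ)) (S.mul_mem (hadj hw'mem) (hadj hp'))
  have hx₁2 : x₁.2 = s ^ (q + 1) * r := by
    rw [hx₁, Prod.snd_sub, Prod.snd_sub, Prod.algebraMap_apply, hr]
    simp only [Prod.snd_mul, Prod.snd_sub, Prod.algebraMap_apply]
    rw [hw'2, hw0]
    ring
  have hεunit : ∀ z : R₀, s ^ (q + 1) * z = τ * (s * (ε' * z)) := by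
    intro z
    rw [hτ]
    calc s ^ (q + 1) * z = s ^ (q + 1) * ((ε * ε') * z) := by rw [hε, one_mul]
      _ = _ := by ring
  rcases hcase with hG | ⟨hNG, hidem⟩
  · -- the glued case
    have he1x₁ : e1 x₁.1 = 0 := by
      rw [hG x₁ hx₁S, hx₁2, map_mul, map_pow, hs, zero_pow (by omega), zero_mul]
    obtain ⟨g₁, hg₁⟩ := h1 _ he1x₁
    have he1w : e1 w'.1 = 0 := by
      rw [hw'1, map_sub, AlgHom.commutes, hG w hw, hw0, map_add, AlgHom.commutes, map_mul, hs,
        zero_mul, add_zero, sub_self]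
    obtain ⟨a', ha'⟩ := h1 _ he1w
    set lam : k := e1 g₁ with hlam
    set ν : k := lam * e0 ε / e0 β ^ q with hν
    -- the corrected element
    set g₃ : R₁ := g₁ - algebraMap k R₁ lam + algebraMap k R₁ ν * (t ^ (q - 1) * a' ^ q) with hg₃
    have he1g₃ : e1 g₃ = 0 := by
      rw [hg₃, map_add, map_sub, AlgHom.commutes, map_mul, map_mul, map_pow, ht,
        zero_pow (by omega), zero_mul, mul_zero, add_zero, hlam]
      simp
    obtain ⟨g₃', hg₃'⟩ := h1 _ he1g₃
    set r₃ : R₀ := s * r - algebraMap k R₀ lam * ε + algebraMap k R₀ ν * β ^ q with hr₃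
    have he0r₃ : e0 r₃ = 0 := by
      rw [hr₃, map_add, map_sub, map_mul, hs, zero_mul, map_mul, AlgHom.commutes, map_mul,
        AlgHom.commutes, map_pow, hν]
      simp only [Algebra.algebraMap_self, RingHom.id_apply]
      rw [div_mul_cancel₀ _ (pow_ne_zero _ hβ)]
      ring
    obtain ⟨r₃', hr₃'⟩ := h0 _ he0r₃
    set y : R₁ × R₀ := (t * g₃', s * (ε' * r₃')) + algebraMap k (R₁ × R₀) lam with hy
    have hyS : y ∈ S := by
      refine S.add_mem ?_ (S.algebraMap_mem lam)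
      have : ((t * g₃', s * (ε' * r₃')) : R₁ × R₀) = (t * g₃', 0) + (0, s * (ε' * r₃')) := by
        simp
      rw [this]
      exact S.add_mem (hS1 _) (hS0 _)
    refine ⟨algebraMap k (R₁ × R₀) γ + w' * p' - algebraMap k (R₁ × R₀) ν * w' ^ q, ?_, y, hyS, ?_⟩
    · exact Subalgebra.sub_mem _ (Subalgebra.add_mem _ (Subalgebra.algebraMap_mem _ γ)
        (Subalgebra.mul_mem _ hw'mem hp'))
        (Subalgebra.mul_mem _ (Subalgebra.algebraMap_mem _ ν) (Subalgebra.pow_mem _ hw'mem q))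
    · -- the identity, componentwise
      have hxx : x = x₁ + algebraMap k (R₁ × R₀) γ + w' * p' := by rw [hx₁]; ring
      rw [hxx]
      apply Prod.ext
      · simp only [Prod.fst_add, Prod.fst_sub, Prod.fst_mul, Prod.pow_fst, Prod.algebraMap_apply,
          hy]
        have hq1 : t ^ q = t * t ^ (q - 1) := by
          rw [← pow_succ']; congr 1; omega
        rw [hg₁, ha', mul_pow, hq1]
        have : g₁ = g₃ + algebraMap k R₁ lam - algebraMap k R₁ ν * (t ^ (q - 1) * a' ^ q) := by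
          rw [hg₃]; ring
        rw [this, hg₃']
        ring
      · simp only [Prod.snd_add, Prod.snd_sub, Prod.snd_mul, Prod.pow_snd, Prod.algebraMap_apply,
          hy]
        rw [hx₁2, hw'2]
        have hq1 : s ^ (q + 1) = s ^ q * s := pow_succ s q
        have h5 : s ^ q * r₃ = τ * (s * (ε' * r₃')) := by
          rw [hr₃', ← hεunit]; ring
        have h6 : s ^ (q + 1) * r = s ^ q * r₃ + algebraMap k R₀ lam * τ -
            algebraMap k R₀ ν * (s * β) ^ q := by
          rw [hr₃, hτ, hq1]; ring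
        rw [h6, h5]
        ring
  · -- the non-glued case
    have hne : e1 w'.1 ≠ 0 := by
      rw [hw'1, map_sub, AlgHom.commutes]
      simpa [sub_eq_zero] using hNG
    set μ : k := e1 x₁.1 / e1 w'.1 ^ (q + 1) with hμ
    set x₂ : R₁ × R₀ := x₁ - algebraMap k (R₁ × R₀) μ * w' ^ (q + 1) with hx₂
    have hx₂S : x₂ ∈ S :=
      S.sub_mem hx₁S (S.mul_mem (S.algebraMap_mem μ) (S.pow_mem (hadj hw'mem) _))
    have he1x₂ : e1 x₂.1 = 0 := by
      rw [hx₂, Prod.fst_sub, Prod.fst_mul, Prod.pow_fst, Prod.algebraMap_apply, map_sub, map_mul,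
        AlgHom.commutes, map_pow, hμ]
      simp only [Algebra.algebraMap_self, RingHom.id_apply]
      rw [div_mul_cancel₀ _ (pow_ne_zero _ hne), sub_self]
    obtain ⟨g₂, hg₂⟩ := h1 _ he1x₂
    set r₂ : R₀ := r - algebraMap k R₀ μ * β ^ (q + 1) with hr₂
    have hx₂2 : x₂.2 = s ^ (q + 1) * r₂ := by
      rw [hx₂, Prod.snd_sub, Prod.snd_mul, Prod.pow_snd, Prod.algebraMap_apply, hx₁2, hw'2, hr₂]
      ring
    -- `(g₂, 0) ∈ S`
    have hg₂S : ((g₂, 0) : R₁ × R₀) ∈ S := by
      have h7 : e1 (g₂ - algebraMap k R₁ (e1 g₂)) = 0 := by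
        rw [map_sub, AlgHom.commutes]; simp
      obtain ⟨g₂', hg₂'⟩ := h1 _ h7
      have : ((g₂, 0) : R₁ × R₀) = algebraMap k (R₁ × R₀) (e1 g₂) * (1, 0) + (t * g₂', 0) := by
        apply Prod.ext
        · simp only [Prod.fst_add, Prod.fst_mul, Prod.algebraMap_apply, mul_one]
          rw [← hg₂']; ring
        · simp
      rw [this]
      exact S.add_mem (S.mul_mem (S.algebraMap_mem _) hidem) (hS1 _)
    set y : R₁ × R₀ := (g₂, s * (ε' * r₂)) with hy
    have hyS : y ∈ S := by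
      have : y = (g₂, 0) + (0, s * (ε' * r₂)) := by rw [hy]; simp
      rw [this]
      exact S.add_mem hg₂S (hS0 _)
    refine ⟨algebraMap k (R₁ × R₀) γ + w' * p' + algebraMap k (R₁ × R₀) μ * w' ^ (q + 1), ?_,
      y, hyS, ?_⟩
    · exact Subalgebra.add_mem _ (Subalgebra.add_mem _ (Subalgebra.algebraMap_mem _ γ)
        (Subalgebra.mul_mem _ hw'mem hp'))
        (Subalgebra.mul_mem _ (Subalgebra.algebraMap_mem _ μ) (Subalgebra.pow_mem _ hw'mem _))
    · have hxx : x = x₂ + algebraMap k (R₁ × R₀) μ * w' ^ (q + 1) +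
          algebraMap k (R₁ × R₀) γ + w' * p' := by rw [hx₂, hx₁]; ring
      have hx₂y : x₂ = (t, τ) * y := by
        apply Prod.ext
        · rw [Prod.fst_mul, hy, hg₂]
        · rw [Prod.snd_mul, hy, hx₂2, hεunit]
      rw [hxx, hx₂y]
      ring

end NodeLocal

end Fermat.Agent.T4
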