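/-
T4-R (helper6): the semilocal ring `C` over a point of the lower level is monogenic.

`T : T4rTwo A F E k`, `A` local with `q₀, u ∈ 𝔪_A`, `C = integralClosure A F` finite over `A`.  For
`v ∈ C` whose reduction at `0` is `b + s · unit`, there is `v⁺ ∈ C` with the same reduction at `0`
and `A[v⁺] = C` (`T4rTwo.exists_mono`).
-/
import Fermat.Agent.Lib.T4.Reg.TwoDefs
import Fermat.Agent.Lib.T4.Reg.NodeLocal

set_option autoImplicit false
set_option linter.unusedSectionVars false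
set_option linter.unusedVariables false

namespace Fermat.Agent.T4

/-- monogenic Nakayama, two generators of the maximal ideal -/
theorem t4r_adjoin_eq_top₂ {A C : Type*} [CommRing A] [IsLocalRing A] [CommRing C] [Algebra A C]
    [Module.Finite A C] (ϖ₁ ϖ₂ : A) (h₁ : ϖ₁ ∈ IsLocalRing.maximalIdeal A)
    (h₂ : ϖ₂ ∈ IsLocalRing.maximalIdeal A) (v : C)
    (h : ∀ c : C, ∃ p ∈ Algebra.adjoin A {v}, ∃ c₁ c₂ : C,
      c = p + algebraMap A C ϖ₁ * c₁ + algebraMap A C ϖ₂ * c₂) :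
    Algebra.adjoin A {v} = ⊤ := by
  set N : Submodule A C := Subalgebra.toSubmodule (Algebra.adjoin A {v}) with hN
  have hfg : (⊤ : Submodule A C).FG := Module.Finite.fg_top
  have hle : (⊤ : Submodule A C) ≤ N ⊔ IsLocalRing.maximalIdeal A • ⊤ := by
    intro c _
    obtain ⟨p, hp, c₁, c₂, rfl⟩ := h c
    rw [add_assoc]
    refine Submodule.add_mem _ (Submodule.mem_sup_left hp) (Submodule.mem_sup_right ?_)
    refine Submodule.add_mem _ ?_ ?_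
    · rw [← Algebra.smul_def]
      exact Submodule.smul_mem_smul h₁ Submodule.mem_top
    · rw [← Algebra.smul_def]
      exact Submodule.smul_mem_smul h₂ Submodule.mem_top
  have h1 : (⊤ : Submodule A C) ≤ N :=
    Submodule.le_of_le_smul_of_le_jacobson_bot hfg (IsLocalRing.maximalIdeal_le_jacobson ⊥) hle
  rw [eq_top_iff]
  intro c _
  exact h1 Submodule.mem_top

namespace T4rTwo

variable {A F E k : Type*} [CommRing A] [IsDomain A] [Field F] [Algebra A F] [Field E] [Field k]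
  [Algebra k E] (T : T4rTwo A F E k)

/-- `t = red u` as an element of `R₁` -/
def tR : ↥T.R₁ := T.redR T.u

theorem coe_tR : ((T.tR : ↥T.R₁) : E) = T.red T.u := rfl

theorem dvd_of_e1 (x : ↥T.R₁) (h : T.e1 x = 0) : T.tR ∣ x := by
  obtain ⟨y, hy⟩ := T.h1 x h
  exact ⟨y, Subtype.ext hy⟩

theorem dvd_of_e0 (x : ↥T.R₀) (h : T.e0 x = 0) : T.s ∣ x := by
  obtain ⟨y, hy⟩ := T.h0 x h
  exact ⟨y, hy⟩

theorem e1_tR : T.e1 T.tR = 0 := T.e1_u

theorem redR0_u : T.redR0 T.u = T.s ^ T.q * T.ε := Subtype.ext T.Φ_u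

theorem u_mem_S : (T.tR, T.redR0 T.u) ∈ T.S := by
  refine ⟨algebraMap A ↥(integralClosure A F) T.u, ?_⟩
  apply Prod.ext
  · apply Subtype.ext
    rw [rr_fst, rinf_algebraMap]; rfl
  · apply Subtype.ext
    rw [rr_snd, r0_algebraMap]; rfl

theorem rr_u : T.rr (algebraMap A ↥(integralClosure A F) T.u) = (T.tR, T.redR0 T.u) := by
  apply Prod.ext
  · apply Subtype.ext
    rw [rr_fst, rinf_algebraMap]; rfl
  · apply Subtype.ext
    rw [rr_snd, r0_algebraMap]; rfl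

theorem node₁_mem_S (x : ↥T.R₁) : (T.tR * x, (0 : ↥T.R₀)) ∈ T.S := by
  obtain ⟨c, hc, h₁, h₂, hinf, h0⟩ := T.node₁ x
  refine ⟨⟨c, hc⟩, ?_⟩
  apply Prod.ext
  · apply Subtype.ext
    rw [rr_fst]
    exact hinf
  · apply Subtype.ext
    rw [rr_snd]
    exact h0

theorem node₀_mem_S (y : ↥T.R₀) : ((0 : ↥T.R₁), T.s * y) ∈ T.S := by
  obtain ⟨c, hc, h₁, h₂, hinf, h0⟩ := T.node₀ y
  refine ⟨⟨c, hc⟩, ?_⟩
  apply Prod.ext
  · apply Subtype.ext
    rw [rr_fst]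
    exact hinf
  · apply Subtype.ext
    rw [rr_snd]
    exact h0

/-- in the non-glued case the idempotent `(1, 0)` lies in `S` -/
theorem idem_mem_S (h : ¬ ∀ x ∈ T.S, T.e1 x.1 = T.e0 x.2) :
    ((1 : ↥T.R₁), (0 : ↥T.R₀)) ∈ T.S := by
  push Not at h
  obtain ⟨x, hx, hne⟩ := h
  set γ : k := T.e0 x.2 with hγ
  have h2 : T.e0 (x.2 - algebraMap k ↥T.R₀ γ) = 0 := by
    rw [map_sub, AlgHom.commutes, hγ]; simp
  obtain ⟨h', hh'⟩ := T.dvd_of_e0 _ h2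
  -- `(g - γ, 0) ∈ S`
  have hx' : (x.1 - algebraMap k ↥T.R₁ γ, (0 : ↥T.R₀)) ∈ T.S := by
    have : (x.1 - algebraMap k ↥T.R₁ γ, (0 : ↥T.R₀)) =
        x - algebraMap k (↥T.R₁ × ↥T.R₀) γ - ((0 : ↥T.R₁), T.s * h') := by
      apply Prod.ext
      · simp [Prod.algebraMap_apply]
      · simp only [Prod.snd_sub, Prod.algebraMap_apply]
        rw [← hh']; ring
    rw [this]
    exact T.S.sub_mem (T.S.sub_mem hx (T.S.algebraMap_mem γ)) (T.node₀_mem_S h')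
  set m : k := T.e1 (x.1 - algebraMap k ↥T.R₁ γ) with hm
  have hm0 : m ≠ 0 := by
    rw [hm, map_sub, AlgHom.commutes]
    simpa [sub_eq_zero] using hne
  have h3 : T.e1 (x.1 - algebraMap k ↥T.R₁ γ - algebraMap k ↥T.R₁ m) = 0 := by
    rw [map_sub (T.e1), AlgHom.commutes, ← hm]; simp
  obtain ⟨g'', hg''⟩ := T.dvd_of_e1 _ h3
  have h4 : (algebraMap k ↥T.R₁ m, (0 : ↥T.R₀)) ∈ T.S := by
    have : (algebraMap k ↥T.R₁ m, (0 : ↥T.R₀)) =
        (x.1 - algebraMap k ↥T.R₁ γ, (0 : ↥T.R₀)) - (T.tR * g'', (0 : ↥T.R₀)) := by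
      apply Prod.ext
      · simp only [Prod.fst_sub]
        rw [← hg'']; ring
      · simp
    rw [this]
    exact T.S.sub_mem hx' (T.node₁_mem_S g'')
  have h5 : ((1 : ↥T.R₁), (0 : ↥T.R₀)) =
      algebraMap k (↥T.R₁ × ↥T.R₀) m⁻¹ * (algebraMap k ↥T.R₁ m, (0 : ↥T.R₀)) := by
    apply Prod.ext
    · simp only [Prod.fst_mul, Prod.algebraMap_apply]
      rw [← map_mul, inv_mul_cancel₀ hm0, map_one]
    · simp
  rw [h5]
  exact T.S.mul_mem (T.S.algebraMap_mem _) h4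

/-- elements of `k[rr v]` lift to `A[v]` -/
theorem exists_lift_adjoin (v : ↥(integralClosure A F)) :
    ∀ p ∈ Algebra.adjoin k {T.rr v}, ∃ p' ∈ Algebra.adjoin A {v}, T.rr p' = p := by
  intro p hp
  induction hp using Algebra.adjoin_induction with
  | mem x hx =>
    rw [Set.mem_singleton_iff] at hx
    exact ⟨v, Algebra.self_mem_adjoin_singleton A v, hx.symm⟩
  | algebraMap c =>
    obtain ⟨a, ha⟩ := T.rr_const c
    exact ⟨_, Subalgebra.algebraMap_mem _ a, ha⟩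
  | add x y _ _ hx hy =>
    obtain ⟨x', hx', rfl⟩ := hx
    obtain ⟨y', hy', rfl⟩ := hy
    exact ⟨x' + y', Subalgebra.add_mem _ hx' hy', map_add _ _ _⟩
  | mul x y _ _ hx hy =>
    obtain ⟨x', hx', rfl⟩ := hx
    obtain ⟨y', hy', rfl⟩ := hy
    exact ⟨x' * y', Subalgebra.mul_mem _ hx' hy', map_mul _ _ _⟩

variable [IsLocalRing A] [Module.Finite A ↥(integralClosure A F)]

/-- **monogenicity**, for a generator with the right reductions -/
theorem adjoin_eq_top (hq₀ : T.q₀ ∈ IsLocalRing.maximalIdeal A)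
    (hu : T.u ∈ IsLocalRing.maximalIdeal A) (v : ↥(integralClosure A F)) (b : k) (β : ↥T.R₀) (hβ : T.e0 β ≠ 0)
    (hv : (T.rr v).2 = algebraMap k ↥T.R₀ b + T.s * β)
    (hcase : (∀ x ∈ T.S, T.e1 x.1 = T.e0 x.2) ∨ T.e1 (T.rr v).1 ≠ b) :
    Algebra.adjoin A {v} = ⊤ := by
  have hcase' : (∀ x ∈ T.S, T.e1 x.1 = T.e0 x.2) ∨
      (T.e1 (T.rr v).1 ≠ b ∧ ((1 : ↥T.R₁), (0 : ↥T.R₀)) ∈ T.S) := by
    by_cases hG : ∀ x ∈ T.S, T.e1 x.1 = T.e0 x.2
    · exact Or.inl hG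
    · exact Or.inr ⟨hcase.resolve_left hG, T.idem_mem_S hG⟩
  have key := t4r_node_local T.e1 T.e0 T.tR T.s T.dvd_of_e1 T.dvd_of_e0 T.e1_tR T.e0_s T.q
    (T.redR0 T.u) T.ε T.ε' T.redR0_u T.ε_mul T.S T.node₁_mem_S T.node₀_mem_S (T.rr v) b β hβ hv
    T.hq T.u_mem_S (T.rr_mem_S v) hcase'
  apply t4r_adjoin_eq_top₂ T.q₀ T.u hq₀ hu v
  intro c
  obtain ⟨p, hp, y, ⟨c₂, rfl⟩, hxy⟩ := key (T.rr c) (T.rr_mem_S c)
  obtain ⟨p', hp', rfl⟩ := T.exists_lift_adjoin v p hp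
  have h0 : T.rr (c - p' - algebraMap A ↥(integralClosure A F) T.u * c₂) = 0 := by
    rw [map_sub, map_sub, map_mul, rr_u, hxy]
    ring
  obtain ⟨c₁, hc₁⟩ := T.exists_of_rr_eq_zero _ h0
  refine ⟨p', hp', c₁, c₂, ?_⟩
  rw [← hc₁]
  ring

/-- **monogenicity**: existence of a generator with prescribed reduction at `0` -/
theorem exists_mono (hq₀ : T.q₀ ∈ IsLocalRing.maximalIdeal A)
    (hu : T.u ∈ IsLocalRing.maximalIdeal A) (v : ↥(integralClosure A F)) (b : k) (β : ↥T.R₀) (hβ : T.e0 β ≠ 0)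
    (hv : (T.rr v).2 = algebraMap k ↥T.R₀ b + T.s * β) :
    ∃ v' : ↥(integralClosure A F), T.r0 v' = T.r0 v ∧ Algebra.adjoin A {v'} = ⊤ ∧
      ((∀ x ∈ T.S, T.e1 x.1 = T.e0 x.2) ∨ T.e1 (T.rr v').1 ≠ b) := by
  by_cases hG : ∀ x ∈ T.S, T.e1 x.1 = T.e0 x.2
  · exact ⟨v, rfl, T.adjoin_eq_top hq₀ hu v b β hβ hv (Or.inl hG), Or.inl hG⟩
  by_cases hb : T.e1 (T.rr v).1 ≠ b
  · exact ⟨v, rfl, T.adjoin_eq_top hq₀ hu v b β hβ hv (Or.inr hb), Or.inr hb⟩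
  push Not at hb
  obtain ⟨c₁, hc₁⟩ := T.idem_mem_S hG
  have h2 : (T.rr (v + c₁)).2 = algebraMap k ↥T.R₀ b + T.s * β := by
    rw [map_add, Prod.snd_add, hc₁, hv]
    simp
  have h1 : T.e1 (T.rr (v + c₁)).1 ≠ b := by
    rw [map_add, Prod.fst_add, hc₁, map_add, hb]
    simp
  refine ⟨v + c₁, ?_, T.adjoin_eq_top hq₀ hu (v + c₁) b β hβ h2 (Or.inr h1), Or.inr h1⟩
  have := congrArg (fun x : ↥T.R₁ × ↥T.R₀ => ((x.2 : ↥T.R₀) : E)) hc₁
  simp only [rr_snd] at this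
  rw [map_add, this]
  simp

end T4rTwo

end Fermat.Agent.T4
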