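/-
T4-R (helper6): the different of the monogenic semilocal ring `C = A[v]` at a two-branch point.

`T : T4rTwo A F E k`, `Dv : T4rTwoD T` (a derivation `d` of `F` preserving `A`, inducing `D` on the
residue function field, with `q₀ d (V0) ⊆ V0`), `v ∈ C` a generator whose reduction at `0` is not in
`Φ(E)`.  With `G = minpoly A v` and `Dp = G'(v)`:
* `T4rTwo.map_minpoly_eq`: `Ḡ = (X - a)(X^q - g)`, `a = rinf v`, `Φ g = (r0 v)^q`;
* `rinf Dp = a^q - g ≠ 0`, `r0 Dp = 0`;
* `Dp · d v = - G^d(v)` and `r0 (G^d(v)) = Φ(D g)(Φ a - r0 v) ≠ 0`, hence `q₀ / Dp ∈ Vinf ∩ V0`;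
* (with the unramifiedness in the form `Dp δ = q₀^e · unit`) `C ∩ Dp (Vinf ∩ V0) = Dp C`,
  `q₀ / Dp ∈ C`, and `q₀ d (C) ⊆ C`, `Dp d (C) ⊆ C`.
-/
import Fermat.Agent.Lib.T4.Reg.TwoMono
import Fermat.Agent.Lib.T4.Reg.FrobPoly
import Fermat.Agent.Lib.T4.Reg.DerivPoly
import Fermat.Agent.Lib.T4.Reg.AlgDiv

set_option autoImplicit false
set_option linter.unusedSectionVars false
set_option linter.unusedVariables false

open Polynomial

namespace Fermat.Agent.T4

/-- the derivation data of a two-branch datum -/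
structure T4rTwoD {A F E k : Type*} [CommRing A] [IsDomain A] [Field F] [Algebra A F] [Field E]
    [Field k] [Algebra k E] (T : T4rTwo A F E k) where
  /-- the derivation of `F` -/
  d : Derivation ℤ F F
  /-- its restriction to `A` -/
  dA : A →+ A
  d_A : ∀ a, d (algebraMap A F a) = algebraMap A F (dA a)
  /-- the induced derivation of `E` -/
  D : E →+ E
  D_mul : ∀ x y, D (x * y) = x * D y + y * D x
  red_dA : ∀ a, T.red (dA a) = D (T.red a)
  qd_0 : ∀ x ∈ T.V0, algebraMap A F T.q₀ * d x ∈ T.V0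

/-- `G'(v)`, as an element of `C` -/
noncomputable def t4rDiff {A F : Type*} [CommRing A] [Field F] [Algebra A F]
    (v : ↥(integralClosure A F)) : ↥(integralClosure A F) :=
  aeval v (derivative (minpoly A (v : F)))

namespace T4rTwo

variable {A F E k : Type*} [CommRing A] [IsDomain A] [Field F] [Algebra A F] [Field E] [Field k]
  [Algebra k E] (T : T4rTwo A F E k)

theorem rinf_comp : T.rinf.comp (algebraMap A ↥(integralClosure A F)) = T.red := by
  ext a; exact T.rinf_algebraMap a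

theorem r0_comp : T.r0.comp (algebraMap A ↥(integralClosure A F)) =
    (T.Φ : E →+* E).comp T.red := by
  ext a; exact T.r0_algebraMap a

omit [IsDomain A] in
/-- `aeval v p` in `C` -/
theorem _root_.Fermat.Agent.T4.t4r_aeval_minpoly (v : ↥(integralClosure A F)) :
    aeval v (minpoly A (v : F)) = 0 := by
  apply Subtype.ext
  rw [← Subalgebra.aeval_coe, minpoly.aeval]
  rfl

theorem rinf_aeval (v : ↥(integralClosure A F)) (p : A[X]) :
    T.rinf (aeval v p) = (p.map T.red).eval (T.rinf v) := by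
  rw [aeval_def, Polynomial.hom_eval₂, T.rinf_comp, Polynomial.eval_map]

theorem r0_aeval (v : ↥(integralClosure A F)) (p : A[X]) :
    T.r0 (aeval v p) = ((p.map T.red).map (T.Φ : E →+* E)).eval (T.r0 v) := by
  rw [aeval_def, Polynomial.hom_eval₂, T.r0_comp, Polynomial.map_map, Polynomial.eval_map]

variable (hqp : T.q.Prime) [CharP E T.q]

include hqp in
/-- **the reduction of the minimal polynomial of a generator** -/
theorem map_minpoly_eq (v : ↥(integralClosure A F))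
    (hdeg : (minpoly A (v : F)).natDegree ≤ T.q + 1) (g : E) (hg : T.Φ g = T.r0 v ^ T.q)
    (hns : ∀ y, T.Φ y ≠ T.r0 v) :
    (minpoly A (v : F)).map T.red = (X - C (T.rinf v)) * (X ^ T.q - C g) := by
  have : Fact T.q.Prime := ⟨hqp⟩
  have hmon : ((minpoly A (v : F)).map T.red).Monic := (minpoly.monic v.2).map _
  have hd : ((minpoly A (v : F)).map T.red).natDegree ≤ T.q + 1 :=
    (natDegree_map_le).trans hdeg
  have ha : ((minpoly A (v : F)).map T.red).eval (T.rinf v) = 0 := by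
    rw [← T.rinf_aeval, t4r_aeval_minpoly, map_zero]
  have hs : (((minpoly A (v : F)).map T.red).map (T.Φ : E →+* E)).eval (T.r0 v) = 0 := by
    rw [← T.r0_aeval, t4r_aeval_minpoly, map_zero]
  exact t4r_frob_factor T.q (T.Φ : E →+* E) _ hmon hd _ _ g ha hs hg hns

end T4rTwo

namespace T4rTwoD

variable {A F E k : Type*} [CommRing A] [IsDomain A] [Field F] [Algebra A F] [Field E] [Field k]
  [Algebra k E] {T : T4rTwo A F E k} (Dv : T4rTwoD T)

theorem D_one : Dv.D 1 = 0 := by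
  have := Dv.D_mul 1 1
  simpa using this

/-- `G^d(v)`, as an element of `C` -/
noncomputable def dmin (v : ↥(integralClosure A F)) : ↥(integralClosure A F) :=
  t4rDsum ((algebraMap A ↥(integralClosure A F)).toAddMonoidHom.comp Dv.dA) v (minpoly A (v : F))

omit [IsDomain A] in
theorem _root_.Fermat.Agent.T4.coe_t4rDiff (v : ↥(integralClosure A F)) :
    ((t4rDiff v : ↥(integralClosure A F)) : F) =
      aeval (v : F) (derivative (minpoly A (v : F))) := by
  unfold t4rDiff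
  rw [← Subalgebra.aeval_coe]

theorem coe_dmin (v : ↥(integralClosure A F)) :
    ((Dv.dmin v : ↥(integralClosure A F)) : F) =
      t4rDsum ((algebraMap A F).toAddMonoidHom.comp Dv.dA) (v : F) (minpoly A (v : F)) := by
  unfold dmin
  have := t4rDsum_ringHom ((algebraMap A ↥(integralClosure A F)).toAddMonoidHom.comp Dv.dA) v
    ((integralClosure A F).val : ↥(integralClosure A F) →+* F) (minpoly A (v : F))
  exact this

/-- **`G'(v) · d v = - G^d(v)`** -/
theorem diff_mul_d (v : ↥(integralClosure A F)) :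
    ((t4rDiff v : ↥(integralClosure A F)) : F) * Dv.d (v : F) =
      -((Dv.dmin v : ↥(integralClosure A F)) : F) := by
  have h1 := t4r_deriv_eval₂ Dv.d (algebraMap A F) Dv.dA Dv.d_A (v : F) (minpoly A (v : F))
  rw [← aeval_def, ← aeval_def, minpoly.aeval, map_zero] at h1
  rw [coe_t4rDiff v, Dv.coe_dmin v]
  linear_combination -h1

variable (hqp : T.q.Prime) [CharP E T.q]

include hqp in
/-- `r0 (G^d(v)) = Φ(D g) (Φ a - s)` -/
theorem r0_dmin (v : ↥(integralClosure A F))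
    (hdeg : (minpoly A (v : F)).natDegree ≤ T.q + 1) (g : E) (hg : T.Φ g = T.r0 v ^ T.q)
    (hns : ∀ y, T.Φ y ≠ T.r0 v) :
    T.r0 (Dv.dmin v) = T.Φ (Dv.D g) * (T.Φ (T.rinf v) - T.r0 v) := by
  have : Fact T.q.Prime := ⟨hqp⟩
  unfold dmin
  rw [t4rDsum_ringHom]
  have hadd : (T.r0 : ↥(integralClosure A F) →+* E).toAddMonoidHom.comp
      ((algebraMap A ↥(integralClosure A F)).toAddMonoidHom.comp Dv.dA) =
      (((T.Φ : E →+* E).toAddMonoidHom).comp Dv.D).comp T.red.toAddMonoidHom := by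
    ext a
    show T.r0 (algebraMap A ↥(integralClosure A F) (Dv.dA a)) = T.Φ (Dv.D (T.red a))
    rw [T.r0_algebraMap, Dv.red_dA]
  rw [hadd, ← t4rDsum_map, T.map_minpoly_eq hqp v hdeg g hg hns, t4r_frob_expand,
    t4rDsum_add, t4rDsum_sub, t4rDsum_sub, t4rDsum_monomial, t4rDsum_monomial, t4rDsum_monomial,
    t4rDsum_monomial]
  simp only [AddMonoidHom.coe_comp, RingHom.toAddMonoidHom_eq_coe, AddMonoidHom.coe_coe,
    Function.comp_apply, RingHom.coe_coe, Dv.D_one, map_zero, zero_mul, zero_sub, pow_one,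
    pow_zero, mul_one, Dv.D_mul, map_add, map_mul]
  rw [← hg]
  ring

include hqp in
/-- `rinf (G'(v)) = a^q - g` -/
theorem rinf_diff (v : ↥(integralClosure A F))
    (hdeg : (minpoly A (v : F)).natDegree ≤ T.q + 1) (g : E) (hg : T.Φ g = T.r0 v ^ T.q)
    (hns : ∀ y, T.Φ y ≠ T.r0 v) :
    T.rinf (t4rDiff v) = T.rinf v ^ T.q - g := by
  have : Fact T.q.Prime := ⟨hqp⟩
  unfold t4rDiff
  rw [T.rinf_aeval, ← Polynomial.derivative_map, T.map_minpoly_eq hqp v hdeg g hg hns,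
    t4r_frob_deriv_fst]

include hqp in
/-- `r0 (G'(v)) = 0` -/
theorem r0_diff (v : ↥(integralClosure A F))
    (hdeg : (minpoly A (v : F)).natDegree ≤ T.q + 1) (g : E) (hg : T.Φ g = T.r0 v ^ T.q)
    (hns : ∀ y, T.Φ y ≠ T.r0 v) :
    T.r0 (t4rDiff v) = 0 := by
  have : Fact T.q.Prime := ⟨hqp⟩
  unfold t4rDiff
  rw [T.r0_aeval, ← Polynomial.derivative_map, ← Polynomial.derivative_map,
    T.map_minpoly_eq hqp v hdeg g hg hns]
  exact t4r_frob_deriv_snd T.q (T.Φ : E →+* E) _ _ g hg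

include hqp in
/-- `rinf (G'(v)) ≠ 0` -/
theorem rinf_diff_ne (v : ↥(integralClosure A F))
    (hdeg : (minpoly A (v : F)).natDegree ≤ T.q + 1) (g : E) (hg : T.Φ g = T.r0 v ^ T.q)
    (hns : ∀ y, T.Φ y ≠ T.r0 v) :
    T.rinf (t4rDiff v) ≠ 0 := by
  have : Fact T.q.Prime := ⟨hqp⟩
  rw [T4rTwoD.rinf_diff hqp v hdeg g hg hns]
  exact sub_ne_zero.mpr (t4r_frob_not_pow T.q (T.Φ : E →+* E) hg hns _)

include hqp in
/-- `r0 (G^d(v)) ≠ 0` -/
theorem r0_dmin_ne (v : ↥(integralClosure A F))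
    (hdeg : (minpoly A (v : F)).natDegree ≤ T.q + 1) (g : E) (hg : T.Φ g = T.r0 v ^ T.q)
    (hns : ∀ y, T.Φ y ≠ T.r0 v) (hDg : Dv.D g ≠ 0) :
    T.r0 (Dv.dmin v) ≠ 0 := by
  rw [Dv.r0_dmin hqp v hdeg g hg hns]
  refine mul_ne_zero ?_ (sub_ne_zero.mpr (hns _))
  exact (map_ne_zero T.Φ).mpr hDg

include hqp in
/-- **`q₀ / G'(v) ∈ Vinf ∩ V0`** -/
theorem exists_q₀_eq (v : ↥(integralClosure A F))
    (hdeg : (minpoly A (v : F)).natDegree ≤ T.q + 1) (g : E) (hg : T.Φ g = T.r0 v ^ T.q)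
    (hns : ∀ y, T.Φ y ≠ T.r0 v) (hDg : Dv.D g ≠ 0) :
    ∃ o : F, o ∈ T.Vinf ∧ o ∈ T.V0 ∧
      algebraMap A F T.q₀ = ((t4rDiff v : ↥(integralClosure A F)) : F) * o := by
  have h1 := T4rTwoD.rinf_diff_ne hqp v hdeg g hg hns
  have h2 := Dv.r0_dmin_ne hqp v hdeg g hg hns hDg
  have hinv1 : (((t4rDiff v : ↥(integralClosure A F)) : F))⁻¹ ∈ T.Vinf := T.unit_inf _ h1
  have hinv2 : (((Dv.dmin v : ↥(integralClosure A F)) : F))⁻¹ ∈ T.V0 := T.unit_0 _ h2
  have hD0 : ((t4rDiff v : ↥(integralClosure A F)) : F) ≠ 0 := by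
    intro h0
    apply h1
    have : t4rDiff v = 0 := Subtype.ext h0
    rw [this, map_zero]
  have hY0 : ((Dv.dmin v : ↥(integralClosure A F)) : F) ≠ 0 := by
    intro h0
    apply h2
    have : Dv.dmin v = 0 := Subtype.ext h0
    rw [this, map_zero]
  refine ⟨algebraMap A F T.q₀ * (((t4rDiff v : ↥(integralClosure A F)) : F))⁻¹, ?_, ?_, ?_⟩
  · exact T.Vinf.mul_mem _ _ (T.mem_inf _) hinv1
  · -- `q₀ / Dp = - (q₀ d v) / Y`
    have h3 := Dv.diff_mul_d v
    have h4 : algebraMap A F T.q₀ * (((t4rDiff v : ↥(integralClosure A F)) : F))⁻¹ =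
        -((algebraMap A F T.q₀ * Dv.d (v : F)) *
          (((Dv.dmin v : ↥(integralClosure A F)) : F))⁻¹) := by
      rw [eq_neg_iff_add_eq_zero]
      have h5 : Dv.d (v : F) = -((Dv.dmin v : ↥(integralClosure A F)) : F) *
          (((t4rDiff v : ↥(integralClosure A F)) : F))⁻¹ := by
        rw [← h3]
        field_simp
      rw [h5]
      field_simp
      ring
    rw [h4]
    exact T.V0.neg_mem _ (T.V0.mul_mem _ _ (Dv.qd_0 _ (T.mem_V0 v.2)) hinv2)
  · field_simp

end T4rTwoD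

end Fermat.Agent.T4
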