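/-
T4-R (helper6): the derivation data `T4rTwoD` of the two-branch datum `Lv.two 𝔫' hq hu` at a closed
point `𝔫' ∋ q` of level `N'` with local coordinate `u`:

* `d'_mem_loc` : `D_u = θ / θ u` preserves the local ring `A = B'_𝔫'` (Kunz–Nagata type argument,
  helper7's `T4Pres.derivation_mem_loc`);
* `DE : E →+ E`, the induced derivation `θ / θ ū` of the residue function field;
* `T4rLev.twoD : T4rTwoD (Lv.two 𝔫' hq hu)`.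
-/
import Fermat.Agent.Lib.T4.Reg.LevTwo
import Fermat.Agent.Lib.T4.Reg.LevUfd
import Fermat.Agent.Lib.T4.Reg.KnLoc
import Fermat.Agent.Lib.T4.Reg.TwoDiff

set_option autoImplicit false
set_option linter.unusedSectionVars false
set_option linter.unusedVariables false
set_option linter.style.haveILetI false

namespace Fermat.Agent.T4

namespace T4rLev

variable {L F' F1 E Eh k : Type*} [Field L] [Field F'] [Field F1] [Algebra L F'] [Algebra L F1]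
  [Field E] [Field Eh] [Field k] [Algebra k E] (Lv : T4rLev L F' F1 E Eh k)
  (𝔫' : Ideal ↥Lv.P'.B) [h𝔫 : 𝔫'.IsMaximal] (hq : Lv.qB ∈ 𝔫')
  {u : ↥Lv.P'.B} (hu : Lv.IsCoord 𝔫' u)

attribute [local instance] T4rLev.algA T4rLev.algB

omit h𝔫 in
include hu in
theorem θ_coord : Lv.θ (Lv.ι (Lv.res' ⟨(u : F'), Lv.B'_le_V' u.2⟩)) ≠ 0 := hu.2.1

/-- the image of `O` in `F'` -/
def O' : Subring F' := Lv.O.map (algebraMap L F')

theorem O'_le : Lv.O' ≤ Lv.P'.B := by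
  rintro x ⟨c, hc, rfl⟩
  exact Lv.O_mem c hc

theorem q_mem_O' : (Lv.q : F') ∈ Lv.O' :=
  ⟨(Lv.q : L), natCast_mem Lv.O Lv.q, map_natCast _ _⟩

/-- a unit of the subring `A` -/
theorem isUnit_of_inv_mem_loc {x : F'} (hx : x ∈ Lv.P'.loc 𝔫') (hx0 : x ≠ 0)
    (hxi : x⁻¹ ∈ Lv.P'.loc 𝔫') : IsUnit (⟨x, hx⟩ : ↥(Lv.P'.loc 𝔫')) :=
  isUnit_iff_exists_inv.mpr ⟨⟨x⁻¹, hxi⟩, Subtype.ext (mul_inv_cancel₀ hx0)⟩

include hq hu in
/-- **`D_u` preserves the local ring `A`** -/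
theorem d'_mem_loc (a : F') (ha : a ∈ Lv.P'.loc 𝔫') : Lv.d' (u : F') a ∈ Lv.P'.loc 𝔫' := by
  letI := Lv.P'.isLocalRing_loc 𝔫'
  have hθ := Lv.θ_coord 𝔫' hu
  refine T4Pres.derivation_mem_loc Lv.P' 𝔫' Lv.O' Lv.O'_le Lv.ft' (Lv.q : F') (u : F')
    Lv.q_mem_O' (Lv.P'.B_le_loc 𝔫' u.2) ?_ ?_ ?_ ?_ ((Lv.d' (u : F')).restrictScalars ℤ) ?_ ?_ a ha
  · -- `q⁻¹ ∉ A`
    intro h
    exfalso
    have h1 : ((Lv.q : F'))⁻¹ ∈ Lv.V' := Lv.loc_le_V' 𝔫' hq h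
    have h2 : Lv.V'.valuation ((Lv.q : F'))⁻¹ ≤ 1 := (Lv.V'.valuation_le_one_iff _).mpr h1
    rw [map_inv₀] at h2
    have h3 : 0 < Lv.V'.valuation (Lv.q : F') :=
      zero_lt_iff.mpr ((Valuation.ne_zero_iff _).mpr Lv.q_ne')
    have h4 : 1 ≤ Lv.V'.valuation (Lv.q : F') := (inv_le_one₀ h3).mp h2
    exact absurd Lv.val'_q (not_lt.mpr h4)
  · -- `u⁻¹ ∉ A`
    intro h
    by_contra hu0
    have hunit := Lv.isUnit_of_inv_mem_loc 𝔫' (Lv.P'.B_le_loc 𝔫' u.2) hu0 h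
    exact (IsLocalRing.mem_maximalIdeal _).mp (Lv.uA_mem_maximalIdeal 𝔫' hu) hunit
  · -- `𝔪_A = (q, u)`
    intro x hx hxi
    have hxm : (⟨x, hx⟩ : ↥(Lv.P'.loc 𝔫')) ∈ IsLocalRing.maximalIdeal ↥(Lv.P'.loc 𝔫') := by
      rw [IsLocalRing.mem_maximalIdeal, mem_nonunits_iff]
      intro hunit
      obtain ⟨y, hy⟩ := hunit.exists_right_inv
      apply hxi
      have h1 : x * (y : F') = 1 := congrArg (fun t : ↥(Lv.P'.loc 𝔫') => (t : F')) hy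
      rw [inv_eq_of_mul_eq_one_right h1]
      exact y.2
    obtain ⟨a₁, a₂, h12⟩ := Lv.exists_of_mem_maximalIdeal 𝔫' hu.2.2 _ hxm
    refine ⟨(a₁ : F'), a₁.2, (a₂ : F'), a₂.2, ?_⟩
    have := congrArg (fun t : ↥(Lv.P'.loc 𝔫') => (t : F')) h12
    simpa [T4Pres.coe_locIncl] using this
  · -- the residue field is the image of `O`
    intro x hx
    obtain ⟨c, hc⟩ := Lv.exists_const 𝔫' hq ⟨x, hx⟩
    refine ⟨algebraMap L F' (c : L), ⟨(c : L), c.2, rfl⟩, ?_⟩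
    by_cases hxc : x = algebraMap L F' (c : L)
    · exact Or.inr hxc
    · left
      intro hinv
      have hmem : x - algebraMap L F' (c : L) ∈ Lv.P'.loc 𝔫' :=
        (Lv.P'.loc 𝔫').sub_mem hx (Lv.P'.B_le_loc 𝔫' (Lv.cB c).2)
      have hunit := Lv.isUnit_of_inv_mem_loc 𝔫' hmem (sub_ne_zero.mpr hxc) hinv
      exact (IsLocalRing.mem_maximalIdeal _).mp hc hunit
  · -- `D_u` kills the constants
    rintro _ ⟨c, hc, rfl⟩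
    exact (Lv.d' (u : F')).map_algebraMap c
  · -- `D_u u = 1`
    show Lv.d' (u : F') (u : F') ∈ Lv.P'.loc 𝔫'
    rw [Lv.d'_self (u : F') (Lv.B'_le_V' u.2) hθ]
    exact (Lv.P'.loc 𝔫').one_mem


/-! ### The induced derivation of the residue function field -/

omit h𝔫 in
theorem ι_injective : Function.Injective Lv.ι := Lv.ι.injective

omit h𝔫 in
include hu in
theorem exists_DE (x : E) : ∃ z : E,
    Lv.ι z * Lv.θ (Lv.ι (Lv.res' ⟨(u : F'), Lv.B'_le_V' u.2⟩)) = Lv.θ (Lv.ι x) := by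
  obtain ⟨f, rfl⟩ := Lv.res'_surj x
  obtain ⟨h, hh⟩ := Lv.d'_V' (u : F') (Lv.B'_le_V' u.2) (Lv.θ_coord 𝔫' hu) (f : F') f.2
  exact ⟨_, hh⟩

/-- the derivation `θ / θ ū` of `E`, as a function -/
noncomputable def DEfun (x : E) : E := (Lv.exists_DE 𝔫' hu x).choose

omit h𝔫 in
theorem DEfun_spec (x : E) :
    Lv.ι (Lv.DEfun 𝔫' hu x) * Lv.θ (Lv.ι (Lv.res' ⟨(u : F'), Lv.B'_le_V' u.2⟩)) =
      Lv.θ (Lv.ι x) :=
  (Lv.exists_DE 𝔫' hu x).choose_spec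

omit h𝔫 in
theorem DEfun_unique (x z : E)
    (hz : Lv.ι z * Lv.θ (Lv.ι (Lv.res' ⟨(u : F'), Lv.B'_le_V' u.2⟩)) = Lv.θ (Lv.ι x)) :
    z = Lv.DEfun 𝔫' hu x := by
  apply Lv.ι_injective
  have h1 := Lv.DEfun_spec 𝔫' hu x
  rw [← hz] at h1
  exact (mul_right_cancel₀ (Lv.θ_coord 𝔫' hu) h1).symm

/-- the derivation `θ / θ ū` of `E` -/
noncomputable def DE : E →+ E where
  toFun := Lv.DEfun 𝔫' hu
  map_zero' := by
    symm
    apply Lv.DEfun_unique 𝔫' hu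
    rw [map_zero, zero_mul, map_zero]
  map_add' x y := by
    symm
    apply Lv.DEfun_unique 𝔫' hu
    rw [map_add, add_mul, Lv.DEfun_spec, Lv.DEfun_spec, map_add, map_add]

omit h𝔫 in
theorem DE_spec (x : E) :
    Lv.ι (Lv.DE 𝔫' hu x) * Lv.θ (Lv.ι (Lv.res' ⟨(u : F'), Lv.B'_le_V' u.2⟩)) = Lv.θ (Lv.ι x) :=
  Lv.DEfun_spec 𝔫' hu x

omit h𝔫 in
theorem DE_unique (x z : E)
    (hz : Lv.ι z * Lv.θ (Lv.ι (Lv.res' ⟨(u : F'), Lv.B'_le_V' u.2⟩)) = Lv.θ (Lv.ι x)) :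
    z = Lv.DE 𝔫' hu x :=
  Lv.DEfun_unique 𝔫' hu x z hz

omit h𝔫 in
theorem DE_mul (x y : E) : Lv.DE 𝔫' hu (x * y) = x * Lv.DE 𝔫' hu y + y * Lv.DE 𝔫' hu x := by
  symm
  apply Lv.DE_unique 𝔫' hu
  rw [map_add, map_mul, map_mul, add_mul, mul_assoc, mul_assoc, Lv.DE_spec, Lv.DE_spec, map_mul,
    Lv.θ_mul]

omit h𝔫 in
/-- `D_u` on `V'` induces `DE` -/
theorem res'_d' (f : F') (hf : f ∈ Lv.V') (h : Lv.d' (u : F') f ∈ Lv.V') :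
    Lv.res' ⟨Lv.d' (u : F') f, h⟩ = Lv.DE 𝔫' hu (Lv.res' ⟨f, hf⟩) := by
  apply Lv.DE_unique 𝔫' hu
  obtain ⟨h', hh⟩ := Lv.d'_V' (u : F') (Lv.B'_le_V' u.2) (Lv.θ_coord 𝔫' hu) f hf
  exact hh

omit h𝔫 in
/-- `DE ū = 1` -/
theorem DE_coord : Lv.DE 𝔫' hu (Lv.res' ⟨(u : F'), Lv.B'_le_V' u.2⟩) = 1 := by
  symm
  apply Lv.DE_unique 𝔫' hu
  rw [map_one, one_mul]

/-! ### The derivation data -/

/-- `D_u` on `A` -/
noncomputable def dA : ↥(Lv.P'.loc 𝔫') →+ ↥(Lv.P'.loc 𝔫') where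
  toFun a := ⟨Lv.d' (u : F') (a : F'), Lv.d'_mem_loc 𝔫' hq hu _ a.2⟩
  map_zero' := Subtype.ext (by simp)
  map_add' a b := Subtype.ext (by simp)

theorem coe_dA (a : ↥(Lv.P'.loc 𝔫')) :
    ((Lv.dA 𝔫' hq hu a : ↥(Lv.P'.loc 𝔫')) : F') = Lv.d' (u : F') (a : F') := rfl

/-- **the derivation data of the two-branch datum at `𝔫'`** -/
noncomputable def twoD : T4rTwoD (Lv.two 𝔫' hq hu) where
  d := (Lv.dα (u : F')).restrictScalars ℤ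
  dA := Lv.dA 𝔫' hq hu
  d_A := fun a => Lv.dα_α (u : F') (a : F')
  D := Lv.DE 𝔫' hu
  D_mul := Lv.DE_mul 𝔫' hu
  red_dA := fun a => Lv.res'_d' 𝔫' hu (a : F') (Lv.loc_le_V' 𝔫' hq a.2) _
  qd_0 := fun x hx => by
    obtain ⟨h, -⟩ := Lv.dα_0 (u : F') (Lv.B'_le_V' u.2) (Lv.θ_coord 𝔫' hu) x hx
    show algebraMap ↥(Lv.P'.loc 𝔫') F1 (Lv.q : ↥(Lv.P'.loc 𝔫')) * Lv.dα (u : F') x ∈ Lv.V0
    rw [Lv.algebraMap_q]
    exact h

end T4rLev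

end Fermat.Agent.T4
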