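/-
T4-R (helper6): **unramified + monogenic ⇒ the different is trivial**, abstract form.

Part 1 (local form).  `R` a local integrally closed domain with principal maximal ideal `(ϖ)` and
residue field of characteristic zero, `L` a field containing `R`, `v ∈ L` integral over `R` such
that every element of `L` integral over `R` lies in `R[v]` (monogenic), and such that `ϖ` is a
uniformiser of every valuation ring of `L` which contains `R` but not `ϖ⁻¹` (unramified).  Then
the resultant of the minimal polynomial `g` of `v` and `g'` is a unit of `R`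
(`t4r_isUnit_resultant_of_unr`).

Proof: otherwise `g ≡ h² m` modulo `ϖ` with `deg h ≥ 1`; the element `β = (h m)(v) / ϖ` lies in
every valuation ring of `L` above `R`, hence is integral over `R`, hence in `R[v]`; comparing
leading coefficients of the two expressions of `ϖ β` as polynomials of degree `< deg g` in `v`
shows that `ϖ` is a unit.
-/
import Mathlib

set_option autoImplicit false
set_option linter.unusedSectionVars false

open Polynomial

namespace Fermat.Agent.T4

section DVR

variable {R L : Type*} [CommRing R] [IsDomain R] [IsLocalRing R] [IsIntegrallyClosed R]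
  [Field L] [Algebra R L] [Module.IsTorsionFree R L]

/-- a polynomial over a local ring with principal maximal ideal `(ϖ)` which vanishes in the residue
field is divisible by `ϖ` -/
theorem t4r_exists_C_mul_of_map_residue_eq_zero (ϖ : R)
    (hϖ : IsLocalRing.maximalIdeal R = Ideal.span {ϖ}) (d : R[X])
    (hd : d.map (IsLocalRing.residue R) = 0) : ∃ r₁ : R[X], d = C ϖ * r₁ := by
  have hc : ∀ n, ∃ c : R, d.coeff n = ϖ * c := by
    intro n
    have h1 : IsLocalRing.residue R (d.coeff n) = 0 := by
      have := congrArg (fun p => p.coeff n) hd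
      simpa using this
    have h2 : d.coeff n ∈ IsLocalRing.maximalIdeal R := (IsLocalRing.residue_eq_zero_iff _).mp h1
    rw [hϖ, Ideal.mem_span_singleton] at h2
    exact h2
  choose c hc using hc
  refine ⟨∑ n ∈ Finset.range (d.natDegree + 1), C (c n) * X ^ n, ?_⟩
  rw [Finset.mul_sum]
  conv_lhs => rw [d.as_sum_range_C_mul_X_pow]
  refine Finset.sum_congr rfl (fun n _ => ?_)
  rw [hc n, C_mul]; ring

/-- a non-squarefree monic polynomial over a field is `h² m` with `h`, `m` monic, `deg h ≥ 1` -/
theorem t4r_exists_sq_of_not_squarefree {κ : Type*} [Field κ] (g : κ[X]) (hg : g.Monic)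
    (hns : ¬ Squarefree g) :
    ∃ h m : κ[X], h.Monic ∧ m.Monic ∧ 0 < h.natDegree ∧ g = h * h * m := by
  rw [Squarefree] at hns
  push Not at hns
  obtain ⟨h, ⟨m, hm⟩, hu⟩ := hns
  have hg0 : g ≠ 0 := hg.ne_zero
  have hh0 : h ≠ 0 := by
    rintro rfl; apply hg0; rw [hm]; ring
  have hlc : h.leadingCoeff ≠ 0 := leadingCoeff_ne_zero.mpr hh0
  set a : κ := h.leadingCoeff with ha
  set h₁ : κ[X] := h * C a⁻¹ with hh₁
  have hh₁m : h₁.Monic := monic_mul_leadingCoeff_inv hh0
  set m₁ : κ[X] := m * C (a * a) with hm₁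
  have hgm : g = h₁ * h₁ * m₁ := by
    rw [hm, hh₁, hm₁]
    have : C a⁻¹ * C a⁻¹ * C (a * a) = (1 : κ[X]) := by
      rw [← C_mul, ← C_mul, ← C_1]; congr 1; field_simp
    calc h * h * m = h * h * m * (C a⁻¹ * C a⁻¹ * C (a * a)) := by rw [this, mul_one]
      _ = _ := by ring
  have hm₁m : m₁.Monic := by
    have h2 : (h₁ * h₁).Monic := hh₁m.mul hh₁m
    have : (h₁ * h₁ * m₁).Monic := hgm ▸ hg
    exact h2.of_mul_monic_left this
  refine ⟨h₁, m₁, hh₁m, hm₁m, ?_, hgm⟩
  rw [Nat.pos_iff_ne_zero]
  intro h0
  apply hu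
  have hdeg : h.natDegree = 0 := by
    have : h₁.natDegree = h.natDegree := by
      rw [hh₁, natDegree_mul_C (inv_ne_zero hlc)]
    rw [← this, h0]
  rw [natDegree_eq_zero] at hdeg
  obtain ⟨c, rfl⟩ := hdeg
  have hc0 : c ≠ 0 := by rintro rfl; exact hh0 (by simp)
  exact isUnit_C.mpr (isUnit_iff_ne_zero.mpr hc0)

/-- an element which lies in every valuation ring of `L` containing `R` is integral over `R` -/
theorem t4r_isIntegral_of_forall_valuationSubring (β : L)
    (h : ∀ V₁ : ValuationSubring L, (∀ x : R, algebraMap R L x ∈ V₁) → β ∈ V₁) :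
    IsIntegral R β := by
  by_contra hβ
  have hβ' : β ∉ (integralClosure R L).toSubring := hβ
  obtain ⟨V₁, hV₁, hβV⟩ :=
    Subring.exists_le_valuationSubring_of_isIntegrallyClosedIn hβ'
  exact hβV (h V₁ (fun x => hV₁ (algebraMap_mem (integralClosure R L) x)))

/-- integral elements lie in every valuation ring containing `R` -/
theorem t4r_mem_valuationSubring_of_isIntegral (V₁ : ValuationSubring L)
    (hV : ∀ x : R, algebraMap R L x ∈ V₁) {y : L} (hy : IsIntegral R y) : y ∈ V₁ := by
  have : IsIntegrallyClosedIn V₁.toSubring L := inferInstanceAs (IsIntegrallyClosedIn V₁ L)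
  have hle : (integralClosure R L).toSubring ≤ V₁.toSubring :=
    Subring.integralClosure_le_iff.mpr hV
  exact hle hy

/-- **unramified + monogenic ⇒ the resultant of the minimal polynomial with its derivative is a
unit** (local form, over a local domain `R` with principal maximal ideal `(ϖ)`) -/
theorem t4r_isUnit_resultant_of_unr [CharZero (IsLocalRing.ResidueField R)]
    (ϖ : R) (hϖ0 : ϖ ≠ 0) (hϖ : IsLocalRing.maximalIdeal R = Ideal.span {ϖ})
    (v : L) (hv : IsIntegral R v)
    (hmono : ∀ y : L, IsIntegral R y → y ∈ Algebra.adjoin R {v})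
    (hunr : ∀ V₁ : ValuationSubring L, (∀ x : R, algebraMap R L x ∈ V₁) →
        (algebraMap R L ϖ)⁻¹ ∉ V₁ → ∀ y ∈ V₁, y⁻¹ ∉ V₁ → y / algebraMap R L ϖ ∈ V₁) :
    IsUnit (resultant (minpoly R v) (derivative (minpoly R v))
      (minpoly R v).natDegree ((minpoly R v).natDegree - 1)) := by
  classical
  set g : R[X] := minpoly R v with hg
  have hgm : g.Monic := minpoly.monic hv
  set n := g.natDegree with hn
  by_contra hru
  set κ := IsLocalRing.ResidueField R
  set res : R →+* κ := IsLocalRing.residue R with hres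
  -- the residue of the resultant vanishes
  have hr0 : res (resultant g (derivative g) n (n - 1)) = 0 :=
    (IsLocalRing.residue_eq_zero_iff _).mpr ((IsLocalRing.mem_maximalIdeal _).mpr hru)
  rw [← resultant_map_map] at hr0
  set gb : κ[X] := g.map res with hgb
  have hgbm : gb.Monic := hgm.map res
  have hgbn : gb.natDegree = n := hgm.natDegree_map res
  have hder : (derivative g).map res = derivative gb := (derivative_map g res).symm
  rw [hder] at hr0
  have hdern : (derivative gb).natDegree = n - 1 := by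
    rw [natDegree_derivative, hgbn]
  have hr0' : resultant gb (derivative gb) = 0 := by
    rw [hgbn, hdern]; exact hr0
  rw [resultant_eq_zero_iff] at hr0'
  have hnsep : ¬ gb.Separable := hr0'.2
  have hnsq : ¬ Squarefree gb := fun h => hnsep (PerfectField.separable_iff_squarefree.mpr h)
  obtain ⟨h₁, m₁, hh₁m, hm₁m, hh₁d, hgh⟩ := t4r_exists_sq_of_not_squarefree gb hgbm hnsq
  -- lift
  have hsurj : Function.Surjective res := IsLocalRing.residue_surjective
  obtain ⟨ht, hht, hhtd, hhtm⟩ := lifts_and_degree_eq_and_monic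
    ((mem_lifts _).mpr (map_surjective res hsurj h₁)) hh₁m
  obtain ⟨mt, hmt, hmtd, hmtm⟩ := lifts_and_degree_eq_and_monic
    ((mem_lifts _).mpr (map_surjective res hsurj m₁)) hm₁m
  have hd0 : (g - ht * ht * mt).map res = 0 := by
    rw [Polynomial.map_sub, Polynomial.map_mul, Polynomial.map_mul, hht, hmt, ← hgh, sub_self]
  obtain ⟨r₁, hr₁⟩ := t4r_exists_C_mul_of_map_residue_eq_zero ϖ hϖ _ hd0
  set b : R[X] := ht * mt with hb
  have hbm : b.Monic := hhtm.mul hmtm
  have hhtn : ht.natDegree = h₁.natDegree := natDegree_eq_of_degree_eq hhtd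
  have hmtn : mt.natDegree = m₁.natDegree := natDegree_eq_of_degree_eq hmtd
  have hbn : b.natDegree + h₁.natDegree = n := by
    rw [hb, hhtm.natDegree_mul hmtm, ← hgbn, hgh, (hh₁m.mul hh₁m).natDegree_mul hm₁m,
      hh₁m.natDegree_mul hh₁m, hhtn, hmtn]
    ring
  have hbn' : b.natDegree < n := by omega
  -- the element β
  set ϖL : L := algebraMap R L ϖ with hϖL
  have hϖL0 : ϖL ≠ 0 := by
    rw [hϖL]
    intro h0
    exact hϖ0 (FaithfulSMul.algebraMap_injective R L (h0.trans (map_zero _).symm))
  have hvg : aeval v g = 0 := minpoly.aeval R v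
  set β : L := aeval v b / ϖL with hβ
  -- `β` is integral
  have hβint : IsIntegral R β := by
    refine t4r_isIntegral_of_forall_valuationSubring β (fun V₁ hV₁ => ?_)
    have hvV : v ∈ V₁ := t4r_mem_valuationSubring_of_isIntegral V₁ hV₁ hv
    have haev : ∀ p : R[X], aeval v p ∈ V₁ := by
      intro p
      rw [aeval_eq_sum_range]
      refine V₁.toSubring.sum_mem (fun i _ => ?_)
      rw [Algebra.smul_def]
      exact V₁.mul_mem _ _ (hV₁ _) (V₁.toSubring.pow_mem hvV i)
    by_cases hϖV : ϖL⁻¹ ∈ V₁
    · rw [hβ, div_eq_mul_inv]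
      exact V₁.mul_mem _ _ (haev b) hϖV
    · by_cases hb0 : aeval v b = 0
      · rw [hβ, hb0, zero_div]; exact V₁.zero_mem
      · refine hunr V₁ hV₁ hϖV _ (haev b) (fun hinv => hϖV ?_)
        -- `ht(v)² mt(v) = - ϖ r₁(v)`
        have h1 : aeval v (ht * ht * mt) = - (ϖL * aeval v r₁) := by
          have : ht * ht * mt = g - C ϖ * r₁ := by rw [← hr₁]; ring
          rw [this, map_sub, hvg, zero_sub, map_mul, aeval_C]
        have h2 : aeval v (ht * ht * mt) = aeval v ht * aeval v b := by
          rw [hb, map_mul, map_mul, map_mul]; ring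
        have hht0 : aeval v ht ≠ 0 := by
          intro h0; apply hb0; rw [hb, map_mul, h0, zero_mul]
        -- `(ht(v))⁻¹ = b(v)⁻¹ mt(v) ∈ V₁`
        have hhtinv : (aeval v ht)⁻¹ ∈ V₁ := by
          have : (aeval v ht)⁻¹ = (aeval v b)⁻¹ * aeval v mt := by
            rw [hb, map_mul]; field_simp
            have hmt0 : aeval v mt ≠ 0 := by
              intro h0; apply hb0; rw [hb, map_mul, h0, mul_zero]
            field_simp
          rw [this]; exact V₁.mul_mem _ _ hinv (haev mt)
        have : ϖL⁻¹ = - (aeval v r₁ * ((aeval v ht)⁻¹ * (aeval v b)⁻¹)) := by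
          have h3 : aeval v ht * aeval v b = - (ϖL * aeval v r₁) := by rw [← h2, h1]
          field_simp
          rw [eq_neg_iff_add_eq_zero] at h3 ⊢
          linear_combination h3
        rw [this]
        exact V₁.neg_mem _ (V₁.mul_mem _ _ (haev r₁) (V₁.mul_mem _ _ hhtinv hinv))
  -- hence `β ∈ R[v]`
  have hβadj := hmono β hβint
  rw [Algebra.adjoin_singleton_eq_range_aeval] at hβadj
  obtain ⟨p, hp⟩ := hβadj
  set p₀ : R[X] := p %ₘ g with hp₀
  have hp₀v : aeval v p₀ = β := by
    have := modByMonic_add_div p g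
    have h4 : aeval v p = aeval v p₀ + aeval v g * aeval v (p /ₘ g) := by
      conv_lhs => rw [← this]
      rw [map_add, map_mul]
    rw [hvg, zero_mul, add_zero] at h4
    rw [← h4]; exact hp
  have hp₀d : p₀.natDegree < n := by
    by_cases hn1 : g = 1
    · exfalso
      rw [hn1] at hvg; simp at hvg
    · exact natDegree_modByMonic_lt p hgm hn1
  -- the polynomial `C ϖ * p₀ - b` kills `v` and has degree `< n`
  set P : R[X] := C ϖ * p₀ - b with hP
  have hPv : aeval v P = 0 := by
    rw [hP, map_sub, map_mul, aeval_C, hp₀v, hβ, ← hϖL]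
    field_simp
    ring
  have hPd : P.natDegree < n := by
    refine lt_of_le_of_lt (natDegree_sub_le _ _) (max_lt ?_ hbn')
    exact lt_of_le_of_lt (natDegree_C_mul_le _ _) hp₀d
  have hP0 : P = 0 := by
    by_contra hne
    have h5 := minpoly.isIntegrallyClosed_dvd hv hPv
    have h6 := natDegree_le_of_dvd h5 hne
    rw [← hg, ← hn] at h6
    omega
  -- compare leading coefficients
  have hcoef : ϖ * p₀.coeff b.natDegree = 1 := by
    have := congrArg (fun t => t.coeff b.natDegree) hP0
    simp only [hP, coeff_sub, coeff_C_mul, coeff_zero] at this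
    rw [hbm.coeff_natDegree] at this
    linear_combination this
  have : ϖ ∈ IsLocalRing.maximalIdeal R := by rw [hϖ]; exact Ideal.subset_span rfl
  exact (IsLocalRing.mem_maximalIdeal _).mp this (IsUnit.of_mul_eq_one _ hcoef)

end DVR

end Fermat.Agent.T4
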