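/-
T4-R (helper6): **unramified + monogenic ⇒ the different is trivial**, global form over a UFD.

`A` a UFD with fraction field `K`, `q₀ ∈ A` a prime element such that every nonzero natural number
divides a power of `q₀` (so all other primes have residue characteristic zero), `L / K` a field
extension, `v ∈ L` integral over `A` with `A[v]` = the integral closure of `A` in `L` (monogenic).
If every prime element `π ∤ q₀` of `A` is a uniformiser of every valuation ring of `L` which contains
`A_(π)` but not `π⁻¹` (unramified outside `q₀`), then the resultant of the minimal polynomial `g` of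
`v` and `g'` is `q₀ ^ e · unit`, and hence `g'(v) · δ = q₀ ^ e · unit` for some `δ ∈ A[v]`
(`t4r_exists_deriv_mul_eq`).

Also: `t4rPrimeVal π hπ : ValuationSubring K`, the valuation ring `A_(π)` of a prime element.
-/
import Fermat.Agent.Lib.T4.Reg.AlgUnr

set_option autoImplicit false
set_option linter.unusedSectionVars false
set_option linter.unusedVariables false
set_option linter.style.haveILetI false

open Polynomial

namespace Fermat.Agent.T4

section UFD

variable {A K : Type*} [CommRing A] [IsDomain A] [UniqueFactorizationMonoid A]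
  [Field K] [Algebra A K] [IsFractionRing A K]

/-- the valuation ring `A_(π) ⊆ K` of a prime element `π` of a UFD `A` -/
def t4rPrimeVal (π : A) (hπ : Prime π) : ValuationSubring K where
  carrier := {x | ∃ a b : A, ¬ π ∣ b ∧ x * algebraMap A K b = algebraMap A K a}
  mul_mem' := by
    rintro x y ⟨a, b, hb, hx⟩ ⟨a', b', hb', hy⟩
    refine ⟨a * a', b * b', fun h => (hπ.dvd_or_dvd h).elim hb hb', ?_⟩
    rw [map_mul, map_mul, ← hx, ← hy]; ring
  one_mem' := ⟨1, 1, fun h => hπ.not_isUnit (isUnit_of_dvd_one h), by simp⟩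
  add_mem' := by
    rintro x y ⟨a, b, hb, hx⟩ ⟨a', b', hb', hy⟩
    refine ⟨a * b' + a' * b, b * b', fun h => (hπ.dvd_or_dvd h).elim hb hb', ?_⟩
    rw [map_add, map_mul, map_mul, map_mul, ← hx, ← hy]; ring
  zero_mem' := ⟨0, 1, fun h => hπ.not_isUnit (isUnit_of_dvd_one h), by simp⟩
  neg_mem' := by
    rintro x ⟨a, b, hb, hx⟩
    exact ⟨-a, b, hb, by rw [map_neg, ← hx]; ring⟩
  mem_or_inv_mem' := by
    intro x
    obtain ⟨a, b, hrel, hx⟩ := IsFractionRing.exists_reduced_fraction (A := A) (K := K) x
    have hb0 : algebraMap A K (b : A) ≠ 0 :=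
      IsFractionRing.to_map_ne_zero_of_mem_nonZeroDivisors b.2
    have hxb : x * algebraMap A K (b : A) = algebraMap A K a := by
      rw [← hx, IsLocalization.mk'_spec]
    by_cases hπb : π ∣ (b : A)
    · right
      have hπa : ¬ π ∣ a := fun h => hπ.not_isUnit (hrel h hπb)
      refine ⟨b, a, hπa, ?_⟩
      have ha0 : algebraMap A K a ≠ 0 := by
        intro h0
        apply hπa
        have : a = 0 := (IsFractionRing.injective A K) (h0.trans (map_zero _).symm)
        rw [this]; exact dvd_zero _
      have hx0 : x ≠ 0 := by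
        rintro rfl; rw [zero_mul] at hxb; exact ha0 hxb.symm
      rw [← hxb]; field_simp
    · left
      exact ⟨a, b, hπb, hxb⟩

variable (π : A) (hπ : Prime π)

theorem mem_t4rPrimeVal {x : K} : x ∈ t4rPrimeVal (K := K) π hπ ↔
    ∃ a b : A, ¬ π ∣ b ∧ x * algebraMap A K b = algebraMap A K a := Iff.rfl

theorem t4r_algebraMap_mem_primeVal (a : A) : algebraMap A K a ∈ t4rPrimeVal (K := K) π hπ :=
  ⟨a, 1, fun h => hπ.not_isUnit (isUnit_of_dvd_one h), by simp⟩

theorem t4r_inv_mem_primeVal {b : A} (hb : ¬ π ∣ b) :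
    (algebraMap A K b)⁻¹ ∈ t4rPrimeVal (K := K) π hπ := by
  have hb0 : algebraMap A K b ≠ 0 := by
    intro h0
    apply hb
    have : b = 0 := (IsFractionRing.injective A K) (h0.trans (map_zero _).symm)
    rw [this]; exact dvd_zero _
  exact ⟨1, b, hb, by rw [inv_mul_cancel₀ hb0, map_one]⟩

/-- elements of `A_(π)` are divisible by `π` or units -/
theorem t4r_primeVal_dichotomy {x : K} (hx : x ∈ t4rPrimeVal (K := K) π hπ) :
    (∃ y ∈ t4rPrimeVal (K := K) π hπ, x = algebraMap A K π * y) ∨
      x⁻¹ ∈ t4rPrimeVal (K := K) π hπ := by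
  obtain ⟨a, b, hb, hxb⟩ := hx
  have hb0 : algebraMap A K b ≠ 0 := by
    intro h0
    apply hb
    have : b = 0 := (IsFractionRing.injective A K) (h0.trans (map_zero _).symm)
    rw [this]; exact dvd_zero _
  by_cases hπa : π ∣ a
  · left
    obtain ⟨a', rfl⟩ := hπa
    refine ⟨algebraMap A K a' / algebraMap A K b, ⟨a', b, hb, by field_simp⟩, ?_⟩
    rw [map_mul] at hxb
    field_simp
    rw [hxb]
  · right
    have ha0 : algebraMap A K a ≠ 0 := by
      intro h0
      apply hπa
      have : a = 0 := (IsFractionRing.injective A K) (h0.trans (map_zero _).symm)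
      rw [this]; exact dvd_zero _
    have hx0 : x ≠ 0 := by
      rintro rfl; rw [zero_mul] at hxb; exact ha0 hxb.symm
    exact ⟨b, a, hπa, by rw [← hxb]; field_simp⟩

theorem t4r_pi_inv_notMem_primeVal :
    (algebraMap A K π)⁻¹ ∉ t4rPrimeVal (K := K) π hπ := by
  rintro ⟨a, b, hb, h⟩
  have hπ0 : algebraMap A K π ≠ 0 := by
    intro h0
    exact hπ.ne_zero ((IsFractionRing.injective A K) (h0.trans (map_zero _).symm))
  have h1 : algebraMap A K b = algebraMap A K (π * a) := by
    rw [map_mul, ← h]; field_simp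
  have := (IsFractionRing.injective A K) h1
  exact hb ⟨a, this⟩

/-- `A → A_(π)` -/
def t4rPrimeValHom : A →+* ↥(t4rPrimeVal (K := K) π hπ) :=
  (algebraMap A K).codRestrict (t4rPrimeVal (K := K) π hπ).toSubring
    (t4r_algebraMap_mem_primeVal π hπ)

@[simp] theorem coe_t4rPrimeValHom (a : A) :
    ((t4rPrimeValHom (K := K) π hπ a : ↥(t4rPrimeVal (K := K) π hπ)) : K) = algebraMap A K a := rfl

theorem t4rPrimeValHom_injective : Function.Injective (t4rPrimeValHom (K := K) π hπ) := by
  intro a b h
  exact IsFractionRing.injective A K (congrArg Subtype.val h)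

/-- the complement of `(π)` -/
def t4rCompl : Submonoid A where
  carrier := {b | ¬ π ∣ b}
  mul_mem' := fun {a b} ha hb h => (hπ.dvd_or_dvd h).elim ha hb
  one_mem' := fun h => hπ.not_isUnit (isUnit_of_dvd_one h)

/-- `A_(π)` is the localisation of `A` at the complement of `(π)` -/
theorem t4r_isLocalization_primeVal :
    letI : Algebra A ↥(t4rPrimeVal (K := K) π hπ) := (t4rPrimeValHom π hπ).toAlgebra
    IsLocalization (t4rCompl π hπ) ↥(t4rPrimeVal (K := K) π hπ) := by
  letI : Algebra A ↥(t4rPrimeVal (K := K) π hπ) := (t4rPrimeValHom π hπ).toAlgebra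
  refine ⟨?_, ?_, ?_⟩
  · rintro ⟨b, hb⟩
    have hb0 : algebraMap A K b ≠ 0 := by
      intro h0
      apply hb
      have : b = 0 := (IsFractionRing.injective A K) (h0.trans (map_zero _).symm)
      rw [this]; exact dvd_zero _
    refine isUnit_iff_exists_inv.mpr ⟨⟨(algebraMap A K b)⁻¹, t4r_inv_mem_primeVal π hπ hb⟩, ?_⟩
    apply Subtype.ext
    show algebraMap A K b * (algebraMap A K b)⁻¹ = 1
    exact mul_inv_cancel₀ hb0
  · rintro ⟨x, hx⟩
    obtain ⟨a, b, hb, hxb⟩ := (mem_t4rPrimeVal π hπ).mp hx
    refine ⟨(a, ⟨b, hb⟩), ?_⟩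
    apply Subtype.ext
    exact hxb
  · intro a b h
    exact ⟨1, by rw [t4rPrimeValHom_injective π hπ h]⟩

/-- products of associates of `q₀` -/
theorem t4r_associated_pow_of_forall (q₀ : A) (f : Multiset A)
    (h : ∀ b ∈ f, Associated b q₀) : Associated f.prod (q₀ ^ Multiset.card f) := by
  induction f using Multiset.induction_on with
  | empty => simp
  | cons a s ih =>
    rw [Multiset.prod_cons, Multiset.card_cons, pow_succ']
    exact (h a (Multiset.mem_cons_self a s)).mul_mul
      (ih (fun b hb => h b (Multiset.mem_cons_of_mem hb)))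

variable {L : Type*} [Field L] [Algebra K L] [Algebra A L] [IsScalarTower A K L]

/-- **unramified + monogenic ⇒ the derivative of the minimal polynomial divides a power of `q₀`**
(global form over a UFD `A`) -/
theorem t4r_exists_deriv_mul_eq (q₀ : A) (hq₀ : Prime q₀)
    (hnat : ∀ n : ℕ, n ≠ 0 → ∃ k : ℕ, (n : A) ∣ q₀ ^ k)
    (v : L) (hv : IsIntegral A v)
    (hmono : ∀ y : L, IsIntegral A y → y ∈ Algebra.adjoin A {v})
    (hunr : ∀ (π : A) (hπ : Prime π), ¬ π ∣ q₀ → ∀ V₁ : ValuationSubring L,
      (∀ x ∈ t4rPrimeVal (K := K) π hπ, algebraMap K L x ∈ V₁) →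
      (algebraMap A L π)⁻¹ ∉ V₁ → ∀ y ∈ V₁, y⁻¹ ∉ V₁ → y / algebraMap A L π ∈ V₁) :
    ∃ (e : ℕ) (η : Aˣ) (δ : L), δ ∈ Algebra.adjoin A {v} ∧
      aeval v (derivative (minpoly A v)) * δ = algebraMap A L (q₀ ^ e * η) := by
  classical
  set g : A[X] := minpoly A v with hg
  have hgm : g.Monic := minpoly.monic hv
  set n := g.natDegree with hn
  have hn0 : n ≠ 0 := (minpoly.natDegree_pos hv).ne'
  set r : A := resultant g (derivative g) n (n - 1) with hr
  have hAL : Function.Injective (algebraMap A L) := by
    rw [IsScalarTower.algebraMap_eq A K L]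
    exact (algebraMap K L).injective.comp (IsFractionRing.injective A K)
  -- Bezout
  obtain ⟨p, p', -, -, hbez⟩ := exists_mul_add_mul_eq_C_resultant g (derivative g)
    (m := n) (n := n - 1) le_rfl (natDegree_derivative_le g) (Or.inl hn0)
  have hδ : aeval v (derivative g) * aeval v p' = algebraMap A L r := by
    have := congrArg (aeval v) hbez
    rw [map_add, map_mul, map_mul, minpoly.aeval, zero_mul, zero_add, aeval_C] at this
    exact this
  -- characteristic zero
  have hq₀0 : q₀ ≠ 0 := hq₀.ne_zero
  have hcharA : ∀ m : ℕ, (m : A) = 0 → m = 0 := by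
    intro m hm
    by_contra hm0
    obtain ⟨k, hk⟩ := hnat m hm0
    rw [hm, zero_dvd_iff] at hk
    exact pow_ne_zero k hq₀0 hk
  haveI : CharZero A := charZero_of_inj_zero hcharA
  haveI : CharZero K := charZero_of_injective_algebraMap (IsFractionRing.injective A K)
  -- `r ≠ 0`
  have hgK : minpoly K v = g.map (algebraMap A K) :=
    minpoly.isIntegrallyClosed_eq_field_fractions' K hv
  have hr0 : r ≠ 0 := by
    intro h0
    have h1 : resultant (g.map (algebraMap A K)) ((derivative g).map (algebraMap A K)) n (n - 1)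
        = 0 := by
      rw [resultant_map_map, ← hr, h0, map_zero]
    rw [← derivative_map] at h1
    have hdn : (g.map (algebraMap A K)).natDegree = n := hgm.natDegree_map _
    have hdn' : (derivative (g.map (algebraMap A K))).natDegree = n - 1 := by
      rw [natDegree_derivative, hdn]
    have h2 : resultant (g.map (algebraMap A K)) (derivative (g.map (algebraMap A K))) = 0 := by
      rw [hdn, hdn']; exact h1
    rw [resultant_eq_zero_iff] at h2
    have hsep : (g.map (algebraMap A K)).Separable := by
      rw [← hgK]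
      exact (minpoly.irreducible (hv.tower_top)).separable
    exact h2.2 hsep
  -- primes not dividing `q₀` do not divide `r`
  have hprime : ∀ π : A, Prime π → π ∣ r → π ∣ q₀ := by
    intro π hπ hπr
    by_contra hπq
    set V' := t4rPrimeVal (K := K) π hπ with hV'
    set φ := t4rPrimeValHom (K := K) π hπ with hφ
    letI : Algebra A ↥V' := φ.toAlgebra
    haveI : IsLocalization (t4rCompl π hπ) ↥V' := t4r_isLocalization_primeVal π hπ
    haveI : IsScalarTower A ↥V' L := IsScalarTower.of_algebraMap_eq (fun a => by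
      show algebraMap A L a = algebraMap K L ((φ a : ↥V') : K)
      rw [coe_t4rPrimeValHom, ← IsScalarTower.algebraMap_apply])
    haveI : IsScalarTower A ↥V' K := IsScalarTower.of_algebraMap_eq (fun a => rfl)
    -- the residue field has characteristic zero
    haveI : CharZero (IsLocalRing.ResidueField ↥V') := by
      refine charZero_of_inj_zero (fun m hm => ?_)
      by_contra hm0
      obtain ⟨k, hk⟩ := hnat m hm0
      have hπm : ¬ π ∣ (m : A) := fun h => hπq (hπ.dvd_of_dvd_pow (h.trans hk))
      have hunit : IsUnit (algebraMap A ↥V' (m : A)) :=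
        IsLocalization.map_units ↥V' (⟨(m : A), hπm⟩ : t4rCompl π hπ)
      have h1 : IsLocalRing.residue ↥V' (algebraMap A ↥V' (m : A)) = 0 := by
        rw [map_natCast, map_natCast]; exact hm
      exact ((IsLocalRing.residue_eq_zero_iff _).mp h1) hunit
    -- the uniformiser
    set ϖ : ↥V' := φ π with hϖ
    have hϖ0 : ϖ ≠ 0 := fun h => hπ.ne_zero (t4rPrimeValHom_injective π hπ (h.trans (map_zero φ).symm))
    have hmax : IsLocalRing.maximalIdeal ↥V' = Ideal.span {ϖ} := by
      apply le_antisymm
      · intro x hx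
        rcases t4r_primeVal_dichotomy π hπ x.2 with ⟨y, hy, hxy⟩ | hinv
        · rw [Ideal.mem_span_singleton]
          exact ⟨⟨y, hy⟩, Subtype.ext hxy⟩
        · by_cases hx0 : x = 0
          · rw [hx0]; exact Ideal.zero_mem _
          · exfalso
            have hxK : (x : K) ≠ 0 := fun h0 => hx0 (Subtype.ext h0)
            rw [IsLocalRing.mem_maximalIdeal, mem_nonunits_iff] at hx
            apply hx
            refine isUnit_iff_exists_inv.mpr ⟨⟨(x : K)⁻¹, hinv⟩, ?_⟩
            apply Subtype.ext
            show (x : K) * (x : K)⁻¹ = 1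
            exact mul_inv_cancel₀ hxK
      · rw [Ideal.span_le, Set.singleton_subset_iff]
        show ϖ ∈ IsLocalRing.maximalIdeal ↥V'
        rw [IsLocalRing.mem_maximalIdeal, mem_nonunits_iff]
        intro hu
        obtain ⟨y, hy⟩ := isUnit_iff_exists_inv.mp hu
        apply t4r_pi_inv_notMem_primeVal (K := K) π hπ
        have h1 : algebraMap A K π * (y : K) = 1 := congrArg Subtype.val hy
        have : (algebraMap A K π)⁻¹ = (y : K) := by
          exact inv_eq_of_mul_eq_one_right h1
        rw [this]; exact y.2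
    -- integrality and monogenicity over `A_(π)`
    have hφL : (algebraMap ↥V' L).comp φ = algebraMap A L := by
      ext a
      show algebraMap K L ((φ a : ↥V') : K) = algebraMap A L a
      rw [coe_t4rPrimeValHom, ← IsScalarTower.algebraMap_apply]
    have hv' : IsIntegral ↥V' v := hv.tower_top
    have hmono' : ∀ y : L, IsIntegral ↥V' y → y ∈ Algebra.adjoin ↥V' {v} := by
      intro y hy
      obtain ⟨m, hm⟩ := IsIntegral.exists_multiple_integral_of_isLocalization
        (t4rCompl π hπ) (Rₘ := ↥V') y hy
      have h1 := hmono _ hm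
      rw [Algebra.adjoin_singleton_eq_range_aeval] at h1 ⊢
      obtain ⟨P, hP⟩ := h1
      have hmu : IsUnit (algebraMap A ↥V' (m : A)) := IsLocalization.map_units ↥V' m
      obtain ⟨c, hc⟩ := isUnit_iff_exists_inv.mp hmu
      refine ⟨C c * P.map φ, ?_⟩
      have hPφ : aeval v (P.map φ) = aeval v P := by
        rw [aeval_def, eval₂_map, hφL, ← aeval_def]
      show aeval v (C c * P.map φ) = y
      rw [map_mul, aeval_C, hPφ]
      have hP' : aeval v P = algebraMap A L (m : A) * y := by
        have : (m • y : L) = algebraMap A L (m : A) * y := by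
          rw [Submonoid.smul_def, Algebra.smul_def]
        rw [← this]; exact hP
      rw [hP', ← mul_assoc]
      have h2 : algebraMap ↥V' L c * algebraMap A L (m : A) = 1 := by
        rw [IsScalarTower.algebraMap_apply A ↥V' L, ← map_mul, mul_comm, hc, map_one]
      rw [h2, one_mul]
    have hunr' : ∀ V₁ : ValuationSubring L, (∀ x : ↥V', algebraMap ↥V' L x ∈ V₁) →
        (algebraMap ↥V' L ϖ)⁻¹ ∉ V₁ → ∀ y ∈ V₁, y⁻¹ ∉ V₁ → y / algebraMap ↥V' L ϖ ∈ V₁ := by
      intro V₁ hV₁ hϖV y hy hyinv
      have hϖL : algebraMap ↥V' L ϖ = algebraMap A L π := by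
        rw [hϖ, ← RingHom.comp_apply, hφL]
      rw [hϖL] at hϖV ⊢
      exact hunr π hπ hπq V₁ (fun x hx => hV₁ ⟨x, hx⟩) hϖV y hy hyinv
    have hunit := t4r_isUnit_resultant_of_unr ϖ hϖ0 hmax v hv' hmono' hunr'
    -- the minimal polynomial over `A_(π)`
    have hmp : minpoly ↥V' v = g.map φ := by
      have h1 : minpoly K v = (minpoly ↥V' v).map (algebraMap ↥V' K) :=
        minpoly.isIntegrallyClosed_eq_field_fractions' K hv'
      have h2 : (g.map φ).map (algebraMap ↥V' K) = g.map (algebraMap A K) := by
        rw [Polynomial.map_map]; rfl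
      have h3 : (minpoly ↥V' v).map (algebraMap ↥V' K) = (g.map φ).map (algebraMap ↥V' K) := by
        rw [← h1, h2, hgK]
      exact Polynomial.map_injective _ (IsFractionRing.injective ↥V' K) h3
    rw [hmp, hgm.natDegree_map, derivative_map, resultant_map_map] at hunit
    -- `π ∣ r` contradicts the unit property
    obtain ⟨r', hr'⟩ := hπr
    obtain ⟨c, hc⟩ := isUnit_iff_exists_inv.mp hunit
    apply t4r_pi_inv_notMem_primeVal (K := K) π hπ
    have h4 : algebraMap A K r * (c : K) = 1 := by
      have := congrArg Subtype.val hc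
      exact this
    have hπK : algebraMap A K π ≠ 0 := fun h0 =>
      hπ.ne_zero ((IsFractionRing.injective A K) (h0.trans (map_zero _).symm))
    have h5 : (algebraMap A K π)⁻¹ = algebraMap A K r' * (c : K) := by
      have h6 : algebraMap A K π * (algebraMap A K r' * (c : K)) = 1 := by
        rw [← mul_assoc, ← map_mul, ← hr']; exact h4
      exact inv_eq_of_mul_eq_one_right h6
    rw [h5]
    exact (t4rPrimeVal (K := K) π hπ).mul_mem _ _ (t4r_algebraMap_mem_primeVal π hπ r') c.2
  -- factorisation of `r`
  obtain ⟨f, hfp, hfr⟩ := UniqueFactorizationMonoid.exists_prime_factors r hr0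
  have hfa : ∀ b ∈ f, Associated b q₀ := by
    intro b hb
    have hbr : b ∣ r := (Multiset.dvd_prod hb).trans hfr.dvd
    exact (hfp b hb).associated_of_dvd hq₀ (hprime b (hfp b hb) hbr)
  have hass : Associated (q₀ ^ Multiset.card f) r :=
    (t4r_associated_pow_of_forall q₀ f hfa).symm.trans hfr
  obtain ⟨η, hη⟩ := hass
  exact ⟨Multiset.card f, η, aeval v p', by
    rw [Algebra.adjoin_singleton_eq_range_aeval]; exact ⟨p', rfl⟩, by rw [hδ, hη]⟩

end UFD

end Fermat.Agent.T4
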