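/-
T4-R (helper6): from a uniformiser in the lower field to the hypothesis `hunr` of
`t4r_exists_deriv_mul_eq`.

`A` a UFD with fraction field `K`, `π` a prime element, `V₁` a valuation ring of an extension
`L₁ / K` containing `A_(π)` but not `π⁻¹`.  If the maximal ideal of `V₁` is generated by (the image
of) an element `t ∈ K`, then it is generated by `π`.
-/
import Fermat.Agent.Lib.T4.Reg.AlgUnrUfd

set_option autoImplicit false
set_option linter.unusedSectionVars false
set_option linter.unusedVariables false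
set_option linter.style.haveILetI false

namespace Fermat.Agent.T4

variable {A K L₁ : Type*} [CommRing A] [IsDomain A] [UniqueFactorizationMonoid A]
  [Field K] [Algebra A K] [IsFractionRing A K] [Field L₁] [Algebra K L₁] [Algebra A L₁]
  [IsScalarTower A K L₁]

theorem t4rl_hunr (π : A) (hπ : Prime π) (V₁ : ValuationSubring L₁)
    (hV : ∀ x ∈ t4rPrimeVal (K := K) π hπ, algebraMap K L₁ x ∈ V₁)
    (hπV : (algebraMap A L₁ π)⁻¹ ∉ V₁)
    (t : K) (ht : algebraMap K L₁ t ∈ V₁.nonunits)
    (hgen : ∀ y ∈ V₁.nonunits, ∃ z ∈ V₁, y = algebraMap K L₁ t * z) :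
    ∀ y ∈ V₁, y⁻¹ ∉ V₁ → y / algebraMap A L₁ π ∈ V₁ := by
  have hπL : algebraMap A L₁ π = algebraMap K L₁ (algebraMap A K π) :=
    IsScalarTower.algebraMap_apply A K L₁ π
  have hπK0 : algebraMap A K π ≠ 0 := by
    intro h0
    exact hπ.ne_zero ((IsFractionRing.injective A K) (h0.trans (map_zero _).symm))
  have hπL0 : algebraMap A L₁ π ≠ 0 := by
    rw [hπL]; exact (map_ne_zero _).mpr hπK0
  have hπmem : algebraMap A L₁ π ∈ V₁ := by
    rw [hπL]; exact hV _ (t4r_algebraMap_mem_primeVal π hπ π)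
  -- `t ∈ A_(π)`
  have htV : algebraMap K L₁ t ∈ V₁ := V₁.nonunits_subset ht
  have ht0 : t ≠ 0 := by
    rintro rfl
    -- then every nonunit is zero, but `π` is a nonzero nonunit
    have hπnu : algebraMap A L₁ π ∈ V₁.nonunits := by
      rw [ValuationSubring.mem_nonunits_iff_or]
      exact Or.inr hπV
    obtain ⟨z, -, hz⟩ := hgen _ hπnu
    rw [map_zero, zero_mul] at hz
    exact hπL0 hz
  have htA : t ∈ t4rPrimeVal (K := K) π hπ := by
    rcases (t4rPrimeVal (K := K) π hπ).mem_or_inv_mem t with h | h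
    · exact h
    · -- `t⁻¹ ∈ A_(π)`: it is not divisible by `π` (else `π⁻¹ ∈ V₁`), so `t ∈ A_(π)`
      rcases t4r_primeVal_dichotomy π hπ h with ⟨w, hw, hwt⟩ | h2
      · exfalso
        apply hπV
        -- `π⁻¹ = w t`
        have h3 : (algebraMap A K π)⁻¹ = w * t := by
          have ht' : t⁻¹ * t = 1 := inv_mul_cancel₀ ht0
          rw [hwt] at ht'
          field_simp
          rw [← ht']
        rw [hπL, ← map_inv₀, h3, map_mul]
        exact V₁.mul_mem _ _ (hV _ hw) htV
      · rwa [inv_inv] at h2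
  -- `t = π w`
  obtain ⟨w, hw, hwt⟩ : ∃ w ∈ t4rPrimeVal (K := K) π hπ, t = algebraMap A K π * w := by
    rcases t4r_primeVal_dichotomy π hπ htA with h | h
    · exact h
    · exfalso
      have h1 : algebraMap K L₁ t⁻¹ ∈ V₁ := hV _ h
      rw [map_inv₀] at h1
      rw [ValuationSubring.mem_nonunits_iff_or] at ht
      rcases ht with h0 | h0
      · exact ht0 ((map_eq_zero _).mp h0)
      · exact h0 h1
  have hwV : algebraMap K L₁ w ∈ V₁ := hV _ hw
  -- `π = t z`, hence `w z = 1`
  have hπnu : algebraMap A L₁ π ∈ V₁.nonunits := by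
    rw [ValuationSubring.mem_nonunits_iff_or]
    exact Or.inr hπV
  obtain ⟨z, hz, hπz⟩ := hgen _ hπnu
  have hwz : algebraMap K L₁ w * z = 1 := by
    rw [hwt, map_mul, ← hπL, mul_assoc] at hπz
    have h1 : algebraMap A L₁ π * 1 = algebraMap A L₁ π * (algebraMap K L₁ w * z) := by
      rw [mul_one]; exact hπz
    exact (mul_left_cancel₀ hπL0 h1).symm
  intro y hy hyinv
  have hynu : y ∈ V₁.nonunits := by
    rw [ValuationSubring.mem_nonunits_iff_or]
    exact Or.inr hyinv
  obtain ⟨z', hz', hyz⟩ := hgen y hynu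
  have h2 : y / algebraMap A L₁ π = algebraMap K L₁ w * z' := by
    rw [hyz, hwt, map_mul, ← hπL]
    field_simp
  rw [h2]
  exact V₁.mul_mem _ _ hwV hz'

end Fermat.Agent.T4
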