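/-
T4-R (helper6): consequences of `G'(v) δ = q₀^e · unit` (unramifiedness outside `q₀`) for the
monogenic semilocal ring `C = A[v]` of a two-branch datum:
* `T4rTwoD.div_mem`: `C ∩ G'(v) (Vinf ∩ V0) = G'(v) C` (the vertical divisor at `0` is principal);
* `T4rTwoD.exists_q₀_eq_mul`: `q₀ ∈ G'(v) C`;
* `T4rTwoD.q₀_d_mem`, `T4rTwoD.diff_d_mem`: `q₀ d (C) ⊆ C`, `G'(v) d (C) ⊆ C`.
-/
import Fermat.Agent.Lib.T4.Reg.TwoDiff

set_option autoImplicit false
set_option linter.unusedSectionVars false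
set_option linter.unusedVariables false

open Polynomial

namespace Fermat.Agent.T4

/-- `x ↦ c * d x` -/
def t4rScaleD {F : Type*} [CommRing F] (c : F) (d : Derivation ℤ F F) : F →+ F where
  toFun x := c * d x
  map_zero' := by rw [map_zero, mul_zero]
  map_add' x y := by rw [map_add, mul_add]

theorem t4rScaleD_apply {F : Type*} [CommRing F] (c : F) (d : Derivation ℤ F F) (x : F) :
    t4rScaleD c d x = c * d x := rfl

theorem t4rScaleD_mul {F : Type*} [CommRing F] (c : F) (d : Derivation ℤ F F) (x y : F) :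
    t4rScaleD c d (x * y) = x * t4rScaleD c d y + y * t4rScaleD c d x := by
  simp only [t4rScaleD_apply, Derivation.leibniz, smul_eq_mul]
  ring

/-- monogenicity, in `F` -/
theorem t4r_mem_adjoin_of_top {A F : Type*} [CommRing A] [Field F] [Algebra A F]
    (v : ↥(integralClosure A F)) (hmono : Algebra.adjoin A {v} = ⊤) (y : F)
    (hy : IsIntegral A y) : y ∈ Algebra.adjoin A {(v : F)} := by
  have h1 : (⟨y, hy⟩ : ↥(integralClosure A F)) ∈ Algebra.adjoin A {v} := by
    rw [hmono]; exact Algebra.mem_top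
  have h2 : (Algebra.adjoin A {v}).map (integralClosure A F).val =
      Algebra.adjoin A {(v : F)} := by
    rw [AlgHom.map_adjoin]
    simp
  rw [← h2]
  exact ⟨_, h1, rfl⟩

namespace T4rTwoD

variable {A F E k : Type*} [CommRing A] [IsDomain A] [Field F] [Algebra A F] [Field E] [Field k]
  [Algebra k E] {T : T4rTwo A F E k} (Dv : T4rTwoD T)

variable (hqp : T.q.Prime) [CharP E T.q]

/-- the hypotheses on the generator -/
structure Gen (v : ↥(integralClosure A F)) (g : E) : Prop where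
  mono : Algebra.adjoin A {v} = ⊤
  deg : (minpoly A (v : F)).natDegree ≤ T.q + 1
  hg : T.Φ g = T.r0 v ^ T.q
  hns : ∀ y, T.Φ y ≠ T.r0 v
  hDg : Dv.D g ≠ 0
  /-- unramifiedness outside `q₀`, in the form `G'(v) δ = q₀^e · unit` -/
  unr : ∃ (e : ℕ) (η η' : A) (δ : ↥(integralClosure A F)), η * η' = 1 ∧
    t4rDiff v * δ = algebraMap A ↥(integralClosure A F) (T.q₀ ^ e * η)

variable {v : ↥(integralClosure A F)} {g : E}

include hqp in
/-- **division by `G'(v)`** -/
theorem div_mem (hG : Dv.Gen v g) (b : F) (hb : IsIntegral A b) (o : F) (ho1 : o ∈ T.Vinf)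
    (ho2 : o ∈ T.V0) (h : b = ((t4rDiff v : ↥(integralClosure A F)) : F) * o) :
    IsIntegral A o := by
  obtain ⟨e, η, η', δ, hηη', hδ⟩ := hG.unr
  have key := t4r_div_mem (integralClosure A F).toSubring (T.Vinf.toSubring ⊓ T.V0.toSubring)
    (fun x hx => ⟨T.mem_Vinf hx, T.mem_V0 hx⟩) (algebraMap A F T.q₀)
    (isIntegral_algebraMap)
    (fun b hb o ho hbo => T.int b hb o ho.1 ho.2 hbo)
    ((t4rDiff v : ↥(integralClosure A F)) : F) (δ : F) (algebraMap A F η) (algebraMap A F η')
    δ.2 isIntegral_algebraMap isIntegral_algebraMap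
    (by rw [← map_mul, hηη', map_one]) e
    (by
      have := congrArg (fun x : ↥(integralClosure A F) => (x : F)) hδ
      simp only [Subalgebra.coe_mul] at this
      rw [this]
      show algebraMap A F (T.q₀ ^ e * η) = _
      rw [map_mul, map_pow])
  exact key b hb o ⟨ho1, ho2⟩ h

include hqp in
/-- **`q₀ ∈ G'(v) C`** -/
theorem exists_q₀_eq_mul (hG : Dv.Gen v g) :
    ∃ o : ↥(integralClosure A F),
      algebraMap A ↥(integralClosure A F) T.q₀ = t4rDiff v * o := by
  obtain ⟨o, ho1, ho2, ho⟩ := Dv.exists_q₀_eq hqp v hG.deg g hG.hg hG.hns hG.hDg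
  have hint := Dv.div_mem hqp hG _ (isIntegral_algebraMap (x := T.q₀)) o ho1 ho2 ho
  exact ⟨⟨o, hint⟩, Subtype.ext ho⟩

include hqp in
theorem coe_diff_ne_zero (hG : Dv.Gen v g) : ((t4rDiff v : ↥(integralClosure A F)) : F) ≠ 0 := by
  intro h0
  apply T4rTwoD.rinf_diff_ne hqp v hG.deg g hG.hg hG.hns
  have : t4rDiff v = 0 := Subtype.ext h0
  rw [this, map_zero]

include hqp in
/-- `q₀ d v ∈ C` -/
theorem q₀_d_gen_mem (hG : Dv.Gen v g) :
    IsIntegral A (algebraMap A F T.q₀ * Dv.d (v : F)) := by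
  obtain ⟨o, ho⟩ := Dv.exists_q₀_eq_mul hqp hG
  have ho' : algebraMap A F T.q₀ = ((t4rDiff v : ↥(integralClosure A F)) : F) * (o : F) := by
    have := congrArg (fun x : ↥(integralClosure A F) => (x : F)) ho
    simpa using this
  have h3 := Dv.diff_mul_d v
  have h4 : algebraMap A F T.q₀ * Dv.d (v : F) =
      -((o : F) * ((Dv.dmin v : ↥(integralClosure A F)) : F)) := by
    rw [ho']
    linear_combination (o : F) * h3
  rw [h4]
  exact (IsIntegral.mul o.2 (Dv.dmin v).2).neg

include hqp in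
/-- **`q₀ d (C) ⊆ C`** -/
theorem q₀_d_mem (hG : Dv.Gen v g) (y : F) (hy : IsIntegral A y) :
    IsIntegral A (algebraMap A F T.q₀ * Dv.d y) := by
  have := t4r_deriv_adjoin_mem (t4rScaleD (algebraMap A F T.q₀) Dv.d)
    (t4rScaleD_mul _ _) (integralClosure A F) (v : F) v.2
    (fun a => by
      show IsIntegral A (algebraMap A F T.q₀ * Dv.d (algebraMap A F a))
      rw [Dv.d_A, ← map_mul]
      exact isIntegral_algebraMap)
    (Dv.q₀_d_gen_mem hqp hG) y (t4r_mem_adjoin_of_top v hG.mono y hy)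
  exact this

/-- **`G'(v) d (C) ⊆ C`** -/
theorem diff_d_mem (hmono : Algebra.adjoin A {v} = ⊤) (y : F) (hy : IsIntegral A y) :
    IsIntegral A (((t4rDiff v : ↥(integralClosure A F)) : F) * Dv.d y) := by
  have := t4r_deriv_adjoin_mem (t4rScaleD ((t4rDiff v : ↥(integralClosure A F)) : F) Dv.d)
    (t4rScaleD_mul _ _) (integralClosure A F) (v : F) v.2
    (fun a => by
      show IsIntegral A (((t4rDiff v : ↥(integralClosure A F)) : F) * Dv.d (algebraMap A F a))
      rw [Dv.d_A]
      exact IsIntegral.mul (t4rDiff v).2 isIntegral_algebraMap)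
    (by
      show IsIntegral A (((t4rDiff v : ↥(integralClosure A F)) : F) * Dv.d (v : F))
      rw [Dv.diff_mul_d v]
      exact (Dv.dmin v).2.neg)
    y (t4r_mem_adjoin_of_top v hmono y hy)
  exact this

end T4rTwoD

end Fermat.Agent.T4
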