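/-
T4-R (helper6): the étale-type point of a non-glued two-branch datum.

In the non-glued case the point of `C` on the branch at `∞` is étale over the lower level: the
derivation `d` preserves its local ring.  Consequence used for the unit criterion on the middle
component (`T4rTwoD.etale_point`): if `y ∈ C` and `ρinf (d y) = 0`, then `d y = q₀ · o` with
`ρinf o ∈ R₁` (regular at the point `P₁`).
-/
import Fermat.Agent.Lib.T4.Reg.TwoDiv

set_option autoImplicit false
set_option linter.unusedSectionVars false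
set_option linter.unusedVariables false

open Polynomial

namespace Fermat.Agent.T4

namespace T4rTwo

variable {A F E k : Type*} [CommRing A] [IsDomain A] [Field F] [Algebra A F] [Field E] [Field k]
  [Algebra k E] (T : T4rTwo A F E k)

/-- `Φ x` as an element of `R₀` -/
def ΦR (x : ↥T.R₁) : ↥T.R₀ := ⟨T.Φ (x : E), T.Φ_mem _ x.2⟩

theorem coe_ΦR (x : ↥T.R₁) : ((T.ΦR x : ↥T.R₀) : E) = T.Φ (x : E) := rfl

/-- `e0 (Φ x) = e1 x` -/
theorem e0_ΦR (x : ↥T.R₁) : T.e0 (T.ΦR x) = T.e1 x := by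
  have h1 : T.e1 (x - algebraMap k ↥T.R₁ (T.e1 x)) = 0 := by
    rw [map_sub, AlgHom.commutes]; simp
  obtain ⟨y, hy⟩ := T.dvd_of_e1 _ h1
  have h2 : T.ΦR x = algebraMap k ↥T.R₀ (T.e1 x) + T.s ^ T.q * T.ε * T.ΦR y := by
    apply Subtype.ext
    have hx : (x : E) = algebraMap k E (T.e1 x) + T.red T.u * (y : E) := by
      have := congrArg (fun z : ↥T.R₁ => (z : E)) hy
      simp only [Subalgebra.coe_sub, Subalgebra.coe_mul, coe_tR] at this
      rw [← this]
      simp
    rw [coe_ΦR, hx, map_add, map_mul, AlgHom.commutes, T.Φ_u]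
    rfl
  rw [h2, map_add, AlgHom.commutes, map_mul, map_mul, map_pow, T.e0_s,
    zero_pow (by have := T.hq; omega), zero_mul, zero_mul, add_zero]
  rfl

variable [IsLocalRing A]

/-- an element of `R₁` which does not vanish at the point is invertible -/
theorem inv_mem_R₁ (x : ↥T.R₁) (hx : T.e1 x ≠ 0) : ((x : E))⁻¹ ∈ T.R₁ := by
  obtain ⟨a, ha⟩ := T.red_surj _ x.2
  -- the kernel of `A → k` is the maximal ideal
  set f : A →+* k := (T.e1 : ↥T.R₁ →+* k).comp T.redR with hf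
  have hsurj : Function.Surjective f := by
    intro c
    obtain ⟨a', ha'⟩ := T.const c
    refine ⟨a', ?_⟩
    have : T.redR a' = algebraMap k ↥T.R₁ c := Subtype.ext ha'
    show T.e1 (T.redR a') = c
    rw [this, AlgHom.commutes]; rfl
  have hmax : (RingHom.ker f).IsMaximal := RingHom.ker_isMaximal_of_surjective f hsurj
  have hker : RingHom.ker f = IsLocalRing.maximalIdeal A := IsLocalRing.eq_maximalIdeal hmax
  have hau : IsUnit a := by
    by_contra hnu
    have : a ∈ IsLocalRing.maximalIdeal A := (IsLocalRing.mem_maximalIdeal a).mpr hnu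
    rw [← hker, RingHom.mem_ker] at this
    apply hx
    have h3 : T.redR a = x := Subtype.ext ha
    rw [← h3]
    exact this
  obtain ⟨a', haa'⟩ := hau.exists_right_inv
  have h4 : T.red a * T.red a' = 1 := by rw [← map_mul, haa', map_one]
  have h5 : ((x : E))⁻¹ = T.red a' := by
    rw [← ha]
    exact inv_eq_of_mul_eq_one_right h4
  rw [h5]
  exact T.red_mem a'

end T4rTwo

namespace T4rTwoD

variable {A F E k : Type*} [CommRing A] [IsDomain A] [Field F] [Algebra A F] [Field E] [Field k]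
  [Algebra k E] {T : T4rTwo A F E k} (Dv : T4rTwoD T)

variable (hqp : T.q.Prime) [CharP E T.q] {v : ↥(integralClosure A F)} {g : E}

include hqp in
/-- the value of `rinf (G'(v))` at the point `P₁` is `(a(P₁) - b)^q` -/
theorem e1_diff_ne (hG : Dv.Gen v g) (b : k) (β : ↥T.R₀)
    (hv : (T.rr v).2 = algebraMap k ↥T.R₀ b + T.s * β) (hne : T.e1 (T.rr v).1 ≠ b) :
    T.e1 (T.rr (t4rDiff v)).1 ≠ 0 := by
  have : Fact T.q.Prime := ⟨hqp⟩
  -- `g` as an element of `R₁`
  set gR : ↥T.R₁ := (T.rr v).1 ^ T.q - (T.rr (t4rDiff v)).1 with hgR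
  have hgE : ((gR : ↥T.R₁) : E) = g := by
    rw [hgR, Subalgebra.coe_sub, Subalgebra.coe_pow, T.rr_fst, T.rr_fst,
      T4rTwoD.rinf_diff hqp v hG.deg g hG.hg hG.hns]
    ring
  have h1 : T.ΦR gR = (T.rr v).2 ^ T.q := by
    apply Subtype.ext
    rw [T.coe_ΦR, hgE, hG.hg, Subalgebra.coe_pow, T.rr_snd]
  have h2 : T.e1 gR = b ^ T.q := by
    rw [← T.e0_ΦR, h1, map_pow, hv, map_add, AlgHom.commutes, map_mul, T.e0_s, zero_mul,
      add_zero]
    rfl
  have h3 : T.e1 (T.rr (t4rDiff v)).1 = T.e1 (T.rr v).1 ^ T.q - b ^ T.q := by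
    have : (T.rr (t4rDiff v)).1 = (T.rr v).1 ^ T.q - gR := by rw [hgR]; ring
    rw [this, map_sub, map_pow, h2]
  rw [h3, sub_ne_zero]
  intro h4
  apply hne
  have h5 : (algebraMap k E (T.e1 (T.rr v).1)) ^ T.q = (algebraMap k E b) ^ T.q := by
    rw [← map_pow (algebraMap k E), ← map_pow (algebraMap k E), h4]
  exact (algebraMap k E).injective (frobenius_inj E T.q h5)

variable [IsLocalRing A]

include hqp in
/-- **the étale-type point**: if `ρinf (d y) = 0` then `d y / q₀` is regular at `P₁` -/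
theorem etale_point (hG : Dv.Gen v g) (b : k) (β : ↥T.R₀)
    (hv : (T.rr v).2 = algebraMap k ↥T.R₀ b + T.s * β) (hne : T.e1 (T.rr v).1 ≠ b)
    (hNG : ¬ ∀ x ∈ T.S, T.e1 x.1 = T.e0 x.2)
    (y : F) (hy : IsIntegral A y) (hdy : Dv.d y ∈ T.Vinf) (h0 : T.ρinf ⟨Dv.d y, hdy⟩ = 0) :
    ∃ o : ↥T.Vinf, Dv.d y = algebraMap A F T.q₀ * (o : F) ∧ T.ρinf o ∈ T.R₁ := by
  obtain ⟨o, ho⟩ := T.ker_inf _ h0
  refine ⟨o, ho, ?_⟩
  -- `z = G'(v) d y ∈ C`
  set z : ↥(integralClosure A F) :=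
    ⟨((t4rDiff v : ↥(integralClosure A F)) : F) * Dv.d y, Dv.diff_d_mem hG.mono y hy⟩ with hz
  have hz0 : T.rinf z = 0 := by
    have h1 : T.toVinf z = T.toVinf (t4rDiff v) * ⟨Dv.d y, hdy⟩ := Subtype.ext rfl
    show T.ρinf (T.toVinf z) = 0
    rw [h1, map_mul, h0, mul_zero]
  obtain ⟨c₁, hc₁⟩ := T.idem_mem_S hNG
  have hc₁1 : T.rinf c₁ = 1 := by
    have := congrArg (fun x : ↥T.R₁ × ↥T.R₀ => ((x.1 : ↥T.R₁) : E)) hc₁
    simpa only [T.rr_fst, OneMemClass.coe_one] using this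
  have hc₁0 : T.r0 c₁ = 0 := by
    have := congrArg (fun x : ↥T.R₁ × ↥T.R₀ => ((x.2 : ↥T.R₀) : E)) hc₁
    simpa only [T.rr_snd, ZeroMemClass.coe_zero] using this
  have hrr : T.rr (z * c₁) = 0 := by
    apply Prod.ext
    · apply Subtype.ext
      rw [T.rr_fst, map_mul, hz0, zero_mul]; rfl
    · apply Subtype.ext
      rw [T.rr_snd, map_mul, hc₁0, mul_zero]; rfl
  obtain ⟨z', hz'⟩ := T.exists_of_rr_eq_zero _ hrr
  -- `G'(v) o c₁ = z'`
  have h2 : ((t4rDiff v : ↥(integralClosure A F)) : F) * (o : F) * (c₁ : F) = (z' : F) := by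
    have h3 := congrArg (fun x : ↥(integralClosure A F) => (x : F)) hz'
    simp only [Subalgebra.coe_mul, hz] at h3
    have h4 : algebraMap A F T.q₀ *
        (((t4rDiff v : ↥(integralClosure A F)) : F) * (o : F) * (c₁ : F)) =
        algebraMap A F T.q₀ * (z' : F) := by
      have h3' : ((t4rDiff v : ↥(integralClosure A F)) : F) * Dv.d y * (c₁ : F) =
          algebraMap A F T.q₀ * (z' : F) := h3
      rw [← h3']
      have ho' : Dv.d y = algebraMap A F T.q₀ * (o : F) := ho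
      rw [ho']; ring
    exact mul_left_cancel₀ T.q₀_ne h4
  have h5 : T.rinf (t4rDiff v) * T.ρinf o = T.rinf z' := by
    have h6 : T.toVinf z' = T.toVinf (t4rDiff v) * o * T.toVinf c₁ := Subtype.ext h2.symm
    show _ = T.ρinf (T.toVinf z')
    rw [h6, map_mul, map_mul]
    have : T.ρinf (T.toVinf c₁) = 1 := hc₁1
    rw [this, mul_one]
    rfl
  have hne0 := Dv.e1_diff_ne hqp hG b β hv hne
  have hinv := T.inv_mem_R₁ _ hne0
  rw [T.rr_fst] at hinv
  have hD0 : T.rinf (t4rDiff v) ≠ 0 := T4rTwoD.rinf_diff_ne hqp v hG.deg g hG.hg hG.hns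
  have h7 : T.ρinf o = T.rinf z' * (T.rinf (t4rDiff v))⁻¹ := by
    rw [← h5]
    field_simp
  rw [h7]
  exact T.R₁.mul_mem (T.rinf_mem z') hinv

end T4rTwoD

end Fermat.Agent.T4
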