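/-
T4-R (helper6): the generator of the semilocal ring `C` over a closed point `𝔫' ∋ q` of level `N'`
and the hypotheses `T4rTwoD.Gen` (monogenic, degree `≤ q + 1`, Frobenius shape, unramified outside
`q`).
-/
import Fermat.Agent.Lib.T4.Reg.LevDer
import Fermat.Agent.Lib.T4.Reg.LevUnr
import Fermat.Agent.Lib.T4.Reg.TwoEt

set_option autoImplicit false
set_option linter.unusedSectionVars false
set_option linter.unusedVariables false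
set_option linter.style.haveILetI false

open Polynomial

namespace Fermat.Agent.T4

namespace T4rLev

variable {L F' F1 E Eh k : Type*} [Field L] [Field F'] [Field F1] [Algebra L F'] [Algebra L F1]
  [Field E] [Field Eh] [Field k] [Algebra k E] (Lv : T4rLev L F' F1 E Eh k)
  (𝔫' : Ideal ↥Lv.P'.B) [h𝔫 : 𝔫'.IsMaximal] (hq : Lv.qB ∈ 𝔫')
  {u : ↥Lv.P'.B} (hu : Lv.IsCoord 𝔫' u)

attribute [local instance] T4rLev.algA T4rLev.algB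

/-- `F1` as an algebra over `F'`, through `α` -/
@[reducible] def algα : Algebra F' F1 := (Lv.α : F' →+* F1).toAlgebra

theorem isScalarTower_AF :
    letI := Lv.algα
    IsScalarTower ↥(Lv.P'.loc 𝔫') F' F1 :=
  letI := Lv.algα
  IsScalarTower.of_algebraMap_eq (fun a => rfl)

include hq in
theorem isFractionRing_A : IsFractionRing ↥(Lv.P'.loc 𝔫') F' :=
  Lv.P'.isFractionRing_loc 𝔫' ⟨Lv.V', Lv.V'_through hq⟩

include hq in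
theorem isIntegrallyClosed_A : IsIntegrallyClosed ↥(Lv.P'.loc 𝔫') := by
  haveI := Lv.isFractionRing_A 𝔫' hq
  refine (isIntegrallyClosed_iff F').mpr fun {x} hx => ?_
  exact ⟨⟨x, Lv.P'.loc_integrallyClosed 𝔫' hx⟩, rfl⟩

include hq in
/-- `C` is finite over `A` -/
theorem finite_C : Module.Finite ↥(Lv.P'.loc 𝔫') ↥(integralClosure ↥(Lv.P'.loc 𝔫') F1) := by
  letI := Lv.algα
  haveI := Lv.isFractionRing_A 𝔫' hq
  haveI := Lv.isIntegrallyClosed_A 𝔫' hq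
  haveI := Lv.isScalarTower_AF 𝔫'
  haveI := Lv.noeth'
  haveI := Lv.P'.isNoetherianRing_loc 𝔫'
  haveI : FiniteDimensional F' F1 := Lv.fin1
  haveI := Lv.charZero'
  exact IsIntegralClosure.finite ↥(Lv.P'.loc 𝔫') F' F1 ↥(integralClosure ↥(Lv.P'.loc 𝔫') F1)

include hq in
/-- the degree of the minimal polynomial over `A` -/
theorem natDegree_minpoly_le (v : F1) (hv : IsIntegral ↥(Lv.P'.loc 𝔫') v) :
    (minpoly ↥(Lv.P'.loc 𝔫') v).natDegree ≤ Lv.q + 1 := by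
  letI := Lv.algα
  haveI := Lv.isFractionRing_A 𝔫' hq
  haveI := Lv.isIntegrallyClosed_A 𝔫' hq
  haveI := Lv.isScalarTower_AF 𝔫'
  haveI : FiniteDimensional F' F1 := Lv.fin1
  have h1 : minpoly F' v = (minpoly ↥(Lv.P'.loc 𝔫') v).map (algebraMap ↥(Lv.P'.loc 𝔫') F') :=
    minpoly.isIntegrallyClosed_eq_field_fractions' F' hv
  have h2 : (minpoly F' v).natDegree = (minpoly ↥(Lv.P'.loc 𝔫') v).natDegree := by
    rw [h1]
    exact (minpoly.monic hv).natDegree_map _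
  rw [← h2]
  exact (minpoly.natDegree_le v).trans Lv.deg1


/-! ### Unramifiedness outside `q` -/

/-- natural numbers prime to `q` are units of `A` -/
theorem natCast_mul_eq_one (m : ℕ) (hm : ¬ Lv.q ∣ m) :
    ∃ a : ↥(Lv.P'.loc 𝔫'), (m : ↥(Lv.P'.loc 𝔫')) * a = 1 := by
  haveI := Lv.char0
  have hm0 : (m : L) ≠ 0 := by
    rw [Nat.cast_ne_zero]
    rintro rfl
    exact hm (dvd_zero _)
  have h1 : algebraMap L F' ((m : L))⁻¹ ∈ Lv.P'.loc 𝔫' :=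
    Lv.P'.B_le_loc 𝔫' (Lv.O_mem _ (Lv.nat_inv m hm))
  refine ⟨⟨_, h1⟩, Subtype.ext ?_⟩
  rw [Subring.coe_mul, Subring.coe_natCast, Subring.coe_one, ← map_natCast (algebraMap L F'),
    ← map_mul, mul_inv_cancel₀ hm0, map_one]

/-- every nonzero natural number divides a power of `q` in `A` -/
theorem natCast_dvd_pow (n : ℕ) (hn : n ≠ 0) :
    ∃ e : ℕ, (n : ↥(Lv.P'.loc 𝔫')) ∣ (Lv.q : ↥(Lv.P'.loc 𝔫')) ^ e := by
  obtain ⟨e, m, hm, rfl⟩ := Nat.exists_eq_pow_mul_and_not_dvd hn Lv.q Lv.hq.ne_one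
  obtain ⟨a, ha⟩ := Lv.natCast_mul_eq_one 𝔫' m hm
  refine ⟨e, a, ?_⟩
  rw [Nat.cast_mul, Nat.cast_pow, mul_assoc, ha, mul_one]

include hq hu in
/-- **unramifiedness outside `q`**: `G'(v) δ = q^e · unit` for a generator `v` of `C` -/
theorem exists_unr (v : ↥(integralClosure ↥(Lv.P'.loc 𝔫') F1))
    (hmono : Algebra.adjoin ↥(Lv.P'.loc 𝔫') {v} = ⊤) :
    ∃ (e : ℕ) (η η' : ↥(Lv.P'.loc 𝔫')) (δ : ↥(integralClosure ↥(Lv.P'.loc 𝔫') F1)),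
      η * η' = 1 ∧ t4rDiff v * δ =
        algebraMap ↥(Lv.P'.loc 𝔫') ↥(integralClosure ↥(Lv.P'.loc 𝔫') F1)
          ((Lv.q : ↥(Lv.P'.loc 𝔫')) ^ e * η) := by
  letI := Lv.algα
  haveI := Lv.isFractionRing_A 𝔫' hq
  haveI := Lv.isScalarTower_AF 𝔫'
  haveI := Lv.ufd_A 𝔫' hq hu
  have hunr : ∀ (π : ↥(Lv.P'.loc 𝔫')) (hπ : Prime π), ¬ π ∣ (Lv.q : ↥(Lv.P'.loc 𝔫')) →
      ∀ V₁ : ValuationSubring F1,
      (∀ x ∈ t4rPrimeVal (K := F') π hπ, algebraMap F' F1 x ∈ V₁) →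
      (algebraMap ↥(Lv.P'.loc 𝔫') F1 π)⁻¹ ∉ V₁ → ∀ y ∈ V₁, y⁻¹ ∉ V₁ →
        y / algebraMap ↥(Lv.P'.loc 𝔫') F1 π ∈ V₁ := by
    intro π hπ hπq V₁ hV hπV
    -- the constants lie in `V₁`
    have hL : ∀ c : L, algebraMap L F1 c ∈ V₁ := by
      intro c
      obtain ⟨n, hn⟩ := Lv.frac_O c
      have hb : algebraMap L F' ((Lv.q : L) ^ n * c) ∈ Lv.P'.loc 𝔫' :=
        Lv.P'.B_le_loc 𝔫' (Lv.O_mem _ hn)
      have h1 : algebraMap F' F1 (algebraMap ↥(Lv.P'.loc 𝔫') F' ⟨_, hb⟩) ∈ V₁ :=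
        hV _ (t4r_algebraMap_mem_primeVal π hπ ⟨_, hb⟩)
      have hπqn : ¬ π ∣ (Lv.q : ↥(Lv.P'.loc 𝔫')) ^ n := fun h => hπq (hπ.dvd_of_dvd_pow h)
      have h2 : algebraMap F' F1
          (algebraMap ↥(Lv.P'.loc 𝔫') F' ((Lv.q : ↥(Lv.P'.loc 𝔫')) ^ n))⁻¹ ∈ V₁ :=
        hV _ (t4r_inv_mem_primeVal π hπ hπqn)
      have h3 : algebraMap L F1 c =
          algebraMap F' F1 (algebraMap ↥(Lv.P'.loc 𝔫') F' ⟨_, hb⟩) *
            algebraMap F' F1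
              (algebraMap ↥(Lv.P'.loc 𝔫') F' ((Lv.q : ↥(Lv.P'.loc 𝔫')) ^ n))⁻¹ := by
        rw [← map_mul, ← Lv.α.commutes c]
        show Lv.α (algebraMap L F' c) = Lv.α _
        congr 1
        rw [map_pow, map_natCast]
        show algebraMap L F' c = algebraMap L F' ((Lv.q : L) ^ n * c) * ((Lv.q : F') ^ n)⁻¹
        rw [map_mul, map_pow, map_natCast]
        have := Lv.q_ne'
        field_simp
      rw [h3]
      exact V₁.mul_mem _ _ h1 h2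
    have hne : V₁ ≠ ⊤ := by
      rintro rfl
      exact hπV (ValuationSubring.mem_top _)
    have hj : Lv.α Lv.j' ∈ V₁ :=
      hV _ (t4r_algebraMap_mem_primeVal π hπ ⟨Lv.j', Lv.P'.B_le_loc 𝔫' Lv.j'_mem⟩)
    obtain ⟨t, ht, hgen⟩ := Lv.unr V₁ hL hne hj
    exact t4rl_hunr (K := F') π hπ V₁ hV hπV t ht hgen
  obtain ⟨e, η, δ, hδ, hmul⟩ := t4r_exists_deriv_mul_eq (K := F') (L := F1)
    (Lv.q : ↥(Lv.P'.loc 𝔫')) (Lv.prime_qA 𝔫' hq) (Lv.natCast_dvd_pow 𝔫') (v : F1) v.2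
    (fun y hy => t4r_mem_adjoin_of_top v hmono y hy) hunr
  have hδi : IsIntegral ↥(Lv.P'.loc 𝔫') δ := _root_.adjoin_le_integralClosure v.2 hδ
  refine ⟨e, (η : ↥(Lv.P'.loc 𝔫')), ((η⁻¹ : (↥(Lv.P'.loc 𝔫'))ˣ) : ↥(Lv.P'.loc 𝔫')), ⟨δ, hδi⟩,
    η.mul_inv, Subtype.ext ?_⟩
  rw [Subalgebra.coe_mul, coe_t4rDiff]
  exact hmul

/-! ### `θ` kills `q`-th powers -/

include Lv in
theorem charP_Eh : CharP Eh Lv.q :=
  haveI := Lv.charE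
  charP_of_injective_ringHom Lv.ι.injective Lv.q

omit h𝔫 in
theorem θ_pow_succ (z : Eh) (n : ℕ) :
    Lv.θ (z ^ (n + 1)) = ((n + 1 : ℕ) : Eh) * z ^ n * Lv.θ z := by
  induction n with
  | zero => simp
  | succ n ih =>
    rw [pow_succ, Lv.θ_mul, ih]
    push_cast
    ring

omit h𝔫 in
theorem θ_pow_q (z : Eh) : Lv.θ (z ^ Lv.q) = 0 := by
  haveI := Lv.charP_Eh
  obtain ⟨n, hn⟩ : ∃ n, Lv.q = n + 1 := ⟨Lv.q - 1, by have := Lv.hq.pos; omega⟩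
  have h1 : ((n + 1 : ℕ) : Eh) = 0 := by
    rw [← hn]; exact CharP.cast_eq_zero Eh Lv.q
  rw [hn, Lv.θ_pow_succ, h1, zero_mul, zero_mul]

omit h𝔫 in
include hu in
/-- `ψ ū` is not in the image of `Φ` -/
theorem Φ_ne_ψ_coord (y : E) : Lv.Φ y ≠ Lv.ψ ((Lv.resB u : ↥Lv.R') : E) := by
  intro h
  have h1 : Lv.θ (Lv.ι (Lv.Φ y)) = 0 := by
    rw [Lv.Φ_eq, map_pow, Lv.θ_pow_q]
  rw [h, Lv.ι_ψ, Lv.θ_ψh] at h1
  exact hu.2.1 ((map_eq_zero Lv.ψh).mp h1)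

/-! ### The generator -/

include hq hu in
/-- **the generator of `C`** -/
theorem exists_gen :
    ∃ v : ↥(integralClosure ↥(Lv.P'.loc 𝔫') F1),
      (Lv.twoD 𝔫' hq hu).Gen v ((Lv.resB u : ↥Lv.R') : E) ∧
      (Lv.two 𝔫' hq hu).r0 v = Lv.ψ ((Lv.resB u : ↥Lv.R') : E) ∧
      ((Lv.two 𝔫' hq hu).rr v).2 =
        algebraMap k ↥(Lv.two 𝔫' hq hu).R₀ 0 + (Lv.two 𝔫' hq hu).s * 1 ∧
      ((∀ x ∈ (Lv.two 𝔫' hq hu).S, (Lv.two 𝔫' hq hu).e1 x.1 = (Lv.two 𝔫' hq hu).e0 x.2) ∨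
        (Lv.two 𝔫' hq hu).e1 ((Lv.two 𝔫' hq hu).rr v).1 ≠ 0) := by
  letI := Lv.P'.isLocalRing_loc 𝔫'
  haveI := Lv.finite_C 𝔫' hq
  obtain ⟨f₀, hf₀⟩ := Lv.resB_surjective
    ⟨Lv.ψ ((Lv.resB u : ↥Lv.R') : E), Lv.ψ_R' _ (Lv.resB u).2⟩
  have hf₀' : ((Lv.resB f₀ : ↥Lv.R') : E) = Lv.ψ ((Lv.resB u : ↥Lv.R') : E) := by rw [hf₀]
  set v₀ : ↥(integralClosure ↥(Lv.P'.loc 𝔫') F1) :=
    ⟨Lv.β (f₀ : F'), Lv.isIntegral_of_mem_B1 𝔫' (Lv.β_B _ f₀.2)⟩ with hv₀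
  have hr0 : (Lv.two 𝔫' hq hu).r0 v₀ = Lv.ψ ((Lv.resB u : ↥Lv.R') : E) := by
    rw [← hf₀']
    exact Lv.ρ0_β (f₀ : F') (Lv.B'_le_V' f₀.2)
  have hsnd : ∀ v : ↥(integralClosure ↥(Lv.P'.loc 𝔫') F1),
      (Lv.two 𝔫' hq hu).r0 v = Lv.ψ ((Lv.resB u : ↥Lv.R') : E) →
      ((Lv.two 𝔫' hq hu).rr v).2 =
        algebraMap k ↥(Lv.two 𝔫' hq hu).R₀ 0 + (Lv.two 𝔫' hq hu).s * 1 := by
    intro v hv
    apply Subtype.ext
    rw [T4rTwo.rr_snd, hv, map_zero, zero_add, mul_one]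
    rfl
  have hβ : (Lv.two 𝔫' hq hu).e0 1 ≠ 0 := by
    rw [map_one]; exact one_ne_zero
  obtain ⟨v', hr0', hmono, hcase⟩ := (Lv.two 𝔫' hq hu).exists_mono
    (Lv.qA_mem_maximalIdeal 𝔫' hq) (Lv.uA_mem_maximalIdeal 𝔫' hu) v₀ 0 1 hβ (hsnd v₀ hr0)
  rw [hr0] at hr0'
  refine ⟨v', ⟨hmono, Lv.natDegree_minpoly_le 𝔫' hq (v' : F1) v'.2, ?_, ?_, ?_,
    Lv.exists_unr 𝔫' hq hu v' hmono⟩, hr0', hsnd v' hr0', hcase⟩
  · rw [hr0']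
    exact Lv.Φ_eq _
  · intro y
    rw [hr0']
    exact Lv.Φ_ne_ψ_coord 𝔫' hu y
  · show Lv.DE 𝔫' hu ((Lv.resB u : ↥Lv.R') : E) ≠ 0
    rw [Lv.coe_resB, Lv.DE_coord 𝔫' hu]
    exact one_ne_zero

end T4rLev

end Fermat.Agent.T4
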