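/-
T4-R (helper6): **REG1-G** for the level bundle `T4rLev`: a closed point `𝔫1` of level `N' q`
through which both vertical branches pass is a node `a * b = q`, with `a ∈ B1` a local equation of
the branch at `∞` and `b ∈ B1_𝔫1` of the branch at `0`.
-/
import Fermat.Agent.Lib.T4.Reg.LevGen
import Fermat.Agent.Lib.T4.Reg.TwoDiv

set_option autoImplicit false
set_option linter.unusedSectionVars false
set_option linter.unusedVariables false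
set_option linter.style.haveILetI false

open Polynomial

namespace Fermat.Agent.T4

namespace T4rLev

variable {L F' F1 E Eh k : Type*} [Field L] [Field F'] [Field F1] [Algebra L F'] [Algebra L F1]
  [Field E] [Field Eh] [Field k] [Algebra k E] (Lv : T4rLev L F' F1 E Eh k)

attribute [local instance] T4rLev.algA T4rLev.algB

/-- `B1` is integral over `B'` (through `α`) -/
theorem αB_isIntegral : Lv.αB.IsIntegral := by
  intro x
  obtain ⟨p, hp, hpx⟩ := Lv.int1 (x : F1) x.2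
  refine ⟨p, hp, Subtype.ext ?_⟩
  have h1 := Polynomial.hom_eval₂ p Lv.αB Lv.P1.B.subtype x
  rw [Subring.coe_zero]
  exact h1.trans hpx

variable (𝔫1 : Ideal ↥Lv.P1.B)

/-- the point of level `N'` below `𝔫1` -/
def under1 : Ideal ↥Lv.P'.B := 𝔫1.comap Lv.αB

theorem mem_under1 {b : ↥Lv.P'.B} : b ∈ Lv.under1 𝔫1 ↔ Lv.αB b ∈ 𝔫1 := Iff.rfl

theorem under1_isMaximal [h𝔫1 : 𝔫1.IsMaximal] : (Lv.under1 𝔫1).IsMaximal :=
  Ideal.isMaximal_comap_of_isIntegral_of_isMaximal' Lv.αB Lv.αB_isIntegral 𝔫1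

theorem qB_mem_under1 (hinf : Lv.Vinf ∈ Lv.P1.through 𝔫1) : Lv.qB ∈ Lv.under1 𝔫1 := by
  rw [mem_under1]
  apply hinf.2
  show Lv.Vinf.valuation (Lv.α (Lv.q : F')) < 1
  rw [map_natCast]
  exact Lv.valinf_q

/-- `α` maps `B'_𝔫'` into `B1_𝔫1` -/
theorem α_mem_loc1 [h𝔫1 : 𝔫1.IsMaximal] {a : F'} (ha : a ∈ Lv.P'.loc (Lv.under1 𝔫1)) :
    Lv.α a ∈ Lv.P1.loc 𝔫1 := by
  haveI := Lv.under1_isMaximal 𝔫1
  obtain ⟨c, hc, hca⟩ := Lv.P'.mem_loc_iff.mp ha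
  intro V hV
  have h1 : V.valuation (Lv.α (c : F')) = 1 :=
    Lv.P1.valuation_eq_one_of_not_mem hV (c := Lv.αB c) hc
  have h2 : Lv.α ((c : F') * a) ∈ V := Lv.P1.B_le hV.1 (Lv.α_B _ hca)
  rw [← V.valuation_le_one_iff, map_mul, map_mul, h1, one_mul] at h2
  exact (V.valuation_le_one_iff _).mp h2

/-- the semilocal ring `C` lies in `B1_𝔫1` -/
theorem C_le_loc1 [h𝔫1 : 𝔫1.IsMaximal] {c : F1}
    (hc : IsIntegral ↥(Lv.P'.loc (Lv.under1 𝔫1)) c) :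
    c ∈ Lv.P1.loc 𝔫1 := by
  apply Lv.P1.loc_integrallyClosed 𝔫1
  obtain ⟨p, hp, hpc⟩ := hc
  let φ : ↥(Lv.P'.loc (Lv.under1 𝔫1)) →+* ↥(Lv.P1.loc 𝔫1) :=
    ((Lv.α : F' →+* F1).comp (Lv.P'.loc (Lv.under1 𝔫1)).subtype).codRestrict (Lv.P1.loc 𝔫1)
      (fun a => Lv.α_mem_loc1 𝔫1 a.2)
  refine ⟨p.map φ, hp.map φ, ?_⟩
  rw [Polynomial.eval₂_map]
  exact hpc

/-- a unit of a valuation ring, from a product -/
theorem _root_.Fermat.Agent.T4.t4rl_valuation_eq_one_of_mul {K : Type*} [Field K]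
    (V : ValuationSubring K) {x y : K} (hx : x ∈ V) (hy : y ∈ V) (hxy : x * y = 1) :
    V.valuation x = 1 ∧ V.valuation y = 1 := by
  have h1 : V.valuation x ≤ 1 := (V.valuation_le_one_iff _).mpr hx
  have h2 : V.valuation y ≤ 1 := (V.valuation_le_one_iff _).mpr hy
  have h3 : V.valuation x * V.valuation y = 1 := by rw [← map_mul, hxy, map_one]
  constructor
  · rcases lt_or_eq_of_le h1 with h | h
    · exfalso
      have : V.valuation x * V.valuation y < 1 :=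
        lt_of_le_of_lt (mul_le_of_le_one_right zero_le h2) h
      exact absurd h3 this.ne
    · exact h
  · rcases lt_or_eq_of_le h2 with h | h
    · exfalso
      have : V.valuation x * V.valuation y < 1 :=
        lt_of_le_of_lt (mul_le_of_le_one_left zero_le h1) h
      exact absurd h3 this.ne
    · exact h

/-- **REG1-G**: a closed point of level `N' q` through which both vertical branches pass is a node
`a * b = q` -/
theorem reg1_G (h𝔫1 : 𝔫1.IsMaximal) (hinf : Lv.Vinf ∈ Lv.P1.through 𝔫1)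
    (h0 : Lv.V0 ∈ Lv.P1.through 𝔫1) :
    ∃ a b : F1, a ∈ Lv.P1.B ∧ b ∈ Lv.P1.loc 𝔫1 ∧
      (∀ V ∈ Lv.P1.through 𝔫1, V.valuation (a * b) = V.valuation (Lv.q : F1)) ∧
      Lv.Vinf.valuation a = Lv.Vinf.valuation (Lv.q : F1) ∧ Lv.V0.valuation a = 1 ∧
      Lv.Vinf.valuation b = 1 ∧ Lv.V0.valuation b = Lv.V0.valuation (Lv.q : F1) := by
  haveI := h𝔫1
  haveI h𝔫' := Lv.under1_isMaximal 𝔫1
  have hq := Lv.qB_mem_under1 𝔫1 hinf
  obtain ⟨u, hu⟩ := Lv.exists_isCoord (Lv.under1 𝔫1) hq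
  obtain ⟨v, hG, hr0, hsnd, hcase⟩ := Lv.exists_gen (Lv.under1 𝔫1) hq hu
  haveI : CharP E (Lv.two (Lv.under1 𝔫1) hq hu).q := Lv.charE
  have hqp : (Lv.two (Lv.under1 𝔫1) hq hu).q.Prime := Lv.hq
  obtain ⟨o, ho⟩ := (Lv.twoD (Lv.under1 𝔫1) hq hu).exists_q₀_eq_mul hqp hG
  have hrinf := T4rTwoD.rinf_diff_ne (T := Lv.two (Lv.under1 𝔫1) hq hu) hqp v hG.deg _ hG.hg hG.hns
  have hr0d := T4rTwoD.r0_diff (T := Lv.two (Lv.under1 𝔫1) hq hu) hqp v hG.deg _ hG.hg hG.hns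
  -- notation
  set D0 : F1 := ((t4rDiff v : ↥(integralClosure ↥(Lv.P'.loc (Lv.under1 𝔫1)) F1)) : F1) with hD0
  have hD0int : IsIntegral ↥(Lv.P'.loc (Lv.under1 𝔫1)) D0 := (t4rDiff v).2
  have hD0inf : D0 ∈ Lv.Vinf := (Lv.two (Lv.under1 𝔫1) hq hu).mem_Vinf hD0int
  have hD00 : D0 ∈ Lv.V0 := (Lv.two (Lv.under1 𝔫1) hq hu).mem_V0 hD0int
  have hoinf : (o : F1) ∈ Lv.Vinf := (Lv.two (Lv.under1 𝔫1) hq hu).mem_Vinf o.2
  have ho0 : (o : F1) ∈ Lv.V0 := (Lv.two (Lv.under1 𝔫1) hq hu).mem_V0 o.2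
  -- `q = D0 * o`
  have hqDo : (Lv.q : F1) = D0 * (o : F1) := by
    have := congrArg (fun x : ↥(integralClosure ↥(Lv.P'.loc (Lv.under1 𝔫1)) F1) => (x : F1)) ho
    simp only [Subalgebra.coe_mul] at this
    rw [hD0, ← this]
    exact (Lv.algebraMap_q (Lv.under1 𝔫1)).symm
  -- valuations at `∞`
  have hvDinf : Lv.Vinf.valuation D0 = 1 := by
    have h1 : Lv.Vinf.valuation D0 ≤ 1 := (Lv.Vinf.valuation_le_one_iff _).mpr hD0inf
    rcases lt_or_eq_of_le h1 with h | h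
    · exact absurd ((Lv.valinf_lt_one_iff ⟨D0, hD0inf⟩).mp h) hrinf
    · exact h
  have hvoinf : Lv.Vinf.valuation (o : F1) = Lv.Vinf.valuation (Lv.q : F1) := by
    rw [hqDo, map_mul, hvDinf, one_mul]
  -- valuations at `0`
  obtain ⟨y, hy⟩ := Lv.ker_0 ⟨D0, hD00⟩ hr0d
  have hy' : D0 = (Lv.q : F1) * (y : F1) := hy
  have hyo : (y : F1) * (o : F1) = 1 := by
    have h1 : (Lv.q : F1) * 1 = (Lv.q : F1) * ((y : F1) * (o : F1)) := by
      rw [mul_one, ← mul_assoc, ← hy']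
      exact hqDo
    exact (mul_left_cancel₀ Lv.q_ne1 h1).symm
  obtain ⟨hvy, hvo0⟩ := t4rl_valuation_eq_one_of_mul Lv.V0 y.2 ho0 hyo
  have hvD0 : Lv.V0.valuation D0 = Lv.V0.valuation (Lv.q : F1) := by
    rw [hy', map_mul, hvy, mul_one]
  -- denominators
  obtain ⟨s, hs, hso⟩ := Lv.exists_mul_mem_B1 (Lv.under1 𝔫1) o.2
  have hs1 : Lv.αB s ∉ 𝔫1 := hs
  have hs0 : Lv.α (s : F') ≠ 0 := by
    intro h
    apply hs
    have : s = 0 := Subtype.ext ((map_eq_zero Lv.α).mp h)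
    rw [this]; exact Ideal.zero_mem _
  have hvsinf : Lv.Vinf.valuation (Lv.α (s : F')) = 1 :=
    Lv.P1.valuation_eq_one_of_not_mem hinf (c := Lv.αB s) hs1
  have hvs0 : Lv.V0.valuation (Lv.α (s : F')) = 1 :=
    Lv.P1.valuation_eq_one_of_not_mem h0 (c := Lv.αB s) hs1
  have hsinv : (Lv.α (s : F'))⁻¹ ∈ Lv.P1.loc 𝔫1 := t4rl_inv_mem_loc Lv.P1 (c := Lv.αB s) hs1
  refine ⟨Lv.α (s : F') * (o : F1), D0 * (Lv.α (s : F'))⁻¹, hso,
    (Lv.P1.loc 𝔫1).mul_mem (Lv.C_le_loc1 𝔫1 hD0int) hsinv, ?_, ?_, ?_, ?_, ?_⟩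
  · intro V hV
    congr 1
    rw [hqDo]
    field_simp
  · rw [map_mul, hvsinf, one_mul, hvoinf]
  · rw [map_mul, hvs0, one_mul, hvo0]
  · rw [map_mul, map_inv₀, hvsinf, inv_one, mul_one, hvDinf]
  · rw [map_mul, map_inv₀, hvs0, inv_one, mul_one, hvD0]

end T4rLev

end Fermat.Agent.T4
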