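/-
T4-R (helper6): **REG1-M** for the level bundle `T4rLev`: at a closed point `𝔫' ∋ q` of level `N'`
over which the two vertical branches of level `N' q` are NOT glued, the function
`(θ ū)^(q-1)` (`u` a local coordinate) is the reduction of a unit of the local ring `B'_𝔫'`.
-/
import Fermat.Agent.Lib.T4.Reg.LevMainG
import Fermat.Agent.Lib.T4.Reg.TwoEt

set_option autoImplicit false
set_option linter.unusedSectionVars false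
set_option linter.unusedVariables false
set_option linter.style.haveILetI false

open Polynomial

namespace Fermat.Agent.T4

namespace T4rLev

variable {L F' F1 E Eh k : Type*} [Field L] [Field F'] [Field F1] [Algebra L F'] [Algebra L F1]
  [Field E] [Field Eh] [Field k] [Algebra k E] (Lv : T4rLev L F' F1 E Eh k)
  (𝔫' : Ideal ↥Lv.P'.B) [h𝔫 : 𝔫'.IsMaximal] (hq : Lv.qB ∈ 𝔫')
  {u : ↥Lv.P'.B} (hu : Lv.IsCoord 𝔫' u)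

attribute [local instance] T4rLev.algA T4rLev.algB

/-- `B1 → C` -/
def toC : ↥Lv.P1.B →+* ↥(integralClosure ↥(Lv.P'.loc 𝔫') F1) :=
  (Lv.P1.B.subtype).codRestrict (integralClosure ↥(Lv.P'.loc 𝔫') F1)
    (fun b => Lv.isIntegral_of_mem_B1 𝔫' b.2)

omit h𝔫 in
theorem coe_toC (b : ↥Lv.P1.B) : ((Lv.toC 𝔫' b : ↥(integralClosure ↥(Lv.P'.loc 𝔫') F1)) : F1) = b :=
  rfl

/-- the evaluation of `B1` at the point of the branch at `∞` over `𝔫'` -/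
noncomputable def evInf : ↥Lv.P1.B →+* k :=
  ((Lv.two 𝔫' hq hu).e1 : ↥(Lv.two 𝔫' hq hu).R₁ →+* k).comp
    ((RingHom.fst _ _).comp ((Lv.two 𝔫' hq hu).rr.comp (Lv.toC 𝔫')))

theorem evInf_apply (b : ↥Lv.P1.B) :
    Lv.evInf 𝔫' hq hu b = (Lv.two 𝔫' hq hu).e1 ((Lv.two 𝔫' hq hu).rr (Lv.toC 𝔫' b)).1 := rfl

theorem rr_toC_fst (b : ↥Lv.P1.B) :
    ((((Lv.two 𝔫' hq hu).rr (Lv.toC 𝔫' b)).1 : ↥(Lv.two 𝔫' hq hu).R₁) : E) =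
      Lv.ρinf ⟨(b : F1), Lv.B1_le_Vinf b.2⟩ := rfl

theorem rr_toC_snd (b : ↥Lv.P1.B) :
    ((((Lv.two 𝔫' hq hu).rr (Lv.toC 𝔫' b)).2 : ↥(Lv.two 𝔫' hq hu).R₀) : E) =
      Lv.ρ0 ⟨(b : F1), Lv.B1_le_V0 b.2⟩ := rfl

theorem rr_toC_αB (b : ↥Lv.P'.B) :
    ((Lv.two 𝔫' hq hu).rr (Lv.toC 𝔫' (Lv.αB b))).1 = Lv.redR₁ 𝔫' hq (Lv.P'.locIncl 𝔫' b) := by
  apply Subtype.ext
  rw [Lv.rr_toC_fst]
  exact Lv.ρinf_α (b : F') (Lv.B'_le_V' b.2)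

theorem evInf_surjective : Function.Surjective (Lv.evInf 𝔫' hq hu) := by
  intro κ
  obtain ⟨c₀, rfl⟩ := Lv.π_surj κ
  refine ⟨Lv.αB (Lv.cB c₀), ?_⟩
  rw [Lv.evInf_apply, Lv.rr_toC_αB]
  have h1 : Lv.redR₁ 𝔫' hq (Lv.P'.locIncl 𝔫' (Lv.cB c₀)) =
      algebraMap k ↥(Lv.R₁ 𝔫' hq) (Lv.π c₀) := by
    apply Subtype.ext
    rw [Lv.coe_redR₁, Lv.red_locIncl, Lv.resB_cB]
    rfl
  rw [h1]
  exact ((Lv.two 𝔫' hq hu).e1).commutes (Lv.π c₀)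

theorem evInf_αB_of_mem (b : ↥Lv.P'.B) (hb : b ∈ 𝔫') : Lv.evInf 𝔫' hq hu (Lv.αB b) = 0 := by
  letI := Lv.P'.isLocalRing_loc 𝔫'
  rw [Lv.evInf_apply, Lv.rr_toC_αB]
  have hmem : Lv.P'.locIncl 𝔫' b ∈ IsLocalRing.maximalIdeal ↥(Lv.P'.loc 𝔫') := by
    rw [Lv.P'.mem_maximalIdeal_loc_iff]
    exact ⟨b, 1, hb, (Ideal.ne_top_iff_one 𝔫').mp h𝔫.ne_top, by simp [T4Pres.coe_locIncl]⟩
  obtain ⟨a₁, a₂, h12⟩ := Lv.exists_of_mem_maximalIdeal 𝔫' hu.2.2 _ hmem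
  refine (Lv.e1_eq_zero_iff 𝔫' hq hu _).mpr ⟨Lv.redR₁ 𝔫' hq a₂, ?_⟩
  apply Subtype.ext
  rw [h12, Subalgebra.coe_mul, Lv.coe_redR₁, Lv.coe_redR₁, map_add, map_mul, map_mul, Lv.red_q,
    zero_mul, zero_add]
  rfl

/-- **a glued point**: if the two branches are glued over `𝔫'`, there is a closed point of level
`N' q` over `𝔫'` through which both vertical valuation rings pass -/
theorem exists_glued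
    (hglue : ∀ x ∈ (Lv.two 𝔫' hq hu).S, (Lv.two 𝔫' hq hu).e1 x.1 = (Lv.two 𝔫' hq hu).e0 x.2) :
    ∃ 𝔫1 : Ideal ↥Lv.P1.B, 𝔫1.IsMaximal ∧ Lv.Vinf ∈ Lv.P1.through 𝔫1 ∧
      Lv.V0 ∈ Lv.P1.through 𝔫1 ∧ 𝔫1.comap Lv.αB = 𝔫' := by
  have hmax : (RingHom.ker (Lv.evInf 𝔫' hq hu)).IsMaximal :=
    RingHom.ker_isMaximal_of_surjective _ (Lv.evInf_surjective 𝔫' hq hu)
  refine ⟨RingHom.ker (Lv.evInf 𝔫' hq hu), hmax, ⟨Lv.Vinf_mem, ?_⟩, ⟨Lv.V0_mem, ?_⟩, ?_⟩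
  · intro b hb
    rw [RingHom.mem_ker, Lv.evInf_apply]
    have h0 : Lv.ρinf ⟨(b : F1), Lv.B1_le_Vinf b.2⟩ = 0 := (Lv.valinf_lt_one_iff _).mp hb
    have h1 : ((Lv.two 𝔫' hq hu).rr (Lv.toC 𝔫' b)).1 = 0 := by
      apply Subtype.ext
      rw [Lv.rr_toC_fst, h0]
      rfl
    rw [h1, map_zero]
  · intro b hb
    rw [RingHom.mem_ker, Lv.evInf_apply, hglue _ ((Lv.two 𝔫' hq hu).rr_mem_S _)]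
    have h0 : Lv.ρ0 ⟨(b : F1), Lv.B1_le_V0 b.2⟩ = 0 := (Lv.val0_lt_one_iff _).mp hb
    have h1 : ((Lv.two 𝔫' hq hu).rr (Lv.toC 𝔫' b)).2 = 0 := by
      apply Subtype.ext
      rw [Lv.rr_toC_snd, h0]
      rfl
    rw [h1, map_zero]
  · symm
    apply h𝔫.eq_of_le (Ideal.comap_ne_top _ hmax.ne_top)
    intro b hb
    rw [Ideal.mem_comap, RingHom.mem_ker]
    exact Lv.evInf_αB_of_mem 𝔫' hq hu b hb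

/-! ### The two regularity statements for `(θ ū)^(q-1)` -/

omit h𝔫 in
/-- `θ ū = ψh (θ (ψ⁻¹ ū))` -/
theorem θ_ψ_symm (x : E) : Lv.ψh (Lv.θ (Lv.ι (Lv.ψ.symm x))) = Lv.θ (Lv.ι x) := by
  rw [← Lv.θ_ψh, ← Lv.ι_ψ, RingEquiv.apply_symm_apply]

include hq hu in
/-- **(b)**: `(θ ū)^(1-q)` is regular at the point: it is the reduction of an element of `A` -/
theorem exists_red_inv :
    ∃ a : ↥(Lv.P'.loc 𝔫'), Lv.ι (Lv.red 𝔫' hq a) *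
      Lv.θ (Lv.ι ((Lv.resB u : ↥Lv.R') : E)) ^ (Lv.q - 1) = 1 := by
  obtain ⟨v, hG, hr0, hsnd, hcase⟩ := Lv.exists_gen 𝔫' hq hu
  haveI : CharP E (Lv.two 𝔫' hq hu).q := Lv.charE
  have hqp : (Lv.two 𝔫' hq hu).q.Prime := Lv.hq
  have hw : Lv.θ (Lv.ι ((Lv.resB u : ↥Lv.R') : E)) ≠ 0 := hu.2.1
  obtain ⟨f₂, hf₂⟩ := Lv.resB_surjective
    ⟨Lv.ψ ((Lv.resB u : ↥Lv.R') : E), Lv.ψ_R' _ (Lv.resB u).2⟩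
  have hf₂' : Lv.res' ⟨(f₂ : F'), Lv.B'_le_V' f₂.2⟩ = Lv.ψ ((Lv.resB u : ↥Lv.R') : E) := by
    rw [← Lv.coe_resB, hf₂]
  have hint : IsIntegral ↥(Lv.P'.loc 𝔫') (Lv.β (f₂ : F')) :=
    Lv.isIntegral_of_mem_B1 𝔫' (Lv.β_B _ f₂.2)
  have hc := (Lv.twoD 𝔫' hq hu).q₀_d_mem hqp hG (Lv.β (f₂ : F')) hint
  have hcR₀ := (Lv.two 𝔫' hq hu).r0_mem ⟨_, hc⟩
  obtain ⟨h, hh⟩ := Lv.dα_0 (u : F') (Lv.B'_le_V' u.2) (Lv.θ_coord 𝔫' hu) (Lv.β (f₂ : F'))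
    (Lv.β_0 _ (Lv.B'_le_V' f₂.2))
  rw [Lv.ρ0_β (f₂ : F') (Lv.B'_le_V' f₂.2), hf₂', Lv.ι_ψ, Lv.θ_ψh] at hh
  -- the element of `R₁`
  set x₀ : E := Lv.ρ0 ⟨(Lv.q : F1) * Lv.dα (u : F') (Lv.β (f₂ : F')), h⟩ with hx₀
  have hceq : algebraMap ↥(Lv.P'.loc 𝔫') F1 (Lv.two 𝔫' hq hu).q₀ *
      (Lv.twoD 𝔫' hq hu).d (Lv.β (f₂ : F')) =
      (Lv.q : F1) * Lv.dα (u : F') (Lv.β (f₂ : F')) := by
    show algebraMap ↥(Lv.P'.loc 𝔫') F1 (Lv.q : ↥(Lv.P'.loc 𝔫')) *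
      Lv.dα (u : F') (Lv.β (f₂ : F')) = _
    rw [Lv.algebraMap_q]
  have hx₀R : x₀ ∈ Lv.R₀ 𝔫' hq := by
    have h1 : x₀ = (Lv.two 𝔫' hq hu).r0 ⟨_, hc⟩ := by
      show Lv.ρ0 _ = Lv.ρ0 _
      congr 1
      exact Subtype.ext hceq.symm
    rw [h1]
    exact hcR₀
  obtain ⟨a, ha⟩ : Lv.ψ.symm x₀ ∈ Lv.R₁ 𝔫' hq := hx₀R
  refine ⟨a, ?_⟩
  rw [ha]
  -- apply `ψh`
  apply Lv.ψh.injective
  rw [map_mul, map_pow, map_one, ← Lv.ι_ψ, RingEquiv.apply_symm_apply]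
  have hw' : Lv.ψh (Lv.θ (Lv.ι ((Lv.resB u : ↥Lv.R') : E))) ≠ 0 :=
    (map_ne_zero Lv.ψh).mpr hw
  have hq1 : Lv.q = (Lv.q - 1) + 1 := by have := Lv.hq.pos; omega
  have h2 : Lv.ι x₀ * Lv.ψh (Lv.θ (Lv.ι ((Lv.resB u : ↥Lv.R') : E))) ^ (Lv.q - 1) *
      Lv.ψh (Lv.θ (Lv.ι ((Lv.resB u : ↥Lv.R') : E))) =
      1 * Lv.ψh (Lv.θ (Lv.ι ((Lv.resB u : ↥Lv.R') : E))) := by
    rw [one_mul, mul_assoc, ← pow_succ, ← hq1]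
    exact hh
  exact mul_right_cancel₀ hw' h2

include hq hu in
/-- **(a)**: in the non-glued case `(θ ū)^(q-1)` is regular at the point -/
theorem exists_red_pow
    (hNG : ¬ ∀ x ∈ (Lv.two 𝔫' hq hu).S, (Lv.two 𝔫' hq hu).e1 x.1 = (Lv.two 𝔫' hq hu).e0 x.2) :
    ∃ a : ↥(Lv.P'.loc 𝔫'), Lv.ι (Lv.red 𝔫' hq a) =
      Lv.θ (Lv.ι ((Lv.resB u : ↥Lv.R') : E)) ^ (Lv.q - 1) := by
  letI := Lv.P'.isLocalRing_loc 𝔫'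
  obtain ⟨v, hG, hr0, hsnd, hcase⟩ := Lv.exists_gen 𝔫' hq hu
  haveI : CharP E (Lv.two 𝔫' hq hu).q := Lv.charE
  have hqp : (Lv.two 𝔫' hq hu).q.Prime := Lv.hq
  have hw : Lv.θ (Lv.ι ((Lv.resB u : ↥Lv.R') : E)) ≠ 0 := hu.2.1
  have hne := hcase.resolve_left hNG
  obtain ⟨f₁, hf₁⟩ := Lv.resB_surjective
    ⟨Lv.ψ.symm ((Lv.resB u : ↥Lv.R') : E), Lv.ψ_symm_R' _ (Lv.resB u).2⟩
  have hf₁' : Lv.res' ⟨(f₁ : F'), Lv.B'_le_V' f₁.2⟩ = Lv.ψ.symm ((Lv.resB u : ↥Lv.R') : E) := by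
    rw [← Lv.coe_resB, hf₁]
  have hint : IsIntegral ↥(Lv.P'.loc 𝔫') (Lv.β (f₁ : F')) :=
    Lv.isIntegral_of_mem_B1 𝔫' (Lv.β_B _ f₁.2)
  obtain ⟨g, hg, hdg, hgg⟩ := Lv.dα_β (u : F') (Lv.B'_le_V' u.2) (Lv.θ_coord 𝔫' hu) (f₁ : F')
    (Lv.B'_le_V' f₁.2)
  rw [hf₁', Lv.θ_ψ_symm] at hgg
  -- `d y = q g`
  have hqinf : (Lv.q : F1) ∈ Lv.Vinf := Lv.B1_le_Vinf Lv.q_mem_B1
  have hdy : Lv.dα (u : F') (Lv.β (f₁ : F')) ∈ Lv.Vinf := by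
    rw [hdg]
    exact Lv.Vinf.mul_mem _ _ hqinf hg
  have h0 : Lv.ρinf ⟨Lv.dα (u : F') (Lv.β (f₁ : F')), hdy⟩ = 0 := by
    have h1 : (⟨Lv.dα (u : F') (Lv.β (f₁ : F')), hdy⟩ : ↥Lv.Vinf) =
        ⟨(Lv.q : F1), hqinf⟩ * ⟨g, hg⟩ := Subtype.ext hdg
    rw [h1, map_mul, Lv.ρinf_q, zero_mul]
  obtain ⟨o, ho, hoR⟩ := (Lv.twoD 𝔫' hq hu).etale_point hqp hG 0 1 hsnd hne hNG
    (Lv.β (f₁ : F')) hint hdy h0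
  have hog : o = ⟨g, hg⟩ := by
    apply Subtype.ext
    have h1 : (Lv.q : F1) * (o : F1) = (Lv.q : F1) * g := by
      rw [← hdg, ← Lv.algebraMap_q 𝔫']
      exact ho.symm
    exact mul_left_cancel₀ Lv.q_ne1 h1
  rw [hog] at hoR
  obtain ⟨a, ha⟩ : Lv.ρinf ⟨g, hg⟩ ∈ Lv.R₁ 𝔫' hq := hoR
  refine ⟨a, ?_⟩
  rw [ha]
  have hq1 : Lv.q = (Lv.q - 1) + 1 := by have := Lv.hq.pos; omega
  have h2 : Lv.ι (Lv.ρinf ⟨g, hg⟩) * Lv.θ (Lv.ι ((Lv.resB u : ↥Lv.R') : E)) =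
      Lv.θ (Lv.ι ((Lv.resB u : ↥Lv.R') : E)) ^ (Lv.q - 1) *
        Lv.θ (Lv.ι ((Lv.resB u : ↥Lv.R') : E)) := by
    rw [← pow_succ, ← hq1]
    exact hgg
  exact mul_right_cancel₀ hw h2

/-! ### REG1-M -/

include hq hu in
/-- the unit of `A` reducing to `(θ ū)^(q-1)`, for a given local coordinate -/
theorem exists_unit_pow
    (hNG : ¬ ∀ x ∈ (Lv.two 𝔫' hq hu).S, (Lv.two 𝔫' hq hu).e1 x.1 = (Lv.two 𝔫' hq hu).e0 x.2) :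
    ∃ e e' : ↥(Lv.P'.loc 𝔫'), e * e' = 1 ∧ Lv.ι (Lv.red 𝔫' hq e) =
      Lv.θ (Lv.ι ((Lv.resB u : ↥Lv.R') : E)) ^ (Lv.q - 1) := by
  letI := Lv.P'.isLocalRing_loc 𝔫'
  obtain ⟨e, he⟩ := Lv.exists_red_pow 𝔫' hq hu hNG
  obtain ⟨e₀, he₀⟩ := Lv.exists_red_inv 𝔫' hq hu
  -- `red (e₀ e) = 1`
  have h1 : Lv.red 𝔫' hq (e₀ * e - 1) = 0 := by
    apply Lv.ι.injective
    rw [map_sub, map_mul, map_one, map_sub, map_mul, map_one, map_zero, he, he₀, sub_self]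
  obtain ⟨a', ha'⟩ := Lv.exists_of_red_eq_zero 𝔫' hq _ h1
  have hunit : IsUnit (1 + (Lv.q : ↥(Lv.P'.loc 𝔫')) * a') := by
    by_contra hnu
    have h2 : 1 + (Lv.q : ↥(Lv.P'.loc 𝔫')) * a' ∈ IsLocalRing.maximalIdeal ↥(Lv.P'.loc 𝔫') :=
      (IsLocalRing.mem_maximalIdeal _).mpr hnu
    have h3 : (1 : ↥(Lv.P'.loc 𝔫')) ∈ IsLocalRing.maximalIdeal ↥(Lv.P'.loc 𝔫') := by
      have : (1 : ↥(Lv.P'.loc 𝔫')) = (1 + (Lv.q : ↥(Lv.P'.loc 𝔫')) * a') -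
          (Lv.q : ↥(Lv.P'.loc 𝔫')) * a' := by ring
      rw [this]
      exact Ideal.sub_mem _ h2 (Ideal.mul_mem_right _ _ (Lv.qA_mem_maximalIdeal 𝔫' hq))
    exact (Ideal.ne_top_iff_one _).mp (IsLocalRing.maximalIdeal.isMaximal _).ne_top h3
  obtain ⟨w, hw⟩ := hunit.exists_right_inv
  refine ⟨e, e₀ * w, ?_, he⟩
  have h4 : e₀ * e = 1 + (Lv.q : ↥(Lv.P'.loc 𝔫')) * a' := by rw [← ha']; ring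
  calc e * (e₀ * w) = (e₀ * e) * w := by ring
    _ = 1 := by rw [h4, hw]

omit h𝔫 in
/-- **REG1-M**: at a closed point `𝔫' ∋ q` of level `N'` over which no closed point of level
`N' q` lies on both vertical components, there are `f ∈ B'` with `θ f̄ ≠ 0` and a unit `e` of the
local ring `B'_𝔫'` with `ē = (θ f̄)^(q-1)` -/
theorem reg1_M (h𝔫' : 𝔫'.IsMaximal) (hq : Lv.qB ∈ 𝔫')
    (hNG : ¬ ∃ 𝔫1 : Ideal ↥Lv.P1.B, 𝔫1.IsMaximal ∧ Lv.Vinf ∈ Lv.P1.through 𝔫1 ∧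
      Lv.V0 ∈ Lv.P1.through 𝔫1 ∧ 𝔫1.comap Lv.αB = 𝔫') :
    ∃ (f : F') (hf : f ∈ Lv.P'.B) (e e' : F') (he : e ∈ Lv.P'.loc 𝔫') (he' : e' ∈ Lv.P'.loc 𝔫'),
      (⟨f, hf⟩ : ↥Lv.P'.B) ∈ 𝔫' ∧ e * e' = 1 ∧
      Lv.θ (Lv.ι (Lv.res' ⟨f, Lv.B'_le_V' hf⟩)) ≠ 0 ∧
      Lv.ι (Lv.res' ⟨e, Lv.loc_le_V' 𝔫' hq he⟩) =
        Lv.θ (Lv.ι (Lv.res' ⟨f, Lv.B'_le_V' hf⟩)) ^ (Lv.q - 1) := by
  haveI := h𝔫'
  obtain ⟨u, hu⟩ := Lv.exists_isCoord 𝔫' hq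
  have hNG' : ¬ ∀ x ∈ (Lv.two 𝔫' hq hu).S,
      (Lv.two 𝔫' hq hu).e1 x.1 = (Lv.two 𝔫' hq hu).e0 x.2 :=
    fun hglue => hNG (Lv.exists_glued 𝔫' hq hu hglue)
  obtain ⟨e, e', hee', he⟩ := Lv.exists_unit_pow 𝔫' hq hu hNG'
  refine ⟨(u : F'), u.2, (e : F'), (e' : F'), e.2, e'.2, hu.1, ?_, hu.2.1, he⟩
  have := congrArg (fun t : ↥(Lv.P'.loc 𝔫') => (t : F')) hee'
  simpa using this

omit h𝔫 in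
/-- **REG1-M**, with the non-gluedness hypothesis in elementwise form -/
theorem reg1_M' (h𝔫' : 𝔫'.IsMaximal) (hq : Lv.qB ∈ 𝔫')
    (hNG : ¬ ∃ 𝔫1 : Ideal ↥Lv.P1.B, 𝔫1.IsMaximal ∧ Lv.Vinf ∈ Lv.P1.through 𝔫1 ∧
      Lv.V0 ∈ Lv.P1.through 𝔫1 ∧ ∀ (b : F') (hb : b ∈ Lv.P'.B),
        ((⟨b, hb⟩ : ↥Lv.P'.B) ∈ 𝔫' ↔ (⟨Lv.α b, Lv.α_B b hb⟩ : ↥Lv.P1.B) ∈ 𝔫1)) :
    ∃ (f : F') (hf : f ∈ Lv.P'.B) (e e' : F') (he : e ∈ Lv.P'.loc 𝔫') (he' : e' ∈ Lv.P'.loc 𝔫'),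
      (⟨f, hf⟩ : ↥Lv.P'.B) ∈ 𝔫' ∧ e * e' = 1 ∧
      Lv.θ (Lv.ι (Lv.res' ⟨f, Lv.B'_le_V' hf⟩)) ≠ 0 ∧
      Lv.ι (Lv.res' ⟨e, Lv.loc_le_V' 𝔫' hq he⟩) =
        Lv.θ (Lv.ι (Lv.res' ⟨f, Lv.B'_le_V' hf⟩)) ^ (Lv.q - 1) := by
  refine Lv.reg1_M 𝔫' h𝔫' hq ?_
  rintro ⟨𝔫1, h1, h2, h3, h4⟩
  refine hNG ⟨𝔫1, h1, h2, h3, fun b hb => ?_⟩
  rw [← h4]
  rfl

end T4rLev

end Fermat.Agent.T4
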