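/-
T4-R (helper6): **REG1-M in terms of a point of level `N' q`**: a closed point `𝔫1` of level `N' q`
which lies on the vertical component at `∞` but NOT on the one at `0` lies over a non-glued point
`𝔫'` of level `N'`; hence `(θ f̄)^(q-1)` is the reduction of a unit of `B'_𝔫'` (`reg1_M1`).

The branch at `∞` of level `N' q` is isomorphic to the special fibre of level `N'`:
`rinfB B1 = R'` (`rinfB_mem_R'`, `exists_αB_approx`), so the points of `B1` on `Vinf` are determined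
by their contraction to `B'` (`eq_ker_evInf`).
-/
import Fermat.Agent.Lib.T4.Reg.LevMainM

set_option autoImplicit false
set_option linter.unusedSectionVars false
set_option linter.unusedVariables false
set_option linter.style.haveILetI false

open Polynomial

namespace Fermat.Agent.T4

namespace T4rLev

variable {L F' F1 E Eh k : Type*} [Field L] [Field F'] [Field F1] [Algebra L F'] [Algebra L F1]
  [Field E] [Field Eh] [Field k] [Algebra k E] (Lv : T4rLev L F' F1 E Eh k)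

attribute [local instance] T4rLev.algA T4rLev.algB

/-- the reduction at `∞` of `B1` lies in `R'` -/
theorem rinfB_mem_R' (c : ↥Lv.P1.B) : Lv.rinfB c ∈ Lv.R' := by
  apply Lv.R'_closed
  obtain ⟨p, hp, hpc⟩ := Lv.αB_isIntegral c
  refine ⟨p.map Lv.resB, hp.map _, ?_⟩
  have h1 := congrArg Lv.rinfB hpc
  rw [Polynomial.hom_eval₂, map_zero] at h1
  rw [Polynomial.eval₂_map]
  have h2 : (algebraMap ↥Lv.R' E).comp Lv.resB = Lv.rinfB.comp Lv.αB := by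
    ext b
    exact (Lv.rinfB_αB b).symm
  rw [h2]
  exact h1

/-- the branch at `∞`: every element of `B1` is congruent to an element of `α B'` -/
theorem exists_αB_approx (c : ↥Lv.P1.B) : ∃ a : ↥Lv.P'.B, Lv.rinfB c = Lv.rinfB (Lv.αB a) := by
  obtain ⟨a, ha⟩ := Lv.resB_surjective ⟨Lv.rinfB c, Lv.rinfB_mem_R' c⟩
  refine ⟨a, ?_⟩
  rw [Lv.rinfB_αB, ha]

/-- elements of `B1` with the same reduction at `∞` lie in the same points on `Vinf` -/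
theorem mem_iff_of_rinfB_eq {𝔫1 : Ideal ↥Lv.P1.B} (hinf : Lv.Vinf ∈ Lv.P1.through 𝔫1)
    {c c' : ↥Lv.P1.B} (h : Lv.rinfB c = Lv.rinfB c') : c ∈ 𝔫1 ↔ c' ∈ 𝔫1 := by
  have h0 : Lv.rinfB (c - c') = 0 := by rw [map_sub, h, sub_self]
  have h1 : c - c' ∈ 𝔫1 := by
    apply hinf.2
    exact (Lv.valinf_lt_one_iff ⟨((c - c' : ↥Lv.P1.B) : F1), Lv.B1_le_Vinf (c - c').2⟩).mpr h0
  constructor
  · intro hc
    have : c' = c - (c - c') := by ring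
    rw [this]
    exact 𝔫1.sub_mem hc h1
  · intro hc'
    have : c = c' + (c - c') := by ring
    rw [this]
    exact 𝔫1.add_mem hc' h1

variable (𝔫' : Ideal ↥Lv.P'.B) [h𝔫 : 𝔫'.IsMaximal] (hq : Lv.qB ∈ 𝔫')
  {u : ↥Lv.P'.B} (hu : Lv.IsCoord 𝔫' u)

theorem ker_evInf_isMaximal : (RingHom.ker (Lv.evInf 𝔫' hq hu)).IsMaximal :=
  RingHom.ker_isMaximal_of_surjective _ (Lv.evInf_surjective 𝔫' hq hu)

/-- the point `ker evInf` lies over `𝔫'` -/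
theorem ker_evInf_comap : (RingHom.ker (Lv.evInf 𝔫' hq hu)).comap Lv.αB = 𝔫' := by
  symm
  apply h𝔫.eq_of_le (Ideal.comap_ne_top _ (Lv.ker_evInf_isMaximal 𝔫' hq hu).ne_top)
  intro b hb
  rw [Ideal.mem_comap, RingHom.mem_ker]
  exact Lv.evInf_αB_of_mem 𝔫' hq hu b hb

theorem evInf_eq_of_rinfB_eq {c c' : ↥Lv.P1.B} (h : Lv.rinfB c = Lv.rinfB c') :
    Lv.evInf 𝔫' hq hu c = Lv.evInf 𝔫' hq hu c' := by
  rw [Lv.evInf_apply, Lv.evInf_apply]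
  congr 1
  apply Subtype.ext
  rw [Lv.rr_toC_fst, Lv.rr_toC_fst]
  exact h

/-! ### Points of level `N' q` on the branch at `∞` -/

omit h𝔫 in
/-- a point of `B1` on `Vinf` is the kernel of the evaluation `evInf` at its contraction -/
theorem eq_ker_evInf (𝔫1 : Ideal ↥Lv.P1.B) [h𝔫1 : 𝔫1.IsMaximal]
    (hinf : Lv.Vinf ∈ Lv.P1.through 𝔫1)
    (hu1 : Lv.IsCoord (Lv.under1 𝔫1) u) :
    haveI := Lv.under1_isMaximal 𝔫1
    𝔫1 = RingHom.ker (Lv.evInf (Lv.under1 𝔫1) (Lv.qB_mem_under1 𝔫1 hinf) hu1) := by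
  haveI := Lv.under1_isMaximal 𝔫1
  ext c
  obtain ⟨a, ha⟩ := Lv.exists_αB_approx c
  have hcomap := Lv.ker_evInf_comap (Lv.under1 𝔫1) (Lv.qB_mem_under1 𝔫1 hinf) hu1
  have hev := Lv.evInf_eq_of_rinfB_eq (Lv.under1 𝔫1) (Lv.qB_mem_under1 𝔫1 hinf) hu1 ha
  rw [Lv.mem_iff_of_rinfB_eq hinf ha, RingHom.mem_ker, hev]
  constructor
  · intro h1
    have h2 : a ∈ (RingHom.ker (Lv.evInf (Lv.under1 𝔫1)
        (Lv.qB_mem_under1 𝔫1 hinf) hu1)).comap Lv.αB := by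
      rw [hcomap]; exact h1
    exact RingHom.mem_ker.mp (Ideal.mem_comap.mp h2)
  · intro h1
    have h2 : a ∈ (RingHom.ker (Lv.evInf (Lv.under1 𝔫1)
        (Lv.qB_mem_under1 𝔫1 hinf) hu1)).comap Lv.αB :=
      Ideal.mem_comap.mpr (RingHom.mem_ker.mpr h1)
    rw [hcomap] at h2
    exact h2

omit h𝔫 in
/-- if the datum at the contraction of `𝔫1` is glued, then `V0` passes through `𝔫1` -/
theorem V0_through_of_glued (𝔫1 : Ideal ↥Lv.P1.B) [h𝔫1 : 𝔫1.IsMaximal]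
    (hinf : Lv.Vinf ∈ Lv.P1.through 𝔫1)
    (hu1 : Lv.IsCoord (Lv.under1 𝔫1) u)
    (hglue : haveI := Lv.under1_isMaximal 𝔫1
      ∀ x ∈ (Lv.two (Lv.under1 𝔫1) (Lv.qB_mem_under1 𝔫1 hinf) hu1).S,
        (Lv.two (Lv.under1 𝔫1) (Lv.qB_mem_under1 𝔫1 hinf) hu1).e1 x.1 =
          (Lv.two (Lv.under1 𝔫1) (Lv.qB_mem_under1 𝔫1 hinf) hu1).e0 x.2) :
    Lv.V0 ∈ Lv.P1.through 𝔫1 := by
  haveI := Lv.under1_isMaximal 𝔫1
  refine ⟨Lv.V0_mem, fun b hb => ?_⟩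
  rw [Lv.eq_ker_evInf 𝔫1 hinf hu1, RingHom.mem_ker, Lv.evInf_apply,
    hglue _ ((Lv.two (Lv.under1 𝔫1) (Lv.qB_mem_under1 𝔫1 hinf) hu1).rr_mem_S _)]
  have h0 : Lv.ρ0 ⟨(b : F1), Lv.B1_le_V0 b.2⟩ = 0 := (Lv.val0_lt_one_iff _).mp hb
  have h1 : ((Lv.two (Lv.under1 𝔫1) (Lv.qB_mem_under1 𝔫1 hinf) hu1).rr
      (Lv.toC (Lv.under1 𝔫1) b)).2 = 0 := by
    apply Subtype.ext
    rw [Lv.rr_toC_snd, h0]
    rfl
  rw [h1, map_zero]

omit h𝔫 in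
/-- **REG1-M, for a point of level `N' q` on `Vinf` only**: `𝔫1` maximal in `B1`, on the vertical
component at `∞` but not on the one at `0`; `𝔫' = 𝔫1 ∩ B'` (through `α`).  Then there are
`f ∈ 𝔫'` with `θ f̄ ≠ 0` and a unit `e` of `B'_𝔫'` with `ē = (θ f̄)^(q-1)` -/
theorem reg1_M1 (𝔫1 : Ideal ↥Lv.P1.B) (h𝔫1 : 𝔫1.IsMaximal)
    (hinf : Lv.Vinf ∈ Lv.P1.through 𝔫1) (h0 : Lv.V0 ∉ Lv.P1.through 𝔫1) :
    ∃ (f : F') (hf : f ∈ Lv.P'.B) (e e' : F') (he : e ∈ Lv.P'.loc (Lv.under1 𝔫1))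
      (he' : e' ∈ Lv.P'.loc (Lv.under1 𝔫1)),
      (⟨f, hf⟩ : ↥Lv.P'.B) ∈ Lv.under1 𝔫1 ∧ e * e' = 1 ∧
      Lv.θ (Lv.ι (Lv.res' ⟨f, Lv.B'_le_V' hf⟩)) ≠ 0 ∧
      Lv.ι (Lv.res' ⟨e, Lv.loc_le_V' (Lv.under1 𝔫1) (Lv.qB_mem_under1 𝔫1 hinf) he⟩) =
        Lv.θ (Lv.ι (Lv.res' ⟨f, Lv.B'_le_V' hf⟩)) ^ (Lv.q - 1) := by
  haveI := h𝔫1
  haveI := Lv.under1_isMaximal 𝔫1
  have hq := Lv.qB_mem_under1 𝔫1 hinf
  obtain ⟨u, hu⟩ := Lv.exists_isCoord (Lv.under1 𝔫1) hq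
  have hNG : ¬ ∀ x ∈ (Lv.two (Lv.under1 𝔫1) hq hu).S,
      (Lv.two (Lv.under1 𝔫1) hq hu).e1 x.1 = (Lv.two (Lv.under1 𝔫1) hq hu).e0 x.2 :=
    fun hglue => h0 (Lv.V0_through_of_glued 𝔫1 hinf hu hglue)
  obtain ⟨e, e', hee', he⟩ := Lv.exists_unit_pow (Lv.under1 𝔫1) hq hu hNG
  refine ⟨(u : F'), u.2, (e : F'), (e' : F'), e.2, e'.2, hu.1, ?_, hu.2.1, he⟩
  have := congrArg (fun t : ↥(Lv.P'.loc (Lv.under1 𝔫1)) => (t : F')) hee'
  simpa using this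

end T4rLev

end Fermat.Agent.T4
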