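/-
T4-R / REG2 (helper8): **from helper6's bundle `T4rLev` to the hypotheses of `TopReg.lean` and
`TopMid.lean`.**

* **`T4rLev.exists_approx_inf`** (from helper6's `T4rLev.rinfB_mem_R'`) : every element of `B1` is congruent to an
  element of `α B'` on the branch `V_inf` (from `int1`, `R'_closed`, `gr`, `ρinf_α`);
* for an instance `Lv : T4rLev L F_{N'} F_{N'q} E k((𝔮)) k` with the literal data
  (`Lv.q = q`, `Lv.α = heckeAlphaBar`, `Lv.β = heckeBetaBar`, `Lv.Vinf = taOv (N' q)`,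
  `Lv.V0 = t4rtO10`, `ι ∘ res' = taRhoFun`, `θ = t4vTheta`):
  **`t4rt_regG_of_lev : T4rtRegG … Lv.P1`**, `t4rm_overA'_of_lev`, **`t4rm_low_of_lev : T4rmLow …`**,
  **`t4rm_regM_of_lev : T4rmRegM …`**.
-/
import Fermat.Agent.Lib.T4.Reg.TopMid
import Fermat.Agent.Lib.T4.Reg.LevMainG
import Fermat.Agent.Lib.T4.Reg.LevMainM
import Fermat.Agent.Lib.T4.Reg.LevMainN

set_option autoImplicit false
set_option linter.unusedSectionVars false
set_option linter.unusedVariables false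
set_option linter.style.haveILetI false
set_option synthInstance.maxHeartbeats 400000

open HahnSeries ModularCurve Fermat.Agent.T1 Fermat.Agent.T2 IntermediateField

noncomputable section

namespace Fermat.Agent.T4

/-! ### On the abstract bundle: approximation on the branch `V_inf` -/

namespace T4rLev

variable {L F' F1 E Eh k : Type*} [Field L] [Field F'] [Field F1] [Algebra L F'] [Algebra L F1]
  [Field E] [Field Eh] [Field k] [Algebra k E] (Lv : T4rLev L F' F1 E Eh k)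

/-- **approximation on the branch `V_inf`**: every element of `B1` is congruent to an element of
`α B'` modulo the maximal ideal of `V_inf` -/
theorem exists_approx_inf {y : F1} (hy : y ∈ Lv.P1.B) :
    ∃ a ∈ Lv.P'.B, Lv.Vinf.valuation (y - Lv.α a) < 1 := by
  obtain ⟨a, ha⟩ := Lv.resB_surjective ⟨Lv.rinfB ⟨y, hy⟩, Lv.rinfB_mem_R' ⟨y, hy⟩⟩
  refine ⟨(a : F'), a.2, ?_⟩
  have hmem : y - Lv.α (a : F') ∈ Lv.Vinf :=
    Lv.B1_le_Vinf (Lv.P1.B.sub_mem hy (Lv.α_B _ a.2))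
  rw [Lv.valinf_lt_one_iff ⟨_, hmem⟩]
  have h1 : Lv.rinfB (⟨y, hy⟩ - Lv.αB a) = 0 := by
    rw [map_sub, Lv.rinfB_αB, ha, sub_self]
  exact h1

end T4rLev


/-! ### From an instance of the bundle to the hypotheses of `TopReg.lean` / `TopMid.lean` -/

section Adapter

variable {L : Type} [Field L] [Algebra ℚ L] (O : ValuationSubring L) {k : Type*} [Field k]
  (π : ↥O →+* k) [IsDiscreteValuationRing ↥O] (hπ : Function.Surjective π) [IsAlgClosed k]
  {N' q : ℕ} [NeZero N'] [hq : Fact q.Prime] [CharP k q] (W1 : T2iAL L N' q)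
  {E : Type*} [Field E] [Algebra k E]
  (Lv : T4rLev L ↥(TaF L N') ↥(TaF L (N' * q)) E (LaurentSeries k) k)

attribute [local instance] t2iAlgebra

/-- REG1-G for an instance of the bundle with the literal vertical valuation rings -/
theorem t4rt_regG_of_lev (hLq : Lv.q = q) (hinf : Lv.Vinf = taOv O π hπ (N' * q))
    (h0 : Lv.V0 = t4rtO10 O π hπ W1) : T4rtRegG O π hπ W1 Lv.P1 := by
  intro 𝔫1 h𝔫1 hi hz
  have := Lv.reg1_G 𝔫1 h𝔫1 (by rw [hinf]; exact hi) (by rw [h0]; exact hz)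
  rw [hLq, hinf, h0] at this
  exact this

/-- `T4PresOver P' P1` for the `α`-structure -/
theorem t4rm_overA'_of_lev (hα : ∀ f, Lv.α f = heckeAlphaBar L N' q f) :
    T4PresOver Lv.P' Lv.P1 := by
  refine ⟨fun b hb => ?_, fun y hy => ?_⟩
  · have := Lv.α_B b hb
    rw [hα] at this
    exact this
  · obtain ⟨p, hp, hpy⟩ := Lv.int1 y hy
    refine ⟨p, hp, ?_⟩
    have h1 : algebraMap ↥Lv.P'.B ↥(TaF L (N' * q)) =
        (Lv.α : ↥(TaF L N') →+* ↥(TaF L (N' * q))).comp Lv.P'.B.subtype :=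
      RingHom.ext fun b => (hα (b : ↥(TaF L N'))).symm
    rw [h1]
    exact hpy

/-- the hypotheses `T4rmLow` on the chart of level `N'` -/
theorem t4rm_low_of_lev {x' : ↥(TaF L N')}
    (hvals' : Lv.P'.vals = t4vpHor L x' ∪ {taOv O π hπ N'})
    (hα : ∀ f, Lv.α f = heckeAlphaBar L N' q f) (hβ : ∀ f, Lv.β f = heckeBetaBar L N' q f)
    (hinf : Lv.Vinf = taOv O π hπ (N' * q)) : T4rmLow O π hπ x' Lv.P' Lv.P1 where
  vals' := hvals'
  overA' := t4rm_overA'_of_lev Lv hα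
  mapB' := fun b hb => by
    have := Lv.β_B b hb
    rw [hβ] at this
    exact this
  apx := fun y hy => by
    obtain ⟨a, ha, hlt⟩ := Lv.exists_approx_inf hy
    rw [hinf, hα] at hlt
    exact ⟨a, ha, hlt⟩

/-- REG1-M for an instance of the bundle -/
theorem t4rm_regM_of_lev (hLq : Lv.q = q) (hα : ∀ f, Lv.α f = heckeAlphaBar L N' q f)
    (hinf : Lv.Vinf = taOv O π hπ (N' * q)) (h0 : Lv.V0 = t4rtO10 O π hπ W1)
    (hres : ∀ (x : ↥(TaF L N')) (hx : x ∈ Lv.V'),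
      Lv.ι (Lv.res' ⟨x, hx⟩) = taRhoFun O π (x : LaurentSeries L))
    (hθ : ∀ y, Lv.θ y = t4vTheta y) (hov : T4PresOver Lv.P' Lv.P1) :
    T4rmRegM O π hπ W1 Lv.P' Lv.P1 hov := by
  intro 𝔫' h𝔫' hq' hng
  have hqB : Lv.qB ∈ 𝔫' := by
    have h1 : Lv.qB = ((q : ℕ) : ↥Lv.P'.B) := by
      apply Subtype.ext
      rw [Subring.coe_natCast]
      show ((Lv.q : ℕ) : ↥(TaF L N')) = _
      rw [hLq]
    rw [h1]
    exact hq'
  obtain ⟨f, hf, e, e', he, he', -, hee', -, hval⟩ := Lv.reg1_M' 𝔫' h𝔫' hqB (by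
    rintro ⟨𝔫1, h1, h2, h3, h4⟩
    refine hng ⟨𝔫1, h1, by rw [← hinf]; exact h2, by rw [← h0]; exact h3, ?_⟩
    ext b
    rw [T4PresOver.mem_under, h4 (b : ↥(TaF L N')) b.2]
    have h5 : hov.incl b = ⟨Lv.α (b : ↥(TaF L N')), Lv.α_B _ b.2⟩ :=
      Subtype.ext (hα (b : ↥(TaF L N'))).symm
    rw [h5])
  refine ⟨f, e, e', hf, he, he', hee', ?_⟩
  rw [hres, hres, hθ, hLq] at hval
  exact hval

end Adapter

end Fermat.Agent.T4
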