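/-
T4-R "REG-FIX" (helper7 for helper6): **helper8's three REG1 inputs at the inertia level**, from the
bundle `t4rLevFix 𝔓 N' h hQ h49 D : T4rLev …` (`LevFix.lean`) through the adapters of `TopLev.lean`.
All identifications (`Lv.q = 𝔓.p`, `Lv.Vinf = taOv … (N' p)`, `Lv.V0 = t4rtO10 …`, `Lv.α`, `Lv.β`,
`ι ∘ res' = taRhoFun`, `θ = t4vTheta`, `P'.vals`) hold by `rfl`.

* `t4rgf_regG D : T4rtRegG … D.P1`, `t4rgf_low D : T4rmLow … (t4ri1X L N' Q) (t4rLevFixP' …) D.P1`,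
  `t4rgf_regM D hov : T4rmRegM … (t4rLevFixP' …) D.P1 hov`;
* the same for `D := t4rLevFixD 𝔓 N' h hQ hint` (`P1 = t4rLevFixPres1 𝔓 N' h hQ`):
  `t4rgf_regG1`, `t4rgf_low1`, `t4rgf_regM1`;
* **unconditionally** (`hint` := lead's `t4vj_betaX_lev1`): `t4rgf_hint`, `t4rLevFixD0 : T4rLevFixP1 …`,
  `t4rLevFixLv0 : T4rLev …`, **`t4rgf_regG0`, `t4rgf_low0`, `t4rgf_regM0`**.
-/
import Fermat.Agent.Lib.T4.Reg.LevInstQ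
import Fermat.Agent.Lib.T4.Reg.TopLev
import Fermat.Agent.Lib.T4.Inst.ChartBeta

set_option autoImplicit false
set_option linter.unusedSectionVars false
set_option linter.unusedVariables false
set_option linter.style.haveILetI false
set_option synthInstance.maxHeartbeats 400000
set_option maxHeartbeats 1000000

open HahnSeries ModularCurve Fermat.Agent.T1 Fermat.Agent.T2 IntermediateField Fermat.Agent.TW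
  Fermat.Agent.S05Lib Fermat.Agent.Curve

noncomputable section

namespace Fermat.Agent.T4

attribute [local instance] t2i_dvr t2i_isAlgClosed t2i_charP t2i_fact t2iAlgebra t2i_isScalarTower

variable (𝔓 : FFPlace) (N' : ℕ) [NeZero N'] (h : ¬ 𝔓.p ∣ N') {Q : ℕ} (hQ : 2 ≤ Q)
  (h49 : 4 ∣ N' ∨ 9 ∣ N')

section General

variable (D : T4rLevFixP1 𝔓 N' h hQ)

include h49 in
/-- **REG1-G at the inertia level** -/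
theorem t4rgf_regG :
    T4rtRegG (tbFixO 𝔓 ⊤) (tbFixRes 𝔓 ⊤) (tbFixRes_surjective 𝔓 ⊤) (t2iALFix 𝔓 ⊤ N' h) D.P1 :=
  t4rt_regG_of_lev (tbFixO 𝔓 ⊤) (tbFixRes 𝔓 ⊤) (tbFixRes_surjective 𝔓 ⊤) (t2iALFix 𝔓 ⊤ N' h)
    (t4rLevFix 𝔓 N' h hQ h49 D) rfl rfl rfl

include h49 in
/-- **the level-`N'` chart under `P1`** at the inertia level -/
theorem t4rgf_low :
    T4rmLow (tbFixO 𝔓 ⊤) (tbFixRes 𝔓 ⊤) (tbFixRes_surjective 𝔓 ⊤)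
      (t4ri1X ↥(tbFix 𝔓 (⊤ : Subgroup 𝔓.I)) N' Q) (t4rLevFixP' 𝔓 N' hQ) D.P1 :=
  t4rm_low_of_lev (tbFixO 𝔓 ⊤) (tbFixRes 𝔓 ⊤) (tbFixRes_surjective 𝔓 ⊤)
    (t4rLevFix 𝔓 N' h hQ h49 D) (t4rLevFixP'_vals 𝔓 N' hQ) (fun _ => rfl) (fun _ => rfl) rfl

include h49 in
/-- **REG1-M at the inertia level** -/
theorem t4rgf_regM
    (hov : @T4PresOver _ _ _ _ (t2iAlgebra _ N' 𝔓.p) (t4rLevFixP' 𝔓 N' hQ) D.P1) :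
    T4rmRegM (tbFixO 𝔓 ⊤) (tbFixRes 𝔓 ⊤) (tbFixRes_surjective 𝔓 ⊤) (t2iALFix 𝔓 ⊤ N' h)
      (t4rLevFixP' 𝔓 N' hQ) D.P1 hov :=
  t4rm_regM_of_lev (tbFixO 𝔓 ⊤) (tbFixRes 𝔓 ⊤) (tbFixRes_surjective 𝔓 ⊤) (t2iALFix 𝔓 ⊤ N' h)
    (t4rLevFix 𝔓 N' h hQ h49 D) rfl (fun _ => rfl) rfl rfl (fun _ _ => rfl) (fun _ => rfl) hov

end General

section Concrete

variable (hint : IsIntegral
    ↥(Algebra.adjoin ↥(tbFix 𝔓 (⊤ : Subgroup 𝔓.I))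
      {t4ri1X ↥(tbFix 𝔓 (⊤ : Subgroup 𝔓.I)) (N' * 𝔓.p) Q})
    (heckeBetaBar ↥(tbFix 𝔓 (⊤ : Subgroup 𝔓.I)) N' 𝔓.p
      (t4ri1X ↥(tbFix 𝔓 (⊤ : Subgroup 𝔓.I)) N' Q)))

include h49 hint in
/-- REG1-G for `P1 = t4rLevFixPres1` -/
theorem t4rgf_regG1 :
    T4rtRegG (tbFixO 𝔓 ⊤) (tbFixRes 𝔓 ⊤) (tbFixRes_surjective 𝔓 ⊤) (t2iALFix 𝔓 ⊤ N' h)
      (t4rLevFixPres1 𝔓 N' h hQ) :=
  t4rgf_regG 𝔓 N' h hQ h49 (t4rLevFixD 𝔓 N' h hQ hint)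

include h49 hint in
/-- `T4rmLow` for `P1 = t4rLevFixPres1` -/
theorem t4rgf_low1 :
    T4rmLow (tbFixO 𝔓 ⊤) (tbFixRes 𝔓 ⊤) (tbFixRes_surjective 𝔓 ⊤)
      (t4ri1X ↥(tbFix 𝔓 (⊤ : Subgroup 𝔓.I)) N' Q) (t4rLevFixP' 𝔓 N' hQ)
      (t4rLevFixPres1 𝔓 N' h hQ) :=
  t4rgf_low 𝔓 N' h hQ h49 (t4rLevFixD 𝔓 N' h hQ hint)

include h49 hint in
/-- REG1-M for `P1 = t4rLevFixPres1` -/
theorem t4rgf_regM1 :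
    T4rmRegM (tbFixO 𝔓 ⊤) (tbFixRes 𝔓 ⊤) (tbFixRes_surjective 𝔓 ⊤) (t2iALFix 𝔓 ⊤ N' h)
      (t4rLevFixP' 𝔓 N' hQ) (t4rLevFixPres1 𝔓 N' h hQ)
      (t4rgf_low1 𝔓 N' h hQ h49 hint).overA' :=
  t4rgf_regM 𝔓 N' h hQ h49 (t4rLevFixD 𝔓 N' h hQ hint) _

end Concrete

section Final

include hQ in
/-- `β (j'^Q - j')` is integral over `L[j1^Q - j1]` (lead's `t4vj_betaX_lev1`) -/
theorem t4rgf_hint :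
    IsIntegral
      ↥(Algebra.adjoin ↥(tbFix 𝔓 (⊤ : Subgroup 𝔓.I))
        {t4ri1X ↥(tbFix 𝔓 (⊤ : Subgroup 𝔓.I)) (N' * 𝔓.p) Q})
      (heckeBetaBar ↥(tbFix 𝔓 (⊤ : Subgroup 𝔓.I)) N' 𝔓.p
        (t4ri1X ↥(tbFix 𝔓 (⊤ : Subgroup 𝔓.I)) N' Q)) :=
  t4vj_betaX_lev1 𝔓 ⊤ N' hQ

/-- **the level-`N' p` presentation package**, unconditionally -/
def t4rLevFixD0 : T4rLevFixP1 𝔓 N' h hQ := t4rLevFixD 𝔓 N' h hQ (t4rgf_hint 𝔓 N' hQ)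

theorem t4rLevFixD0_P1 : (t4rLevFixD0 𝔓 N' h hQ).P1 = t4rLevFixPres1 𝔓 N' h hQ := rfl

/-- **the REG1 level bundle at the inertia level**, unconditionally -/
def t4rLevFixLv0 :
    T4rLev ↥(tbFix 𝔓 (⊤ : Subgroup 𝔓.I)) ↥(tbLevF 𝔓 N' ⊤) ↥(tbLevF 𝔓 (N' * 𝔓.p) ⊤)
      ↥(modularFunctionFieldFullC (IsLocalRing.ResidueField ↥𝔓.P) N')
      (LaurentSeries (IsLocalRing.ResidueField ↥𝔓.P)) (IsLocalRing.ResidueField ↥𝔓.P) :=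
  t4rLevFix 𝔓 N' h hQ h49 (t4rLevFixD0 𝔓 N' h hQ)

include h49 in
/-- **REG1-G at the inertia level** for `P1 = t4rLevFixPres1` -/
theorem t4rgf_regG0 :
    T4rtRegG (tbFixO 𝔓 ⊤) (tbFixRes 𝔓 ⊤) (tbFixRes_surjective 𝔓 ⊤) (t2iALFix 𝔓 ⊤ N' h)
      (t4rLevFixPres1 𝔓 N' h hQ) :=
  t4rgf_regG1 𝔓 N' h hQ h49 (t4rgf_hint 𝔓 N' hQ)

include h49 in
/-- **`T4rmLow` at the inertia level** for `P' = t4rLevFixP'`, `P1 = t4rLevFixPres1` -/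
theorem t4rgf_low0 :
    T4rmLow (tbFixO 𝔓 ⊤) (tbFixRes 𝔓 ⊤) (tbFixRes_surjective 𝔓 ⊤)
      (t4ri1X ↥(tbFix 𝔓 (⊤ : Subgroup 𝔓.I)) N' Q) (t4rLevFixP' 𝔓 N' hQ)
      (t4rLevFixPres1 𝔓 N' h hQ) :=
  t4rgf_low1 𝔓 N' h hQ h49 (t4rgf_hint 𝔓 N' hQ)

include h49 in
/-- **REG1-M at the inertia level** for `P' = t4rLevFixP'`, `P1 = t4rLevFixPres1` -/
theorem t4rgf_regM0 :
    T4rmRegM (tbFixO 𝔓 ⊤) (tbFixRes 𝔓 ⊤) (tbFixRes_surjective 𝔓 ⊤) (t2iALFix 𝔓 ⊤ N' h)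
      (t4rLevFixP' 𝔓 N' hQ) (t4rLevFixPres1 𝔓 N' h hQ)
      (t4rgf_low0 𝔓 N' h hQ h49).overA' :=
  t4rgf_regM1 𝔓 N' h hQ h49 (t4rgf_hint 𝔓 N' hQ)

end Final

end Fermat.Agent.T4
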