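/-
T4-R (helper1), package CM (cusps on `C_mid`), abstract part (Mathlib only).

`R` is a local subring of a field `F`, integrally closed in `F` (in the application `R = B_𝔫`, the
local ring of the chart `x⁻¹` of the model of `X₀(N' q²)` at a cuspidal point of `C_mid`).

* `t4rc_inv_mem` (Lemma A): if `a` is a root of a *monic* polynomial with coefficients in `K[b]`
  (`K → R`), and `a⁻¹` is a non-unit of `R`, then `b⁻¹ ∈ R`.  (Applied to the modular polynomial:
  `a1 j` is integral over `O[a2 j]`.)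
* `t4rc_ratio_unit`: `G = j₂ / j₀` is a unit of `R`, from `u = 1 / j₀ ∈ 𝔪_R`, the units
  `T = j₁ u^q`, `T_w = j₁ u₂^q` and the modular relation.
* `t4rc_unit_of_rational`: an element `ε ∈ R` whose reduction is a rational function `P̄(ū) / Q̄(ū)`
  of the reduction of a non-unit `u`, with `P̄(0), Q̄(0) ≠ 0`, is a unit of `R`.
* `t4rc_exists_rational`: a Laurent series in `k(j̄)` which is a power series with nonzero constant
  term is such a rational function of `ū = 1 / j̄`.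
-/
import Mathlib

set_option autoImplicit false

namespace Fermat.Agent.T4

open Polynomial

variable {F : Type*} [Field F]

/-! ### Units and non-units of a subring of a field -/

theorem t4rc_isUnit_iff (R : Subring F) {x : F} (hx : x ∈ R) :
    IsUnit (⟨x, hx⟩ : ↥R) ↔ x ≠ 0 ∧ x⁻¹ ∈ R := by
  constructor
  · intro hu
    obtain ⟨y, hy⟩ := isUnit_iff_exists_inv.mp hu
    have h1 : x * (y : F) = 1 := congrArg Subtype.val hy
    have hx0 : x ≠ 0 := left_ne_zero_of_mul_eq_one h1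
    refine ⟨hx0, ?_⟩
    have : x⁻¹ = (y : F) := (eq_inv_of_mul_eq_one_right h1).symm ▸ rfl
    rw [this]
    exact y.2
  · rintro ⟨hx0, hxi⟩
    exact isUnit_iff_exists_inv.mpr ⟨⟨x⁻¹, hxi⟩, Subtype.ext (mul_inv_cancel₀ hx0)⟩

/-- in a local subring, `1 + m` is a unit for every non-unit `m` -/
theorem t4rc_one_add_inv_mem (R : Subring F) [IsLocalRing ↥R] {m : F} (hm : m ∈ R)
    (hnu : ¬ IsUnit (⟨m, hm⟩ : ↥R)) : (1 + m)⁻¹ ∈ R := by
  have h1 : -(⟨m, hm⟩ : ↥R) ∈ nonunits ↥R := by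
    rw [mem_nonunits_iff, IsUnit.neg_iff]
    exact hnu
  have h2 := IsLocalRing.isUnit_one_sub_self_of_mem_nonunits _ h1
  rw [sub_neg_eq_add] at h2
  have h3 : (1 + ⟨m, hm⟩ : ↥R) = ⟨1 + m, R.add_mem R.one_mem hm⟩ := rfl
  rw [h3, t4rc_isUnit_iff] at h2
  exact h2.2

/-- a multiple of a non-unit is a non-unit -/
theorem t4rc_not_isUnit_mul (R : Subring F) {u r : F} (hu : u ∈ R) (hr : r ∈ R)
    (hnu : ¬ IsUnit (⟨u, hu⟩ : ↥R)) : ¬ IsUnit (⟨u * r, R.mul_mem hu hr⟩ : ↥R) := by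
  intro h
  apply hnu
  have : (⟨u * r, R.mul_mem hu hr⟩ : ↥R) = ⟨u, hu⟩ * ⟨r, hr⟩ := rfl
  rw [this] at h
  exact isUnit_of_mul_isUnit_left h

/-! ### Lemma A -/

/-- **Lemma A.**  `R` local and integrally closed in `F`, `K → R`, `P ∈ K[Y][X]` monic in `X` with
`P(a; b) = 0`, `a⁻¹` a non-unit of `R`.  Then `b⁻¹ ∈ R`. -/
theorem t4rc_inv_mem (R : Subring F) [IsLocalRing ↥R] (hic : ∀ x : F, IsIntegral ↥R x → x ∈ R)
    {K : Type*} [CommRing K] (ρ : K →+* F) (hρ : ∀ c, ρ c ∈ R)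
    (P : Polynomial (Polynomial K)) (hP : P.Monic) {a b : F} (ha : a ≠ 0) (hb : b ≠ 0)
    (hPab : P.eval₂ (Polynomial.eval₂RingHom ρ b) a = 0)
    (hu : a⁻¹ ∈ R) (hnu : ¬ IsUnit (⟨a⁻¹, hu⟩ : ↥R)) : b⁻¹ ∈ R := by
  classical
  set n := P.natDegree with hn
  set D := (Finset.range (n + 1)).sup (fun l => (P.coeff l).natDegree) with hD
  have hDle : ∀ l ∈ Finset.range (n + 1), (P.coeff l).natDegree < D + 1 := fun l hl =>
    Nat.lt_succ_of_le (Finset.le_sup (f := fun l => (P.coeff l).natDegree) hl)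
  set u := a⁻¹ with hudef
  set w := b⁻¹ with hwdef
  -- the coefficients `A_m`
  set A : ℕ → F := fun m => ∑ l ∈ Finset.range (n + 1), ρ ((P.coeff l).coeff m) * u ^ (n - l)
    with hA
  have hAmem : ∀ m, A m ∈ R := fun m =>
    R.sum_mem fun l _ => R.mul_mem (hρ _) (R.pow_mem hu _)
  -- the relation
  have hrel : ∑ m ∈ Finset.range (D + 1), A m * w ^ (D - m) = 0 := by
    have h1 : ∑ l ∈ Finset.range (n + 1),
        (∑ m ∈ Finset.range (D + 1), ρ ((P.coeff l).coeff m) * b ^ m) * a ^ l = 0 := by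
      rw [← hPab, Polynomial.eval₂_eq_sum_range]
      refine Finset.sum_congr rfl fun l hl => ?_
      rw [Polynomial.coe_eval₂RingHom, Polynomial.eval₂_eq_sum_range' ρ (hDle l hl)]
    have h2 : ∑ m ∈ Finset.range (D + 1), A m * w ^ (D - m) =
        u ^ n * w ^ D * ∑ l ∈ Finset.range (n + 1),
          (∑ m ∈ Finset.range (D + 1), ρ ((P.coeff l).coeff m) * b ^ m) * a ^ l := by
      rw [Finset.mul_sum]
      simp only [hA, Finset.sum_mul, Finset.mul_sum]
      rw [Finset.sum_comm]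
      refine Finset.sum_congr rfl fun l hl => Finset.sum_congr rfl fun m hm => ?_
      have hl' : l ≤ n := Nat.lt_succ_iff.mp (Finset.mem_range.mp hl)
      have hm' : m ≤ D := Nat.lt_succ_iff.mp (Finset.mem_range.mp hm)
      have e1 : u ^ n = u ^ (n - l) * u ^ l := by rw [← pow_add, Nat.sub_add_cancel hl']
      have e2 : w ^ D = w ^ (D - m) * w ^ m := by rw [← pow_add, Nat.sub_add_cancel hm']
      have e3 : u ^ l * a ^ l = 1 := by rw [← mul_pow, hudef, inv_mul_cancel₀ ha, one_pow]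
      have e4 : w ^ m * b ^ m = 1 := by rw [← mul_pow, hwdef, inv_mul_cancel₀ hb, one_pow]
      calc ρ ((P.coeff l).coeff m) * u ^ (n - l) * w ^ (D - m)
          = ρ ((P.coeff l).coeff m) * u ^ (n - l) * w ^ (D - m) * ((u ^ l * a ^ l) *
              (w ^ m * b ^ m)) := by rw [e3, e4, mul_one, mul_one]
        _ = u ^ n * w ^ D * (ρ ((P.coeff l).coeff m) * b ^ m * a ^ l) := by
            rw [e1, e2]; ring
    rw [h2, h1, mul_zero]
  -- the leading coefficient is a unit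
  have hA0 : A 0 = 1 + u * ∑ l ∈ Finset.range n, ρ ((P.coeff l).coeff 0) * u ^ (n - l - 1) := by
    rw [hA]
    simp only
    rw [Finset.sum_range_succ, Nat.sub_self, pow_zero, mul_one, hn, hP.coeff_natDegree,
      Polynomial.coeff_one_zero, map_one, add_comm, Finset.mul_sum]
    congr 1
    refine Finset.sum_congr rfl fun l hl => ?_
    have hl' : l < P.natDegree := Finset.mem_range.mp hl
    have : P.natDegree - l = (P.natDegree - l - 1) + 1 := by omega
    rw [this, pow_succ]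
    have : P.natDegree - l - 1 + 1 - 1 = P.natDegree - l - 1 := by omega
    rw [this]
    ring
  have hSmem : ∑ l ∈ Finset.range n, ρ ((P.coeff l).coeff 0) * u ^ (n - l - 1) ∈ R :=
    R.sum_mem fun l _ => R.mul_mem (hρ _) (R.pow_mem hu _)
  have hA0inv : (A 0)⁻¹ ∈ R := by
    rw [hA0]
    exact t4rc_one_add_inv_mem R (R.mul_mem hu hSmem) (t4rc_not_isUnit_mul R hu hSmem hnu)
  have hA0ne : A 0 ≠ 0 := by
    intro h0
    have h1 := t4rc_one_add_inv_mem R (R.mul_mem hu hSmem) (t4rc_not_isUnit_mul R hu hSmem hnu)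
    have h2 : IsUnit (⟨A 0, hAmem 0⟩ : ↥R) := by
      rw [t4rc_isUnit_iff]
      refine ⟨?_, hA0inv⟩
      intro h3
      -- `1 + m = 0` with `m` a non-unit is impossible
      have h4 : u * ∑ l ∈ Finset.range n, ρ ((P.coeff l).coeff 0) * u ^ (n - l - 1) = -1 := by
        rw [hA0] at h3
        linear_combination h3
      apply t4rc_not_isUnit_mul R hu hSmem hnu
      rw [t4rc_isUnit_iff]
      refine ⟨by rw [h4]; exact neg_ne_zero.mpr one_ne_zero, ?_⟩
      rw [h4, inv_neg, inv_one]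
      exact R.neg_mem R.one_mem
    rw [t4rc_isUnit_iff] at h2
    exact h2.1 h0
  -- the polynomial over `R`
  set p : Polynomial ↥R :=
    ∑ m ∈ Finset.range (D + 1), Polynomial.monomial (D - m) (⟨A m, hAmem m⟩ : ↥R) with hp
  have hpdeg : p.natDegree ≤ D := by
    rw [hp]
    refine Polynomial.natDegree_sum_le_of_forall_le _ _ fun m _ => ?_
    exact (Polynomial.natDegree_monomial_le _).trans (Nat.sub_le _ _)
  have hpcoeff : p.coeff D = ⟨A 0, hAmem 0⟩ := by
    rw [hp, Polynomial.finsetSum_coeff]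
    rw [Finset.sum_eq_single 0]
    · rw [Nat.sub_zero, Polynomial.coeff_monomial, if_pos rfl]
    · intro m hm hm0
      have hm' : m ≤ D := Nat.lt_succ_iff.mp (Finset.mem_range.mp hm)
      rw [Polynomial.coeff_monomial, if_neg]
      omega
    · intro h
      exact absurd (Finset.mem_range.mpr (Nat.succ_pos D)) h
  have hpne : p.coeff D ≠ 0 := by
    rw [hpcoeff]
    intro h0
    exact hA0ne (congrArg Subtype.val h0)
  have hpnat : p.natDegree = D :=
    le_antisymm hpdeg (Polynomial.le_natDegree_of_ne_zero hpne)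
  have hplead : p.leadingCoeff = ⟨A 0, hAmem 0⟩ := by
    rw [Polynomial.leadingCoeff, hpnat, hpcoeff]
  have hpeval : Polynomial.aeval w p = 0 := by
    rw [hp, map_sum]
    rw [← hrel]
    refine Finset.sum_congr rfl fun m _ => ?_
    rw [Polynomial.aeval_monomial]
    rfl
  have hint := isIntegral_leadingCoeff_smul p w hpeval
  rw [hplead] at hint
  have h5 : A 0 * w ∈ R := hic _ hint
  have h6 : w = (A 0)⁻¹ * (A 0 * w) := by
    rw [← mul_assoc, inv_mul_cancel₀ hA0ne, one_mul]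
  rw [h6]
  exact R.mul_mem hA0inv h5

/-! ### The ratio `G = j₂ / j₀` -/

theorem t4rc_isIntegral_of_mem (R : Subring F) {y : F} (hy : y ∈ R) : IsIntegral ↥R y :=
  isIntegral_algebraMap (R := ↥R) (A := F) (x := ⟨y, hy⟩)

/-- **`G = j₂ / j₀` is a unit of `R`.**  `u = 1 / j₀` is a non-unit of `R`, `T = j₁ u^q` is a unit
of `R`, `j₁` is integral over `K[j₂]` (`K → R`; the modular relation), and `T_w = j₁ u₂^q` is a
unit of `R` as soon as `u₂ = 1 / j₂ ∈ R`. -/
theorem t4rc_ratio_unit (R : Subring F) [IsLocalRing ↥R] (hic : ∀ x : F, IsIntegral ↥R x → x ∈ R)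
    {K : Type*} [CommRing K] (ρ : K →+* F) (hρ : ∀ c, ρ c ∈ R)
    (P : Polynomial (Polynomial K)) (hP : P.Monic) {j0 j1 j2 : F} (h0 : j0 ≠ 0) (h1 : j1 ≠ 0)
    (h2 : j2 ≠ 0) (hrel : P.eval₂ (Polynomial.eval₂RingHom ρ j2) j1 = 0) {q : ℕ} (hq : 0 < q)
    (hu : j0⁻¹ ∈ R) (hunu : ¬ IsUnit (⟨j0⁻¹, hu⟩ : ↥R))
    (hT : j1 * j0⁻¹ ^ q ∈ R) (hTi : (j1 * j0⁻¹ ^ q)⁻¹ ∈ R)
    (hTw : j2⁻¹ ∈ R → j1 * j2⁻¹ ^ q ∈ R ∧ (j1 * j2⁻¹ ^ q)⁻¹ ∈ R) :
    j2⁻¹ ∈ R ∧ j2 * j0⁻¹ ∈ R ∧ (j2 * j0⁻¹)⁻¹ ∈ R := by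
  -- `u₁ = 1 / j₁ ∈ R`
  have hu1 : j1⁻¹ ∈ R := by
    have : j1⁻¹ = j0⁻¹ ^ q * (j1 * j0⁻¹ ^ q)⁻¹ := by
      field_simp
    rw [this]
    exact R.mul_mem (R.pow_mem hu _) hTi
  have hu1nu : ¬ IsUnit (⟨j1⁻¹, hu1⟩ : ↥R) := by
    intro hunit
    rw [t4rc_isUnit_iff, inv_inv] at hunit
    apply hunu
    rw [t4rc_isUnit_iff, inv_inv]
    refine ⟨inv_ne_zero h0, hic _ ?_⟩
    apply IsIntegral.of_pow hq
    have : j0 ^ q = j1 * (j1 * j0⁻¹ ^ q)⁻¹ := by
      rw [mul_inv, inv_pow, inv_inv, ← mul_assoc, mul_inv_cancel₀ h1, one_mul]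
    rw [this]
    exact t4rc_isIntegral_of_mem R (R.mul_mem hunit.2 hTi)
  -- `u₂ = 1 / j₂ ∈ R`
  have hu2 : j2⁻¹ ∈ R := t4rc_inv_mem R hic ρ hρ P hP h1 h2 hrel hu1 hu1nu
  obtain ⟨hTw1, hTw2⟩ := hTw hu2
  refine ⟨hu2, hic _ ?_, hic _ ?_⟩
  · apply IsIntegral.of_pow hq
    have : (j2 * j0⁻¹) ^ q = j1 * j0⁻¹ ^ q * (j1 * j2⁻¹ ^ q)⁻¹ := by
      simp only [mul_pow, inv_pow, mul_inv, inv_inv]
      field_simp
    rw [this]
    exact t4rc_isIntegral_of_mem R (R.mul_mem hT hTw2)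
  · apply IsIntegral.of_pow hq
    have : (j2 * j0⁻¹)⁻¹ ^ q = j1 * j2⁻¹ ^ q * (j1 * j0⁻¹ ^ q)⁻¹ := by
      simp only [mul_pow, inv_pow, mul_inv, inv_inv]
      field_simp
    rw [this]
    exact t4rc_isIntegral_of_mem R (R.mul_mem hTw1 hTi)

/-! ### Units from rational functions of a non-unit -/

theorem t4rc_isUnit_add (R : Type*) [CommRing R] [IsLocalRing R] {x y : R} (hx : IsUnit x)
    (hy : ¬ IsUnit y) : IsUnit (x + y) := by
  by_contra h
  have h1 : x + y ∈ nonunits R := h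
  have h2 : -y ∈ nonunits R := by
    rw [mem_nonunits_iff, IsUnit.neg_iff]
    exact hy
  have h3 := IsLocalRing.nonunits_add h1 h2
  rw [add_neg_cancel_right] at h3
  exact h3 hx

/-- an element `ε` of a local ring `R` whose reduction is `P̄(ū) / Q̄(ū)`, `ū` the reduction of a
non-unit and `P̄(0), Q̄(0) ≠ 0`, is a unit -/
theorem t4rc_unit_of_rational {R K k E : Type*} [CommRing R] [IsLocalRing R] [CommRing K] [Field k]
    [CommRing E] [Algebra k E] (ρ : K →+* R) (red : K →+* k) (hred : Function.Surjective red)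
    (hunit : ∀ c : K, red c ≠ 0 → IsUnit (ρ c))
    (res : R →+* E) (hres : ∀ f : R, res f = 0 → ¬ IsUnit f)
    (hresρ : ∀ c, res (ρ c) = algebraMap k E (red c))
    {u ε : R} (hunu : ¬ IsUnit u) (Pb Qb : Polynomial k) (hP0 : Pb.coeff 0 ≠ 0)
    (hQ0 : Qb.coeff 0 ≠ 0)
    (h : Polynomial.aeval (res u) Qb * res ε = Polynomial.aeval (res u) Pb) : IsUnit ε := by
  obtain ⟨P', rfl⟩ := Polynomial.map_surjective red hred Pb
  obtain ⟨Q', rfl⟩ := Polynomial.map_surjective red hred Qb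
  have hcomp : res.comp ρ = (algebraMap k E).comp red := RingHom.ext hresρ
  have key : ∀ S : Polynomial K, (S.map red).coeff 0 ≠ 0 →
      IsUnit (S.eval₂ ρ u) ∧ res (S.eval₂ ρ u) = Polynomial.aeval (res u) (S.map red) := by
    intro S hS
    constructor
    · have h1 : S.eval₂ ρ u = ρ (S.coeff 0) + u * S.divX.eval₂ ρ u := by
        conv_lhs => rw [← Polynomial.divX_mul_X_add S]
        rw [Polynomial.eval₂_add, Polynomial.eval₂_mul, Polynomial.eval₂_X, Polynomial.eval₂_C]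
        ring
      rw [h1]
      refine t4rc_isUnit_add R (hunit _ ?_) ?_
      · rwa [Polynomial.coeff_map] at hS
      · intro hu
        exact hunu (isUnit_of_mul_isUnit_left hu)
    · rw [Polynomial.hom_eval₂, hcomp, Polynomial.aeval_def, Polynomial.eval₂_map]
  obtain ⟨hPu, hPr⟩ := key P' hP0
  obtain ⟨hQu, hQr⟩ := key Q' hQ0
  have h1 : res (Q'.eval₂ ρ u * ε - P'.eval₂ ρ u) = 0 := by
    rw [map_sub, map_mul, hPr, hQr, h, sub_self]
  have h2 : ¬ IsUnit (Q'.eval₂ ρ u * ε - P'.eval₂ ρ u) := hres _ h1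
  have h3 : IsUnit (Q'.eval₂ ρ u * ε) := by
    have : Q'.eval₂ ρ u * ε = P'.eval₂ ρ u + (Q'.eval₂ ρ u * ε - P'.eval₂ ρ u) := by ring
    rw [this]
    exact t4rc_isUnit_add R hPu h2
  exact isUnit_of_mul_isUnit_right h3

/-! ### Rational functions of `ū = 1 / j̄` -/

/-- a Laurent series in `k(j̄)` which is a power series with nonzero constant term is a quotient
`P̄(ū) / Q̄(ū)` with `P̄(0), Q̄(0) ≠ 0`, where `ū = 1 / j̄` is a power series without constant term -/
theorem t4rc_exists_rational {k : Type*} [Field k] {jb g : LaurentSeries k} (ub gp : PowerSeries k)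
    (hub : HahnSeries.ofPowerSeries ℤ k ub * jb = 1) (hub0 : PowerSeries.constantCoeff ub = 0)
    (hgp : HahnSeries.ofPowerSeries ℤ k gp = g) (hg0 : PowerSeries.constantCoeff gp ≠ 0)
    (hg : g ∈ IntermediateField.adjoin k {jb}) :
    ∃ Pb Qb : Polynomial k, Pb.coeff 0 ≠ 0 ∧ Qb.coeff 0 ≠ 0 ∧
      Polynomial.aeval jb⁻¹ Qb * g = Polynomial.aeval jb⁻¹ Pb := by
  classical
  have hjb0 : jb ≠ 0 := right_ne_zero_of_mul_eq_one hub
  have hubinv : HahnSeries.ofPowerSeries ℤ k ub = jb⁻¹ := eq_inv_of_mul_eq_one_left hub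
  have hub_ne : ub ≠ 0 := by
    rintro rfl
    rw [map_zero, zero_mul] at hub
    exact zero_ne_one hub
  have hg_ne : g ≠ 0 := by
    rintro rfl
    rw [map_eq_zero_iff _ (HahnSeries.ofPowerSeries_injective)] at hgp
    rw [hgp, map_zero] at hg0
    exact hg0 rfl
  obtain ⟨A, B, hAB⟩ := IntermediateField.mem_adjoin_simple_iff k g |>.mp hg
  have hB0 : Polynomial.aeval jb B ≠ 0 := by
    intro h0
    rw [h0, div_zero] at hAB
    exact hg_ne hAB
  have hA0 : Polynomial.aeval jb A ≠ 0 := by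
    intro h0
    rw [h0, zero_div] at hAB
    exact hg_ne hAB
  have hAne : A ≠ 0 := fun h => hA0 (by rw [h, map_zero])
  have hBne : B ≠ 0 := fun h => hB0 (by rw [h, map_zero])
  -- evaluation of the reversed polynomials at `ū`
  have hrev : ∀ S : Polynomial k, Polynomial.aeval jb S =
      Polynomial.aeval jb⁻¹ S.reverse * jb ^ S.natDegree := by
    intro S
    let _ : Invertible jb := invertibleOfNonzero hjb0
    have := Polynomial.eval₂_reverse_mul_pow (algebraMap k (LaurentSeries k)) jb S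
    rw [invOf_eq_inv] at this
    rw [Polynomial.aeval_def, Polynomial.aeval_def, this]
  have hps : ∀ S : Polynomial k, Polynomial.aeval jb⁻¹ S =
      HahnSeries.ofPowerSeries ℤ k (Polynomial.aeval ub S) := by
    intro S
    rw [← hubinv]
    have := Polynomial.hom_eval₂ S (algebraMap k (PowerSeries k))
      (HahnSeries.ofPowerSeries ℤ k) ub
    rw [Polynomial.aeval_def, Polynomial.aeval_def, this]
    congr 1
  have hcc : ∀ S : Polynomial k, PowerSeries.constantCoeff (Polynomial.aeval ub S) = S.coeff 0 := by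
    intro S
    have := Polynomial.hom_eval₂ S (algebraMap k (PowerSeries k))
      (PowerSeries.constantCoeff (R := k)) ub
    rw [Polynomial.aeval_def, this, hub0]
    have h1 : (PowerSeries.constantCoeff (R := k)).comp (algebraMap k (PowerSeries k)) =
        RingHom.id k := by
      ext c
      simp
    rw [h1, Polynomial.eval₂_id, Polynomial.eval, Polynomial.eval₂_at_zero]
    rfl
  set dA := A.natDegree with hdA
  set dB := B.natDegree with hdB
  set Ar := Polynomial.aeval ub A.reverse with hAr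
  set Br := Polynomial.aeval ub B.reverse with hBr
  have hAr0 : PowerSeries.constantCoeff Ar ≠ 0 := by
    rw [hAr, hcc, Polynomial.coeff_zero_reverse]
    exact Polynomial.leadingCoeff_ne_zero.mpr hAne
  have hBr0 : PowerSeries.constantCoeff Br ≠ 0 := by
    rw [hBr, hcc, Polynomial.coeff_zero_reverse]
    exact Polynomial.leadingCoeff_ne_zero.mpr hBne
  -- the identity in power series
  have hid : gp * Br * ub ^ dA = Ar * ub ^ dB := by
    apply HahnSeries.ofPowerSeries_injective (Γ := ℤ) (R := k)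
    rw [map_mul, map_mul, map_mul, map_pow, map_pow, hgp, ← hps, ← hps, hubinv]
    have h1 : g * Polynomial.aeval jb B = Polynomial.aeval jb A := by
      rw [hAB, div_mul_cancel₀ _ hB0]
    rw [hrev A, hrev B] at h1
    have h2 : (jb⁻¹) ^ dA * jb ^ dA = 1 := by rw [← mul_pow, inv_mul_cancel₀ hjb0, one_pow]
    have h3 : (jb⁻¹) ^ dB * jb ^ dB = 1 := by rw [← mul_pow, inv_mul_cancel₀ hjb0, one_pow]
    calc g * Polynomial.aeval jb⁻¹ B.reverse * jb⁻¹ ^ dA
        = g * (Polynomial.aeval jb⁻¹ B.reverse * jb ^ dB) * (jb⁻¹ ^ dA * jb⁻¹ ^ dB) := by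
          rw [show g * (Polynomial.aeval jb⁻¹ B.reverse * jb ^ dB) * (jb⁻¹ ^ dA * jb⁻¹ ^ dB) =
            g * Polynomial.aeval jb⁻¹ B.reverse * jb⁻¹ ^ dA * (jb⁻¹ ^ dB * jb ^ dB) by ring, h3,
            mul_one]
      _ = Polynomial.aeval jb⁻¹ A.reverse * jb ^ dA * (jb⁻¹ ^ dA * jb⁻¹ ^ dB) := by rw [h1]
      _ = Polynomial.aeval jb⁻¹ A.reverse * jb⁻¹ ^ dB := by
          rw [show Polynomial.aeval jb⁻¹ A.reverse * jb ^ dA * (jb⁻¹ ^ dA * jb⁻¹ ^ dB) =
            Polynomial.aeval jb⁻¹ A.reverse * jb⁻¹ ^ dB * (jb⁻¹ ^ dA * jb ^ dA) by ring, h2,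
            mul_one]
  have hfinal : gp * Br = Ar := by
    rcases le_total dB dA with hle | hle
    · obtain ⟨e, he⟩ := Nat.exists_eq_add_of_le hle
      rw [he, pow_add, ← mul_assoc] at hid
      have h4 : gp * Br * ub ^ e = Ar := by
        have h5 : gp * Br * ub ^ e * ub ^ dB = Ar * ub ^ dB := by
          rw [← hid]; ring
        exact mul_right_cancel₀ (pow_ne_zero dB hub_ne) h5
      rcases Nat.eq_zero_or_pos e with rfl | hpos
      · rwa [pow_zero, mul_one] at h4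
      · exfalso
        apply hAr0
        rw [← h4, map_mul, map_pow, hub0, zero_pow hpos.ne', mul_zero]
    · obtain ⟨e, he⟩ := Nat.exists_eq_add_of_le hle
      rw [he, pow_add, ← mul_assoc] at hid
      have h4 : gp * Br = Ar * ub ^ e := by
        have h5 : gp * Br * ub ^ dA = Ar * ub ^ e * ub ^ dA := by
          rw [hid]; ring
        exact mul_right_cancel₀ (pow_ne_zero dA hub_ne) h5
      rcases Nat.eq_zero_or_pos e with rfl | hpos
      · rwa [pow_zero, mul_one] at h4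
      · exfalso
        have h5 := congrArg (PowerSeries.constantCoeff (R := k)) h4
        rw [map_mul, map_mul, map_pow, hub0, zero_pow hpos.ne', mul_zero] at h5
        exact mul_ne_zero hg0 hBr0 h5
  refine ⟨A.reverse, B.reverse, ?_, ?_, ?_⟩
  · rw [Polynomial.coeff_zero_reverse]
    exact Polynomial.leadingCoeff_ne_zero.mpr hAne
  · rw [Polynomial.coeff_zero_reverse]
    exact Polynomial.leadingCoeff_ne_zero.mpr hBne
  · rw [hps, hps, ← hgp, ← map_mul, mul_comm, hfinal]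

end Fermat.Agent.T4
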