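/-
T4-R (helper1), package CM: **the reduction `ḡ = -((-θ j̄) / j̄)^(q-1)` as a rational function of
`ū = 1 / j̄`, regular and non-vanishing at `ū = 0`.**

`t4rcGs k q` is the series `ḡ` (no dependence on the valuation-theoretic setup; it is the `t4rcG` of
`CuspEps.lean`).  It has order `0` in `𝔮`; if it lies in `k(j̄)`, it is a quotient `P̄(ū) / Q̄(ū)` with
`P̄(0), Q̄(0) ≠ 0` (`t4rc_exists_PQ`).
-/
import Fermat.Agent.Lib.T4.Reg.CuspAbs
import Fermat.Agent.Lib.T4.Inst.Series
import Fermat.Agent.Lib.Igusa.GaussRing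

set_option autoImplicit false
set_option linter.unusedSectionVars false

open HahnSeries ModularCurve

namespace Fermat.Agent.T4

variable {k : Type*} [Field k]

/-- a Laurent series with nonzero coefficient at `n` and vanishing coefficients below `n` has
order `n` -/
theorem t4rc_order_eq_of_coeff {f : LaurentSeries k} {n : ℤ} (h1 : f.coeff n ≠ 0)
    (h2 : ∀ m < n, f.coeff m = 0) : f.order = n := by
  have hf : f ≠ 0 := by
    rintro rfl
    exact h1 rfl
  apply le_antisymm (HahnSeries.order_le_of_coeff_ne_zero h1)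
  by_contra hlt
  exact hf (HahnSeries.coeff_order_eq_zero.mp (h2 _ (not_le.mp hlt)))

/-- a nonzero Laurent series of order `0` is a power series with nonzero constant term -/
theorem t4rc_exists_powerSeries {g : LaurentSeries k} (hg : g ≠ 0) (h0 : g.order = 0) :
    ∃ gp : PowerSeries k, HahnSeries.ofPowerSeries ℤ k gp = g ∧
      PowerSeries.constantCoeff gp ≠ 0 := by
  refine ⟨LaurentSeries.powerSeriesPart g, ?_, ?_⟩
  · have h := LaurentSeries.single_order_mul_powerSeriesPart g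
    rw [h0] at h
    have h1 : (HahnSeries.single (0 : ℤ) (1 : k) : LaurentSeries k) = 1 := rfl
    rw [h1, one_mul] at h
    exact h
  · rw [← PowerSeries.coeff_zero_eq_constantCoeff_apply, LaurentSeries.powerSeriesPart_coeff, h0]
    simp only [Nat.cast_zero, add_zero]
    rw [← h0]
    exact HahnSeries.coeff_order_eq_zero.not.mpr hg

theorem t4rc_theta_j_order : (t4vTheta (jqModC k)).order = -1 := by
  apply t4rc_order_eq_of_coeff
  · rw [t4vTheta_coeff, coeff_jqModC_neg_one, mul_one]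
    have h2 : ((-1 : ℤ) : k) = -1 := by push_cast; rfl
    rw [h2]
    exact neg_ne_zero.mpr one_ne_zero
  · intro m hm
    rw [t4vTheta_coeff, coeff_jqModC_of_lt k hm, mul_zero]

theorem t4rc_theta_j_ne_zero : t4vTheta (jqModC k) ≠ 0 := by
  intro h
  have h1 := t4rc_theta_j_order (k := k)
  rw [h, HahnSeries.order_zero] at h1
  omega

theorem t4rc_jinv_order : ((jqModC k)⁻¹).order = 1 := by
  have hj0 : jqModC k ≠ 0 := jqModC_ne_zero_of_nontrivial k
  have h1 : (jqModC k * (jqModC k)⁻¹).order = (jqModC k).order + ((jqModC k)⁻¹).order :=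
    HahnSeries.order_mul hj0 (inv_ne_zero hj0)
  rw [mul_inv_cancel₀ hj0, HahnSeries.order_one] at h1
  have h2 : (jqModC k).order = -1 :=
    t4rc_order_eq_of_coeff (by rw [coeff_jqModC_neg_one]; exact one_ne_zero)
      (fun m hm => coeff_jqModC_of_lt k hm)
  omega

/-- the series `ḡ = -((-θ j̄) / j̄)^(q-1)` -/
noncomputable def t4rcGs (k : Type*) [Field k] (q : ℕ) : LaurentSeries k :=
  -((-t4vTheta (jqModC k)) * (jqModC k)⁻¹) ^ (q - 1)

theorem t4rcGs_ne_zero (q : ℕ) : t4rcGs k q ≠ 0 := by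
  rw [t4rcGs, neg_ne_zero]
  exact pow_ne_zero _ (mul_ne_zero (neg_ne_zero.mpr t4rc_theta_j_ne_zero)
    (inv_ne_zero (jqModC_ne_zero_of_nontrivial k)))

theorem t4rcGs_order (q : ℕ) : (t4rcGs k q).order = 0 := by
  have h1 : ((-t4vTheta (jqModC k)) * (jqModC k)⁻¹).order = 0 := by
    rw [HahnSeries.order_mul (neg_ne_zero.mpr t4rc_theta_j_ne_zero)
      (inv_ne_zero (jqModC_ne_zero_of_nontrivial k)), HahnSeries.order_neg, t4rc_theta_j_order,
      t4rc_jinv_order]
    norm_num
  rw [t4rcGs, HahnSeries.order_neg, HahnSeries.order_pow, h1, smul_zero]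

/-- **`ḡ = P̄(ū) / Q̄(ū)` with `P̄(0), Q̄(0) ≠ 0`**, if `ḡ ∈ k(j̄)` -/
theorem t4rc_exists_PQ (q : ℕ) (hG : t4rcGs k q ∈ IntermediateField.adjoin k {jqModC k}) :
    ∃ Pb Qb : Polynomial k, Pb.coeff 0 ≠ 0 ∧ Qb.coeff 0 ≠ 0 ∧
      Polynomial.aeval (jqModC k)⁻¹ Qb * t4rcGs k q = Polynomial.aeval (jqModC k)⁻¹ Pb := by
  obtain ⟨w, hw⟩ := Igusa.jqModC_mul_single_ofPowerSeries_inv k
  obtain ⟨gp, hgp, hgp0⟩ := t4rc_exists_powerSeries (t4rcGs_ne_zero (k := k) q) (t4rcGs_order (k := k) q)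
  refine t4rc_exists_rational (PowerSeries.X * w) gp ?_ ?_ hgp hgp0 hG
  · rw [map_mul, HahnSeries.ofPowerSeries_X, mul_comm]
    exact hw
  · rw [map_mul, PowerSeries.constantCoeff_X, zero_mul]

end Fermat.Agent.T4
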