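/-
T4-R (helper1), package CM (cusps on `C_mid`): **the middle reduction has values in `E'`, and the
unit `ε = (G - 1)^(q-1) / q`**, in the generic variables of `Val.lean`.

* `t4rc_rmid_mem` (L1): the reduction `t4veRmid` of *every* element of `O_mid` lies in
  `E' = modularFunctionFieldFullC k N'` (from (E3) for `𝒪` and the CRT for residues).
* `t4rcA = ϖ / a0 j = a2 j / a0 j - 1`, `t4rcEps = t4rcA^(q-1) / q`; `M.ι t4rcEps = t4rcS` is a
  series which does not depend on the level `N'`; it is Gauss-integral with reduction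
  `t4rcGs k q = -((-θ j̄) / j̄)^(q-1)` (`CuspSeries.lean`).
* `t4rcG_mem`: at the level `N' = 1`, `t4rcGs k q ∈ k(j̄)`.
-/
import Fermat.Agent.Lib.T4.Inst.ValElts2
import Fermat.Agent.Lib.T4.Inst.ValRes
import Fermat.Agent.Lib.T4.Reg.CuspSeries

set_option autoImplicit false
set_option linter.unusedSectionVars false
set_option linter.unusedVariables false
set_option linter.style.haveILetI false
set_option synthInstance.maxHeartbeats 400000

open HahnSeries ModularCurve Fermat.Agent.T1 Fermat.Agent.T2 IntermediateField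

noncomputable section

namespace Fermat.Agent.T4

section Eps

variable {L : Type} [Field L] [Algebra ℚ L] (O : ValuationSubring L) {k : Type*} [Field k]
  (π : ↥O →+* k) [IsDiscreteValuationRing ↥O] (hπ : Function.Surjective π) [IsAlgClosed k]
  {N' q : ℕ} [NeZero N'] [hq : Fact q.Prime] [CharP k q] (hN' : (N' : k) ≠ 0)
  (W1 : T2iAL L N' q) (Fr : T2iFrob k N' q) (W : T4iAL L N' q)
  (hqO : Irreducible ((q : ℕ) : ↥O))
  {L' : Type*} [Field L'] [Algebra L L'] (O' : ValuationSubring L')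
  [IsDiscreteValuationRing ↥O'] (π' : ↥O' →+* k) (C : T4iCyc O O' π π' q)
  (M : T4iMid L L' N' q C.ζ)

attribute [local instance] t2iAlgebra t2i_isScalarTower

/-! ### (L1): the middle reduction of `O_mid` has values in `E'` -/

/-- a nonnegative integral power of an element of a valuation subring lies in it -/
theorem t4rc_zpow_mem {F : Type*} [Field F] (V : ValuationSubring F) {x : F} (hx : x ∈ V) {n : ℤ}
    (hn : 0 ≤ n) : x ^ n ∈ V := by
  obtain ⟨m, rfl⟩ := Int.eq_ofNat_of_zero_le hn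
  rw [zpow_natCast]
  exact V.pow_mem hx m

include hN' W1 Fr W hqO in
/-- **(L1)** the middle reduction of every element of `O_mid` lies in
`E' = modularFunctionFieldFullC k N'` -/
theorem t4rc_rmid_mem (f : ↥(t4vOmid O π hπ O' π' C M)) :
    t4veRmid O π hπ O' π' C M f ∈ modularFunctionFieldFullC k N' := by
  by_cases hf : (f : ↥(TaF L (N' * q * q))) = 0
  · have : f = 0 := Subtype.ext hf
    rw [this, map_zero]
    exact zero_mem _
  obtain ⟨g, hg1, hg2, hg3⟩ := t4ve_crt O π hπ hN' W1 Fr W hqO O' π' C M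
    (zero_mem (modularFunctionFieldFullC k N')) (one_mem (modularFunctionFieldFullC k N'))
    (zero_mem (modularFunctionFieldFullC k N'))
  obtain ⟨a, ua, hua, -, ea⟩ := t4vOinf_exists_zpow O π hπ hqO (f : ↥(TaF L (N' * q * q))) hf
  obtain ⟨c, uc, huc, -, ec⟩ := t4vO0_exists_zpow O π hπ W hqO (f : ↥(TaF L (N' * q * q))) hf
  set n : ℕ := max (-a).toNat (-c).toNat with hn
  have hna : 0 ≤ a + n := by
    have h1 : (-a).toNat ≤ n := le_max_left _ _
    have h2 := Int.self_le_toNat (-a)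
    omega
  have hnc : 0 ≤ c + n := by
    have h1 : (-c).toNat ≤ n := le_max_right _ _
    have h2 := Int.self_le_toNat (-c)
    omega
  have hQ0 : t4vQ L N' q ≠ 0 := t4vQ_ne_zero
  obtain ⟨o1, ho1, e1⟩ := t4ve_pow_inf O π hπ hqO
    ⟨(g : ↥(TaF L (N' * q * q))), t4ve_mem_inf O π hπ hN' W1 Fr W hqO O' π' C M g⟩
    (by rw [← t4ve_ρ₁_eq, hg1]) n
  obtain ⟨o3, ho3, e3⟩ := t4ve_pow_zero O π hπ W hqO
    ⟨(g : ↥(TaF L (N' * q * q))), t4ve_mem_zero O π hπ hN' W1 Fr W hqO O' π' C M g⟩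
    (by rw [← t4ve_ρ₃_eq, hg3]) n
  have hgm := t4ve_mem_mid O π hπ hN' W1 Fr W hqO O' π' C M g
  -- the product `f * g ^ (n (q - 1))` lies in `𝒪`
  have hP : (f : ↥(TaF L (N' * q * q))) * (g : ↥(TaF L (N' * q * q))) ^ (n * (q - 1)) ∈
      (t4vInput O π hπ hN' W1 Fr W hqO O' π' C M).Ov := by
    rw [mem_t4vInput_Ov_iff]
    refine ⟨?_, ?_, ?_⟩
    · have h1 : (f : ↥(TaF L (N' * q * q))) * (g : ↥(TaF L (N' * q * q))) ^ (n * (q - 1)) =
          t4vQ L N' q ^ (a + n) * (ua * o1) := by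
        have e1' : (g : ↥(TaF L (N' * q * q))) ^ (n * (q - 1)) = t4vQ L N' q ^ n * o1 := e1
        rw [e1', zpow_add₀ hQ0, zpow_natCast]
        conv_lhs => rw [ea]
        ring
      rw [h1]
      exact mul_mem (t4rc_zpow_mem _ (t4vQ_mem_inf O π hπ) hna) (mul_mem hua ho1)
    · have h1 : (f : ↥(TaF L (N' * q * q))) * (g : ↥(TaF L (N' * q * q))) ^ (n * (q - 1)) =
          t4vQ L N' q ^ (c + n) * (uc * o3) := by
        have e3' : (g : ↥(TaF L (N' * q * q))) ^ (n * (q - 1)) = t4vQ L N' q ^ n * o3 := e3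
        rw [e3', zpow_add₀ hQ0, zpow_natCast]
        conv_lhs => rw [ec]
        ring
      rw [h1]
      exact mul_mem (t4rc_zpow_mem _ (t4vQ_mem_zero O π hπ W) hnc) (mul_mem huc ho3)
    · exact mul_mem f.2 (pow_mem hgm _)
  have h2 := t4ve_ρ₂_mem O π hπ hN' W1 Fr W hqO O' π' C M ⟨_, hP⟩
  rw [t4ve_ρ₂_eq] at h2
  have h3 : (⟨(f : ↥(TaF L (N' * q * q))) * (g : ↥(TaF L (N' * q * q))) ^ (n * (q - 1)),
      t4ve_mem_mid O π hπ hN' W1 Fr W hqO O' π' C M ⟨_, hP⟩⟩ : ↥(t4vOmid O π hπ O' π' C M)) =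
      f * ⟨(g : ↥(TaF L (N' * q * q))), hgm⟩ ^ (n * (q - 1)) := Subtype.ext rfl
  have h4 : t4veRmid O π hπ O' π' C M ⟨(g : ↥(TaF L (N' * q * q))), hgm⟩ = 1 := by
    rw [← t4ve_ρ₂_eq, hg2]
  rw [h3, map_mul, map_pow, h4, one_pow, mul_one] at h2
  exact h2

/-! ### The elements `a = G - 1` and `ε = a^(q-1) / q` -/

/-- `a = ϖ / a0 j = a2 j / a0 j - 1` -/
def t4rcA (L : Type) [Field L] [Algebra ℚ L] (N' q : ℕ) [NeZero N'] [NeZero q] :
    ↥(TaF L (N' * q * q)) :=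
  t4vPi L N' q * (t4vA0 L N' q (taJ N'))⁻¹

/-- `ε = a^(q-1) / q` -/
def t4rcEps (L : Type) [Field L] [Algebra ℚ L] (N' q : ℕ) [NeZero N'] [NeZero q] :
    ↥(TaF L (N' * q * q)) :=
  t4rcA L N' q ^ (q - 1) * (t4vQ L N' q)⁻¹

theorem t4rc_a0J_ne_zero : t4vA0 L N' q (taJ N') ≠ 0 := by
  rw [Ne, map_eq_zero]
  intro h
  have h1 := congrArg (fun x : ↥(TaF L N') => (x : LaurentSeries L)) h
  simp only [coe_taJ, ZeroMemClass.coe_zero] at h1
  exact jqModC_ne_zero_of_nontrivial L h1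

theorem t4rcA_eq : t4rcA L N' q =
    t4vA2 L N' q (taJ N') * (t4vA0 L N' q (taJ N'))⁻¹ - 1 := by
  rw [t4rcA, t4vPi, sub_mul, mul_inv_cancel₀ t4rc_a0J_ne_zero]

theorem t4rcA_pow : t4rcA L N' q ^ (q - 1) = t4vQ L N' q * t4rcEps L N' q := by
  rw [t4rcEps, mul_comm (t4rcA L N' q ^ (q - 1)), ← mul_assoc,
    mul_inv_cancel₀ (t4vQ_ne_zero (L := L) (N' := N') (q := q)), one_mul]

/-- the series `ι ε = ((-Δ_ζ j) / j)^(q-1) / U`, which does not depend on the level -/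
def t4rcS : LaurentSeries L' :=
  ((-t4vDel C.ζ (jqModC L')) * (jqModC L')⁻¹) ^ (q - 1) *
    (HahnSeries.C ((t4vU O π hπ O' π' C : ↥O') : L'))⁻¹

include hπ in
theorem t4rc_ι_eps : M.ι (t4rcEps L N' q) = t4rcS O π hπ O' π' C := by
  have hP0 := t4v_C_lam_ne_zero O π O' π' C
  obtain ⟨hU, -, -⟩ := t4vU_spec O π hπ O' π' C
  have hU0 : ((t4vU O π hπ O' π' C : ↥O') : L') ≠ 0 := fun h0 =>
    hU.ne_zero (Subtype.ext h0)
  have hCU0 : (HahnSeries.C ((t4vU O π hπ O' π' C : ↥O') : L') : LaurentSeries L') ≠ 0 := by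
    rw [Ne, map_eq_zero]
    exact hU0
  have hj0 : jqModC L' ≠ 0 := jqModC_ne_zero_of_nontrivial L'
  have hιj : M.ι (t4vA0 L N' q (taJ N')) = jqModC L' := by
    rw [M.ι_a0, coe_taJ, coeffMap_jqModC]
  rw [t4rcEps, t4rcA, t4rcS, map_mul, map_pow, map_mul, map_inv₀, map_inv₀,
    t4v_ι_Pi O π O' π' C M, t4v_ι_Q O π hπ O' π' C M, hιj, map_mul, map_pow]
  field_simp
  ring

include hπ in
theorem t4rc_gauss_jinv : TaGauss O' π' (jqModC L')⁻¹ := by
  refine taGauss_inv_of_taRho_ne_zero O' π' ⟨jqModC L', t4v_gauss_jqModC O' π'⟩ ?_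
  show taRhoFun O' π' (jqModC L') ≠ 0
  rw [t4v_taRhoFun_jqModC]
  exact jqModC_ne_zero_of_nontrivial k

include hπ in
theorem t4rc_rho_jinv : taRhoFun O' π' (jqModC L')⁻¹ = (jqModC k)⁻¹ := by
  have h1 : (⟨jqModC L', t4v_gauss_jqModC O' π'⟩ : ↥(taGaussSubring O' π')) *
      ⟨(jqModC L')⁻¹, t4rc_gauss_jinv O π hπ O' π'⟩ = 1 :=
    Subtype.ext (mul_inv_cancel₀ (jqModC_ne_zero_of_nontrivial L'))
  have h2 := congrArg (taRho O' π') h1
  rw [map_mul, map_one] at h2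
  have h3 : taRho O' π' ⟨jqModC L', t4v_gauss_jqModC O' π'⟩ = jqModC k :=
    t4v_taRhoFun_jqModC O' π'
  rw [h3] at h2
  exact eq_inv_of_mul_eq_one_right h2

include hπ in
/-- `ι ε` is Gauss-integral, with reduction `ḡ` -/
theorem t4rc_gauss_S : TaGauss O' π' (t4rcS O π hπ O' π' C) ∧
    taRhoFun O' π' (t4rcS O π hπ O' π' C) = t4rcGs k q := by
  obtain ⟨hU, -, hU1⟩ := t4vU_spec O π hπ O' π' C
  obtain ⟨v, hv⟩ := hU.exists_right_inv
  have hCinv : (HahnSeries.C ((t4vU O π hπ O' π' C : ↥O') : L') : LaurentSeries L')⁻¹ =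
      HahnSeries.C ((v : ↥O') : L') := by
    have h1 : ((t4vU O π hπ O' π' C : ↥O') : L') * ((v : ↥O') : L') = 1 :=
      congrArg Subtype.val hv
    rw [← map_inv₀]
    congr 1
    exact (eq_inv_of_mul_eq_one_right h1).symm
  have hπv : π' v = -1 := by
    have h1 := congrArg π' hv
    rw [map_mul, map_one, hU1] at h1
    have h2 : π' v = -(-1 * π' v) := by ring
    rw [h2, h1]
  set x : ↥(taGaussSubring O' π') :=
    (⟨-t4vDel C.ζ (jqModC L'), t4v_gauss_th O π hπ O' π' C⟩ *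
      ⟨(jqModC L')⁻¹, t4rc_gauss_jinv O π hπ O' π'⟩) ^ (q - 1) * t4vConst O' π' v with hx
  have hxS : ((x : ↥(taGaussSubring O' π')) : LaurentSeries L') = t4rcS O π hπ O' π' C := by
    rw [t4rcS, hCinv]
    rfl
  refine ⟨hxS ▸ x.2, ?_⟩
  have h1 : taRho O' π' x = t4rcGs k q := by
    rw [hx, map_mul, map_pow, map_mul, taRho_t4vConst, hπv]
    have h2 : taRho O' π' ⟨-t4vDel C.ζ (jqModC L'), t4v_gauss_th O π hπ O' π' C⟩ =
        -t4vTheta (jqModC k) := t4v_taRhoFun_th O π hπ O' π' C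
    have h3 : taRho O' π' ⟨(jqModC L')⁻¹, t4rc_gauss_jinv O π hπ O' π'⟩ = (jqModC k)⁻¹ :=
      t4rc_rho_jinv O π hπ O' π'
    rw [h2, h3, t4rcGs, map_neg, map_one, mul_neg, mul_one]
  rw [← hxS]
  exact h1

include hπ in
theorem t4rcEps_mem_mid : t4rcEps L N' q ∈ t4vOmid O π hπ O' π' C M := by
  rw [mem_t4vOmid, t4rc_ι_eps O π hπ O' π' C M]
  exact (t4rc_gauss_S O π hπ O' π' C).1

include hπ in
/-- **`res_mid ε = ḡ`** -/
theorem t4rc_rmid_eps :
    t4veRmid O π hπ O' π' C M ⟨t4rcEps L N' q, t4rcEps_mem_mid O π hπ O' π' C M⟩ =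
      t4rcGs k q := by
  rw [t4veRmid_apply, t4rc_ι_eps O π hπ O' π' C M]
  exact (t4rc_gauss_S O π hπ O' π' C).2

end Eps

/-! ### `ḡ ∈ k(j̄)`, from the level `N' = 1` -/

section LevelOne

variable {L : Type} [Field L] [Algebra ℚ L] (O : ValuationSubring L) {k : Type*} [Field k]
  (π : ↥O →+* k) [IsDiscreteValuationRing ↥O] (hπ : Function.Surjective π) [IsAlgClosed k]
  {q : ℕ} [hq : Fact q.Prime] [CharP k q]
  (W1 : T2iAL L 1 q) (Fr : T2iFrob k 1 q) (W : T4iAL L 1 q)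
  (hqO : Irreducible ((q : ℕ) : ↥O))
  {L' : Type*} [Field L'] [Algebra L L'] (O' : ValuationSubring L')
  [IsDiscreteValuationRing ↥O'] (π' : ↥O' →+* k) (C : T4iCyc O O' π π' q)
  (M : T4iMid L L' 1 q C.ζ)

theorem t4rc_fullC_one (k : Type*) [Field k] :
    modularFunctionFieldFullC k 1 = IntermediateField.adjoin k {jqModC k} := by
  rw [modularFunctionFieldFullC]
  congr 1
  ext x
  constructor
  · rintro ⟨d, hd, hd1, rfl⟩
    have : d = 1 := Nat.dvd_one.mp hd1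
    subst this
    rw [qExpand_one_apply]
    exact Set.mem_singleton _
  · intro hx
    rw [Set.mem_singleton_iff] at hx
    refine ⟨1, ⟨one_ne_zero⟩, dvd_rfl, ?_⟩
    rw [hx, qExpand_one_apply]

include O π hπ W1 Fr W hqO O' π' C M in
/-- **`ḡ = -((-θ j̄) / j̄)^(q-1)` is a rational function of `j̄`** -/
theorem t4rcG_mem : t4rcGs k q ∈ IntermediateField.adjoin k {jqModC k} := by
  have h1 : ((1 : ℕ) : k) ≠ 0 := by
    rw [Nat.cast_one]
    exact one_ne_zero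
  have h := t4rc_rmid_mem O π hπ h1 W1 Fr W hqO O' π' C M
    ⟨t4rcEps L 1 q, t4rcEps_mem_mid O π hπ O' π' C M⟩
  rw [t4rc_rmid_eps O π hπ O' π' C M, t4rc_fullC_one] at h
  exact h

end LevelOne

end Fermat.Agent.T4
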