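/-
T4-R (helper1), package CM: small general lemmas for the cusp instance (Mathlib only).

* `t4rc_hunif`: in a valuation subring with uniformiser `ϖ` and `Q = ϖ^e · unit`:
  `v x < 1 → (v x)^e ≤ v Q`.
* `t4rc_isIntegral_jinv`: `1 / j` is integral over `K[1 / (j^Q - j)]`.
* `t4rc_jinv_pow_eq`: `(1/j)^Q = (1 / (j^Q - j)) · (1 - (1/j)^(Q-1))`.
* `t4rc_adjoin_le`: `K[x] ⊆ V` for a valuation subring `V ⊇ K` containing `x`; `t4rc_mem_of_isIntegral`.
* `t4rc_isIntegral_algEquiv`: automorphisms transport integrality over `K[x]`.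
-/
import Mathlib

set_option autoImplicit false

namespace Fermat.Agent.T4

variable {F : Type*} [Field F]

/-- `v x < 1 → (v x)^e ≤ v Q` if `Q = ϖ^e · unit`, `ϖ` a uniformiser of `V` -/
theorem t4rc_hunif (V : ValuationSubring F) {ϖ Q w : F} (hϖ : ϖ ∈ V) (hϖu : ϖ⁻¹ ∉ V)
    (hdec : ∀ f : F, f ≠ 0 → ∃ (n : ℤ) (u : F), u ∈ V ∧ u⁻¹ ∈ V ∧ f = ϖ ^ n * u)
    {e : ℕ} (he : e ≠ 0) (hw : w ∈ V) (hwi : w⁻¹ ∈ V) (hw0 : w ≠ 0) (hQ : Q = ϖ ^ e * w) :
    ∀ x : F, V.valuation x < 1 → V.valuation x ^ e ≤ V.valuation Q := by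
  intro x hx
  have hunit : ∀ u : F, u ≠ 0 → u ∈ V → u⁻¹ ∈ V → V.valuation u = 1 := by
    intro u hu0 hu hui
    have h1 : V.valuation u ≤ 1 := (V.valuation_le_one_iff _).mpr hu
    have h2 : V.valuation u⁻¹ ≤ 1 := (V.valuation_le_one_iff _).mpr hui
    rw [map_inv₀] at h2
    have h3 : V.valuation u ≠ 0 := (Valuation.ne_zero_iff _).mpr hu0
    exact le_antisymm h1 ((inv_le_one₀ (zero_lt_iff.mpr h3)).mp h2)
  have hϖ0 : ϖ ≠ 0 := by
    rintro rfl
    rw [inv_zero] at hϖu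
    exact hϖu V.zero_mem
  have hϖ1 : V.valuation ϖ ≤ 1 := (V.valuation_le_one_iff _).mpr hϖ
  have hvQ : V.valuation Q = V.valuation ϖ ^ e := by
    rw [hQ, map_mul, map_pow, hunit w hw0 hw hwi, mul_one]
  rcases eq_or_ne x 0 with rfl | hx0
  · rw [map_zero, zero_pow he]
    exact zero_le
  obtain ⟨n, u, hu, hui, rfl⟩ := hdec x hx0
  have hu0 : u ≠ 0 := by
    rintro rfl
    exact hx0 (mul_zero _)
  have hvx : V.valuation (ϖ ^ n * u) = V.valuation ϖ ^ n := by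
    rw [map_mul, map_zpow₀, hunit u hu0 hu hui, mul_one]
  rw [hvx] at hx ⊢
  rw [hvQ]
  have hvpos : 0 < V.valuation ϖ := zero_lt_iff.mpr ((Valuation.ne_zero_iff _).mpr hϖ0)
  have hn : 1 ≤ n := by
    by_contra hcon
    push Not at hcon
    have hn0 : n ≤ 0 := by omega
    have h1 : (1 : _) ≤ V.valuation ϖ ^ n := by
      obtain ⟨m, rfl⟩ : ∃ m : ℕ, n = -(m : ℤ) := ⟨(-n).toNat, by omega⟩
      rw [zpow_neg, zpow_natCast]
      exact (one_le_inv₀ (pow_pos hvpos m)).mpr (pow_le_one₀ zero_le hϖ1)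
    exact absurd hx (not_lt.mpr h1)
  obtain ⟨m, rfl⟩ : ∃ m : ℕ, n = (m : ℤ) + 1 := ⟨(n - 1).toNat, by omega⟩
  have h2 : V.valuation ϖ ^ ((m : ℤ) + 1) ≤ V.valuation ϖ := by
    rw [zpow_add_one₀ hvpos.ne', zpow_natCast]
    calc V.valuation ϖ ^ m * V.valuation ϖ ≤ 1 * V.valuation ϖ :=
          mul_le_mul_left (pow_le_one₀ zero_le hϖ1) _
      _ = V.valuation ϖ := one_mul _
  exact pow_le_pow_left₀ zero_le h2 e

/-- `(1/j)^Q = (1 / (j^Q - j)) · (1 - (1/j)^(Q-1))` -/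
theorem t4rc_jinv_pow_eq {j : F} {Q : ℕ} (hQ : 1 ≤ Q) (hj : j ≠ 0) (hX : j ^ Q - j ≠ 0) :
    j⁻¹ ^ Q = (j ^ Q - j)⁻¹ * (1 - j⁻¹ ^ (Q - 1)) := by
  obtain ⟨m, rfl⟩ : ∃ m, Q = m + 1 := ⟨Q - 1, by omega⟩
  rw [Nat.add_sub_cancel, eq_inv_mul_iff_mul_eq₀ hX]
  have hju : j * j⁻¹ = 1 := mul_inv_cancel₀ hj
  calc (j ^ (m + 1) - j) * j⁻¹ ^ (m + 1) = (j * j⁻¹) ^ (m + 1) - (j * j⁻¹) * j⁻¹ ^ m := by ring
    _ = 1 - j⁻¹ ^ m := by rw [hju, one_pow, one_mul]

/-- `1 / j` is integral over `K[1 / (j^Q - j)]` -/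
theorem t4rc_isIntegral_jinv {K : Type*} [Field K] [Algebra K F] {j : F} {Q : ℕ} (hQ : 2 ≤ Q)
    (hj : j ≠ 0) (hX : j ^ Q - j ≠ 0) :
    IsIntegral ↥(Algebra.adjoin K {(j ^ Q - j)⁻¹}) j⁻¹ := by
  set y : F := (j ^ Q - j)⁻¹ with hy
  set yA : ↥(Algebra.adjoin K {y}) := ⟨y, Algebra.subset_adjoin (Set.mem_singleton y)⟩ with hyA
  refine ⟨Polynomial.X ^ Q + (Polynomial.C yA * Polynomial.X ^ (Q - 1) - Polynomial.C yA), ?_, ?_⟩
  · apply Polynomial.monic_X_pow_add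
    refine lt_of_le_of_lt (Polynomial.degree_sub_le _ _) (max_lt ?_ ?_)
    · refine lt_of_le_of_lt (Polynomial.degree_C_mul_X_pow_le _ _) ?_
      exact_mod_cast (by omega : Q - 1 < Q)
    · refine lt_of_le_of_lt Polynomial.degree_C_le ?_
      exact_mod_cast (by omega : 0 < Q)
  · rw [Polynomial.eval₂_add, Polynomial.eval₂_sub, Polynomial.eval₂_mul, Polynomial.eval₂_pow,
      Polynomial.eval₂_pow, Polynomial.eval₂_X, Polynomial.eval₂_C]
    have h1 : algebraMap ↥(Algebra.adjoin K {y}) F yA = y := rfl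
    rw [h1, t4rc_jinv_pow_eq (by omega) hj hX, ← hy]
    ring

/-- `K[x] ⊆ V` -/
theorem t4rc_adjoin_le {K : Type*} [Field K] [Algebra K F] (V : ValuationSubring F)
    (hK : ∀ c : K, algebraMap K F c ∈ V) {x : F} (hxV : x ∈ V) (r : ↥(Algebra.adjoin K {x})) :
    (r : F) ∈ V := by
  let S : Subalgebra K F :=
    { V.toSubring with
      algebraMap_mem' := fun a => hK a }
  have hle : Algebra.adjoin K {x} ≤ S := Algebra.adjoin_le (by
    intro y hy
    rw [Set.mem_singleton_iff] at hy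
    rw [hy]
    exact hxV)
  exact hle r.2

/-- an element integral over `K[x]`, `K ⊆ V`, `x ∈ V`, lies in the valuation subring `V` -/
theorem t4rc_mem_of_isIntegral {K : Type*} [Field K] [Algebra K F] (V : ValuationSubring F)
    (hK : ∀ c : K, algebraMap K F c ∈ V) {x f : F} (hxV : x ∈ V)
    (hf : IsIntegral ↥(Algebra.adjoin K {x}) f) : f ∈ V := by
  obtain ⟨p, hmonic, hp⟩ := hf
  let φ : ↥(Algebra.adjoin K {x}) →+* V :=
    (algebraMap ↥(Algebra.adjoin K {x}) F).codRestrict V.toSubring (t4rc_adjoin_le V hK hxV)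
  have hint : IsIntegral V f := by
    refine ⟨p.map φ, hmonic.map φ, ?_⟩
    rw [Polynomial.eval₂_map]
    exact hp
  obtain ⟨g, hg⟩ := IsIntegrallyClosed.isIntegral_iff.mp hint
  rw [← hg]
  exact g.2

/-- an algebra automorphism transports integrality over `K[x]` to integrality over `K[w x]` -/
theorem t4rc_isIntegral_algEquiv {K : Type*} [Field K] [Algebra K F]
    (w : F ≃ₐ[K] F) {x f : F} (hf : IsIntegral ↥(Algebra.adjoin K {x}) f) :
    IsIntegral ↥(Algebra.adjoin K {w x}) (w f) := by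
  have hmap : ∀ a : F, a ∈ Algebra.adjoin K {x} → w a ∈ Algebra.adjoin K {w x} := by
    intro a ha
    have h1 : (Algebra.adjoin K {x}).map (w : F →ₐ[K] F) = Algebra.adjoin K {w x} := by
      rw [AlgHom.map_adjoin, Set.image_singleton]
      rfl
    rw [← h1]
    exact ⟨a, ha, rfl⟩
  let φ : ↥(Algebra.adjoin K {x}) →+* ↥(Algebra.adjoin K {w x}) :=
    { toFun := fun a => ⟨w a, hmap a a.2⟩
      map_one' := Subtype.ext (map_one w)
      map_mul' := fun a b => Subtype.ext (map_mul w _ _)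
      map_zero' := Subtype.ext (map_zero w)
      map_add' := fun a b => Subtype.ext (map_add w _ _) }
  exact IsIntegral.map_of_comp_eq φ (w : F →+* F) (by ext a; rfl) hf

end Fermat.Agent.T4
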