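/-
T4-R (helper1), package CM (cusps on `C_mid`), the local ring `B_𝔫` of a presentation.

`P : T4Pres F`, `𝔫` a prime of `B`, `R = B_𝔫 = P.loc 𝔫` (local, integrally closed in `F`).

* `T4Pres.inv_mem_loc_of_sub_one`: `t ∈ R`, `t ≡ 1` modulo a branch `V₀` through `𝔫` ⇒ `t ∈ Rˣ`.
* `T4Pres.not_isUnit_of_mem`: the elements of `𝔫` are non-units of `R`.
* `T4Pres.cusp_ratio`: the ratio `G = j₂ / j₀` is a unit of `R` at a cuspidal point (from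
  `t4rc_ratio_unit`, with the congruences `T ≡ 1`, `T_w ≡ 1` on the branch `V₀`).
* `T4Pres.regAt_of_pow_eq_loc`: `RegAt` from a local equation `a ^ e = Q ε`, `a ∈ R`, `ε ∈ Rˣ`,
  at a point with a single vertical branch `V₀` (with `v₀(x) < 1 ⇒ v₀(x)^e ≤ v₀(Q)`).
-/
import Fermat.Agent.Lib.T4.Local.Trich
import Fermat.Agent.Lib.T4.Local.RegWrap
import Fermat.Agent.Lib.T4.Reg.CuspAbs

set_option autoImplicit false
set_option linter.style.haveILetI false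

namespace Fermat.Agent.T4

namespace T4Pres

variable {F : Type*} [Field F] (P : T4Pres F)

/-- an element of `B_𝔫` which is small at some branch through `𝔫` is a non-unit -/
theorem not_isUnit_of_valuation_lt {𝔫 : Ideal P.B} {V₀ : ValuationSubring F}
    (hV₀ : V₀ ∈ P.through 𝔫) (f : ↥(P.loc 𝔫)) (h : V₀.valuation (f : F) < 1) : ¬ IsUnit f := by
  intro hu
  rw [P.isUnit_loc_iff] at hu
  rw [hu.2 V₀ hV₀] at h
  exact lt_irrefl _ h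

/-- an element of `B_𝔫` congruent to `1` modulo a branch through `𝔫` is a unit -/
theorem inv_mem_loc_of_sub_one (𝔫 : Ideal P.B) [h𝔫 : 𝔫.IsPrime] {V₀ : ValuationSubring F}
    (hV₀ : V₀ ∈ P.through 𝔫) {t : F} (ht : t ∈ P.loc 𝔫) (h1 : V₀.valuation (t - 1) < 1) :
    t⁻¹ ∈ P.loc 𝔫 := by
  letI := P.isLocalRing_loc 𝔫
  have hnu : (1 - ⟨t, ht⟩ : ↥(P.loc 𝔫)) ∈ nonunits ↥(P.loc 𝔫) := by
    rw [mem_nonunits_iff]
    refine P.not_isUnit_of_valuation_lt hV₀ _ ?_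
    have : (((1 - ⟨t, ht⟩ : ↥(P.loc 𝔫)) : ↥(P.loc 𝔫)) : F) = 1 - t := rfl
    rw [this, Valuation.map_sub_swap]
    exact h1
  have hu : IsUnit (⟨t, ht⟩ : ↥(P.loc 𝔫)) := IsLocalRing.isUnit_of_mem_nonunits_one_sub_self _ hnu
  exact ((t4rc_isUnit_iff (P.loc 𝔫) ht).mp hu).2

/-- the elements of `𝔫` are non-units of `B_𝔫` -/
theorem not_isUnit_of_mem (𝔫 : Ideal P.B) [h𝔫 : 𝔫.IsPrime] {b : F} (hb : b ∈ P.B)
    (hb𝔫 : (⟨b, hb⟩ : P.B) ∈ 𝔫) (hbl : b ∈ P.loc 𝔫) : ¬ IsUnit (⟨b, hbl⟩ : ↥(P.loc 𝔫)) := by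
  letI := P.isLocalRing_loc 𝔫
  have h1 : (⟨b, hbl⟩ : ↥(P.loc 𝔫)) ∈ IsLocalRing.maximalIdeal ↥(P.loc 𝔫) := by
    rw [P.mem_maximalIdeal_loc_iff]
    refine ⟨⟨b, hb⟩, 1, hb𝔫, (Ideal.ne_top_iff_one 𝔫).mp h𝔫.ne_top, ?_⟩
    show ((1 : P.B) : F) * b = b
    rw [Subring.coe_one, one_mul]
  exact (IsLocalRing.mem_maximalIdeal _).mp h1

/-- **the ratio `G = j₂ / j₀` at a cuspidal point.**  `u = 1 / j₀` is a non-unit of `R = B_𝔫`;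
`T = j₁ u^q ∈ R` and `T ≡ 1` on the branch `V₀`; `j₁` is a root of a monic polynomial over `ℤ[j₂]`
(the modular equation); `T_w = j₁ u₂^q ∈ R` as soon as `u₂ = 1 / j₂ ∈ R`, and `T_w ≡ 1` on `V₀`.
Then `u₂ ∈ R` and `G = j₂ / j₀` is a unit of `R`. -/
theorem cusp_ratio (𝔫 : Ideal P.B) [h𝔫 : 𝔫.IsPrime] {V₀ : ValuationSubring F}
    (hV₀ : V₀ ∈ P.through 𝔫) (Φ : Polynomial (Polynomial ℤ)) (hΦ : Φ.Monic) {j0 j1 j2 : F}
    (h0 : j0 ≠ 0) (h1 : j1 ≠ 0) (h2 : j2 ≠ 0)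
    (hrel : Φ.eval₂ (Polynomial.eval₂RingHom (Int.castRingHom F) j2) j1 = 0) {q : ℕ} (hq : 0 < q)
    (hu : j0⁻¹ ∈ P.loc 𝔫) (hunu : ¬ IsUnit (⟨j0⁻¹, hu⟩ : ↥(P.loc 𝔫)))
    (hT : j1 * j0⁻¹ ^ q ∈ P.loc 𝔫) (hT1 : V₀.valuation (j1 * j0⁻¹ ^ q - 1) < 1)
    (hTw : j2⁻¹ ∈ P.loc 𝔫 → j1 * j2⁻¹ ^ q ∈ P.loc 𝔫)
    (hTw1 : V₀.valuation (j1 * j2⁻¹ ^ q - 1) < 1) :
    j2⁻¹ ∈ P.loc 𝔫 ∧ j2 * j0⁻¹ ∈ P.loc 𝔫 ∧ (j2 * j0⁻¹)⁻¹ ∈ P.loc 𝔫 := by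
  letI := P.isLocalRing_loc 𝔫
  refine t4rc_ratio_unit (P.loc 𝔫) (fun x hx => P.loc_integrallyClosed 𝔫 hx)
    (Int.castRingHom F) (fun c => by
      rw [eq_intCast]
      exact intCast_mem _ c) Φ hΦ h0 h1 h2 hrel hq hu hunu hT
    (P.inv_mem_loc_of_sub_one 𝔫 hV₀ hT hT1) (fun h => ?_)
  exact ⟨hTw h, P.inv_mem_loc_of_sub_one 𝔫 hV₀ (hTw h) hTw1⟩

/-- **regularity from a local equation `a ^ e = Q ε`**, `a ∈ B_𝔫`, `ε` a unit of `B_𝔫`, at a point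
with a single vertical branch `V₀`, where `Q` has valuation `e` at `V₀` -/
theorem regAt_of_pow_eq_loc (𝔫 : Ideal P.B) [h𝔫 : 𝔫.IsPrime] {Q : F} (hQ : Q ∈ P.B)
    {V₀ : ValuationSubring F} (hV₀ : V₀ ∈ P.through 𝔫) (hQV₀ : V₀.valuation Q < 1) {e : ℕ}
    (he : e ≠ 0)
    (hunif : ∀ x : F, V₀.valuation x < 1 → V₀.valuation x ^ e ≤ V₀.valuation Q)
    (honly : ∀ V ∈ P.through 𝔫, V ∈ P.vert Q → V = V₀)
    {a ε : F} (ha : a ∈ P.loc 𝔫) (hε : ε ∈ P.loc 𝔫) (hεi : ε⁻¹ ∈ P.loc 𝔫) (hε0 : ε ≠ 0)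
    (hae : a ^ e = Q * ε) (hsm : P.SmoothAt 𝔫 V₀ hV₀) : P.RegAt 𝔫 := by
  have hεv : ∀ V ∈ P.through 𝔫, V.valuation ε = 1 := by
    intro V hV
    have h1 : V.valuation ε ≤ 1 := (V.valuation_le_one_iff _).mpr (hε V hV)
    have h2 : V.valuation ε⁻¹ ≤ 1 := (V.valuation_le_one_iff _).mpr (hεi V hV)
    rw [map_inv₀] at h2
    have h3 : 0 < V.valuation ε := zero_lt_iff.mpr ((Valuation.ne_zero_iff _).mpr hε0)
    exact le_antisymm h1 ((inv_le_one₀ h3).mp h2)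
  have hav : ∀ V ∈ P.through 𝔫, V.valuation a ^ e = V.valuation Q := by
    intro V hV
    rw [← map_pow, hae, map_mul, hεv V hV, mul_one]
  refine P.regAt_of_loc 𝔫 hV₀ ha ?_ ?_ ?_ hsm
  · by_contra hcon
    push Not at hcon
    have h1 : (1 : _) ≤ V₀.valuation a ^ e := one_le_pow₀ hcon
    rw [hav V₀ hV₀] at h1
    exact absurd hQV₀ (not_lt.mpr h1)
  · intro x hx
    have h1 := hunif x hx
    rw [← hav V₀ hV₀] at h1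
    exact le_of_pow_le_pow_left₀ he zero_le h1
  · intro V hV hne
    have hv : V ∉ P.vert Q := fun hv => hne (honly V hV hv)
    have h1 := hav V hV
    rw [P.valuation_eq_one_of_not_vert hQ hV.1 hv] at h1
    exact t4l_eq_one_of_pow_eq_one he h1

end T4Pres

end Fermat.Agent.T4
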