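/-
T4-R (helper1), package CM: **middle residues of the cusp elements** (generic variables of `Val.lean`).

With `j₀ = a0 j`, `j₁ = a1 j`, `j₂ = a2 j`, `u = 1 / j₀`, `u₂ = 1 / j₂`, `T = j₁ u^q`, `T_w = j₁ u₂^q`:
all lie in `O_mid` (indeed in `𝒪`), with middle residues `j̄, j̄^q, j̄, 1/j̄, 1/j̄, 1, 1`; hence
`v_mid (T - 1) < 1`, `v_mid (T_w - 1) < 1`.
-/
import Fermat.Agent.Lib.T4.Reg.CuspEps

set_option autoImplicit false
set_option linter.unusedSectionVars false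
set_option linter.unusedVariables false
set_option linter.style.haveILetI false
set_option synthInstance.maxHeartbeats 400000

open HahnSeries ModularCurve Fermat.Agent.T1 Fermat.Agent.T2 IntermediateField

noncomputable section

namespace Fermat.Agent.T4

section Res

variable {L : Type} [Field L] [Algebra ℚ L] (O : ValuationSubring L) {k : Type*} [Field k]
  (π : ↥O →+* k) [IsDiscreteValuationRing ↥O] (hπ : Function.Surjective π) [IsAlgClosed k]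
  {N' q : ℕ} [NeZero N'] [hq : Fact q.Prime] [CharP k q] (hN' : (N' : k) ≠ 0)
  (W1 : T2iAL L N' q) (Fr : T2iFrob k N' q) (W : T4iAL L N' q)
  (hqO : Irreducible ((q : ℕ) : ↥O))
  {L' : Type*} [Field L'] [Algebra L L'] (O' : ValuationSubring L')
  [IsDiscreteValuationRing ↥O'] (π' : ↥O' →+* k) (C : T4iCyc O O' π π' q)
  (M : T4iMid L L' N' q C.ζ)

attribute [local instance] t2iAlgebra t2i_isScalarTower

/-- residue `1` ⇒ congruent to `1` at `O_mid` -/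
theorem t4rc_valuation_sub_one {x : ↥(TaF L (N' * q * q))}
    (hx : x ∈ t4vOmid O π hπ O' π' C M) (h : t4veRmid O π hπ O' π' C M ⟨x, hx⟩ = 1) :
    (t4vOmid O π hπ O' π' C M).valuation (x - 1) < 1 := by
  have hx1 : x - 1 ∈ t4vOmid O π hπ O' π' C M := sub_mem hx (one_mem _)
  rw [t4vOmid_valuation_lt_one_iff O π hπ O' π' C M hx1]
  have h1 : taRhoFun O' π' (M.ι (x - 1)) = t4veRmid O π hπ O' π' C M ⟨x - 1, hx1⟩ := rfl
  have h2 : (⟨x - 1, hx1⟩ : ↥(t4vOmid O π hπ O' π' C M)) = ⟨x, hx⟩ - 1 := rfl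
  rw [h1, h2, map_sub, map_one, h, sub_self]

/-- the middle residue of an inverse -/
theorem t4rc_rmid_inv (f : ↥(t4vOmid O π hπ O' π' C M))
    (h : t4veRmid O π hπ O' π' C M f ≠ 0) :
    t4veRmid O π hπ O' π' C M ⟨((f : ↥(TaF L (N' * q * q))))⁻¹,
      t4ve_inv_mem_mid O π hπ O' π' C M f h⟩ = (t4veRmid O π hπ O' π' C M f)⁻¹ := by
  have hf0 : (f : ↥(TaF L (N' * q * q))) ≠ 0 := by
    intro h0
    apply h
    have : f = 0 := Subtype.ext h0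
    rw [this, map_zero]
  have h1 : f * ⟨((f : ↥(TaF L (N' * q * q))))⁻¹,
      t4ve_inv_mem_mid O π hπ O' π' C M f h⟩ = 1 := Subtype.ext (mul_inv_cancel₀ hf0)
  have h2 := congrArg (t4veRmid O π hπ O' π' C M) h1
  rw [map_mul, map_one] at h2
  exact eq_inv_of_mul_eq_one_right h2

include hπ hN' W1 Fr W hqO in
theorem t4rc_a0j_mem_mid : t4vA0 L N' q (taJ N') ∈ t4vOmid O π hπ O' π' C M :=
  t4ve_mem_mid O π hπ hN' W1 Fr W hqO O' π' C M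
    ⟨_, t4v_a0_mem O π hπ hN' W1 Fr W hqO O' π' C M (t4vr_taJ_gauss O π)⟩

include hπ hN' W1 Fr W hqO in
theorem t4rc_a1j_mem_mid : t4vA1 L N' q (taJ N') ∈ t4vOmid O π hπ O' π' C M :=
  t4ve_mem_mid O π hπ hN' W1 Fr W hqO O' π' C M
    ⟨_, t4v_a1_mem O π hπ hN' W1 Fr W hqO O' π' C M (t4vr_taJ_gauss O π)⟩

include hπ hN' W1 Fr W hqO in
theorem t4rc_a2j_mem_mid : t4vA2 L N' q (taJ N') ∈ t4vOmid O π hπ O' π' C M :=
  t4ve_mem_mid O π hπ hN' W1 Fr W hqO O' π' C M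
    ⟨_, t4v_a2_mem O π hπ hN' W1 Fr W hqO O' π' C M (t4vr_taJ_gauss O π)⟩

theorem t4rc_rmid_a0j :
    t4veRmid O π hπ O' π' C M ⟨t4vA0 L N' q (taJ N'),
      t4rc_a0j_mem_mid O π hπ hN' W1 Fr W hqO O' π' C M⟩ = jqModC k := by
  have h := t4v_ρ₂_a0 O π hπ hN' W1 Fr W hqO O' π' C M (t4vr_taJ_gauss (N' := N') O π)
  have e := t4ve_ρ₂_eq O π hπ hN' W1 Fr W hqO O' π' C M ⟨t4vA0 L N' q (taJ N'),
    t4v_a0_mem O π hπ hN' W1 Fr W hqO O' π' C M (t4vr_taJ_gauss (N' := N') O π)⟩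
  exact e.symm.trans (h.trans (t4vr_taJ_rho O π))

theorem t4rc_rmid_a1j :
    t4veRmid O π hπ O' π' C M ⟨t4vA1 L N' q (taJ N'),
      t4rc_a1j_mem_mid O π hπ hN' W1 Fr W hqO O' π' C M⟩ = jqModC k ^ q := by
  have h := t4v_ρ₂_a1 O π hπ hN' W1 Fr W hqO O' π' C M (t4vr_taJ_gauss (N' := N') O π)
  have e := t4ve_ρ₂_eq O π hπ hN' W1 Fr W hqO O' π' C M ⟨t4vA1 L N' q (taJ N'),
    t4v_a1_mem O π hπ hN' W1 Fr W hqO O' π' C M (t4vr_taJ_gauss (N' := N') O π)⟩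
  rw [t4vr_taJ_rho, ← t2i_jq_pow] at h
  exact e.symm.trans h

theorem t4rc_rmid_a2j :
    t4veRmid O π hπ O' π' C M ⟨t4vA2 L N' q (taJ N'),
      t4rc_a2j_mem_mid O π hπ hN' W1 Fr W hqO O' π' C M⟩ = jqModC k := by
  have h := t4v_ρ₂_a2 O π hπ hN' W1 Fr W hqO O' π' C M (t4vr_taJ_gauss (N' := N') O π)
  have e := t4ve_ρ₂_eq O π hπ hN' W1 Fr W hqO O' π' C M ⟨t4vA2 L N' q (taJ N'),
    t4v_a2_mem O π hπ hN' W1 Fr W hqO O' π' C M (t4vr_taJ_gauss (N' := N') O π)⟩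
  exact e.symm.trans (h.trans (t4vr_taJ_rho O π))

include hπ hN' W1 Fr W hqO in
/-- `u = 1 / a0 j ∈ O_mid` -/
theorem t4rc_u_mem_mid : (t4vA0 L N' q (taJ N'))⁻¹ ∈ t4vOmid O π hπ O' π' C M :=
  t4ve_inv_mem_mid O π hπ O' π' C M
    ⟨_, t4rc_a0j_mem_mid O π hπ hN' W1 Fr W hqO O' π' C M⟩ (by
      rw [t4rc_rmid_a0j O π hπ hN' W1 Fr W hqO O' π' C M]
      exact jqModC_ne_zero_of_nontrivial k)

include hπ hN' W1 Fr W hqO in
/-- `u₂ = 1 / a2 j ∈ O_mid` -/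
theorem t4rc_u2_mem_mid : (t4vA2 L N' q (taJ N'))⁻¹ ∈ t4vOmid O π hπ O' π' C M :=
  t4ve_inv_mem_mid O π hπ O' π' C M
    ⟨_, t4rc_a2j_mem_mid O π hπ hN' W1 Fr W hqO O' π' C M⟩ (by
      rw [t4rc_rmid_a2j O π hπ hN' W1 Fr W hqO O' π' C M]
      exact jqModC_ne_zero_of_nontrivial k)

theorem t4rc_rmid_u :
    t4veRmid O π hπ O' π' C M ⟨(t4vA0 L N' q (taJ N'))⁻¹,
      t4rc_u_mem_mid O π hπ hN' W1 Fr W hqO O' π' C M⟩ = (jqModC k)⁻¹ := by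
  have h := t4rc_rmid_inv O π hπ O' π' C M
    ⟨_, t4rc_a0j_mem_mid O π hπ hN' W1 Fr W hqO O' π' C M⟩ (by
      rw [t4rc_rmid_a0j O π hπ hN' W1 Fr W hqO O' π' C M]
      exact jqModC_ne_zero_of_nontrivial k)
  exact h.trans (congrArg (fun x => x⁻¹) (t4rc_rmid_a0j O π hπ hN' W1 Fr W hqO O' π' C M))

theorem t4rc_rmid_u2 :
    t4veRmid O π hπ O' π' C M ⟨(t4vA2 L N' q (taJ N'))⁻¹,
      t4rc_u2_mem_mid O π hπ hN' W1 Fr W hqO O' π' C M⟩ = (jqModC k)⁻¹ := by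
  have h := t4rc_rmid_inv O π hπ O' π' C M
    ⟨_, t4rc_a2j_mem_mid O π hπ hN' W1 Fr W hqO O' π' C M⟩ (by
      rw [t4rc_rmid_a2j O π hπ hN' W1 Fr W hqO O' π' C M]
      exact jqModC_ne_zero_of_nontrivial k)
  exact h.trans (congrArg (fun x => x⁻¹) (t4rc_rmid_a2j O π hπ hN' W1 Fr W hqO O' π' C M))

include hπ hN' W1 Fr W hqO in
/-- `T = a1 j · u^q ≡ 1` at `O_mid` -/
theorem t4rc_T_valuation :
    (t4vOmid O π hπ O' π' C M).valuation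
      (t4vA1 L N' q (taJ N') * (t4vA0 L N' q (taJ N'))⁻¹ ^ q - 1) < 1 := by
  have h1 := t4rc_a1j_mem_mid O π hπ hN' W1 Fr W hqO O' π' C M
  have h2 := t4rc_u_mem_mid O π hπ hN' W1 Fr W hqO O' π' C M
  refine t4rc_valuation_sub_one O π hπ O' π' C M (mul_mem h1 (pow_mem h2 q)) ?_
  have h3 : (⟨t4vA1 L N' q (taJ N') * (t4vA0 L N' q (taJ N'))⁻¹ ^ q,
      mul_mem h1 (pow_mem h2 q)⟩ : ↥(t4vOmid O π hπ O' π' C M)) =
      ⟨_, h1⟩ * ⟨_, h2⟩ ^ q := rfl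
  rw [h3, map_mul, map_pow, t4rc_rmid_a1j O π hπ hN' W1 Fr W hqO O' π' C M,
    t4rc_rmid_u O π hπ hN' W1 Fr W hqO O' π' C M, inv_pow,
    mul_inv_cancel₀ (pow_ne_zero _ (jqModC_ne_zero_of_nontrivial k))]

include hπ hN' W1 Fr W hqO in
/-- `T_w = a1 j · u₂^q ≡ 1` at `O_mid` -/
theorem t4rc_Tw_valuation :
    (t4vOmid O π hπ O' π' C M).valuation
      (t4vA1 L N' q (taJ N') * (t4vA2 L N' q (taJ N'))⁻¹ ^ q - 1) < 1 := by
  have h1 := t4rc_a1j_mem_mid O π hπ hN' W1 Fr W hqO O' π' C M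
  have h2 := t4rc_u2_mem_mid O π hπ hN' W1 Fr W hqO O' π' C M
  refine t4rc_valuation_sub_one O π hπ O' π' C M (mul_mem h1 (pow_mem h2 q)) ?_
  have h3 : (⟨t4vA1 L N' q (taJ N') * (t4vA2 L N' q (taJ N'))⁻¹ ^ q,
      mul_mem h1 (pow_mem h2 q)⟩ : ↥(t4vOmid O π hπ O' π' C M)) =
      ⟨_, h1⟩ * ⟨_, h2⟩ ^ q := rfl
  rw [h3, map_mul, map_pow, t4rc_rmid_a1j O π hπ hN' W1 Fr W hqO O' π' C M,
    t4rc_rmid_u2 O π hπ hN' W1 Fr W hqO O' π' C M, inv_pow,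
    mul_inv_cancel₀ (pow_ne_zero _ (jqModC_ne_zero_of_nontrivial k))]

end Res

end Fermat.Agent.T4
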