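/-
T4-R (helper1), package CM: **regularity at the cuspidal points of `C_mid`** (generic variables of
`Val.lean`, any presentation `P` of a chart ring `B = IntCl(L[y]) ∩ 𝒪` with
`P.vals = t4vpHor L y ∪ {O_inf, O_mid, O_0}`).

`t4rc_regAt_cusp`: `𝔫` a prime of `B` through which `O_mid` is the only vertical valuation ring, with
`u = 1 / a0 j ∈ 𝔫` (a cuspidal point), smooth on `C_mid`.  Inputs from the characteristic-zero
theory: `u` integral over `L[y]`, `T = a1 j · u^q` integral over `L[u]`, `T_w = a1 j · u₂^q`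
integral over `L[u₂]` (T2's cusp package), and `ḡ ∈ k(j̄)` (`t4rcG_mem`, level `1`).  Then
`P.RegAt 𝔫`, with local equation `a = a2 j / a0 j - 1`, `a^(q-1) = q ε`, `ε` a unit of `B_𝔫`.
-/
import Fermat.Agent.Lib.T4.Reg.CuspLoc
import Fermat.Agent.Lib.T4.Reg.CuspMod
import Fermat.Agent.Lib.T4.Reg.CuspRes
import Fermat.Agent.Lib.T4.Reg.CuspGen
import Fermat.Agent.Lib.T4.Inst.PresInst
import Fermat.Agent.Lib.T2.Inst.NodeFin

set_option autoImplicit false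
set_option linter.unusedSectionVars false
set_option linter.unusedVariables false
set_option linter.style.haveILetI false
set_option synthInstance.maxHeartbeats 400000

open HahnSeries ModularCurve Fermat.Agent.T1 Fermat.Agent.T2 IntermediateField

noncomputable section

namespace Fermat.Agent.T4

section Inst

variable {L : Type} [Field L] [Algebra ℚ L] (O : ValuationSubring L) {k : Type*} [Field k]
  (π : ↥O →+* k) [IsDiscreteValuationRing ↥O] (hπ : Function.Surjective π) [IsAlgClosed k]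
  {N' q : ℕ} [NeZero N'] [hq : Fact q.Prime] [CharP k q] (hN' : (N' : k) ≠ 0)
  (W1 : T2iAL L N' q) (Fr : T2iFrob k N' q) (W : T4iAL L N' q)
  (hqO : Irreducible ((q : ℕ) : ↥O))
  {L' : Type*} [Field L'] [Algebra L L'] (O' : ValuationSubring L')
  [IsDiscreteValuationRing ↥O'] (π' : ↥O' →+* k) (C : T4iCyc O O' π π' q)
  (M : T4iMid L L' N' q C.ζ)

attribute [local instance] t2iAlgebra t2i_isScalarTower

variable (P : T4Pres ↥(TaF L (N' * q * q))) {y : ↥(TaF L (N' * q * q))}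
  (hvals : P.vals = t4vpHor L y ∪ t4vwVer O π hπ W O' π' C M)
  (hB : ∀ f : ↥(TaF L (N' * q * q)), f ∈ P.B ↔
    f ∈ t2Int (K := L) y ∧ f ∈ (t4vInput O π hπ hN' W1 Fr W hqO O' π' C M).Ov)

include hB in
/-- the constants of `O` lie in `B` -/
theorem t4rc_const_mem_B (c : ↥O) : algebraMap L ↥(TaF L (N' * q * q)) (c : L) ∈ P.B := by
  refine (hB _).mpr ⟨?_, (t4vBase O π hπ hN' W1 Fr W hqO O' π' C M).algebraMap_mem c⟩
  rw [mem_t2Int, IsScalarTower.algebraMap_apply L ↥(Algebra.adjoin L {y}) ↥(TaF L (N' * q * q))]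
  exact isIntegral_algebraMap

include hvals hqO in
/-- a valuation ring through a point with `O_mid` as the only vertical is `O_mid` or horizontal -/
theorem t4rc_through_cases {𝔫 : Ideal P.B}
    (honly : ∀ V ∈ P.through 𝔫, V ∈ P.vert (t4vQ L N' q) → V = t4vOmid O π hπ O' π' C M)
    {V : ValuationSubring ↥(TaF L (N' * q * q))} (hV : V ∈ P.through 𝔫) :
    V = t4vOmid O π hπ O' π' C M ∨ V ∈ t4vpHor L y := by
  have h1 : V ∈ P.vals := hV.1
  rw [hvals] at h1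
  rcases h1 with h1 | h1
  · exact Or.inr h1
  · exact Or.inl (honly V hV ⟨hV.1, t4vwVer_q O π hπ W hqO O' π' C M V h1⟩)

include hvals hB in
/-- **regularity at the cuspidal points of `C_mid`** -/
theorem t4rc_regAt_cusp (𝔫 : Ideal P.B) [h𝔫 : 𝔫.IsPrime]
    (hV₀ : t4vOmid O π hπ O' π' C M ∈ P.through 𝔫)
    (honly : ∀ V ∈ P.through 𝔫, V ∈ P.vert (t4vQ L N' q) → V = t4vOmid O π hπ O' π' C M)
    (hsm : P.SmoothAt 𝔫 (t4vOmid O π hπ O' π' C M) hV₀)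
    (hyu : IsIntegral ↥(Algebra.adjoin L {y}) (t4vA0 L N' q (taJ N'))⁻¹)
    (hcusp : ∀ hu : (t4vA0 L N' q (taJ N'))⁻¹ ∈ P.B,
      (⟨(t4vA0 L N' q (taJ N'))⁻¹, hu⟩ : P.B) ∈ 𝔫)
    (hT : IsIntegral ↥(Algebra.adjoin L {(t4vA0 L N' q (taJ N'))⁻¹})
      (t4vA1 L N' q (taJ N') * (t4vA0 L N' q (taJ N'))⁻¹ ^ q))
    (hTw : IsIntegral ↥(Algebra.adjoin L {(t4vA2 L N' q (taJ N'))⁻¹})
      (t4vA1 L N' q (taJ N') * (t4vA2 L N' q (taJ N'))⁻¹ ^ q))
    (hG : t4rcGs k q ∈ IntermediateField.adjoin k {jqModC k}) :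
    P.RegAt 𝔫 := by
  classical
  letI := P.isLocalRing_loc 𝔫
  have hjG := t4vr_taJ_gauss (N' := N') O π
  have hj0 : jqModC k ≠ 0 := jqModC_ne_zero_of_nontrivial k
  have hqinj : ∀ x : LaurentSeries k, x ≠ 0 → qExpand k q x ≠ 0 := fun x hx h0 =>
    hx ((map_eq_zero_iff _ (qExpand k q).injective).mp h0)
  -- the three `j`'s
  have hJ0 : t4vA0 L N' q (taJ N') ≠ 0 := t4rc_a0J_ne_zero
  have htaJ : (taJ N' : ↥(TaF L N')) ≠ 0 := by
    intro h
    have h1 := congrArg (fun x : ↥(TaF L N') => (x : LaurentSeries L)) h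
    simp only [coe_taJ, ZeroMemClass.coe_zero] at h1
    exact jqModC_ne_zero_of_nontrivial L h1
  have hJ1 : t4vA1 L N' q (taJ N') ≠ 0 := (map_ne_zero _).mpr htaJ
  have hJ2 : t4vA2 L N' q (taJ N') ≠ 0 := (map_ne_zero _).mpr htaJ
  -- `u ∈ 𝒪`
  have hOvu : (t4vA0 L N' q (taJ N'))⁻¹ ∈ (t4vInput O π hπ hN' W1 Fr W hqO O' π' C M).Ov := by
    refine t4ve_inv_mem O π hπ hN' W1 Fr W hqO O' π' C M
      ⟨_, t4v_a0_mem O π hπ hN' W1 Fr W hqO O' π' C M hjG⟩ ?_ ?_ ?_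
    · rw [t4v_ρ₁_a0 O π hπ hN' W1 Fr W hqO O' π' C M hjG, t4vr_taJ_rho]
      exact hj0
    · rw [t4v_ρ₂_a0 O π hπ hN' W1 Fr W hqO O' π' C M hjG, t4vr_taJ_rho]
      exact hj0
    · rw [t4v_ρ₃_a0 O π hπ hN' W1 Fr W hqO O' π' C M hjG, t4vr_taJ_rho]
      exact hqinj _ (hqinj _ hj0)
  have huB : (t4vA0 L N' q (taJ N'))⁻¹ ∈ P.B := (hB _).mpr ⟨hyu, hOvu⟩
  have hul : (t4vA0 L N' q (taJ N'))⁻¹ ∈ P.loc 𝔫 := P.B_le_loc 𝔫 huB
  have hunu : ¬ IsUnit (⟨_, hul⟩ : ↥(P.loc 𝔫)) := P.not_isUnit_of_mem 𝔫 huB (hcusp huB) hul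
  -- `T ∈ B`
  have hTB : t4vA1 L N' q (taJ N') * (t4vA0 L N' q (taJ N'))⁻¹ ^ q ∈ P.B :=
    (hB _).mpr ⟨t2c_isIntegral_trans hyu hT,
      mul_mem (t4v_a1_mem O π hπ hN' W1 Fr W hqO O' π' C M hjG) (pow_mem hOvu q)⟩
  -- `T_w ∈ B_𝔫` as soon as `u₂ ∈ B_𝔫`
  have hTw' : (t4vA2 L N' q (taJ N'))⁻¹ ∈ P.loc 𝔫 →
      t4vA1 L N' q (taJ N') * (t4vA2 L N' q (taJ N'))⁻¹ ^ q ∈ P.loc 𝔫 := by
    intro h V hV
    rcases t4rc_through_cases O π hπ W hqO O' π' C M P hvals honly hV with rfl | hVh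
    · exact mul_mem (t4rc_a1j_mem_mid O π hπ hN' W1 Fr W hqO O' π' C M)
        (pow_mem (t4rc_u2_mem_mid O π hπ hN' W1 Fr W hqO O' π' C M) q)
    · exact t4rc_mem_of_isIntegral V (fun c => t4vp_algebraMap_mem_hor hVh c) (h V hV) hTw
  -- the ratio `G`
  obtain ⟨hu2, hGm, hGi⟩ := P.cusp_ratio 𝔫 hV₀ (Igusa.modPhi q hq.out)
    (Igusa.modPhi_monic q hq.out) hJ0 hJ1 hJ2 (t4rc_modular_relation L N' q hq.out) hq.out.pos
    hul hunu (P.B_le_loc 𝔫 hTB) (t4rc_T_valuation O π hπ hN' W1 Fr W hqO O' π' C M) hTw'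
    (t4rc_Tw_valuation O π hπ hN' W1 Fr W hqO O' π' C M)
  -- `a = G - 1 ∈ B_𝔫`
  have ha : t4rcA L N' q ∈ P.loc 𝔫 := by
    rw [t4rcA_eq]
    exact sub_mem hGm (one_mem _)
  -- `ε ∈ B_𝔫`
  have hQinv : ∀ V ∈ t4vpHor L y, (t4vQ L N' q)⁻¹ ∈ V := by
    intro V hVh
    rw [t4vQ, ← map_inv₀]
    exact t4vp_algebraMap_mem_hor hVh _
  have hε : t4rcEps L N' q ∈ P.loc 𝔫 := by
    intro V hV
    rcases t4rc_through_cases O π hπ W hqO O' π' C M P hvals honly hV with rfl | hVh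
    · exact t4rcEps_mem_mid O π hπ O' π' C M
    · exact mul_mem (pow_mem (ha V hV) _) (hQinv V hVh)
  -- `ε` is a unit of `B_𝔫`
  have hle : P.loc 𝔫 ≤ (t4vOmid O π hπ O' π' C M).toSubring := fun f hf => hf _ hV₀
  let ρ : ↥O →+* ↥(P.loc 𝔫) :=
    ((algebraMap L ↥(TaF L (N' * q * q))).comp O.subtype).codRestrict (P.loc 𝔫)
      (fun c => P.B_le_loc 𝔫 (t4rc_const_mem_B O π hπ hN' W1 Fr W hqO O' π' C M P hB c))
  let res : ↥(P.loc 𝔫) →+* LaurentSeries k :=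
    (t4veRmid O π hπ O' π' C M).comp (Subring.inclusion hle)
  have hres_apply : ∀ f : ↥(P.loc 𝔫), res f =
      taRhoFun O' π' (M.ι (f : ↥(TaF L (N' * q * q)))) := fun f => rfl
  have hunit : ∀ c : ↥O, π c ≠ 0 → IsUnit (ρ c) := by
    intro c hc
    have h1 : IsUnit c := by
      rw [← IsLocalRing.notMem_maximalIdeal]
      intro hmem
      exact hc (((t4vBase O π hπ hN' W1 Fr W hqO O' π' C M).resA_eq_zero_iff c).mpr hmem)
    exact h1.map ρ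
  have hres : ∀ f : ↥(P.loc 𝔫), res f = 0 → ¬ IsUnit f := by
    intro f hf
    refine P.not_isUnit_of_valuation_lt hV₀ f ?_
    rw [t4vOmid_valuation_lt_one_iff O π hπ O' π' C M (hle f.2)]
    exact hf
  have hresρ : ∀ c : ↥O, res (ρ c) = algebraMap k (LaurentSeries k) (π c) := by
    intro c
    rw [hres_apply]
    have h1 : ((ρ c : ↥(P.loc 𝔫)) : ↥(TaF L (N' * q * q))) =
        algebraMap L ↥(TaF L (N' * q * q)) (c : L) := rfl
    rw [h1, M.ι_const]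
    have h2 : taRho O' π' (t4vConst O' π' ⟨algebraMap L L' (c : L), C.map_mem c⟩) =
        HahnSeries.C (π' ⟨algebraMap L L' (c : L), C.map_mem c⟩) := taRho_t4vConst O' π' _
    rw [C.π_map] at h2
    have hC : algebraMap k (LaurentSeries k) (π c) = HahnSeries.C (π c) := by
      have h3 : algebraMap k (PowerSeries k) (π c) = PowerSeries.C (π c) := by simp
      rw [HahnSeries.algebraMap_apply', h3, HahnSeries.ofPowerSeries_C]
    rw [hC]
    exact h2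
  have hresu : res ⟨_, hul⟩ = (jqModC k)⁻¹ :=
    t4rc_rmid_u O π hπ hN' W1 Fr W hqO O' π' C M
  have hresε : res ⟨_, hε⟩ = t4rcGs k q := t4rc_rmid_eps O π hπ O' π' C M
  obtain ⟨Pb, Qb, hP0, hQ0, hPQ⟩ := t4rc_exists_PQ q hG
  have hεu : IsUnit (⟨_, hε⟩ : ↥(P.loc 𝔫)) := by
    refine t4rc_unit_of_rational ρ π hπ hunit res hres hresρ hunu Pb Qb hP0 hQ0 ?_
    rw [hresu, hresε]
    exact hPQ
  obtain ⟨hε0, hεi⟩ := (t4rc_isUnit_iff (P.loc 𝔫) hε).mp hεu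
  -- the uniformiser of `O_mid`
  obtain ⟨w, hw, hwi, hQw⟩ := t4vQ_mid O π hπ O' π' C M
  have hw0 : w ≠ 0 := by
    rintro rfl
    rw [mul_zero] at hQw
    exact t4vQ_ne_zero hQw
  have hq1 : q - 1 ≠ 0 := by
    have := hq.out.two_le
    omega
  have hQB : t4vQ L N' q ∈ P.B := by
    have h1 := t4rc_const_mem_B O π hπ hN' W1 Fr W hqO O' π' C M P hB ((q : ℕ) : ↥O)
    rw [t4vQ]
    have h2 : ((((q : ℕ) : ↥O) : ↥O) : L) = ((q : ℕ) : L) := by push_cast; rfl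
    rw [← h2]
    exact h1
  exact P.regAt_of_pow_eq_loc 𝔫 hQB hV₀ (t4vOmid_valuation_q O π hπ O' π' C M) hq1
    (t4rc_hunif _ (t4vPi_mem_mid O π hπ O' π' C M) (t4vPi_inv_notMem_mid O π hπ O' π' C M)
      (t4vOmid_exists_zpow O π hπ O' π' C M) hq1 hw hwi hw0 hQw)
    honly ha hε hεi hε0 t4rcA_pow hsm

end Inst

end Fermat.Agent.T4
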