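/-
T4-R (R0) (helper8): derivations of algebraic function fields, abstract part (Mathlib only).

`M / L` fields, `δ : Derivation L M M`.
* `t4rd_eval`: chain rule `δ (p(x)) = p^δ(x) + p'(x) δ x` for polynomials with non-constant
  coefficients;
* `t4rd_adjoin_simple`: on `L(u)`, `δ = (d/du) · δ u`;
* **`t4rd_algebraic`** (closure): `u, f ∈ F` (an intermediate field), `f` algebraic over `L(u)`,
  characteristic zero `⟹ δ f ∈ F · δ u`;
* `t4rd_eq_zero_of_algebraic`, `t4rd_ext` (uniqueness), `t4rd_eq_zero_of_isAlgebraic`
  (derivations kill algebraic constants);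
* `t4rdMk δ F w hcl : Derivation L F F`, `f ↦ δ f / w`;
* `t4rd_module_eq_zero` (module-valued derivations killing `u` kill the algebraic closure of
  `L(u)`), **`t4rd_transport`**: `φ (D f) = D' (φ f)` for an `L`-algebra hom `φ` as soon as this
  holds at one `u` with `A / L(u)` algebraic.
-/
import Mathlib

set_option autoImplicit false
set_option linter.unusedSectionVars false

namespace Fermat.Agent.T4

open Polynomial IntermediateField

section Abs

variable {L M : Type*} [Field L] [Field M] [Algebra L M]

/-- the type of `L`-derivations of a field `M` (with the instances derived from `Field M`; use this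
for fields such as `LaurentSeries L` which carry competing semiring/module instances) -/
abbrev T4rdDer (L M : Type*) [Field L] [Field M] [Algebra L M] : Type _ := Derivation L M M

/-- a derivation of a field from an additive map satisfying the Leibniz rule and killing the
constants -/
def t4rdOfLeibniz (θ : M →+ M) (hmul : ∀ x y, θ (x * y) = θ x * y + x * θ y)
    (hc : ∀ c : L, θ (algebraMap L M c) = 0) : Derivation L M M where
  toFun := θ
  map_add' := map_add θ
  map_smul' c x := by
    rw [RingHom.id_apply, Algebra.smul_def, hmul, hc, zero_mul, zero_add, Algebra.smul_def]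
  map_one_eq_zero' := by
    have := hc 1
    rwa [map_one] at this
  leibniz' x y := by
    show θ (x * y) = x • θ y + y • θ x
    rw [hmul, smul_eq_mul, smul_eq_mul]
    ring

@[simp] theorem t4rdOfLeibniz_apply (θ : M →+ M) (hmul : ∀ x y, θ (x * y) = θ x * y + x * θ y)
    (hc : ∀ c : L, θ (algebraMap L M c) = 0) (x : M) : t4rdOfLeibniz θ hmul hc x = θ x := rfl

variable (δ : Derivation L M M)

/-- chain rule for a polynomial with non-constant coefficients -/
theorem t4rd_eval (x : M) (p : M[X]) :
    δ (p.eval x) = (p.sum fun n a => δ a * x ^ n) + p.derivative.eval x * δ x := by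
  induction p using Polynomial.induction_on' with
  | add p q hp hq =>
    rw [eval_add, map_add, hp, hq, derivative_add, eval_add,
      Polynomial.sum_add_index p q _ (fun n => by rw [map_zero, zero_mul])
        (fun n a b => by rw [map_add, add_mul])]
    ring
  | monomial n a =>
    rw [eval_monomial, Polynomial.sum_monomial_index a _ (by rw [map_zero, zero_mul]),
      derivative_monomial, eval_monomial, Derivation.leibniz, Derivation.leibniz_pow]
    simp only [smul_eq_mul, nsmul_eq_mul]
    ring

/-- on `L(u)` the derivation `δ` is `δ u` times a map into `L(u)` (namely `d/du`) -/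
theorem t4rd_adjoin_simple {u c : M} (hc : c ∈ L⟮u⟯) : ∃ c' ∈ L⟮u⟯, δ c = c' * δ u := by
  obtain ⟨r, s, rfl⟩ := (IntermediateField.mem_adjoin_simple_iff L c).mp hc
  have hu : u ∈ L⟮u⟯ := IntermediateField.mem_adjoin_simple_self L u
  have hmem : ∀ p : L[X], aeval u p ∈ L⟮u⟯ := fun p => by
    rw [aeval_eq_sum_range]
    refine sum_mem (fun i _ => ?_)
    rw [Algebra.smul_def]
    exact mul_mem (IntermediateField.algebraMap_mem _ _) (pow_mem hu i)
  by_cases hs : aeval u s = 0
  · refine ⟨0, zero_mem _, ?_⟩
    rw [hs, div_zero, map_zero, zero_mul]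
  · refine ⟨(aeval u (derivative r) * aeval u s - aeval u r * aeval u (derivative s)) /
      (aeval u s) ^ 2, div_mem (sub_mem (mul_mem (hmem _) (hmem _)) (mul_mem (hmem _) (hmem _)))
        (pow_mem (hmem _) 2), ?_⟩
    have h1 : δ (aeval u r / aeval u s) * aeval u s = δ (aeval u r) - aeval u r / aeval u s *
        δ (aeval u s) := by
      have h2 : aeval u r = aeval u r / aeval u s * aeval u s := by
        rw [div_mul_cancel₀ _ hs]
      have h3 := congrArg δ h2
      rw [Derivation.leibniz] at h3
      simp only [smul_eq_mul] at h3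
      rw [h3]
      ring
    rw [Derivation.comp_aeval_eq, Derivation.comp_aeval_eq] at h1
    simp only [smul_eq_mul] at h1
    field_simp
    field_simp at h1
    linear_combination h1

/-- **closure**: if `f ∈ F` is algebraic over `L(u)`, `u ∈ F`, then `δ f ∈ F · δ u` -/
theorem t4rd_algebraic [CharZero L] {u : M} (F : IntermediateField L M) (hu : u ∈ F) {f : M}
    (hf : f ∈ F) (halg : IsAlgebraic L⟮u⟯ f) : ∃ g ∈ F, δ f = g * δ u := by
  classical
  have hLF : L⟮u⟯ ≤ F := IntermediateField.adjoin_simple_le_iff.mpr hu
  set p := minpoly L⟮u⟯ f with hp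
  have hsep : p.Separable := (minpoly.irreducible halg.isIntegral).separable
  set pM : M[X] := p.map (algebraMap L⟮u⟯ M) with hpM
  have heval : pM.eval f = 0 := by
    rw [hpM, Polynomial.eval_map_algebraMap, hp, minpoly.aeval]
  have hcoeff : ∀ n, pM.coeff n ∈ L⟮u⟯ := fun n => by
    rw [hpM, Polynomial.coeff_map]
    exact (p.coeff n).2
  have hcoeffF : ∀ n, pM.coeff n ∈ F := fun n => hLF (hcoeff n)
  have hd : pM.derivative.eval f ≠ 0 := by
    rw [hpM, Polynomial.derivative_map, Polynomial.eval_map_algebraMap]
    exact hsep.aeval_derivative_ne_zero (minpoly.aeval _ _)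
  have hmemF : ∀ r : M[X], (∀ n, r.coeff n ∈ F) → r.eval f ∈ F := fun r hr => by
    rw [Polynomial.eval_eq_sum_range]
    exact sum_mem (fun i _ => mul_mem (hr i) (pow_mem hf i))
  have hdF : pM.derivative.eval f ∈ F := by
    refine hmemF _ (fun n => ?_)
    rw [Polynomial.coeff_derivative]
    exact mul_mem (hcoeffF _) (add_mem (IntermediateField.natCast_mem F n) (one_mem F))
  choose c' hc' hδ using fun n => t4rd_adjoin_simple δ (hcoeff n)
  have h1 := t4rd_eval δ f pM
  rw [heval, map_zero, Polynomial.sum_def] at h1
  have h2 : ∑ n ∈ pM.support, δ (pM.coeff n) * f ^ n =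
      (∑ n ∈ pM.support, c' n * f ^ n) * δ u := by
    rw [Finset.sum_mul]
    refine Finset.sum_congr rfl (fun n _ => ?_)
    rw [hδ n]
    ring
  rw [h2] at h1
  refine ⟨-(∑ n ∈ pM.support, c' n * f ^ n) / pM.derivative.eval f, ?_, ?_⟩
  · exact div_mem (neg_mem (sum_mem (fun n _ => mul_mem (hLF (hc' n)) (pow_mem hf n)))) hdF
  · rw [div_mul_eq_mul_div, eq_div_iff hd]
    linear_combination -h1

/-- a derivation killing `u` kills everything algebraic over `L(u)` -/
theorem t4rd_eq_zero_of_algebraic [CharZero L] {u : M} (hu0 : δ u = 0) {f : M}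
    (halg : IsAlgebraic L⟮u⟯ f) : δ f = 0 := by
  obtain ⟨g, -, hg⟩ := t4rd_algebraic δ (⊤ : IntermediateField L M) (IntermediateField.mem_top)
    (IntermediateField.mem_top) halg
  rw [hg, hu0, mul_zero]

/-- two derivations which agree at `u` agree on everything algebraic over `L(u)` -/
theorem t4rd_ext [CharZero L] (δ' : Derivation L M M) {u : M} (hu : δ u = δ' u)
    (halg : ∀ f : M, IsAlgebraic L⟮u⟯ f) : δ = δ' := by
  ext f
  have h := t4rd_eq_zero_of_algebraic (δ - δ') (u := u)
    (by rw [Derivation.sub_apply, hu, sub_self]) (halg f)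
  rw [Derivation.sub_apply, sub_eq_zero] at h
  exact h

/-- derivations kill the elements algebraic over the constants (characteristic zero) -/
theorem t4rd_eq_zero_of_isAlgebraic [CharZero L] {u : M} (hu : IsAlgebraic L u) : δ u = 0 := by
  have hsep : (minpoly L u).Separable := (minpoly.irreducible hu.isIntegral).separable
  have h1 := Derivation.comp_aeval_eq (a := u) δ (minpoly L u)
  rw [minpoly.aeval, map_zero, smul_eq_mul] at h1
  rcases mul_eq_zero.mp h1.symm with h | h
  · exact absurd h (hsep.aeval_derivative_ne_zero (minpoly.aeval _ _))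
  · exact h

/-- the derivation `δ / w` of an intermediate field closed under it -/
def t4rdMk (F : IntermediateField L M) (w : M) (hcl : ∀ f ∈ F, δ f / w ∈ F) :
    Derivation L ↥F ↥F where
  toFun f := ⟨δ (f : M) / w, hcl _ f.2⟩
  map_add' f g := by
    apply Subtype.ext
    show δ ((f : M) + (g : M)) / w = δ (f : M) / w + δ (g : M) / w
    rw [map_add, add_div]
  map_smul' c f := by
    apply Subtype.ext
    show δ (c • (f : M)) / w = c • (δ (f : M) / w)
    rw [Derivation.map_smul, smul_div_assoc]
  map_one_eq_zero' := by
    apply Subtype.ext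
    show δ (1 : M) / w = 0
    rw [Derivation.map_one_eq_zero, zero_div]
  leibniz' f g := by
    apply Subtype.ext
    show δ ((f : M) * (g : M)) / w = (f : M) * (δ (g : M) / w) + (g : M) * (δ (f : M) / w)
    rw [Derivation.leibniz]
    simp only [smul_eq_mul]
    rw [add_div, mul_div_assoc, mul_div_assoc]

@[simp] theorem coe_t4rdMk (F : IntermediateField L M) (w : M)
    (hcl : ∀ f ∈ F, δ f / w ∈ F) (f : ↥F) :
    ((t4rdMk δ F w hcl f : ↥F) : M) = δ (f : M) / w := rfl

end Abs

section Mod

variable {L A M : Type*} [Field L] [Field A] [Algebra L A] [AddCommGroup M] [Module A M]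
  [Module L M] [IsScalarTower L A M]

/-- chain rule for a polynomial with non-constant coefficients, module-valued derivations -/
theorem t4rd_eval_module (E : Derivation L A M) (x : A) (p : A[X]) :
    E (p.eval x) = (p.sum fun n a => x ^ n • E a) + p.derivative.eval x • E x := by
  induction p using Polynomial.induction_on' with
  | add p q hp hq =>
    rw [eval_add, map_add, hp, hq, derivative_add, eval_add,
      Polynomial.sum_add_index p q _ (fun n => by rw [map_zero, smul_zero])
        (fun n a b => by rw [map_add, smul_add]), add_smul]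
    abel
  | monomial n a =>
    rw [eval_monomial, Polynomial.sum_monomial_index a _ (by rw [map_zero, smul_zero]),
      derivative_monomial, eval_monomial, Derivation.leibniz, Derivation.leibniz_pow]
    rw [← Nat.cast_smul_eq_nsmul A n, smul_smul, smul_smul, add_comm]

/-- a derivation killing `u` kills `L(u)` -/
theorem t4rd_module_adjoin_simple (E : Derivation L A M) {u : A} (hu0 : E u = 0) {c : A}
    (hc : c ∈ L⟮u⟯) : E c = 0 := by
  obtain ⟨r, s, rfl⟩ := (IntermediateField.mem_adjoin_simple_iff L c).mp hc
  rw [Derivation.leibniz_div, Derivation.comp_aeval_eq, Derivation.comp_aeval_eq, hu0]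
  simp

/-- a module-valued derivation killing `u` kills everything algebraic over `L(u)` -/
theorem t4rd_module_eq_zero [CharZero L] (E : Derivation L A M) {u : A} (hu0 : E u = 0) {f : A}
    (halg : IsAlgebraic L⟮u⟯ f) : E f = 0 := by
  classical
  set p := minpoly L⟮u⟯ f with hp
  have hsep : p.Separable := (minpoly.irreducible halg.isIntegral).separable
  set pA : A[X] := p.map (algebraMap L⟮u⟯ A) with hpA
  have heval : pA.eval f = 0 := by
    rw [hpA, Polynomial.eval_map_algebraMap, hp, minpoly.aeval]
  have hcoeff : ∀ n, pA.coeff n ∈ L⟮u⟯ := fun n => by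
    rw [hpA, Polynomial.coeff_map]
    exact (p.coeff n).2
  have hd : pA.derivative.eval f ≠ 0 := by
    rw [hpA, Polynomial.derivative_map, Polynomial.eval_map_algebraMap]
    exact hsep.aeval_derivative_ne_zero (minpoly.aeval _ _)
  have h1 := t4rd_eval_module E f pA
  rw [heval, map_zero, Polynomial.sum_def] at h1
  have h2 : ∑ n ∈ pA.support, f ^ n • E (pA.coeff n) = 0 :=
    Finset.sum_eq_zero (fun n _ => by
      rw [t4rd_module_adjoin_simple E hu0 (hcoeff n), smul_zero])
  rw [h2, zero_add] at h1
  rcases smul_eq_zero.mp h1.symm with h | h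
  · exact absurd h hd
  · exact h

end Mod

section Transport

variable {L A B : Type*} [Field L] [Field A] [Field B] [Algebra L A] [Algebra L B]

/-- **transport**: an `L`-algebra homomorphism `φ : A → B` intertwines two derivations as soon as
it does so at one element `u` over which `A` is algebraic -/
theorem t4rd_transport [CharZero L] (φ : A →ₐ[L] B) (D : Derivation L A A) (D' : Derivation L B B)
    {u : A} (hu : φ (D u) = D' (φ u)) (halg : ∀ f : A, IsAlgebraic L⟮u⟯ f) (f : A) :
    φ (D f) = D' (φ f) := by
  let _ : Algebra A B := φ.toRingHom.toAlgebra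
  have _ : IsScalarTower L A B := IsScalarTower.of_algebraMap_eq (fun c => (φ.commutes c).symm)
  let E : Derivation L A B := D'.compAlgebraMap A - (Algebra.linearMap A B).compDer D
  have hE : ∀ x, E x = D' (φ x) - φ (D x) := fun x => rfl
  have h0 : E f = 0 := t4rd_module_eq_zero E (by rw [hE, hu, sub_self]) (halg f)
  rw [hE, sub_eq_zero] at h0
  exact h0.symm

end Transport

end Fermat.Agent.T4
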