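/-
T4-R (R0) (helper8): the derivations `D_u = θ / θ u` of the function fields `F = TaF L N`.

`θ = 𝔮 d/d𝔮` (`t4vTheta`, helper9's `Lib/T4/Inst/Series.lean`), `L` of characteristic `0`.
* `t4rdTheta L : T4rdDer L (LaurentSeries L)`, `θ x = 0 ↔ x` constant (`t4rd_theta_eq_zero_iff`);
* `t4rd_isFunctionField1`, `t4rd_transcendental` / `t4rd_theta_ne_zero_iff`
  (`θ u ≠ 0 ↔ u` transcendental over `L`), `t4rd_isAlgebraic` (`F / L(u)` algebraic);
* **closure** `t4rd_div_mem : θ f / θ u ∈ F`;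
* (D0) **`t4rdD N u : Derivation L F F`** (total in `u`; `0` for constant `u`),
  `coe_t4rdD : (D_u f : L((𝔮))) = θ f / θ u`, `coe_t4rdD_mul`;
* (D1) `t4rdD_self : D_u u = 1`; `t4rdD_chain : D_u f = D_u v · D_v f`;
* (D3) uniqueness `t4rd_ext_taF`, `t4rd_eq_t4rdD`, `t4rd_eq_smul_t4rdD : D f = D u · D_u f`;
* (D4)/(D5) **`t4rdD_map : φ (D_u f) = D_{φ u} (φ f)`** for EVERY `L`-algebra homomorphism
  `φ : F_N → F_{N'}` (inclusions of levels, `V_q`, Atkin–Lehner, Galois, …), `t4rdD_algEquiv`.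
-/
import Fermat.Agent.Lib.T4.Reg.DerivAbs
import Fermat.Agent.Lib.T4.Inst.Series
import Fermat.Agent.Lib.T1.GoodRed.Core
import Fermat.Agent.Lib.Curve.TrDeg

set_option autoImplicit false
set_option linter.unusedSectionVars false
set_option linter.style.haveILetI false

open HahnSeries ModularCurve IntermediateField Fermat.Agent.T1 Fermat.Agent.Curve

noncomputable section

namespace Fermat.Agent.T4

section Theta

variable (L : Type*) [Field L]

/-- `θ = 𝔮 d/d𝔮` as an `L`-derivation of `L((𝔮))` -/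
def t4rdTheta : T4rdDer L (LaurentSeries L) :=
  t4rdOfLeibniz t4vTheta t4vTheta_mul (fun c => by
    have hC : algebraMap L (LaurentSeries L) c = HahnSeries.C c := by
      rw [algebraMap_laurentSeries_eq_single]; rfl
    rw [hC]
    exact t4vTheta_C c)

@[simp] theorem t4rdTheta_apply (x : LaurentSeries L) : t4rdTheta L x = t4vTheta x := rfl

variable {L}

/-- in characteristic zero `θ x = 0` iff `x` is constant -/
theorem t4rd_theta_eq_zero_iff [CharZero L] (x : LaurentSeries L) :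
    t4vTheta x = 0 ↔ x = HahnSeries.C (x.coeff 0) := by
  constructor
  · intro h
    ext n
    rw [HahnSeries.C_apply, HahnSeries.coeff_single]
    split_ifs with hn
    · rw [hn]
    · have := congrArg (fun y : LaurentSeries L => y.coeff n) h
      simp only [t4vTheta_coeff, HahnSeries.coeff_zero] at this
      rcases mul_eq_zero.mp this with h0 | h0
      · exact absurd (by exact_mod_cast h0) hn
      · exact h0
  · intro h
    rw [h, t4vTheta_C]

end Theta

/-! ### The derivations `D_u = θ / θ u` of `F = TaF L N` -/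

section TaF

variable {L : Type*} [Field L] [Algebra ℚ L] (N : ℕ) [NeZero N]

theorem t4rd_charZero : CharZero L := algebraRat.charZero L

attribute [local instance] t4rd_charZero

/-- `F_{N,L}` is a function field of one variable over `L` -/
theorem t4rd_isFunctionField1 : IsFunctionField1 L ↥(TaF L N) :=
  IsFunctionField1.of_finite (ta_transcendental_taJ N) (ta_finiteDimensional L N)

variable {N}

/-- a function with `θ u ≠ 0` is transcendental over the constants -/
theorem t4rd_transcendental {u : ↥(TaF L N)} (hu : t4vTheta (u : LaurentSeries L) ≠ 0) :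
    Transcendental L u := by
  intro halg
  apply hu
  have h1 : IsAlgebraic L (u : LaurentSeries L) := by
    have := halg.algHom (TaF L N).val
    exact this
  exact t4rd_eq_zero_of_isAlgebraic (t4rdTheta L) h1

/-- the coercion maps `L(u) ⊆ F` into `L(u) ⊆ L((𝔮))` -/
theorem t4rd_coe_mem_adjoin {u x : ↥(TaF L N)} (hx : x ∈ L⟮u⟯) :
    (x : LaurentSeries L) ∈ L⟮(u : LaurentSeries L)⟯ := by
  obtain ⟨r, s, rfl⟩ := (IntermediateField.mem_adjoin_simple_iff L x).mp hx
  rw [IntermediateField.mem_adjoin_simple_iff]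
  refine ⟨r, s, ?_⟩
  have h1 : ∀ p : Polynomial L, ((Polynomial.aeval u p : ↥(TaF L N)) : LaurentSeries L) =
      Polynomial.aeval (u : LaurentSeries L) p := fun p =>
    (Polynomial.aeval_algHom_apply (TaF L N).val u p).symm
  rw [← h1, ← h1]
  rfl

/-- every element of `F` is algebraic over `L(u)` inside `L((𝔮))` when `θ u ≠ 0` -/
theorem t4rd_isAlgebraic_coe {u : ↥(TaF L N)} (hu : t4vTheta (u : LaurentSeries L) ≠ 0)
    (f : ↥(TaF L N)) : IsAlgebraic L⟮(u : LaurentSeries L)⟯ (f : LaurentSeries L) := by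
  haveI := t4rd_isFunctionField1 (L := L) N
  have halg : Algebra.IsAlgebraic L⟮u⟯ ↥(TaF L N) :=
    isAlgebraic_adjoin_simple_of_transcendental (t4rd_transcendental hu)
  have hf : IsAlgebraic L⟮u⟯ f := halg.isAlgebraic f
  let φ : ↥L⟮u⟯ →+* ↥L⟮(u : LaurentSeries L)⟯ :=
    (((TaF L N).val : ↥(TaF L N) →+* LaurentSeries L).comp
      (algebraMap ↥L⟮u⟯ ↥(TaF L N))).codRestrict L⟮(u : LaurentSeries L)⟯
      (fun x => t4rd_coe_mem_adjoin x.2)
  have hφ : Function.Injective φ := φ.injective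
  exact hf.ringHom_of_comp_eq φ ((TaF L N).val : ↥(TaF L N) →+* LaurentSeries L) hφ rfl

/-- **closure**: `θ f / θ u ∈ F` -/
theorem t4rd_div_mem (u f : ↥(TaF L N)) :
    t4vTheta (f : LaurentSeries L) / t4vTheta (u : LaurentSeries L) ∈ TaF L N := by
  by_cases hu : t4vTheta (u : LaurentSeries L) = 0
  · rw [hu, div_zero]
    exact zero_mem _
  · obtain ⟨g, hg, h⟩ := t4rd_algebraic (t4rdTheta L) (TaF L N) u.2 f.2 (t4rd_isAlgebraic_coe hu f)
    rw [t4rdTheta_apply, t4rdTheta_apply] at h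
    rw [h, mul_div_cancel_right₀ _ hu]
    exact hg

/-! ### The derivations `D_u` -/

variable (N) in
/-- **`D_u = θ / θ u`**, an `L`-derivation of `F = TaF L N` (it is `0` when `θ u = 0`, i.e. when
`u` is constant) -/
def t4rdD (u : ↥(TaF L N)) : Derivation L ↥(TaF L N) ↥(TaF L N) :=
  t4rdMk (t4rdTheta L) (TaF L N) (t4vTheta (u : LaurentSeries L))
    (fun f hf => t4rd_div_mem u ⟨f, hf⟩)

/-- (D0) the `𝔮`-expansion of `D_u f` -/
theorem coe_t4rdD (u f : ↥(TaF L N)) :
    ((t4rdD N u f : ↥(TaF L N)) : LaurentSeries L) =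
      t4vTheta (f : LaurentSeries L) / t4vTheta (u : LaurentSeries L) := rfl

theorem coe_t4rdD_mul {u : ↥(TaF L N)} (hu : t4vTheta (u : LaurentSeries L) ≠ 0)
    (f : ↥(TaF L N)) :
    ((t4rdD N u f : ↥(TaF L N)) : LaurentSeries L) * t4vTheta (u : LaurentSeries L) =
      t4vTheta (f : LaurentSeries L) := by
  rw [coe_t4rdD, div_mul_cancel₀ _ hu]

/-- (D1) `D_u u = 1` -/
theorem t4rdD_self {u : ↥(TaF L N)} (hu : t4vTheta (u : LaurentSeries L) ≠ 0) :
    t4rdD N u u = 1 := by
  apply Subtype.ext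
  rw [coe_t4rdD, div_self hu]
  rfl

/-- `D_u = 0` for constant `u` -/
theorem t4rdD_eq_zero {u : ↥(TaF L N)} (hu : t4vTheta (u : LaurentSeries L) = 0)
    (f : ↥(TaF L N)) : t4rdD N u f = 0 := by
  apply Subtype.ext
  rw [coe_t4rdD, hu, div_zero]
  rfl

/-- `θ u = 0` iff `u` is a constant -/
theorem t4rd_theta_eq_zero_iff_const (u : ↥(TaF L N)) :
    t4vTheta (u : LaurentSeries L) = 0 ↔ ∃ c : L, u = algebraMap L ↥(TaF L N) c := by
  constructor
  · intro h
    refine ⟨(u : LaurentSeries L).coeff 0, Subtype.ext ?_⟩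
    rw [coe_algebraMap_taF]
    exact (t4rd_theta_eq_zero_iff _).mp h
  · rintro ⟨c, rfl⟩
    rw [coe_algebraMap_taF, t4vTheta_C]

/-- a transcendental function has `θ u ≠ 0` -/
theorem t4rd_theta_ne_zero_of_transcendental {u : ↥(TaF L N)} (hu : Transcendental L u) :
    t4vTheta (u : LaurentSeries L) ≠ 0 := by
  intro h
  obtain ⟨c, rfl⟩ := (t4rd_theta_eq_zero_iff_const u).mp h
  exact hu (isAlgebraic_algebraMap c)

theorem t4rd_theta_ne_zero_iff (u : ↥(TaF L N)) :
    t4vTheta (u : LaurentSeries L) ≠ 0 ↔ Transcendental L u :=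
  ⟨t4rd_transcendental, t4rd_theta_ne_zero_of_transcendental⟩

/-- `F / L(u)` is algebraic when `θ u ≠ 0` -/
theorem t4rd_isAlgebraic {u : ↥(TaF L N)} (hu : t4vTheta (u : LaurentSeries L) ≠ 0)
    (f : ↥(TaF L N)) : IsAlgebraic L⟮u⟯ f := by
  haveI := t4rd_isFunctionField1 (L := L) N
  have halg : Algebra.IsAlgebraic L⟮u⟯ ↥(TaF L N) :=
    isAlgebraic_adjoin_simple_of_transcendental (t4rd_transcendental hu)
  exact halg.isAlgebraic f

/-- (D3) **uniqueness**: two `L`-derivations of `F` which agree at a non-constant `u` agree -/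
theorem t4rd_ext_taF (D D' : Derivation L ↥(TaF L N) ↥(TaF L N)) {u : ↥(TaF L N)}
    (hu : t4vTheta (u : LaurentSeries L) ≠ 0) (h : D u = D' u) : D = D' :=
  t4rd_ext D D' h (t4rd_isAlgebraic hu)

/-- (D3) an `L`-derivation with `D u = 1` is `D_u` -/
theorem t4rd_eq_t4rdD (D : Derivation L ↥(TaF L N) ↥(TaF L N)) {u : ↥(TaF L N)}
    (hu : t4vTheta (u : LaurentSeries L) ≠ 0) (h : D u = 1) : D = t4rdD N u :=
  t4rd_ext_taF D _ hu (by rw [h, t4rdD_self hu])

/-- every `L`-derivation of `F` is a multiple of `D_u` -/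
theorem t4rd_eq_smul_t4rdD (D : Derivation L ↥(TaF L N) ↥(TaF L N)) {u : ↥(TaF L N)}
    (hu : t4vTheta (u : LaurentSeries L) ≠ 0) (f : ↥(TaF L N)) : D f = D u * t4rdD N u f := by
  have h : D = D u • t4rdD N u := t4rd_ext_taF D _ hu (by
    rw [Derivation.smul_apply, t4rdD_self hu, smul_eq_mul, mul_one])
  conv_lhs => rw [h]
  rfl

/-- chain rule: `D_u f = D_u v · D_v f` -/
theorem t4rdD_chain (u v f : ↥(TaF L N)) (hv : t4vTheta (v : LaurentSeries L) ≠ 0) :
    t4rdD N u f = t4rdD N u v * t4rdD N v f := by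
  apply Subtype.ext
  rw [MulMemClass.coe_mul, coe_t4rdD, coe_t4rdD, coe_t4rdD]
  field_simp

/-- (D4)/(D5), general form: **every `L`-algebra homomorphism `φ : F_N → F_{N'}` intertwines
`D_u` and `D_{φ u}`** -/
theorem t4rdD_map {N' : ℕ} [NeZero N'] (φ : ↥(TaF L N) →ₐ[L] ↥(TaF L N')) (u f : ↥(TaF L N)) :
    φ (t4rdD N u f) = t4rdD N' (φ u) (φ f) := by
  by_cases hu : t4vTheta (u : LaurentSeries L) = 0
  · obtain ⟨c, rfl⟩ := (t4rd_theta_eq_zero_iff_const u).mp hu
    rw [t4rdD_eq_zero hu, map_zero, t4rdD_eq_zero]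
    rw [φ.commutes]
    exact (t4rd_theta_eq_zero_iff_const _).mpr ⟨c, rfl⟩
  · have hφu : t4vTheta ((φ u : ↥(TaF L N')) : LaurentSeries L) ≠ 0 := by
      apply t4rd_theta_ne_zero_of_transcendental
      intro halg
      exact t4rd_transcendental hu ((isAlgebraic_algHom_iff φ φ.injective).mp halg)
    exact t4rd_transport φ (t4rdD N u) (t4rdD N' (φ u))
      (by rw [t4rdD_self hu, t4rdD_self hφu, map_one]) (t4rd_isAlgebraic hu) f

/-- (D4) automorphisms -/
theorem t4rdD_algEquiv (w : ↥(TaF L N) ≃ₐ[L] ↥(TaF L N)) (u f : ↥(TaF L N)) :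
    w (t4rdD N u f) = t4rdD N (w u) (w f) :=
  t4rdD_map (w : ↥(TaF L N) →ₐ[L] ↥(TaF L N)) u f

end TaF

end Fermat.Agent.T4
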