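/-
T4-R (R0) (helper8): `θ`, `D_u` and the Gauss valuation.

Generic `(L, O, π, k)`.
* `t4vTheta_taInc`, `taRed_t4vTheta`; `t4rd_taGauss_theta` (`θ` preserves the Gauss ring),
  `t4rd_taFrac_theta`, **`t4rd_taRhoFun_theta : ρ (θ f) = θ (ρ f)`**;
* (D2) for `u, f ∈ O_v = taOv O π hπ N` with `θ (res u) ≠ 0`:
  **`t4rdD_mem_taOv : D_u f ∈ O_v`**, **`taResN_t4rdD : res (D_u f) = θ (res f) / θ (res u)`**
  (`taResN_t4rdD_mul` without division), `t4rdD_algebraMap_mul` (linearity over the constants),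
  `t4rdD_const_mul_mem : D_u (c O_v) ⊆ c O_v`.
-/
import Fermat.Agent.Lib.T4.Reg.DerivTheta
import Fermat.Agent.Lib.T1.GoodRed.Level

set_option autoImplicit false
set_option linter.unusedSectionVars false
set_option linter.style.haveILetI false

open HahnSeries ModularCurve IntermediateField Fermat.Agent.T1

noncomputable section

namespace Fermat.Agent.T4

/-! ### `θ` and the Gauss ring -/

section Gauss

variable {L : Type*} [Field L] (O : ValuationSubring L) {k : Type*} [Field k] (π : ↥O →+* k)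

theorem t4vTheta_taInc (s : LaurentSeries ↥O) :
    t4vTheta (taInc O s) = taInc O (t4vTheta s) :=
  (coeffMap_t4vTheta _ s).symm

variable {O} in
theorem taRed_t4vTheta (s : LaurentSeries ↥O) :
    taRed π (t4vTheta s) = t4vTheta (taRed π s) :=
  coeffMap_t4vTheta π s

/-- quotient rule for `f = g / h` with coefficients in `O` -/
theorem t4rd_theta_mul_taInc {f : LaurentSeries L} {g h : LaurentSeries ↥O}
    (e : f * taInc O h = taInc O g) :
    t4vTheta f * taInc O (h * h) = taInc O (t4vTheta g * h - g * t4vTheta h) := by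
  have h1 := t4vTheta_div e
  rw [t4vTheta_taInc, t4vTheta_taInc] at h1
  rw [map_mul, h1, map_sub, map_mul, map_mul]

/-- `θ` preserves the Gauss ring -/
theorem t4rd_taGauss_theta {f : LaurentSeries L} (hf : TaGauss O π f) :
    TaGauss O π (t4vTheta f) := by
  obtain ⟨g, h, hh, e⟩ := hf
  exact ⟨t4vTheta g * h - g * t4vTheta h, h * h, by rw [map_mul]; exact mul_ne_zero hh hh,
    t4rd_theta_mul_taInc O e⟩

/-- `θ` preserves fractions -/
theorem t4rd_taFrac_theta {f : LaurentSeries L} (hf : TaFrac O f) : TaFrac O (t4vTheta f) := by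
  obtain ⟨g, h, hh, e⟩ := hf
  exact ⟨t4vTheta g * h - g * t4vTheta h, h * h, mul_ne_zero hh hh, t4rd_theta_mul_taInc O e⟩

/-- `θ` commutes with the residue map of the Gauss ring -/
theorem t4rd_taRhoFun_theta {f : LaurentSeries L} (hf : TaGauss O π f) :
    taRhoFun O π (t4vTheta f) = t4vTheta (taRhoFun O π f) := by
  obtain ⟨g, h, hh, e⟩ := hf
  rw [taRhoFun_eq O π (by rw [map_mul]; exact mul_ne_zero hh hh) (t4rd_theta_mul_taInc O e),
    taRhoFun_eq O π hh e, map_sub, map_mul, map_mul, map_mul, taRed_t4vTheta, taRed_t4vTheta]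
  have h1 : taRed π g / taRed π h * taRed π h = taRed π g := div_mul_cancel₀ _ hh
  have h2 := t4vTheta_div h1
  rw [div_eq_iff (mul_ne_zero hh hh)]
  exact h2.symm

end Gauss

/-! ### (D2) `D_u` and the Gauss valuation ring of `F = TaF L N` -/

section Level

variable {L : Type*} [Field L] [Algebra ℚ L] (O : ValuationSubring L) {k : Type*} [Field k]
  (π : ↥O →+* k) [IsDiscreteValuationRing ↥O] (hπ : Function.Surjective π) (N : ℕ) [NeZero N]

/-- the residue of `θ f`, `f ∈ O_v` -/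
theorem t4rd_taRhoFun_theta_coe (f : ↥(taOv O π hπ N)) :
    taRhoFun O π (t4vTheta (((f : ↥(TaF L N)) : LaurentSeries L))) =
      t4vTheta (taResN O π hπ N f) :=
  t4rd_taRhoFun_theta O π f.2

variable {N}

/-- (D2) `D_u` preserves the Gauss valuation ring when `θ (res u) ≠ 0` -/
theorem t4rdD_mem_taOv {u f : ↥(TaF L N)} (hu : u ∈ taOv O π hπ N) (hf : f ∈ taOv O π hπ N)
    (hθ : t4vTheta (taResN O π hπ N ⟨u, hu⟩) ≠ 0) : t4rdD N u f ∈ taOv O π hπ N := by
  rw [mem_taOv_iff, coe_t4rdD, div_eq_mul_inv]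
  have hGu : TaGauss O π (t4vTheta (u : LaurentSeries L)) := t4rd_taGauss_theta O π hu
  refine (taGaussSubring O π).mul_mem (t4rd_taGauss_theta O π hf) ?_
  refine taGauss_inv_of_taRho_ne_zero O π ⟨_, hGu⟩ ?_
  show taRhoFun O π (t4vTheta (u : LaurentSeries L)) ≠ 0
  rw [t4rd_taRhoFun_theta O π hu]
  exact hθ

/-- (D2) the residue of `D_u f`: `res (D_u f) · θ (res u) = θ (res f)` -/
theorem taResN_t4rdD_mul {u f : ↥(TaF L N)} (hu : u ∈ taOv O π hπ N) (hf : f ∈ taOv O π hπ N)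
    (hθ : t4vTheta (taResN O π hπ N ⟨u, hu⟩) ≠ 0) :
    taResN O π hπ N ⟨t4rdD N u f, t4rdD_mem_taOv O π hπ hu hf hθ⟩ *
      t4vTheta (taResN O π hπ N ⟨u, hu⟩) = t4vTheta (taResN O π hπ N ⟨f, hf⟩) := by
  have hGu : TaGauss O π (t4vTheta (u : LaurentSeries L)) := t4rd_taGauss_theta O π hu
  have hGf : TaGauss O π (t4vTheta (f : LaurentSeries L)) := t4rd_taGauss_theta O π hf
  have hD := t4rdD_mem_taOv O π hπ hu hf hθ
  have hu0 : t4vTheta (u : LaurentSeries L) ≠ 0 := by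
    intro h0
    apply hθ
    rw [← t4rd_taRhoFun_theta_coe O π hπ N ⟨u, hu⟩]
    show taRhoFun O π (t4vTheta (u : LaurentSeries L)) = 0
    rw [h0]
    exact (taRho O π).map_zero
  have h1 : (⟨_, hD⟩ : ↥(taGaussSubring O π)) * ⟨_, hGu⟩ = ⟨_, hGf⟩ :=
    Subtype.ext (coe_t4rdD_mul hu0 f)
  have h2 := congrArg (taRho O π) h1
  rw [map_mul] at h2
  rw [← t4rd_taRhoFun_theta_coe O π hπ N ⟨u, hu⟩, ← t4rd_taRhoFun_theta_coe O π hπ N ⟨f, hf⟩]
  exact h2

/-- (D2) the residue of `D_u f`, division form -/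
theorem taResN_t4rdD {u f : ↥(TaF L N)} (hu : u ∈ taOv O π hπ N) (hf : f ∈ taOv O π hπ N)
    (hθ : t4vTheta (taResN O π hπ N ⟨u, hu⟩) ≠ 0) :
    taResN O π hπ N ⟨t4rdD N u f, t4rdD_mem_taOv O π hπ hu hf hθ⟩ =
      t4vTheta (taResN O π hπ N ⟨f, hf⟩) / t4vTheta (taResN O π hπ N ⟨u, hu⟩) := by
  rw [eq_div_iff hθ]
  exact taResN_t4rdD_mul O π hπ hu hf hθ

variable (N) in
/-- `D_u` is linear over the constants -/
theorem t4rdD_algebraMap_mul (c : L) (u f : ↥(TaF L N)) :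
    t4rdD N u (algebraMap L ↥(TaF L N) c * f) = algebraMap L ↥(TaF L N) c * t4rdD N u f := by
  rw [← Algebra.smul_def, Derivation.map_smul, Algebra.smul_def]

/-- (D2) `D_u (c O_v) ⊆ c O_v` for every constant `c` (in particular `c = ϖ ^ n`: `D_u` does not
decrease the valuation) -/
theorem t4rdD_const_mul_mem {u : ↥(TaF L N)} (hu : u ∈ taOv O π hπ N)
    (hθ : t4vTheta (taResN O π hπ N ⟨u, hu⟩) ≠ 0) (c : L) {f : ↥(TaF L N)}
    (hf : ∃ g ∈ taOv O π hπ N, f = algebraMap L ↥(TaF L N) c * g) :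
    ∃ g ∈ taOv O π hπ N, t4rdD N u f = algebraMap L ↥(TaF L N) c * g := by
  obtain ⟨g, hg, rfl⟩ := hf
  exact ⟨t4rdD N u g, t4rdD_mem_taOv O π hπ hu hg hθ, t4rdD_algebraMap_mul N c u g⟩

end Level

end Fermat.Agent.T4
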