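/-
T4-R (R0) (helper8): `D_u` and the degeneracy maps `α` (inclusion of levels), `β = V_ℓ`.

* (D5) `t4rdD_alpha`, `t4rdD_beta` (instances of `t4rdD_map`), `t4rd_theta_alpha`,
  `t4rd_theta_beta : θ (β f) = ℓ · V_ℓ (θ f)`;
* mixed derivatives `coe_t4rdD_alpha_beta : D_{α u} (β f) = ℓ · V_ℓ (θ f) / θ u`,
  `coe_t4rdD_beta_alpha`;
* **`t4rdD_alpha_beta_gauss`**: for `u, f ∈ O_v` (level `N`) with `θ ū ≠ 0`:
  `D_{α u} (β f) = ℓ · g`, `g ∈ O_v` (level `N ℓ`), `res g = V_ℓ (θ f̄) / θ ū`;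
* (D2') **`t4rdD_beta_gauss`**: `g ∈ O_v` (level `N ℓ`) `⟹ ℓ · D_{β u} g ∈ O_v` with
  `res (ℓ · D_{β u} g) · V_ℓ (θ ū) = θ ḡ`; **`t4rdD_alpha_w_gauss`**: the same on the `0`-side,
  `w (ℓ · D_{α u} f) ∈ O_v`, `res (w (ℓ · D_{α u} f)) · V_ℓ (θ ū) = θ (res (w f))` for `w f ∈ O_v`.
-/
import Fermat.Agent.Lib.T4.Reg.DerivGauss
import Fermat.Agent.Lib.T2.Inst.KronH

set_option autoImplicit false
set_option linter.unusedSectionVars false
set_option linter.style.haveILetI false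

open HahnSeries ModularCurve IntermediateField Fermat.Agent.T1 Fermat.Agent.T2

noncomputable section

namespace Fermat.Agent.T4

section Hecke

variable {L : Type*} [Field L] [Algebra ℚ L] (N ℓ : ℕ) [NeZero N] [NeZero ℓ]

attribute [local instance] t4rd_charZero

/-- (D5) `α` (inclusion of levels) intertwines `D_u` and `D_{α u}` -/
theorem t4rdD_alpha (u f : ↥(TaF L N)) :
    heckeAlphaBar L N ℓ (t4rdD N u f) =
      t4rdD (N * ℓ) (heckeAlphaBar L N ℓ u) (heckeAlphaBar L N ℓ f) :=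
  t4rdD_map (heckeAlphaBar L N ℓ) u f

/-- (D5) `β = V_ℓ` intertwines `D_u` and `D_{β u}` -/
theorem t4rdD_beta (u f : ↥(TaF L N)) :
    heckeBetaBar L N ℓ (t4rdD N u f) =
      t4rdD (N * ℓ) (heckeBetaBar L N ℓ u) (heckeBetaBar L N ℓ f) :=
  t4rdD_map (heckeBetaBar L N ℓ) u f

/-- `θ (β f) = ℓ · V_ℓ (θ f)` -/
theorem t4rd_theta_beta (f : ↥(TaF L N)) :
    t4vTheta ((heckeBetaBar L N ℓ f : ↥(TaF L (N * ℓ))) : LaurentSeries L) =
      (ℓ : LaurentSeries L) * qExpand L ℓ (t4vTheta (f : LaurentSeries L)) := by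
  rw [coe_heckeBetaBar, t4vTheta_qExpand]

/-- `θ (α f) = θ f` -/
theorem t4rd_theta_alpha (f : ↥(TaF L N)) :
    t4vTheta ((heckeAlphaBar L N ℓ f : ↥(TaF L (N * ℓ))) : LaurentSeries L) =
      t4vTheta (f : LaurentSeries L) := by
  rw [coe_heckeAlphaBar]

/-- the mixed derivative `D_{α u} (β f) = ℓ · V_ℓ (θ f) / θ u` -/
theorem coe_t4rdD_alpha_beta (u f : ↥(TaF L N)) :
    ((t4rdD (N * ℓ) (heckeAlphaBar L N ℓ u) (heckeBetaBar L N ℓ f) : ↥(TaF L (N * ℓ))) :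
      LaurentSeries L) =
      (ℓ : LaurentSeries L) * (qExpand L ℓ (t4vTheta (f : LaurentSeries L)) /
        t4vTheta (u : LaurentSeries L)) := by
  rw [coe_t4rdD, t4rd_theta_beta, t4rd_theta_alpha, mul_div_assoc]

/-- the mixed derivative `D_{β u} (α f) = θ f / (ℓ · V_ℓ (θ u))` -/
theorem coe_t4rdD_beta_alpha (u f : ↥(TaF L N)) :
    ((t4rdD (N * ℓ) (heckeBetaBar L N ℓ u) (heckeAlphaBar L N ℓ f) : ↥(TaF L (N * ℓ))) :
      LaurentSeries L) =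
      t4vTheta (f : LaurentSeries L) /
        ((ℓ : LaurentSeries L) * qExpand L ℓ (t4vTheta (u : LaurentSeries L))) := by
  rw [coe_t4rdD, t4rd_theta_beta, t4rd_theta_alpha]

end Hecke

section HeckeGauss

variable {L : Type*} [Field L] [Algebra ℚ L] (O : ValuationSubring L) {k : Type*} [Field k]
  (π : ↥O →+* k) [IsDiscreteValuationRing ↥O] (hπ : Function.Surjective π)
  (N ℓ : ℕ) [NeZero N] [NeZero ℓ]

/-- `D_{α u} (β f) = ℓ · g` with `g ∈ O_v` of residue `V_ℓ (θ f̄) / θ ū`: helper6's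
`γ`-computation `ρ_inf (θ (a1 f) / (q θ (a0 u))) = Φ (θ f̄) / θ ū` -/
theorem t4rdD_alpha_beta_gauss {u f : ↥(TaF L N)} (hu : u ∈ taOv O π hπ N)
    (hf : f ∈ taOv O π hπ N) (hθ : t4vTheta (taResN O π hπ N ⟨u, hu⟩) ≠ 0) :
    ∃ g : ↥(TaF L (N * ℓ)), ∃ hg : g ∈ taOv O π hπ (N * ℓ),
      t4rdD (N * ℓ) (heckeAlphaBar L N ℓ u) (heckeBetaBar L N ℓ f) =
        algebraMap L ↥(TaF L (N * ℓ)) (ℓ : L) * g ∧
      taResN O π hπ (N * ℓ) ⟨g, hg⟩ =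
        qExpand k ℓ (t4vTheta (taResN O π hπ N ⟨f, hf⟩)) /
          t4vTheta (taResN O π hπ N ⟨u, hu⟩) := by
  have hGu : TaGauss O π (t4vTheta (u : LaurentSeries L)) := t4rd_taGauss_theta O π hu
  have hGf : TaGauss O π (t4vTheta (f : LaurentSeries L)) := t4rd_taGauss_theta O π hf
  have hρu : taRhoFun O π (t4vTheta (u : LaurentSeries L)) =
      t4vTheta (taResN O π hπ N ⟨u, hu⟩) := t4rd_taRhoFun_theta O π hu
  have hρf : taRhoFun O π (t4vTheta (f : LaurentSeries L)) =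
      t4vTheta (taResN O π hπ N ⟨f, hf⟩) := t4rd_taRhoFun_theta O π hf
  have hinv : TaGauss O π (t4vTheta (u : LaurentSeries L))⁻¹ :=
    taGauss_inv_of_taRho_ne_zero O π ⟨_, hGu⟩ (by
      show taRhoFun O π (t4vTheta (u : LaurentSeries L)) ≠ 0
      rw [hρu]; exact hθ)
  have hu0 : t4vTheta (u : LaurentSeries L) ≠ 0 := by
    intro h0
    apply hθ
    rw [← hρu, h0]
    exact (taRho O π).map_zero
  have hVf : TaGauss O π (qExpand L ℓ (t4vTheta (f : LaurentSeries L))) :=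
    t2i_taGauss_qExpand O π ℓ hGf
  -- the element `g = D_{α u}(β f) / ℓ`
  have hℓ : (algebraMap L ↥(TaF L (N * ℓ)) (ℓ : L)) ≠ 0 := by
    rw [map_natCast]
    haveI := t4rd_charZero (L := L)
    haveI : CharZero ↥(TaF L (N * ℓ)) := charZero_of_injective_algebraMap
      (algebraMap L ↥(TaF L (N * ℓ))).injective
    exact Nat.cast_ne_zero.mpr (NeZero.ne ℓ)
  let D := t4rdD (N * ℓ) (heckeAlphaBar L N ℓ u) (heckeBetaBar L N ℓ f)
  have hcoe : (((algebraMap L ↥(TaF L (N * ℓ)) (ℓ : L))⁻¹ * D : ↥(TaF L (N * ℓ))) :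
      LaurentSeries L) = qExpand L ℓ (t4vTheta (f : LaurentSeries L)) *
        (t4vTheta (u : LaurentSeries L))⁻¹ := by
    have h1 : (D : LaurentSeries L) = _ := coe_t4rdD_alpha_beta N ℓ u f
    have h2 : ((algebraMap L ↥(TaF L (N * ℓ)) (ℓ : L) : ↥(TaF L (N * ℓ))) : LaurentSeries L) =
        (ℓ : LaurentSeries L) := by
      rw [map_natCast]
      rfl
    have h3 : (ℓ : LaurentSeries L) ≠ 0 := by
      rw [← h2]
      exact fun h => hℓ (Subtype.ext h)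
    rw [MulMemClass.coe_mul, h1]
    have h4 : (((algebraMap L ↥(TaF L (N * ℓ)) (ℓ : L))⁻¹ : ↥(TaF L (N * ℓ))) : LaurentSeries L) =
        ((ℓ : LaurentSeries L))⁻¹ := by
      rw [← h2]
      rfl
    rw [h4]
    field_simp
  have hg : (algebraMap L ↥(TaF L (N * ℓ)) (ℓ : L))⁻¹ * D ∈ taOv O π hπ (N * ℓ) := by
    rw [mem_taOv_iff, hcoe]
    exact (taGaussSubring O π).mul_mem hVf hinv
  refine ⟨_, hg, ?_, ?_⟩
  · rw [mul_inv_cancel_left₀ hℓ]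
  · rw [eq_div_iff hθ, ← hρu, ← hρf, ← t2i_taRhoFun_qExpand O π ℓ hGf]
    have h5 : (⟨_, hg⟩ : ↥(taGaussSubring O π)) * ⟨_, hGu⟩ = ⟨_, hVf⟩ := by
      apply Subtype.ext
      show (((algebraMap L ↥(TaF L (N * ℓ)) (ℓ : L))⁻¹ * D : ↥(TaF L (N * ℓ))) :
        LaurentSeries L) * t4vTheta (u : LaurentSeries L) = _
      rw [hcoe, inv_mul_cancel_right₀ hu0]
    have h6 := congrArg (taRho O π) h5
    rw [map_mul] at h6
    exact h6

/-- (D2'), `∞`-side form: for `u ∈ O_v` (level `N`) with `θ ū ≠ 0` and `g ∈ O_v` (level `N ℓ`):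
`ℓ · D_{β u} g = θ g / V_ℓ (θ u) ∈ O_v`, with residue `θ ḡ / V_ℓ (θ ū)` -/
theorem t4rdD_beta_gauss {u : ↥(TaF L N)} (hu : u ∈ taOv O π hπ N)
    (hθ : t4vTheta (taResN O π hπ N ⟨u, hu⟩) ≠ 0) {g : ↥(TaF L (N * ℓ))}
    (hg : g ∈ taOv O π hπ (N * ℓ)) :
    ∃ hm : algebraMap L ↥(TaF L (N * ℓ)) (ℓ : L) * t4rdD (N * ℓ) (heckeBetaBar L N ℓ u) g ∈
        taOv O π hπ (N * ℓ),
      taResN O π hπ (N * ℓ) ⟨_, hm⟩ * qExpand k ℓ (t4vTheta (taResN O π hπ N ⟨u, hu⟩)) =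
        t4vTheta (taResN O π hπ (N * ℓ) ⟨g, hg⟩) := by
  have hGu : TaGauss O π (t4vTheta (u : LaurentSeries L)) := t4rd_taGauss_theta O π hu
  have hGg : TaGauss O π (t4vTheta (g : LaurentSeries L)) := t4rd_taGauss_theta O π hg
  have hρu : taRhoFun O π (t4vTheta (u : LaurentSeries L)) =
      t4vTheta (taResN O π hπ N ⟨u, hu⟩) := t4rd_taRhoFun_theta O π hu
  have hρg : taRhoFun O π (t4vTheta (g : LaurentSeries L)) =
      t4vTheta (taResN O π hπ (N * ℓ) ⟨g, hg⟩) := t4rd_taRhoFun_theta O π hg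
  have hVu : TaGauss O π (qExpand L ℓ (t4vTheta (u : LaurentSeries L))) :=
    t2i_taGauss_qExpand O π ℓ hGu
  have hρVu : taRhoFun O π (qExpand L ℓ (t4vTheta (u : LaurentSeries L))) =
      qExpand k ℓ (t4vTheta (taResN O π hπ N ⟨u, hu⟩)) := by
    rw [t2i_taRhoFun_qExpand O π ℓ hGu, hρu]
  have hΦ : qExpand k ℓ (t4vTheta (taResN O π hπ N ⟨u, hu⟩)) ≠ 0 := by
    intro h0
    apply hθ
    apply qExpand_injective (R := k) (N := ℓ)
    rw [h0, map_zero]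
  have hinv : TaGauss O π (qExpand L ℓ (t4vTheta (u : LaurentSeries L)))⁻¹ :=
    taGauss_inv_of_taRho_ne_zero O π ⟨_, hVu⟩ (by
      show taRhoFun O π (qExpand L ℓ (t4vTheta (u : LaurentSeries L))) ≠ 0
      rw [hρVu]; exact hΦ)
  have hVu0 : qExpand L ℓ (t4vTheta (u : LaurentSeries L)) ≠ 0 := by
    intro h0
    apply hΦ
    rw [← hρVu, h0]
    exact (taRho O π).map_zero
  have h2 : ((algebraMap L ↥(TaF L (N * ℓ)) (ℓ : L) : ↥(TaF L (N * ℓ))) : LaurentSeries L) =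
      (ℓ : LaurentSeries L) := by
    rw [map_natCast]
    rfl
  have h3 : (ℓ : LaurentSeries L) ≠ 0 := by
    haveI := t4rd_charZero (L := L)
    haveI : CharZero (LaurentSeries L) := charZero_of_injective_algebraMap
      (algebraMap L (LaurentSeries L)).injective
    exact Nat.cast_ne_zero.mpr (NeZero.ne ℓ)
  have hcoe : ((algebraMap L ↥(TaF L (N * ℓ)) (ℓ : L) *
      t4rdD (N * ℓ) (heckeBetaBar L N ℓ u) g : ↥(TaF L (N * ℓ))) : LaurentSeries L) =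
      t4vTheta (g : LaurentSeries L) * (qExpand L ℓ (t4vTheta (u : LaurentSeries L)))⁻¹ := by
    rw [MulMemClass.coe_mul, h2, coe_t4rdD, t4rd_theta_beta]
    field_simp
  have hm : algebraMap L ↥(TaF L (N * ℓ)) (ℓ : L) * t4rdD (N * ℓ) (heckeBetaBar L N ℓ u) g ∈
      taOv O π hπ (N * ℓ) := by
    rw [mem_taOv_iff, hcoe]
    exact (taGaussSubring O π).mul_mem hGg hinv
  refine ⟨hm, ?_⟩
  rw [← hρVu, ← hρg]
  have h5 : (⟨_, hm⟩ : ↥(taGaussSubring O π)) * ⟨_, hVu⟩ = ⟨_, hGg⟩ := by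
    apply Subtype.ext
    show ((algebraMap L ↥(TaF L (N * ℓ)) (ℓ : L) *
      t4rdD (N * ℓ) (heckeBetaBar L N ℓ u) g : ↥(TaF L (N * ℓ))) : LaurentSeries L) *
        qExpand L ℓ (t4vTheta (u : LaurentSeries L)) = _
    rw [hcoe, inv_mul_cancel_right₀ hVu0]
  have h6 := congrArg (taRho O π) h5
  rw [map_mul] at h6
  exact h6

/-- (D2'), `0`-side form (helper6's wish (iii)): for the Atkin–Lehner involution `w` and `f` with
`w f ∈ O_v`: `w (ℓ · D_{α u} f) ∈ O_v` and `res (w (ℓ · D_{α u} f)) · V_ℓ (θ ū) = θ (res (w f))` -/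
theorem t4rdD_alpha_w_gauss (W : T2iAL L N ℓ) {u : ↥(TaF L N)} (hu : u ∈ taOv O π hπ N)
    (hθ : t4vTheta (taResN O π hπ N ⟨u, hu⟩) ≠ 0) {f : ↥(TaF L (N * ℓ))}
    (hf : W.w f ∈ taOv O π hπ (N * ℓ)) :
    ∃ hm : W.w (algebraMap L ↥(TaF L (N * ℓ)) (ℓ : L) *
        t4rdD (N * ℓ) (heckeAlphaBar L N ℓ u) f) ∈ taOv O π hπ (N * ℓ),
      taResN O π hπ (N * ℓ) ⟨_, hm⟩ * qExpand k ℓ (t4vTheta (taResN O π hπ N ⟨u, hu⟩)) =
        t4vTheta (taResN O π hπ (N * ℓ) ⟨W.w f, hf⟩) := by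
  have h1 : W.w (algebraMap L ↥(TaF L (N * ℓ)) (ℓ : L) *
      t4rdD (N * ℓ) (heckeAlphaBar L N ℓ u) f) =
      algebraMap L ↥(TaF L (N * ℓ)) (ℓ : L) *
        t4rdD (N * ℓ) (heckeBetaBar L N ℓ u) (W.w f) := by
    rw [map_mul, AlgEquiv.commutes, t4rdD_algEquiv, W.w_alpha]
  obtain ⟨hm, h⟩ := t4rdD_beta_gauss O π hπ N ℓ hu hθ hf
  have hm' : W.w (algebraMap L ↥(TaF L (N * ℓ)) (ℓ : L) *
      t4rdD (N * ℓ) (heckeAlphaBar L N ℓ u) f) ∈ taOv O π hπ (N * ℓ) := by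
    rw [h1]; exact hm
  refine ⟨hm', ?_⟩
  have h2 : (⟨_, hm'⟩ : ↥(taOv O π hπ (N * ℓ))) = ⟨_, hm⟩ := Subtype.ext h1
  rw [h2]
  exact h

end HeckeGauss

end Fermat.Agent.T4
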