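/-
T4-R (helper6): the abstract level bundle `T4rLev` = all concrete inputs of REG1.

`F'` = function field of level `N'` (smooth over the base `O ⊆ L`), `F1` = function field of level
`N' q`, `α β : F' → F1` the two degeneracy maps.  `P'`, `P1` chart presentations (`T4Pres`) of the
two levels; `V'` the vertical valuation ring of `P'`, `Vinf V0` those of `P1`, with reductions
`res'`, `ρinf`, `ρ0` into the residue function field `E` (a `k`-algebra of characteristic `q`),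
  `ρinf ∘ α = res'`,  `ρ0 ∘ α = Φ ∘ res'`,  `ρinf ∘ β = Φ ∘ res'`,  `ρ0 ∘ β = res'`,
`Φ x = (ψ x)^q` the Frobenius-type endomorphism of `E` (`ψ` = coefficientwise inverse Frobenius).
`R' = res' B'` is an integrally closed "Dedekind" `k`-algebra with residue fields `k` (GOOD
REDUCTION of level `N'`), the NODE ideal of T2, the derivation package `θ`, `D_u` (helper8's (R0)),
and (UNR) (helper1).

The two outputs (REG1-G), (REG1-M) are proved in `LevMain.lean` from this bundle.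
-/
import Fermat.Agent.Lib.T4.Local.Defs

set_option autoImplicit false
set_option linter.unusedSectionVars false
set_option linter.unusedVariables false

namespace Fermat.Agent.T4

/-- the abstract level bundle -/
structure T4rLev (L F' F1 E Eh k : Type*) [Field L] [Field F'] [Field F1] [Algebra L F']
    [Algebra L F1] [Field E] [Field Eh] [Field k] [Algebra k E] where
  /-- the residue characteristic -/
  q : ℕ
  hq : q.Prime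
  charE : CharP E q
  char0 : CharZero L
  /-- the base ring -/
  O : Subring L
  frac_O : ∀ c : L, ∃ n : ℕ, (q : L) ^ n * c ∈ O
  nat_inv : ∀ m : ℕ, ¬ q ∣ m → ((m : L))⁻¹ ∈ O
  /-- the residue map of the base -/
  π : ↥O →+* k
  π_surj : Function.Surjective π
  -- level `N'`
  /-- the presentation of level `N'` -/
  P' : T4Pres F'
  noeth' : IsNoetherianRing ↥P'.B
  O_mem : ∀ c ∈ O, algebraMap L F' c ∈ P'.B
  ft' : ∃ s : Finset F', (∀ x ∈ s, x ∈ P'.B) ∧ ∀ b ∈ P'.B,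
    b ∈ Subring.closure (((O.map (algebraMap L F') : Subring F') : Set F') ∪ ↑s)
  /-- the vertical valuation ring of level `N'` -/
  V' : ValuationSubring F'
  V'_mem : V' ∈ P'.vals
  vert' : ∀ V ∈ P'.vals, V.valuation (q : F') < 1 → V = V'
  /-- the reduction of level `N'` -/
  res' : ↥V' →+* E
  res'_surj : Function.Surjective res'
  ker' : ∀ x : ↥V', res' x = 0 → ∃ y : ↥V', (x : F') = (q : F') * (y : F')
  unit' : ∀ x : ↥V', res' x ≠ 0 → ((x : F'))⁻¹ ∈ V'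
  res'_O : ∀ c : ↥O, ∀ h : algebraMap L F' (c : L) ∈ V',
    res' ⟨algebraMap L F' (c : L), h⟩ = algebraMap k E (π c)
  -- the ring `R' = res' B'`
  /-- the reduction of the chart ring -/
  R' : Subalgebra k E
  res'_B : ∀ (b : F') (hb : b ∈ P'.B) (h : b ∈ V'), res' ⟨b, h⟩ ∈ R'
  gr : ∀ x ∈ R', ∃ (b : F') (hb : b ∈ P'.B) (h : b ∈ V'), res' ⟨b, h⟩ = x
  R'_closed : ∀ x : E, IsIntegral ↥R' x → x ∈ R'
  R'_pt : ∀ 𝔭 : Ideal ↥R', 𝔭.IsMaximal → ∀ x : ↥R', ∃ c : k, x - algebraMap k ↥R' c ∈ 𝔭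
  R'_unif : ∀ 𝔭 : Ideal ↥R', 𝔭.IsMaximal → ∃ t ∈ 𝔭, ∀ x ∈ 𝔭, ∃ s : ↥R', s ∉ 𝔭 ∧ ∃ y, s * x = t * y
  -- Frobenius
  /-- the Frobenius-type endomorphism `f(q) ↦ f(q^q)` -/
  Φ : E →ₐ[k] E
  /-- the coefficientwise inverse Frobenius -/
  ψ : E ≃+* E
  Φ_eq : ∀ x, Φ x = ψ x ^ q
  ψ_const : ∀ c : k, ∃ c' : k, ψ (algebraMap k E c) = algebraMap k E c'
  ψ_symm_const : ∀ c : k, ∃ c' : k, ψ.symm (algebraMap k E c) = algebraMap k E c'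
  ψ_R' : ∀ x ∈ R', ψ x ∈ R'
  ψ_symm_R' : ∀ x ∈ R', ψ.symm x ∈ R'
  /-- the NODE ideal (T2): the ideal generated by the `f - Φ² f` contains the kernel of an
  evaluation map at finitely many points -/
  node : ∃ (n : ℕ) (ev : ↥R' →ₐ[k] (Fin n → k)), ∀ T : Ideal ↥R',
    (∀ f g : ↥R', (g : E) = Φ (Φ (f : E)) → f - g ∈ T) → ∀ r, ev r = 0 → r ∈ T
  -- level `N' q`
  /-- the presentation of level `N' q` -/
  P1 : T4Pres F1
  /-- the degeneracy map `a0` (inclusion of levels) -/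
  α : F' →ₐ[L] F1
  /-- the degeneracy map `a1` (`f(q) ↦ f(q^q)`) -/
  β : F' →ₐ[L] F1
  α_B : ∀ b ∈ P'.B, α b ∈ P1.B
  β_B : ∀ b ∈ P'.B, β b ∈ P1.B
  int1 : ∀ x ∈ P1.B, ((α : F' →+* F1).comp P'.B.subtype).IsIntegralElem x
  fin1 : @Module.Finite F' F1 _ _ (α : F' →+* F1).toAlgebra.toModule
  deg1 : @Module.finrank F' F1 _ _ (α : F' →+* F1).toAlgebra.toModule ≤ q + 1
  /-- the vertical valuation ring at `∞` -/
  Vinf : ValuationSubring F1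
  /-- the vertical valuation ring at `0` -/
  V0 : ValuationSubring F1
  Vinf_mem : Vinf ∈ P1.vals
  V0_mem : V0 ∈ P1.vals
  vert1 : ∀ V ∈ P1.vals, V.valuation (q : F1) < 1 → V = Vinf ∨ V = V0
  /-- the reduction at `∞` -/
  ρinf : ↥Vinf →+* E
  /-- the reduction at `0` -/
  ρ0 : ↥V0 →+* E
  ker_inf : ∀ x : ↥Vinf, ρinf x = 0 → ∃ y : ↥Vinf, (x : F1) = (q : F1) * (y : F1)
  ker_0 : ∀ x : ↥V0, ρ0 x = 0 → ∃ y : ↥V0, (x : F1) = (q : F1) * (y : F1)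
  unit_inf : ∀ x : ↥Vinf, ρinf x ≠ 0 → ((x : F1))⁻¹ ∈ Vinf
  unit_0 : ∀ x : ↥V0, ρ0 x ≠ 0 → ((x : F1))⁻¹ ∈ V0
  α_inf : ∀ x ∈ V', α x ∈ Vinf
  α_0 : ∀ x ∈ V', α x ∈ V0
  β_inf : ∀ x ∈ V', β x ∈ Vinf
  β_0 : ∀ x ∈ V', β x ∈ V0
  ρinf_α : ∀ (x : F') (hx : x ∈ V'), ρinf ⟨α x, α_inf x hx⟩ = res' ⟨x, hx⟩
  ρ0_α : ∀ (x : F') (hx : x ∈ V'), ρ0 ⟨α x, α_0 x hx⟩ = Φ (res' ⟨x, hx⟩)
  ρinf_β : ∀ (x : F') (hx : x ∈ V'), ρinf ⟨β x, β_inf x hx⟩ = Φ (res' ⟨x, hx⟩)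
  ρ0_β : ∀ (x : F') (hx : x ∈ V'), ρ0 ⟨β x, β_0 x hx⟩ = res' ⟨x, hx⟩
  -- (UNR)
  /-- the `j`-function of level `N'` -/
  j' : F'
  j'_mem : j' ∈ P'.B
  unr : ∀ V₁ : ValuationSubring F1, (∀ c : L, algebraMap L F1 c ∈ V₁) → V₁ ≠ ⊤ → α j' ∈ V₁ →
    ∃ t : F', α t ∈ V₁.nonunits ∧ ∀ y ∈ V₁.nonunits, ∃ z ∈ V₁, y = α t * z
  -- the derivation package
  /-- `E ⊆ Eh` (`Eh` = the Laurent series over `k`) -/
  ι : E →+* Eh
  /-- `θ = q d/dq` -/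
  θ : Eh →+ Eh
  θ_mul : ∀ x y, θ (x * y) = x * θ y + y * θ x
  /-- the coefficientwise inverse Frobenius of `Eh` -/
  ψh : Eh →+* Eh
  ι_ψ : ∀ x, ι (ψ x) = ψh (ι x)
  θ_ψh : ∀ y, θ (ψh y) = ψh (θ y)
  θ_const : ∀ c : k, θ (ι (algebraMap k E c)) = 0
  θ_j' : ∀ h : j' ∈ V', θ (ι (res' ⟨j', h⟩)) ≠ 0
  /-- `D_u = θ / θ u` on `F'` -/
  d' : F' → Derivation L F' F'
  /-- `D_{α u} = θ / θ u` on `F1` -/
  dα : F' → Derivation L F1 F1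
  dα_α : ∀ u f, dα u (α f) = α (d' u f)
  d'_self : ∀ (u : F') (hu : u ∈ V'), θ (ι (res' ⟨u, hu⟩)) ≠ 0 → d' u u = 1
  d'_V' : ∀ (u : F') (hu : u ∈ V'), θ (ι (res' ⟨u, hu⟩)) ≠ 0 → ∀ (f : F') (hf : f ∈ V'),
    ∃ h : d' u f ∈ V', ι (res' ⟨d' u f, h⟩) * θ (ι (res' ⟨u, hu⟩)) = θ (ι (res' ⟨f, hf⟩))
  dα_0 : ∀ (u : F') (hu : u ∈ V'), θ (ι (res' ⟨u, hu⟩)) ≠ 0 → ∀ (f : F1) (hf : f ∈ V0),
    ∃ h : (q : F1) * dα u f ∈ V0,
      ι (ρ0 ⟨(q : F1) * dα u f, h⟩) * (ψh (θ (ι (res' ⟨u, hu⟩)))) ^ q = θ (ι (ρ0 ⟨f, hf⟩))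
  dα_β : ∀ (u : F') (hu : u ∈ V'), θ (ι (res' ⟨u, hu⟩)) ≠ 0 → ∀ (f : F') (hf : f ∈ V'),
    ∃ (g : F1) (hg : g ∈ Vinf), dα u (β f) = (q : F1) * g ∧
      ι (ρinf ⟨g, hg⟩) * θ (ι (res' ⟨u, hu⟩)) = (ψh (θ (ι (res' ⟨f, hf⟩)))) ^ q

end Fermat.Agent.T4
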