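/-
T4-R (helper7): the REG1 level bundle `T4rLev` at a DVR level — **(LI-4): the derivation fields**
(`θ`, `ψh`, `ι`, `d'`, `dα` with `θ_mul`, `ι_ψ`, `θ_ψh`, `θ_const`, `θ_j'`, `dα_α`, `d'_self`, `d'_V'`,
`dα_0`, `dα_β`), in the literal shapes of `LevDefs.lean`, from helper8's derivation package
(`DerivTheta/DerivGauss/DerivHecke.lean`).

Setting and notation of `LevInstRed.lean`:  `res' = t2iRes`, `ρinf = t4riRhoInf`, `ρ0 = t4riRho0`,
`E = modularFunctionFieldFullC k N'`, `Eh = k((𝔮))`,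
* `ι := t4ri4Iota k N' : E →+* Eh` (the inclusion), `θ := t4vTheta`,
* `ψh := t4ri4Psih k q : Eh →+* Eh` (coefficientwise inverse Frobenius), `ψ := t4ri3Psi k q N'`,
* `d' u := t4rdD N' u`, `dα u := t4rdD (N' * q) (heckeAlphaBar L N' q u)`.
-/
import Fermat.Agent.Lib.T4.Reg.LevInstRed
import Fermat.Agent.Lib.T4.Reg.LevInst3
import Fermat.Agent.Lib.T4.Reg.DerivHecke

set_option autoImplicit false
set_option linter.unusedSectionVars false
set_option linter.unusedVariables false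
set_option linter.style.haveILetI false
set_option synthInstance.maxHeartbeats 400000

open HahnSeries ModularCurve Fermat.Agent.T1 Fermat.Agent.T2 IntermediateField

noncomputable section

namespace Fermat.Agent.T4

/-! ### The residue side: `ι`, `θ`, `ψh` -/

section Residue

variable (k : Type*) [Field k] (q : ℕ) [hq : Fact q.Prime] [CharP k q] [PerfectRing k q]
  (N' : ℕ) [NeZero N']

/-- the inclusion `E ⊆ k((𝔮))` -/
def t4ri4Iota : ↥(modularFunctionFieldFullC k N') →+* LaurentSeries k :=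
  (modularFunctionFieldFullC k N').toSubring.subtype

@[simp] theorem t4ri4Iota_apply (x : ↥(modularFunctionFieldFullC k N')) :
    t4ri4Iota k N' x = (x : LaurentSeries k) := rfl

/-- the coefficientwise inverse Frobenius of `k((𝔮))` -/
def t4ri4Psih : LaurentSeries k →+* LaurentSeries k :=
  coeffMap ((frobeniusEquiv k q).symm : k →+* k)

theorem t4ri4Psih_apply (y : LaurentSeries k) :
    t4ri4Psih k q y = coeffMap ((frobeniusEquiv k q).symm : k →+* k) y := rfl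

/-- `qExpand k q y = (ψh y) ^ q` -/
theorem t4ri4_qExpand_eq (y : LaurentSeries k) : qExpand k q y = t4ri4Psih k q y ^ q :=
  t2fe_qExpand_eq k q y

omit hq [CharP k q] [PerfectRing k q] in
/-- **`θ_mul`** -/
theorem t4ri4_θ_mul (x y : LaurentSeries k) :
    t4vTheta (x * y) = x * t4vTheta y + y * t4vTheta x := by
  rw [t4vTheta_mul]
  ring

/-- **`ι_ψ`** -/
theorem t4ri4_ι_ψ (x : ↥(modularFunctionFieldFullC k N')) :
    t4ri4Iota k N' (t4ri3Psi k q N' x) = t4ri4Psih k q (t4ri4Iota k N' x) := rfl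

/-- **`θ_ψh`** -/
theorem t4ri4_θ_ψh (y : LaurentSeries k) :
    t4vTheta (t4ri4Psih k q y) = t4ri4Psih k q (t4vTheta y) :=
  (coeffMap_t4vTheta _ y).symm

omit hq [CharP k q] [PerfectRing k q] in
/-- **`θ_const`** -/
theorem t4ri4_θ_const (c : k) :
    t4vTheta (t4ri4Iota k N' (algebraMap k ↥(modularFunctionFieldFullC k N') c)) = 0 := by
  have h1 : t4ri4Iota k N' (algebraMap k ↥(modularFunctionFieldFullC k N') c) =
      HahnSeries.C c := by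
    show algebraMap k (LaurentSeries k) c = _
    rw [algebraMap_laurentSeries_eq_single]
    rfl
  rw [h1]
  exact t4vTheta_C c

omit hq [CharP k q] [PerfectRing k q] in
theorem t4ri4_theta_jqModC_ne_zero : t4vTheta (jqModC k) ≠ 0 := by
  intro h
  have h1 := congrArg (fun x : LaurentSeries k => x.coeff (-1)) h
  simp only [t4vTheta_coeff, coeff_jqModC_neg_one, HahnSeries.coeff_zero, mul_one] at h1
  have h2 : ((-1 : ℤ) : k) = -1 := by push_cast; rfl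
  rw [h2] at h1
  exact one_ne_zero (neg_eq_zero.mp h1)

end Residue

variable {L : Type*} [Field L] [Algebra ℚ L] (O : ValuationSubring L) {k : Type*} [Field k]
  (π : ↥O →+* k) [IsDiscreteValuationRing ↥O] (hπ : Function.Surjective π) [IsAlgClosed k]
  {N' q : ℕ} [NeZero N'] [hq : Fact q.Prime] [CharP k q] (hN' : (N' : k) ≠ 0)
  (W1 : T2iAL L N' q) (Fr : T2iFrob k N' q)
  (hqO : Irreducible ((q : ℕ) : ↥O))

attribute [local instance] t2iAlgebra t2i_isScalarTower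

/-- **`θ_j'`** -/
theorem t4ri4_θ_j' (h : taJ (L := L) N' ∈ taOv O π hπ N') :
    t4vTheta (t4ri4Iota k N' (t2iRes O π hπ N' hN' ⟨taJ N', h⟩)) ≠ 0 := by
  rw [t4ri4Iota_apply, coe_t2iRes, taResN_taJ]
  exact t4ri4_theta_jqModC_ne_zero k

/-! ### The derivations -/

/-- **`dα_α`** -/
theorem t4ri4_dα_α (u f : ↥(TaF L N')) :
    t4rdD (N' * q) (heckeAlphaBar L N' q u) (heckeAlphaBar L N' q f) =
      heckeAlphaBar L N' q (t4rdD N' u f) :=
  (t4rdD_alpha N' q u f).symm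

/-- `θ ū ≠ 0 ⟹ θ u ≠ 0` -/
theorem t4ri4_theta_ne_zero (u : ↥(TaF L N')) (hu : u ∈ taOv O π hπ N')
    (hθ : t4vTheta (t4ri4Iota k N' (t2iRes O π hπ N' hN' ⟨u, hu⟩)) ≠ 0) :
    t4vTheta (u : LaurentSeries L) ≠ 0 := by
  intro h0
  apply hθ
  rw [t4ri4Iota_apply, coe_t2iRes, ← t4rd_taRhoFun_theta_coe O π hπ N' ⟨u, hu⟩]
  show taRhoFun O π (t4vTheta (u : LaurentSeries L)) = 0
  rw [h0]
  exact (taRho O π).map_zero

/-- **`d'_self`** -/
theorem t4ri4_d'_self (u : ↥(TaF L N')) (hu : u ∈ taOv O π hπ N')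
    (hθ : t4vTheta (t4ri4Iota k N' (t2iRes O π hπ N' hN' ⟨u, hu⟩)) ≠ 0) :
    t4rdD N' u u = 1 :=
  t4rdD_self (t4ri4_theta_ne_zero O π hπ hN' u hu hθ)

/-- **`d'_V'`** -/
theorem t4ri4_d'_V' (u : ↥(TaF L N')) (hu : u ∈ taOv O π hπ N')
    (hθ : t4vTheta (t4ri4Iota k N' (t2iRes O π hπ N' hN' ⟨u, hu⟩)) ≠ 0)
    (f : ↥(TaF L N')) (hf : f ∈ taOv O π hπ N') :
    ∃ h : t4rdD N' u f ∈ taOv O π hπ N',
      t4ri4Iota k N' (t2iRes O π hπ N' hN' ⟨t4rdD N' u f, h⟩) *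
        t4vTheta (t4ri4Iota k N' (t2iRes O π hπ N' hN' ⟨u, hu⟩)) =
      t4vTheta (t4ri4Iota k N' (t2iRes O π hπ N' hN' ⟨f, hf⟩)) := by
  have hθ' : t4vTheta (taResN O π hπ N' ⟨u, hu⟩) ≠ 0 := hθ
  exact ⟨t4rdD_mem_taOv O π hπ hu hf hθ', taResN_t4rdD_mul O π hπ hu hf hθ'⟩

section Frob

variable [PerfectRing k q]

/-- **`dα_0`** -/
theorem t4ri4_dα_0 (u : ↥(TaF L N')) (hu : u ∈ taOv O π hπ N')
    (hθ : t4vTheta (t4ri4Iota k N' (t2iRes O π hπ N' hN' ⟨u, hu⟩)) ≠ 0)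
    (f : ↥(TaF L (N' * q)))
    (hf : f ∈ (taOv O π hπ (N' * q)).comap
      (W1.w : ↥(TaF L (N' * q)) →+* ↥(TaF L (N' * q)))) :
    ∃ h : ((q : ℕ) : ↥(TaF L (N' * q))) * t4rdD (N' * q) (heckeAlphaBar L N' q u) f ∈
        (taOv O π hπ (N' * q)).comap (W1.w : ↥(TaF L (N' * q)) →+* ↥(TaF L (N' * q))),
      t4ri4Iota k N' (t4riRho0 O π hπ hN' W1 Fr hqO
          ⟨((q : ℕ) : ↥(TaF L (N' * q))) * t4rdD (N' * q) (heckeAlphaBar L N' q u) f, h⟩) *
        (t4ri4Psih k q (t4vTheta (t4ri4Iota k N' (t2iRes O π hπ N' hN' ⟨u, hu⟩)))) ^ q =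
      t4vTheta (t4ri4Iota k N' (t4riRho0 O π hπ hN' W1 Fr hqO ⟨f, hf⟩)) := by
  have hθ' : t4vTheta (taResN O π hπ N' ⟨u, hu⟩) ≠ 0 := hθ
  have hf' : W1.w f ∈ taOv O π hπ (N' * q) := hf
  have key := t4rdD_alpha_w_gauss O π hπ N' q W1 hu hθ' hf'
  have hq' : algebraMap L ↥(TaF L (N' * q)) ((q : ℕ) : L) = ((q : ℕ) : ↥(TaF L (N' * q))) :=
    map_natCast _ _
  rw [hq'] at key
  obtain ⟨hm, h⟩ := key
  refine ⟨hm, ?_⟩
  rw [← t4ri4_qExpand_eq]
  exact h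

/-- **`dα_β`** -/
theorem t4ri4_dα_β (u : ↥(TaF L N')) (hu : u ∈ taOv O π hπ N')
    (hθ : t4vTheta (t4ri4Iota k N' (t2iRes O π hπ N' hN' ⟨u, hu⟩)) ≠ 0)
    (f : ↥(TaF L N')) (hf : f ∈ taOv O π hπ N') :
    ∃ (g : ↥(TaF L (N' * q))) (hg : g ∈ taOv O π hπ (N' * q)),
      t4rdD (N' * q) (heckeAlphaBar L N' q u) (heckeBetaBar L N' q f) =
        ((q : ℕ) : ↥(TaF L (N' * q))) * g ∧
      t4ri4Iota k N' (t4riRhoInf O π hπ hN' W1 Fr hqO ⟨g, hg⟩) *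
          t4vTheta (t4ri4Iota k N' (t2iRes O π hπ N' hN' ⟨u, hu⟩)) =
        (t4ri4Psih k q (t4vTheta (t4ri4Iota k N' (t2iRes O π hπ N' hN' ⟨f, hf⟩)))) ^ q := by
  have hθ' : t4vTheta (taResN O π hπ N' ⟨u, hu⟩) ≠ 0 := hθ
  obtain ⟨g, hg, h1, h2⟩ := t4rdD_alpha_beta_gauss O π hπ N' q hu hf hθ'
  refine ⟨g, hg, ?_, ?_⟩
  · rw [h1, map_natCast]
  · rw [← t4ri4_qExpand_eq]
    show taResN O π hπ (N' * q) ⟨g, hg⟩ * t4vTheta (taResN O π hπ N' ⟨u, hu⟩) = _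
    rw [h2, div_mul_cancel₀ _ hθ']
    rfl

end Frob

end Fermat.Agent.T4
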