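/-
T4-R (helper1), (UNR) step 1: over an algebraically closed field `𝕜 ⊆ ℂ`, if `4 ∣ N` or `9 ∣ N`
(no elliptic points) then at every non-cuspidal place `P` of `F_N = barField 𝕜 N` the function
`j - a` (`a = j(P)`) has order exactly `3` (`a = 0`), `2` (`a = 1728`), `1` (otherwise).

Consequently (`t4ru_unr_bar`) for `N ∣ M` every non-cuspidal place of `F_M` is unramified over
`F_N`: `F_N` contains a uniformiser.
-/
import Fermat.Agent.Lib.T1.Dict.DictBwd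
import Fermat.Agent.Lib.T1.GoodRed.BarNumerics
import Fermat.Agent.Lib.T1.GoodRed.HurwitzRat
import Fermat.Prelude.Def_ModularCurve_HeckeOperator

set_option autoImplicit false
set_option linter.unusedSectionVars false
set_option linter.style.haveILetI false
set_option linter.unusedVariables false

namespace Fermat.Agent.T4

open Fermat.Agent.S24Lib Fermat.Agent.T1 Fermat.Agent.T1.KMod ModularCurve
open UpperHalfPlane Matrix MatrixGroups CongruenceSubgroup WithZero ModularGroup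
open AlgebraicCurve Fermat.Agent.Curve Fermat.Agent.Curve.GaloisAux Fermat.Agent.Curve.PlaceAux

/-! ### Elliptic elements of `Γ₀(N)` -/

theorem t4ru_trace_conj (γ δ : SL(2, ℤ)) :
    (γ * δ * γ⁻¹ : SL(2, ℤ)) 0 0 + (γ * δ * γ⁻¹ : SL(2, ℤ)) 1 1 = δ 0 0 + δ 1 1 := by
  have h1 : ((γ * δ * γ⁻¹ : SL(2, ℤ)) : Matrix (Fin 2) (Fin 2) ℤ).trace
      = (δ : Matrix (Fin 2) (Fin 2) ℤ).trace := by
    rw [Matrix.SpecialLinearGroup.coe_mul, Matrix.SpecialLinearGroup.coe_mul,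
      Matrix.trace_mul_comm, ← Matrix.mul_assoc, ← Matrix.SpecialLinearGroup.coe_mul,
      inv_mul_cancel, Matrix.SpecialLinearGroup.coe_one, Matrix.one_mul]
  rw [Matrix.trace_fin_two, Matrix.trace_fin_two] at h1
  exact h1

theorem t4ru_det_eq (g : SL(2, ℤ)) : g 0 0 * g 1 1 - g 0 1 * g 1 0 = 1 := by
  have h := g.det_coe
  rw [Matrix.det_fin_two] at h
  exact h

theorem t4ru_nuTwo_ne_zero (N : ℕ) [NeZero N] (γ : SL(2, ℤ))
    (h : γ * ModularGroup.S * γ⁻¹ ∈ Gamma0 N) : nuTwo N ≠ 0 := by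
  set g : SL(2, ℤ) := γ * ModularGroup.S * γ⁻¹ with hg
  have htr : g 0 0 + g 1 1 = 0 := by
    rw [hg, t4ru_trace_conj]
    simp [ModularGroup.S]
  have hdet := t4ru_det_eq g
  have hc : ((g 1 0 : ℤ) : ZMod N) = 0 := Gamma0_mem.mp h
  have hroot : ((g 0 0 : ℤ) : ZMod N) ^ 2 + 1 = 0 := by
    have h1 : g 1 1 = - g 0 0 := by omega
    have h2 : ((g 0 0 * g 1 1 - g 0 1 * g 1 0 : ℤ) : ZMod N) = 1 := by rw [hdet]; simp
    rw [h1] at h2
    push_cast at h2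
    rw [hc, mul_zero, sub_zero] at h2
    linear_combination -h2
  rw [nuTwo]
  haveI : Nonempty {x : ZMod N // x ^ 2 + 1 = 0} := ⟨⟨_, hroot⟩⟩
  exact Nat.card_pos.ne'

theorem t4ru_nuThree_ne_zero (N : ℕ) [NeZero N] (γ : SL(2, ℤ))
    (h : γ * (ModularGroup.S * ModularGroup.T) * γ⁻¹ ∈ Gamma0 N) : nuThree N ≠ 0 := by
  set g : SL(2, ℤ) := γ * (ModularGroup.S * ModularGroup.T) * γ⁻¹ with hg
  have htr : g 0 0 + g 1 1 = 1 := by
    rw [hg, t4ru_trace_conj]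
    simp [ModularGroup.S, ModularGroup.T]
  have hdet := t4ru_det_eq g
  have hc : ((g 1 0 : ℤ) : ZMod N) = 0 := Gamma0_mem.mp h
  have hroot : (-((g 0 0 : ℤ) : ZMod N)) ^ 2 + (-((g 0 0 : ℤ) : ZMod N)) + 1 = 0 := by
    have h1 : g 1 1 = 1 - g 0 0 := by omega
    have h2 : ((g 0 0 * g 1 1 - g 0 1 * g 1 0 : ℤ) : ZMod N) = 1 := by rw [hdet]; simp
    rw [h1] at h2
    push_cast at h2
    rw [hc, mul_zero, sub_zero] at h2
    linear_combination -h2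
  rw [nuThree]
  haveI : Nonempty {x : ZMod N // x ^ 2 + x + 1 = 0} := ⟨⟨_, hroot⟩⟩
  exact Nat.card_pos.ne'

/-! ### Orders of `j - a` -/

section Ord

attribute [local instance] charZero_k
variable (𝕜 : Type) [Field 𝕜] [IsAlgClosed 𝕜] [Algebra 𝕜 ℂ] [Algebra ℚ 𝕜] (N : ℕ) [NeZero N]

open Classical in
/-- the ramification index of `j` at the points over `a` -/
noncomputable def t4ruEps (a : 𝕜) : ℤ := if a = 0 then 3 else if a = 1728 then 2 else 1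

theorem t4ruEps_pos (a : 𝕜) : 0 < t4ruEps 𝕜 a := by
  unfold t4ruEps
  split_ifs <;> norm_num

/-- a place of `ModField 𝕜 N` at which `j - a` vanishes is a point place -/
theorem t4ru_place_of_pos (v : Place 𝕜 (ModField 𝕜 N)) (a : 𝕜)
    (hpos : 0 < v.ord (jL 𝕜 N - algebraMap 𝕜 (ModField 𝕜 N) a)) :
    ∃ (τ₀ : ℍ) (ha : (algebraMap 𝕜 ℂ) a = jFun τ₀) (γ : SL(2, ℤ)),
      (a = 0 → τ₀ = ellRho) ∧ (a = 1728 → τ₀ = UpperHalfPlane.I) ∧
      v = modRep 𝕜 N γ • pointPlace 𝕜 N τ₀ a ha := by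
  haveI := finite_range_modRep 𝕜 N
  have hbase : ∃ τ₀ : ℍ, (algebraMap 𝕜 ℂ) a = jFun τ₀ ∧ (a = 0 → τ₀ = ellRho) ∧
      (a = 1728 → τ₀ = UpperHalfPlane.I) := by
    by_cases h0 : a = 0
    · refine ⟨ellRho, by rw [h0, map_zero, jFun_ellRho], fun _ => rfl, fun h1 => ?_⟩
      rw [h0] at h1
      norm_num at h1
    by_cases h1 : a = 1728
    · exact ⟨UpperHalfPlane.I, by rw [h1, iotaC_ofNat 𝕜, jFun_I], fun h => absurd h h0,
        fun _ => rfl⟩
    · obtain ⟨τ₀, hτ₀⟩ := exists_jFun_eq 𝕜 a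
      exact ⟨τ₀, hτ₀, fun h => absurd h h0, fun h => absurd h h1⟩
  obtain ⟨τ₀, ha, hb0, hb1⟩ := hbase
  obtain ⟨g, ⟨γ, rfl⟩, hg⟩ := places_transitive (modRep 𝕜 N).range
    (jL 𝕜 N - algebraMap 𝕜 (ModField 𝕜 N) a) (fixedField_modRep_sub 𝕜 N a)
    (pointPlace 𝕜 N τ₀ a ha) v (pointPlace_ord_pos 𝕜 N τ₀ a ha) hpos
  exact ⟨τ₀, ha, γ, hb0, hb1, hg⟩

/-- **no elliptic points**: at a place of `F_N` over `j = a` the function `j - a` has order exactly
`ε(a)` -/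
theorem t4ru_ord_jBar_sub (h4 : 4 ∣ N ∨ 9 ∣ N) (P : Place 𝕜 (barField 𝕜 N)) (a : 𝕜)
    (hP : 0 < P.ord (jBar 𝕜 N - algebraMap 𝕜 (barField 𝕜 N) a)) :
    P.ord (jBar 𝕜 N - algebraMap 𝕜 (barField 𝕜 N) a) = t4ruEps 𝕜 a := by
  obtain ⟨v, rfl⟩ := exists_barPlace_eq 𝕜 N P
  obtain ⟨e, he, hev⟩ := exists_ord_barPlace 𝕜 N v
  have hvpos : 0 < v.ord (jL 𝕜 N - algebraMap 𝕜 (ModField 𝕜 N) a) := by
    rw [← coe_modIso_jBar_sub 𝕜 N a, hev]
    exact mul_pos (by exact_mod_cast he) hP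
  obtain ⟨τ₀, ha, γ, hb0, hb1, rfl⟩ := t4ru_place_of_pos 𝕜 N v a hvpos
  have ha' : (algebraMap 𝕜 ℂ) a = jFun (γ • τ₀) := by rw [jFun_smul]; exact ha
  rw [smul_pointPlace 𝕜 N γ τ₀ a ha ha'] at hP ⊢
  set τ := γ • τ₀ with hτ
  obtain ⟨E, hE, h1, h2, h3⟩ := exists_E_pointPlace 𝕜 N τ a ha'
  have hε : tdmOrd τ (toMer 𝕜 N (jL 𝕜 N - algebraMap 𝕜 (ModField 𝕜 N) a))
      = ((ordAt (fun z => jFun z - (algebraMap 𝕜 ℂ) a) τ₀).toNat : ℤ) := by
    rw [tdmOrd_jL_sub, hτ, ordAt_jFun_sub_smul]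
  have hkey := h1 (jBar 𝕜 N - algebraMap 𝕜 (barField 𝕜 N) a)
  rw [coe_modIso_jBar_sub 𝕜 N a, hε] at hkey
  rw [hε] at h2 h3
  have hnu2 := ta_nuTwo_eq_zero h4
  have hnu3 := ta_nuThree_eq_zero h4
  by_cases h0 : a = 0
  · have hτ₀ := hb0 h0
    subst hτ₀
    have hf : (fun z => jFun z - (algebraMap 𝕜 ℂ) a) = jFun := by
      funext z
      rw [h0, map_zero, sub_zero]
    rw [hf, ordAt_jFun_ellRho] at h2 h3 hkey
    have hE3 : E ∣ 3 := by
      have : ((E : ℤ)) ∣ ((3 : ℕ) : ℤ) := by simpa using h2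
      exact Int.natCast_dvd_natCast.mp this
    have hE1 : E = 1 := by
      rcases (Nat.dvd_prime Nat.prime_three).mp hE3 with h1E | h3E
      · exact h1E
      · exfalso
        have hmem := h3 (by rw [h3E]; simp) (γ * (ModularGroup.S * ModularGroup.T) * γ⁻¹)
          (tdd_smul_conj γ _ ellRho ST_smul_ellRho)
        exact t4ru_nuThree_ne_zero N γ hmem hnu3
    rw [hE1, Nat.cast_one, one_mul] at hkey
    rw [t4ruEps, if_pos h0, ← hkey]
    simp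
  by_cases h1728 : a = 1728
  · have hτ₀ := hb1 h1728
    subst hτ₀
    have hf : (fun z => jFun z - (algebraMap 𝕜 ℂ) a) = fun z => jFun z - 1728 := by
      funext z
      rw [h1728, iotaC_ofNat 𝕜]
    rw [hf, ordAt_jFun_sub_I] at h2 h3 hkey
    have hE2 : E ∣ 2 := by
      have : ((E : ℤ)) ∣ ((2 : ℕ) : ℤ) := by simpa using h2
      exact Int.natCast_dvd_natCast.mp this
    have hE1 : E = 1 := by
      rcases (Nat.dvd_prime Nat.prime_two).mp hE2 with h1E | h2E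
      · exact h1E
      · exfalso
        have hmem := h3 (by rw [h2E]; simp) (γ * ModularGroup.S * γ⁻¹)
          (tdd_smul_conj γ _ UpperHalfPlane.I S_smul_I)
        exact t4ru_nuTwo_ne_zero N γ hmem hnu2
    rw [hE1, Nat.cast_one, one_mul] at hkey
    rw [t4ruEps, if_neg h0, if_pos h1728, ← hkey]
    simp
  · have hj0 : jFun τ₀ ≠ 0 := by
      rw [← ha, Ne, map_eq_zero]
      exact h0
    have hj1 : jFun τ₀ ≠ 1728 := by
      rw [← ha, ← iotaC_ofNat 𝕜]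
      exact fun h => h1728 ((algebraMap 𝕜 ℂ).injective h)
    have h5 := ordAt_jFun_sub_of_ne τ₀ hj0 hj1
    rw [← ha] at h5
    rw [h5] at h2 hkey
    have hE1 : E = 1 := by
      have : ((E : ℤ)) ∣ ((1 : ℕ) : ℤ) := by simpa using h2
      exact Nat.dvd_one.mp (Int.natCast_dvd_natCast.mp this)
    rw [hE1, Nat.cast_one, one_mul] at hkey
    rw [t4ruEps, if_neg h0, if_neg h1728, ← hkey]
    simp

/-! ### The tower `F_N ⊆ F_{N e}` -/

theorem t4ru_alpha_jBar (e : ℕ) [NeZero e] :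
    heckeAlphaBar 𝕜 N e (jBar 𝕜 N) = jBar 𝕜 (N * e) := by
  apply Subtype.ext
  rw [coe_heckeAlphaBar]
  rfl

/-- **(UNR) over an algebraically closed field**: if `4 ∣ N` or `9 ∣ N`, every non-cuspidal place
of `F_{N e}` is unramified over `F_N`, i.e. `F_N` contains a uniformiser -/
theorem t4ru_unr_bar (h4 : 4 ∣ N ∨ 9 ∣ N) (e : ℕ) [NeZero e]
    (W : Place 𝕜 (barField 𝕜 (N * e))) (hW : 0 ≤ W.ord (jBar 𝕜 (N * e))) :
    ∃ t : barField 𝕜 N, W.ord (heckeAlphaBar 𝕜 N e t) = 1 := by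
  letI : Algebra (barField 𝕜 N) (barField 𝕜 (N * e)) := (heckeAlphaBar 𝕜 N e).toRingHom.toAlgebra
  haveI : IsScalarTower 𝕜 (barField 𝕜 N) (barField 𝕜 (N * e)) :=
    IsScalarTower.of_algebraMap_eq (fun c => ((heckeAlphaBar 𝕜 N e).commutes c).symm)
  have hgen := isFunctionFieldGen_jBar 𝕜 (N * e)
  have hmap : ∀ y : barField 𝕜 N,
      algebraMap (barField 𝕜 N) (barField 𝕜 (N * e)) y = heckeAlphaBar 𝕜 N e y := fun _ => rfl
  haveI : FiniteDimensional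
      (IntermediateField.adjoin 𝕜 {algebraMap (barField 𝕜 N) (barField 𝕜 (N * e)) (jBar 𝕜 N)})
      (barField 𝕜 (N * e)) := by
    rw [hmap, t4ru_alpha_jBar]
    exact hgen.finite
  haveI : Module.Finite (barField 𝕜 N) (barField 𝕜 (N * e)) :=
    ta_finite_of_finite_adjoin (K := 𝕜) (jBar 𝕜 N)
  haveI : Algebra.IsAlgebraic (barField 𝕜 N) (barField 𝕜 (N * e)) := Algebra.IsAlgebraic.of_finite _ _
  -- the value of `j`
  have hjmem : jBar 𝕜 (N * e) ∈ W.toValuationSubring := mem_of_ord_nonneg W hW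
  obtain ⟨a, hc⟩ := exists_const_ordGE_one hgen W hjmem
  have hne0 : jBar 𝕜 (N * e) - algebraMap 𝕜 (barField 𝕜 (N * e)) a ≠ 0 := by
    intro h0
    apply hgen.transcendental
    rw [sub_eq_zero.mp h0]
    exact isAlgebraic_algebraMap a
  have hpos : 0 < W.ord (jBar 𝕜 (N * e) - algebraMap 𝕜 (barField 𝕜 (N * e)) a) := by
    rcases (ordGE_iff W).mp hc with h0 | h1
    · exact absurd h0 hne0
    · omega
  have h4' : 4 ∣ N * e ∨ 9 ∣ N * e := h4.imp (fun h => h.mul_right e) (fun h => h.mul_right e)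
  have hup := t4ru_ord_jBar_sub 𝕜 (N * e) h4' W a hpos
  -- the place below
  obtain ⟨e₁, he₁, hord⟩ := tdd_exists_ord_restrict (F := barField 𝕜 N) W
  have hja : algebraMap (barField 𝕜 N) (barField 𝕜 (N * e))
      (jBar 𝕜 N - algebraMap 𝕜 (barField 𝕜 N) a)
      = jBar 𝕜 (N * e) - algebraMap 𝕜 (barField 𝕜 (N * e)) a := by
    rw [map_sub, hmap, t4ru_alpha_jBar, ← IsScalarTower.algebraMap_apply]
  have h1 := hord (jBar 𝕜 N - algebraMap 𝕜 (barField 𝕜 N) a)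
  rw [hja, hup] at h1
  have hdownpos : 0 < (restrict (F := barField 𝕜 N) W).ord
      (jBar 𝕜 N - algebraMap 𝕜 (barField 𝕜 N) a) := by
    have h2 := t4ruEps_pos 𝕜 a
    rw [h1] at h2
    have he₁' : (0 : ℤ) < (e₁ : ℤ) := by exact_mod_cast he₁
    exact (mul_pos_iff_of_pos_left he₁').mp h2
  have hdown := t4ru_ord_jBar_sub 𝕜 N h4 (restrict (F := barField 𝕜 N) W) a hdownpos
  rw [hdown] at h1
  have he1 : (e₁ : ℤ) = 1 := by
    have h2 := t4ruEps_pos 𝕜 a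
    have : (e₁ : ℤ) * t4ruEps 𝕜 a = 1 * t4ruEps 𝕜 a := by rw [one_mul]; exact h1.symm
    exact mul_right_cancel₀ h2.ne' this
  obtain ⟨t, ht⟩ := RRAux.exists_uniformizer (restrict (F := barField 𝕜 N) W)
  refine ⟨t, ?_⟩
  rw [← hmap, hord t, ht, he1, mul_one]

end Ord

end Fermat.Agent.T4
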