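/-
T4-R (helper1): the statement (UNR) as a `Prop`, for the generic files of T4-R.

`T4rUnr L N' q`: every valuation subring `V ≠ ⊤` of `F_{N' q, L} = TaF L (N' * q)` which contains
the constants `L` and the function `j` (a non-cuspidal place) is unramified over `F_{N', L}`: its
maximal ideal is generated by an element `t` of `F_{N', L}`.

The instance `t4r_unr : 4 ∣ N' ∨ 9 ∣ N' → T4rUnr L N' q` for the subfields `L` of `ℚ̄` is in
`Lib/T4/Reg/UnrMain.lean`.
-/
import Fermat.Agent.Lib.T2.Inst.KronH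

set_option autoImplicit false

namespace Fermat.Agent.T4

open ModularCurve Fermat.Agent.T1 Fermat.Agent.T2

/-- **(UNR)**: the non-cuspidal places of `F_{N' q}` are unramified over `F_{N'}` -/
def T4rUnr (L : Type*) [Field L] [Algebra ℚ L] (N' q : ℕ) [NeZero N'] [NeZero q] : Prop :=
  letI := t2iAlgebra L N' q
  ∀ V : ValuationSubring ↥(TaF L (N' * q)),
    (∀ c : L, algebraMap L ↥(TaF L (N' * q)) c ∈ V) → V ≠ ⊤ → taJ (L := L) (N' * q) ∈ V →
    ∃ t : ↥(TaF L N'), algebraMap ↥(TaF L N') ↥(TaF L (N' * q)) t ∈ V ∧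
      ∀ y ∈ V.nonunits, ∃ z ∈ V, y = algebraMap ↥(TaF L N') ↥(TaF L (N' * q)) t * z

end Fermat.Agent.T4
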