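/-
T4-R (helper1), (UNR) step (E): **separable constant field extensions are unramified**.

`K ⊆ E` fields, `V` a valuation subring of `K` whose maximal ideal is generated by `t` and with
`K = V[1/t]`, `L₀ ⊆ V` a subfield, `ω ∈ E` a root of a monic separable polynomial `g₀ ∈ L₀[X]`,
`W` a valuation subring of `E` with `W ∩ K = V`.  Then every non-unit of `W` lying in `K[ω]` is
divisible by `t` in `W` (`t4ru_etale`).

Proof: let `h̄` be the minimal polynomial of `ω̄ ∈ κ(W)` over `κ(V)`, `ḡ = h̄ k̄`; as `ḡ` is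
separable `k(ω)` is a unit of `W`, and for `Q ∈ V[X]` with `Q(ω) ∈ 𝔪_W` one has
`Q(ω) k(ω) ∈ t V[ω]`.  Induction on the exponent of `t` in the denominator.
-/
import Mathlib

set_option autoImplicit false
set_option linter.unusedSectionVars false
set_option linter.style.haveILetI false

namespace Fermat.Agent.T4

open Polynomial IsLocalRing

section Etale

variable {L₀ K E : Type*} [Field L₀] [Field K] [Field E] [Algebra L₀ K] [Algebra K E]
  [Algebra L₀ E] [IsScalarTower L₀ K E]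

/-- a polynomial over a local ring whose reduction vanishes is divisible by a generator of the
maximal ideal -/
theorem t4ru_exists_C_mul {R : Type*} [CommRing R] [IsLocalRing R] (t : R)
    (ht : ∀ y : R, ¬ IsUnit y → ∃ z : R, y = t * z) (Q : R[X])
    (hQ : Q.map (residue R) = 0) : ∃ s : R[X], Q = C t * s := by
  have hmem : Q ∈ Ideal.map (C : R →+* R[X]) (Ideal.span {t}) := by
    rw [Ideal.mem_map_C_iff]
    intro n
    have h1 : residue R (Q.coeff n) = 0 := by
      have := congrArg (fun p : (ResidueField R)[X] => p.coeff n) hQ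
      simpa using this
    rw [residue_eq_zero_iff] at h1
    obtain ⟨z, hz⟩ := ht (Q.coeff n) ((mem_maximalIdeal _).mp h1)
    rw [Ideal.mem_span_singleton']
    exact ⟨z, by rw [hz, mul_comm]⟩
  rw [Ideal.map_span, Set.image_singleton, Ideal.mem_span_singleton'] at hmem
  obtain ⟨s, hs⟩ := hmem
  exact ⟨s, by rw [← hs, mul_comm]⟩

variable (V : ValuationSubring K) (W : ValuationSubring E)
  (hVW : ∀ y : K, y ∈ V ↔ algebraMap K E y ∈ W)

/-- the inclusion `V → W` -/
def t4ruIncl : V →+* W :=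
  ((algebraMap K E).comp V.subtype).codRestrict W.toSubring (fun y => (hVW y).mp y.2)

theorem coe_t4ruIncl (y : V) : ((t4ruIncl V W hVW y : W) : E) = algebraMap K E (y : K) := rfl

theorem t4ru_isUnit_of_isUnit_incl (y : V) (h : IsUnit (t4ruIncl V W hVW y)) : IsUnit y := by
  obtain ⟨u, hu⟩ := h
  have h1 : ((u : W) : E) * (((u⁻¹ : Wˣ) : W) : E) = 1 := congrArg Subtype.val u.mul_inv
  rw [hu, coe_t4ruIncl] at h1
  have hy0 : (y : K) ≠ 0 := by
    intro h0
    rw [h0, map_zero, zero_mul] at h1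
    exact zero_ne_one h1
  have hinv : algebraMap K E ((y : K)⁻¹) = (((u⁻¹ : Wˣ) : W) : E) := by
    rw [map_inv₀]
    exact (eq_inv_of_mul_eq_one_right h1).symm
  have hmem : (y : K)⁻¹ ∈ V := by
    rw [hVW, hinv]
    exact SetLike.coe_mem _
  refine isUnit_iff_exists_inv.mpr ⟨⟨(y : K)⁻¹, hmem⟩, ?_⟩
  apply Subtype.ext
  show (y : K) * (y : K)⁻¹ = 1
  exact mul_inv_cancel₀ hy0

instance t4ru_isLocalHom_residue_incl :
    IsLocalHom ((residue W).comp (t4ruIncl V W hVW)) where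
  map_nonunit y h := by
    apply t4ru_isUnit_of_isUnit_incl V W hVW
    by_contra hnu
    have h0 : residue W (t4ruIncl V W hVW y) = 0 := by
      rw [residue_eq_zero_iff]
      exact (mem_maximalIdeal _).mpr hnu
    rw [RingHom.comp_apply, h0] at h
    exact not_isUnit_zero h

/-- the map of residue fields `κ(V) → κ(W)` -/
noncomputable def t4ruKappa : ResidueField V →+* ResidueField W :=
  ResidueField.lift ((residue W).comp (t4ruIncl V W hVW))

theorem t4ruKappa_residue (y : V) :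
    t4ruKappa V W hVW (residue V y) = residue W (t4ruIncl V W hVW y) :=
  ResidueField.lift_residue_apply _ y

theorem t4ruKappa_comp :
    (t4ruKappa V W hVW).comp (residue V) = (residue W).comp (t4ruIncl V W hVW) :=
  RingHom.ext (t4ruKappa_residue V W hVW)

/-- **the étale step**, inside `W` -/
theorem t4ru_etale_aux (hL : ∀ c : L₀, algebraMap L₀ K c ∈ V) (t : V)
    (hgen : ∀ y : V, ¬ IsUnit y → ∃ z : V, y = t * z) (ht0 : t ≠ 0)
    (ω : W) (g₀ : L₀[X]) (hg₀ : g₀.Separable) (hg₀m : g₀.Monic)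
    (hω : aeval (ω : E) g₀ = 0) :
    ∀ (m : ℕ) (Q : V[X]) (x : W), x * t4ruIncl V W hVW t ^ m = Q.eval₂ (t4ruIncl V W hVW) ω →
      ¬ IsUnit x → ∃ z : W, x = t4ruIncl V W hVW t * z := by
  classical
  set ψ := t4ruIncl V W hVW with hψ
  set ι := t4ruKappa V W hVW with hι
  letI : Algebra (ResidueField V) (ResidueField W) := ι.toAlgebra
  have hcomp : ι.comp (residue V) = (residue W).comp ψ := t4ruKappa_comp V W hVW
  have hτ0 : ψ t ≠ 0 := by
    intro h0
    apply ht0
    have h1 : algebraMap K E (t : K) = 0 := congrArg Subtype.val h0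
    exact Subtype.ext ((map_eq_zero _).mp h1)
  -- evaluation at `ω` and reduction
  have hres : ∀ Q : V[X], residue W (Q.eval₂ ψ ω) = aeval (residue W ω) (Q.map (residue V)) := by
    intro Q
    rw [hom_eval₂, aeval_def, eval₂_map, ← hcomp]
    rfl
  -- the polynomial `g` over `V`
  let σ : L₀ →+* V := (algebraMap L₀ K).codRestrict V.toSubring hL
  set gV : V[X] := g₀.map σ with hgV
  have hgω : gV.eval₂ ψ ω = 0 := by
    apply Subtype.ext
    have h1 : ((gV.eval₂ ψ ω : W) : E) = gV.eval₂ (W.subtype.comp ψ) (ω : E) := by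
      have := hom_eval₂ gV ψ W.subtype ω
      exact this
    rw [h1, hgV, eval₂_map]
    have h2 : (W.subtype.comp ψ).comp σ = algebraMap L₀ E := by
      ext c
      show algebraMap K E (algebraMap L₀ K c) = algebraMap L₀ E c
      rw [← IsScalarTower.algebraMap_apply]
    rw [h2, ← aeval_def]
    exact hω
  set gb : (ResidueField V)[X] := gV.map (residue V) with hgb
  have hgbsep : gb.Separable := by
    rw [hgb, hgV, Polynomial.map_map]
    exact hg₀.map
  have hgbm : gb.Monic := (hg₀m.map σ).map (residue V)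
  set ωb : ResidueField W := residue W ω with hωb
  have hgbω : aeval ωb gb = 0 := by
    rw [← hres gV, hgω, map_zero]
  have hint : IsIntegral (ResidueField V) ωb := ⟨gb, hgbm, hgbω⟩
  set hb : (ResidueField V)[X] := minpoly (ResidueField V) ωb with hhb
  obtain ⟨kb, hkb⟩ : hb ∣ gb := minpoly.dvd _ _ hgbω
  obtain ⟨h, hh⟩ := Polynomial.map_surjective (residue V) residue_surjective hb
  obtain ⟨k, hk⟩ := Polynomial.map_surjective (residue V) residue_surjective kb
  obtain ⟨s, hs⟩ := t4ru_exists_C_mul t hgen (gV - h * k) (by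
    rw [Polynomial.map_sub, Polynomial.map_mul, hh, hk, ← hgb, hkb, sub_self])
  have hprod : h.eval₂ ψ ω * k.eval₂ ψ ω = - (ψ t * s.eval₂ ψ ω) := by
    have h1 : gV = h * k + C t * s := by rw [← hs]; ring
    have h2 := hgω
    rw [h1, eval₂_add, eval₂_mul, eval₂_mul, eval₂_C] at h2
    linear_combination h2
  -- `k(ω)` is a unit
  have hkunit : IsUnit (k.eval₂ ψ ω) := by
    by_contra hnu
    have h0 : residue W (k.eval₂ ψ ω) = 0 := by
      rw [residue_eq_zero_iff]
      exact (mem_maximalIdeal _).mpr hnu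
    rw [hres, hk] at h0
    obtain ⟨c, hc⟩ : hb ∣ kb := minpoly.dvd _ _ h0
    have hsq : hb * hb ∣ gb := ⟨c, by rw [hkb, hc]; ring⟩
    exact minpoly.not_isUnit (ResidueField V) ωb (hgbsep.squarefree hb hsq)
  obtain ⟨uk, huk⟩ := hkunit
  -- the key lemma
  have hKL : ∀ Q : V[X], ¬ IsUnit (Q.eval₂ ψ ω) →
      ∃ Q₁ : V[X], Q.eval₂ ψ ω * k.eval₂ ψ ω = ψ t * Q₁.eval₂ ψ ω := by
    intro Q hQ
    have h0 : residue W (Q.eval₂ ψ ω) = 0 := by
      rw [residue_eq_zero_iff]
      exact (mem_maximalIdeal _).mpr hQ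
    rw [hres] at h0
    obtain ⟨ub, hub⟩ : hb ∣ Q.map (residue V) := minpoly.dvd _ _ h0
    obtain ⟨u, hu⟩ := Polynomial.map_surjective (residue V) residue_surjective ub
    obtain ⟨w, hw⟩ := t4ru_exists_C_mul t hgen (Q - h * u) (by
      rw [Polynomial.map_sub, Polynomial.map_mul, hh, hu, hub, sub_self])
    refine ⟨- (s * u) + w * k, ?_⟩
    have h1 : Q = h * u + C t * w := by rw [← hw]; ring
    rw [h1, eval₂_add, eval₂_mul, eval₂_mul, eval₂_C, eval₂_add, eval₂_neg, eval₂_mul, eval₂_mul]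
    linear_combination (u.eval₂ ψ ω) * hprod
  -- the induction
  intro m
  induction m with
  | zero =>
    intro Q x hx hxnu
    rw [pow_zero, mul_one] at hx
    rw [hx] at hxnu
    obtain ⟨Q₁, hQ₁⟩ := hKL Q hxnu
    refine ⟨Q₁.eval₂ ψ ω * ((uk⁻¹ : Wˣ) : W), ?_⟩
    rw [hx, ← mul_assoc, ← hQ₁, ← huk, mul_assoc, Units.mul_inv, mul_one]
  | succ m ih =>
    intro Q x hx hxnu
    have hQnu : ¬ IsUnit (Q.eval₂ ψ ω) := by
      rw [← hx]
      intro hu
      exact hxnu (isUnit_of_mul_isUnit_left hu)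
    obtain ⟨Q₁, hQ₁⟩ := hKL Q hQnu
    have hx' : (x * k.eval₂ ψ ω) * ψ t ^ m = Q₁.eval₂ ψ ω := by
      have h1 : ψ t * ((x * k.eval₂ ψ ω) * ψ t ^ m) = ψ t * Q₁.eval₂ ψ ω := by
        rw [← hQ₁, ← hx, pow_succ]
        ring
      exact mul_left_cancel₀ hτ0 h1
    have hx'nu : ¬ IsUnit (x * k.eval₂ ψ ω) := fun hu => hxnu (isUnit_of_mul_isUnit_left hu)
    obtain ⟨z, hz⟩ := ih Q₁ (x * k.eval₂ ψ ω) hx' hx'nu
    refine ⟨z * ((uk⁻¹ : Wˣ) : W), ?_⟩
    calc x = (x * k.eval₂ ψ ω) * ((uk⁻¹ : Wˣ) : W) := by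
          rw [← huk, mul_assoc, Units.mul_inv, mul_one]
      _ = ψ t * (z * ((uk⁻¹ : Wˣ) : W)) := by rw [hz, mul_assoc]

/-- clearing the denominators of a polynomial -/
theorem t4ru_exists_lift (t : V) (hdiscr : ∀ c : K, ∃ n : ℕ, c * (t : K) ^ n ∈ V) (P : K[X]) :
    ∃ (m : ℕ) (Q : V[X]), Q.map V.subtype = P * C ((t : K) ^ m) := by
  classical
  choose n hn using hdiscr
  set m := P.support.sup (fun i => n (P.coeff i)) with hm
  have hmem : P * C ((t : K) ^ m) ∈ Polynomial.lifts V.subtype := by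
    rw [Polynomial.lifts_iff_coeff_lifts]
    intro i
    rw [coeff_mul_C]
    by_cases hi : i ∈ P.support
    · have hle : n (P.coeff i) ≤ m := Finset.le_sup (f := fun i => n (P.coeff i)) hi
      obtain ⟨d, hd⟩ := Nat.exists_eq_add_of_le hle
      have h1 : P.coeff i * (t : K) ^ m ∈ V := by
        rw [hd, pow_add, ← mul_assoc]
        exact V.mul_mem _ _ (hn _) (V.pow_mem t.2 d)
      exact ⟨⟨_, h1⟩, rfl⟩
    · rw [notMem_support_iff.mp hi, zero_mul]
      exact ⟨0, map_zero _⟩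
  obtain ⟨Q, hQ⟩ := hmem
  exact ⟨m, Q, hQ⟩

include hVW in
/-- **the étale step**: every non-unit of `W` in `K[ω]` is divisible by `t` -/
theorem t4ru_etale (hL : ∀ c : L₀, algebraMap L₀ K c ∈ V) (t : V)
    (hgen : ∀ y : V, ¬ IsUnit y → ∃ z : V, y = t * z) (ht0 : t ≠ 0)
    (hdiscr : ∀ c : K, ∃ n : ℕ, c * (t : K) ^ n ∈ V)
    (ω : E) (g₀ : L₀[X]) (hg₀ : g₀.Separable) (hg₀m : g₀.Monic) (hω : aeval ω g₀ = 0)
    (P : K[X]) (hx : aeval ω P ∈ W.nonunits) :
    ∃ z ∈ W, aeval ω P = algebraMap K E (t : K) * z := by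
  -- `ω ∈ W`
  have hLW : ∀ c : L₀, algebraMap L₀ E c ∈ W := by
    intro c
    rw [IsScalarTower.algebraMap_apply L₀ K E]
    exact (hVW _).mp (hL c)
  have hωW : ω ∈ W := by
    have hint : IsIntegral L₀ ω := ⟨g₀, hg₀m, hω⟩
    obtain ⟨p, hmonic, hp⟩ := hint
    let φ : L₀ →+* W := (algebraMap L₀ E).codRestrict W.toSubring hLW
    have hintW : IsIntegral W ω := by
      refine ⟨p.map φ, hmonic.map φ, ?_⟩
      rw [Polynomial.eval₂_map]
      exact hp
    obtain ⟨g, hg⟩ := IsIntegrallyClosed.isIntegral_iff.mp hintW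
    rw [← hg]
    exact g.2
  obtain ⟨m, Q, hQ⟩ := t4ru_exists_lift V t hdiscr P
  have hxW : aeval ω P ∈ W := ValuationSubring.nonunits_subset hx
  have hxnu : ¬ IsUnit (⟨aeval ω P, hxW⟩ : W) := by
    have h1 := (ValuationSubring.coe_mem_nonunits_iff (a := (⟨aeval ω P, hxW⟩ : W))).mp hx
    exact (mem_maximalIdeal _).mp h1
  have hkey : (⟨aeval ω P, hxW⟩ : W) * t4ruIncl V W hVW t ^ m
      = Q.eval₂ (t4ruIncl V W hVW) ⟨ω, hωW⟩ := by
    apply Subtype.ext
    have h1 : ((Q.eval₂ (t4ruIncl V W hVW) (⟨ω, hωW⟩ : W) : W) : E)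
        = Q.eval₂ (W.subtype.comp (t4ruIncl V W hVW)) ω := by
      have := hom_eval₂ Q (t4ruIncl V W hVW) W.subtype (⟨ω, hωW⟩ : W)
      exact this
    rw [h1]
    have h2 : W.subtype.comp (t4ruIncl V W hVW) = (algebraMap K E).comp V.subtype := rfl
    rw [h2, ← eval₂_map, hQ, ← aeval_def, map_mul, aeval_C, map_pow]
    rfl
  obtain ⟨z, hz⟩ := t4ru_etale_aux V W hVW hL t hgen ht0 ⟨ω, hωW⟩ g₀ hg₀ hg₀m hω m Q _ hkey hxnu
  refine ⟨(z : E), z.2, ?_⟩
  have := congrArg Subtype.val hz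
  exact this

end Etale

end Fermat.Agent.T4
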