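/-
T4-R (helper1), (UNR) step (F): **assembly**.

`t4r_unr : 4 ∣ N' ∨ 9 ∣ N' → T4rUnr L N' q` for every field `L` with an embedding into `ℚ̄`
(`[Algebra L ℚ̄] [IsScalarTower ℚ L ℚ̄]`), in particular for the level fields `↥(tbFix 𝔓 H)`.

Proof: extend the valuation subring `V` of `F_{N' q, L}` to a valuation subring `W` of `F_{N' q, ℚ̄}`
(Mathlib's domination theorem); `W` is a place (`UnrDvr`), non-cuspidal, hence `F_{N', ℚ̄}` contains a
uniformiser `t₀` of `W` (`UnrBar`); `V' = V ∩ F_{N', L}` is a discrete valuation ring (`UnrDvr`) with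
uniformiser `t`, and `t ∣ t₀` in `W ∩ F_{N', ℚ̄}` because separable constant field extensions are
unramified (`UnrEtale`).  So `t` is a uniformiser of `W`, a fortiori of `V`.
-/
import Fermat.Agent.Lib.T4.Reg.UnrDefs
import Fermat.Agent.Lib.T4.Reg.UnrBar
import Fermat.Agent.Lib.T4.Reg.UnrDvr
import Fermat.Agent.Lib.T4.Reg.UnrEtale
import Fermat.Agent.Lib.T2.Desc.AdjoinMod
import Fermat.Agent.Lib.T1.Inst.Descent
import Fermat.Agent.Lib.Eis.Semi.RatDescent

set_option autoImplicit false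
set_option linter.unusedSectionVars false
set_option linter.style.haveILetI false
set_option linter.unusedVariables false

namespace Fermat.Agent.T4

open Fermat.Agent.S24Lib Fermat.Agent.T1 Fermat.Agent.T1.KMod Fermat.Agent.T2 ModularCurve
open AlgebraicCurve Fermat.Agent.Curve Fermat.Agent.Curve.PlaceAux Polynomial IntermediateField

local notation "Kbar" => AlgebraicClosure ℚ

/-! ### Extension of valuation subrings -/

/-- every valuation subring extends along a field embedding -/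
theorem t4ru_exists_extension {K E : Type*} [Field K] [Field E] (φ : K →+* E)
    (V : ValuationSubring K) : ∃ W : ValuationSubring E, ∀ y : K, y ∈ V ↔ φ y ∈ W := by
  set A : Subring E := V.toSubring.map φ with hA
  let e : V ≃+* A := Subring.equivMapOfInjective V.toSubring φ φ.injective
  have he : ∀ y : V, ((e y : A) : E) = φ (y : K) := fun y => rfl
  set I : Ideal A := (IsLocalRing.maximalIdeal V).comap (e.symm : A →+* V) with hI
  have hItop : I ≠ ⊤ := Ideal.comap_ne_top _ (IsLocalRing.maximalIdeal.isMaximal V).ne_top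
  obtain ⟨W, hAW, hIW⟩ := Ideal.image_subset_nonunits_valuationSubring I hItop
  refine ⟨W, fun y => ⟨fun hy => ?_, fun hy => ?_⟩⟩
  · exact hAW ⟨y, hy, rfl⟩
  · by_contra hyV
    have hy0 : y ≠ 0 := by
      rintro rfl
      exact hyV V.zero_mem
    have hinv : y⁻¹ ∈ V := (V.mem_or_inv_mem y).resolve_left hyV
    have hnu : ¬ IsUnit (⟨y⁻¹, hinv⟩ : V) := by
      intro hu
      obtain ⟨z, hz⟩ := isUnit_iff_exists_inv.mp hu
      have h1 : y⁻¹ * (z : K) = 1 := congrArg Subtype.val hz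
      have h2 : (z : K) = y := by
        field_simp at h1
        exact h1
      exact hyV (h2 ▸ z.2)
    have hmemI : e ⟨y⁻¹, hinv⟩ ∈ I := by
      rw [hI, Ideal.mem_comap]
      show e.symm (e ⟨y⁻¹, hinv⟩) ∈ IsLocalRing.maximalIdeal V
      rw [RingEquiv.symm_apply_apply]
      exact (IsLocalRing.mem_maximalIdeal _).mpr hnu
    have h3 : φ y⁻¹ ∈ W.nonunits := hIW ⟨e ⟨y⁻¹, hinv⟩, hmemI, rfl⟩
    rw [map_inv₀, ValuationSubring.inv_mem_nonunits_iff] at h3
    rcases h3 with h3 | h3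
    · exact hy0 ((map_eq_zero φ).mp h3)
    · exact h3 hy

/-! ### Base change of the modular function fields -/

section Bc

variable (L : Type*) [Field L] [Algebra ℚ L] [Algebra L Kbar] [IsScalarTower ℚ L Kbar]
variable (N : ℕ) [NeZero N]

/-- the change of the constant field `F_{N, L} → F_{N, ℚ̄}` -/
noncomputable def t4ruBc : ↥(TaF L N) →+* ↥(barField Kbar N) :=
  t2dBc (algebraMap L Kbar) (TaF L N) (barField Kbar N)
    (fun _ ht => tbd_coeffMap_mem (modularFunctionFieldFull N) ht)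

theorem coe_t4ruBc (f : ↥(TaF L N)) :
    ((t4ruBc L N f : ↥(barField Kbar N)) : LaurentSeries Kbar)
      = coeffMap (algebraMap L Kbar) (f : LaurentSeries L) := rfl

theorem t4ruBc_algebraMap (c : L) :
    t4ruBc L N (algebraMap L ↥(TaF L N) c) = algebraMap Kbar ↥(barField Kbar N) (algebraMap L Kbar c) :=
  t2dBc_algebraMap _ _ _ _ c

theorem t4ruBc_taJ : t4ruBc L N (taJ (L := L) N) = KMod.jBar Kbar N := by
  apply Subtype.ext
  rw [coe_t4ruBc, coe_taJ, coeffMap_jqModC]
  rfl

theorem t4ruBc_alpha (e : ℕ) [NeZero e] (f : ↥(TaF L N)) :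
    t4ruBc L (N * e) (heckeAlphaBar L N e f) = heckeAlphaBar Kbar N e (t4ruBc L N f) := by
  apply Subtype.ext
  rw [coe_t4ruBc, coe_heckeAlphaBar, coe_heckeAlphaBar, coe_t4ruBc]

/-- `j` generates `F_{N, L}` as a function field -/
theorem t4ru_isFunctionFieldGen : IsFunctionFieldGen L ↥(TaF L N) (taJ (L := L) N) := by
  have hgen : IsFunctionFieldGen Kbar ↥(barField Kbar N) (t4ruBc L N (taJ (L := L) N)) := by
    rw [t4ruBc_taJ]
    exact KMod.isFunctionFieldGen_jBar Kbar N
  exact ⟨t2d_transcendental_of_bc _ _ _ _ _ hgen.transcendental,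
    (t2d_finrank_adjoin_le_of_gen _ _ _ _ _ hgen).1⟩

/-- every element of `F_{N, ℚ̄}` is a polynomial in one constant `ω₀ ∈ ℚ̄` with coefficients in
`F_{N, L}` -/
theorem t4ru_exists_poly (x : ↥(barField Kbar N)) :
    ∃ (ω₀ : Kbar) (P : (↥(TaF L N))[X]),
      x = P.eval₂ (t4ruBc L N) (algebraMap Kbar ↥(barField Kbar N) ω₀) := by
  classical
  haveI : Algebra.IsAlgebraic ℚ Kbar := AlgebraicClosure.isAlgebraic ℚ
  haveI : Algebra.IsAlgebraic L Kbar := Algebra.IsAlgebraic.tower_top (K := ℚ) L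
  haveI : CharZero L := algebraRat.charZero L
  obtain ⟨c, hc⟩ := Fermat.Agent.Eis.es_exists_finsupp_of_mem_laurentBaseChange Kbar
    (modularFunctionFieldFull N) x.2
  set S : Finset Kbar := c.support with hS
  set M : IntermediateField L Kbar := IntermediateField.adjoin L (S : Set Kbar) with hM
  haveI : FiniteDimensional L M :=
    IntermediateField.finiteDimensional_adjoin (fun a _ => Algebra.IsIntegral.isIntegral a)
  obtain ⟨α, hα⟩ := Field.exists_primitive_element L M
  have hαint : IsIntegral L α := Algebra.IsIntegral.isIntegral α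
  have hpoly : ∀ a : Kbar, a ∈ S → ∃ p : L[X], aeval (α : Kbar) p = a := by
    intro a ha
    have haM : a ∈ M := IntermediateField.subset_adjoin L _ (Finset.mem_coe.mpr ha)
    have h1 : (⟨a, haM⟩ : M) ∈ L⟮α⟯ := by rw [hα]; trivial
    have h2 : (⟨a, haM⟩ : M) ∈ (L⟮α⟯).toSubalgebra := h1
    rw [IntermediateField.adjoin_simple_toSubalgebra_of_isAlgebraic hαint.isAlgebraic,
      Algebra.adjoin_singleton_eq_range_aeval] at h2
    obtain ⟨p, hp⟩ := h2
    refine ⟨p, ?_⟩
    have h3 := congrArg (fun z : M => (z : Kbar)) hp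
    simp only at h3
    rw [← h3]
    exact (Polynomial.aeval_algHom_apply M.val α p)
  choose! p hp using hpoly
  have hmem : ∀ a : Kbar, coeffEmb L ((c a : ↥(modularFunctionFieldFull N)) : LaurentSeries ℚ)
      ∈ TaF L N := fun a => coeffEmb_mem_laurentBaseChange L (c a).2
  refine ⟨(α : Kbar), ∑ a ∈ S, C (⟨_, hmem a⟩ : ↥(TaF L N)) *
    (p a).map (algebraMap L ↥(TaF L N)), ?_⟩
  rw [eval₂_finsetSum]
  apply Subtype.ext
  rw [hc, Finsupp.sum, AddSubmonoidClass.coe_finsetSum]
  refine Finset.sum_congr rfl fun a ha => ?_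
  rw [eval₂_mul, eval₂_C, eval₂_map]
  have h1 : (t4ruBc L N).comp (algebraMap L ↥(TaF L N))
      = (algebraMap Kbar ↥(barField Kbar N)).comp (algebraMap L Kbar) :=
    RingHom.ext fun c => t4ruBc_algebraMap L N c
  rw [h1, ← hom_eval₂, ← aeval_def, hp a ha, MulMemClass.coe_mul, coe_t4ruBc, tbd_coeffMap_coeffEmb,
    mul_comm]
  rfl

end Bc

/-! ### Places and non-units -/

theorem t4ru_mem_nonunits_iff {K F : Type*} [Field K] [Field F] [Algebra K F] (v : Place K F)
    (x : F) : x ∈ v.toValuationSubring.nonunits ↔ x = 0 ∨ 0 < v.ord x := by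
  rw [ValuationSubring.mem_nonunits_iff_or, ord_pos_iff_inv_notMem]

/-- a uniformiser generates the maximal ideal -/
theorem t4ru_exists_mul_of_ord {K F : Type*} [Field K] [Field F] [Algebra K F] (v : Place K F)
    {t : F} (ht : v.ord t = 1) {y : F} (hy : y ∈ v.toValuationSubring.nonunits) :
    ∃ z ∈ v.toValuationSubring, y = t * z := by
  have ht0 : t ≠ 0 := by
    rintro rfl
    rw [v.ord_zero] at ht
    omega
  refine ⟨y * t⁻¹, ?_, by field_simp⟩
  rcases (t4ru_mem_nonunits_iff v y).mp hy with rfl | hpos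
  · rw [zero_mul]
    exact v.toValuationSubring.zero_mem
  · have hy0 : y ≠ 0 := by
      rintro rfl
      rw [v.ord_zero] at hpos
      omega
    apply mem_of_ord_nonneg
    rw [v.ord_mul hy0 (inv_ne_zero ht0), v.ord_inv, ht]
    omega

/-! ### Restriction of valuation subrings to the lower level -/

section Down

variable (L : Type*) [Field L] [Algebra ℚ L] (N' q : ℕ) [NeZero N'] [NeZero q]

/-- the restriction of a valuation subring of `F_{N' q}` to `F_{N'}` -/
noncomputable def t4ruDown (V : ValuationSubring ↥(TaF L (N' * q))) :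
    ValuationSubring ↥(TaF L N') :=
  V.comap ((heckeAlphaBar L N' q : ↥(TaF L N') →ₐ[L] ↥(TaF L (N' * q))) :
    ↥(TaF L N') →+* ↥(TaF L (N' * q)))

theorem mem_t4ruDown (V : ValuationSubring ↥(TaF L (N' * q))) (f : ↥(TaF L N')) :
    f ∈ t4ruDown L N' q V ↔ heckeAlphaBar L N' q f ∈ V := by
  unfold t4ruDown
  rw [ValuationSubring.mem_comap]
  rfl

end Down

/-! ### The main theorem -/

section Main

variable (L : Type*) [Field L] [Algebra ℚ L] [Algebra L Kbar] [IsScalarTower ℚ L Kbar]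
variable (N' q : ℕ) [NeZero N'] [NeZero q]

/-- **(UNR)** for the subfields of `ℚ̄` -/
theorem t4r_unr (h4 : 4 ∣ N' ∨ 9 ∣ N') : T4rUnr L N' q := by
  classical
  letI := t2iAlgebra L N' q
  intro V hLV hVtop hjV
  haveI : Algebra.IsAlgebraic ℚ Kbar := AlgebraicClosure.isAlgebraic ℚ
  haveI : Algebra.IsAlgebraic L Kbar := Algebra.IsAlgebraic.tower_top (K := ℚ) L
  haveI : CharZero L := algebraRat.charZero L
  have hmapα : ∀ f : ↥(TaF L N'),
      algebraMap ↥(TaF L N') ↥(TaF L (N' * q)) f = heckeAlphaBar L N' q f := fun _ => rfl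
  -- Step 1: extension to `ℚ̄`
  obtain ⟨W, hVW⟩ := t4ru_exists_extension (t4ruBc L (N' * q)) V
  -- Step 2: `W` is a non-cuspidal place
  have hLW : ∀ r : L,
      algebraMap Kbar ↥(barField Kbar (N' * q)) (algebraMap L Kbar r) ∈ W := by
    intro r
    rw [← t4ruBc_algebraMap]
    exact (hVW _).mp (hLV r)
  have hKW : ∀ c : Kbar, algebraMap Kbar ↥(barField Kbar (N' * q)) c ∈ W := by
    intro c
    letI : Algebra L ↥(barField Kbar (N' * q)) :=
      ((algebraMap Kbar ↥(barField Kbar (N' * q))).comp (algebraMap L Kbar)).toAlgebra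
    refine t4ru_mem_of_isIntegral W (R := L) hLW ?_
    obtain ⟨p, hm, hp⟩ : IsIntegral L c := Algebra.IsIntegral.isIntegral c
    refine ⟨p, hm, ?_⟩
    have := hom_eval₂ p (algebraMap L Kbar) (algebraMap Kbar ↥(barField Kbar (N' * q))) c
    rw [hp, map_zero] at this
    exact this.symm
  have hWtop : W ≠ ⊤ := by
    intro h
    apply hVtop
    refine SetLike.ext fun y => ⟨fun _ => ValuationSubring.mem_top y, fun _ => ?_⟩
    rw [hVW, h]
    exact ValuationSubring.mem_top _
  set Wp : Place Kbar ↥(barField Kbar (N' * q)) :=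
    t4ruPlace (KMod.isFunctionFieldGen_jBar Kbar (N' * q)) W hKW hWtop with hWp
  have hWpW : Wp.toValuationSubring = W := rfl
  have hWj : 0 ≤ Wp.ord (KMod.jBar Kbar (N' * q)) := by
    apply ord_nonneg_of_mem
    rw [hWpW, ← t4ruBc_taJ L (N' * q)]
    exact (hVW _).mp hjV
  -- Step 3: a uniformiser in `F_{N', ℚ̄}`
  obtain ⟨t₀, ht₀⟩ := t4ru_unr_bar Kbar N' h4 q Wp hWj
  -- Step 4: the place `V'` of `F_{N', L}` below `V`
  obtain ⟨V', hV'mem⟩ : ∃ V' : ValuationSubring ↥(TaF L N'),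
      ∀ f : ↥(TaF L N'), f ∈ V' ↔ heckeAlphaBar L N' q f ∈ V :=
    ⟨t4ruDown L N' q V, mem_t4ruDown L N' q V⟩
  have hLV' : ∀ c : L, algebraMap L ↥(TaF L N') c ∈ V' := by
    intro c
    rw [hV'mem, AlgHom.commutes]
    exact hLV c
  have hgenL := t4ru_isFunctionFieldGen L N'
  have hgenLq := t4ru_isFunctionFieldGen L (N' * q)
  have hV'top : V' ≠ ⊤ := by
    intro h
    apply hVtop
    refine SetLike.ext fun y => ⟨fun _ => ValuationSubring.mem_top y, fun _ => ?_⟩
    -- `y` is integral over `F_{N', L}`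
    haveI : FiniteDimensional (IntermediateField.adjoin L
        {algebraMap ↥(TaF L N') ↥(TaF L (N' * q)) (taJ (L := L) N')}) ↥(TaF L (N' * q)) := by
      have h1 : algebraMap ↥(TaF L N') ↥(TaF L (N' * q)) (taJ (L := L) N') = taJ (L := L) (N' * q) := by
        rw [hmapα]
        apply Subtype.ext
        rw [coe_heckeAlphaBar]
        rfl
      rw [h1]
      exact hgenLq.finite
    haveI : IsScalarTower L ↥(TaF L N') ↥(TaF L (N' * q)) := t2i_isScalarTower L N' q
    haveI : Module.Finite ↥(TaF L N') ↥(TaF L (N' * q)) :=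
      ta_finite_of_finite_adjoin (K := L) (taJ (L := L) N')
    refine t4ru_mem_of_isIntegral V (R := ↥(TaF L N')) (fun r => ?_)
      (Algebra.IsIntegral.isIntegral y)
    have : r ∈ V' := by rw [h]; exact ValuationSubring.mem_top r
    rw [hmapα]
    exact (hV'mem r).mp this
  set Vp : Place L ↥(TaF L N') := t4ruPlace hgenL V' hLV' hV'top with hVp
  obtain ⟨t, ht⟩ := RRAux.exists_uniformizer Vp
  have htV' : t ∈ V' := mem_of_ord_nonneg Vp (by rw [ht]; norm_num)
  have ht0 : t ≠ 0 := by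
    rintro rfl
    rw [Vp.ord_zero] at ht
    omega
  -- Step 5: the étale step at the level `N'`
  obtain ⟨W', hW'mem⟩ : ∃ W' : ValuationSubring ↥(barField Kbar N'),
      ∀ f : ↥(barField Kbar N'), f ∈ W' ↔ heckeAlphaBar Kbar N' q f ∈ W :=
    ⟨t4ruDown Kbar N' q W, mem_t4ruDown Kbar N' q W⟩
  letI : Algebra ↥(TaF L N') ↥(barField Kbar N') := (t4ruBc L N').toAlgebra
  letI : Algebra L ↥(barField Kbar N') :=
    ((algebraMap Kbar ↥(barField Kbar N')).comp (algebraMap L Kbar)).toAlgebra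
  haveI : IsScalarTower L ↥(TaF L N') ↥(barField Kbar N') :=
    IsScalarTower.of_algebraMap_eq (fun c => (t4ruBc_algebraMap L N' c).symm)
  have hV'W' : ∀ y : ↥(TaF L N'),
      y ∈ V' ↔ algebraMap ↥(TaF L N') ↥(barField Kbar N') y ∈ W' := by
    intro y
    show y ∈ V' ↔ t4ruBc L N' y ∈ W'
    rw [hV'mem, hW'mem, ← t4ruBc_alpha, hVW]
  obtain ⟨ω₀, P, hP⟩ := t4ru_exists_poly L N' t₀
  have hgen : ∀ y : V', ¬ IsUnit y → ∃ z : V', y = ⟨t, htV'⟩ * z := by
    intro y hy
    have hy' : (y : ↥(TaF L N')) ∈ Vp.toValuationSubring.nonunits :=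
      ValuationSubring.coe_mem_nonunits_iff.mpr ((IsLocalRing.mem_maximalIdeal _).mpr hy)
    obtain ⟨z, hz, hyz⟩ := t4ru_exists_mul_of_ord Vp ht hy'
    exact ⟨⟨z, hz⟩, Subtype.ext hyz⟩
  have hdiscr : ∀ c : ↥(TaF L N'), ∃ n : ℕ, c * t ^ n ∈ V' := by
    intro c
    by_cases hc : c = 0
    · exact ⟨0, by rw [hc, zero_mul]; exact V'.zero_mem⟩
    refine ⟨(- Vp.ord c).toNat, ?_⟩
    apply mem_of_ord_nonneg Vp
    rw [Vp.ord_mul hc (pow_ne_zero _ ht0), ← zpow_natCast, Vp.ord_zpow, ht, mul_one]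
    have := Int.self_le_toNat (- Vp.ord c)
    omega
  have hωalg : aeval (algebraMap Kbar ↥(barField Kbar N') ω₀) (minpoly L ω₀) = 0 := by
    rw [aeval_def]
    have := hom_eval₂ (minpoly L ω₀) (algebraMap L Kbar) (algebraMap Kbar ↥(barField Kbar N')) ω₀
    rw [← aeval_def, minpoly.aeval, map_zero] at this
    exact this.symm
  have hω₀int : IsIntegral L ω₀ := Algebra.IsIntegral.isIntegral ω₀
  have ht₀nu : aeval (algebraMap Kbar ↥(barField Kbar N') ω₀) P ∈ W'.nonunits := by
    rw [aeval_def]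
    show P.eval₂ (t4ruBc L N') _ ∈ W'.nonunits
    rw [← hP, ValuationSubring.mem_nonunits_iff_or]
    right
    intro hinv
    have h1 : (heckeAlphaBar Kbar N' q t₀)⁻¹ ∈ Wp.toValuationSubring := by
      rw [hWpW, ← map_inv₀]
      exact (hW'mem _).mp hinv
    exact (ord_pos_iff_inv_notMem Wp _).mp (by rw [ht₀]; norm_num) h1
  obtain ⟨z, hzW', hz⟩ := t4ru_etale (L₀ := L) V' W' hV'W' hLV' ⟨t, htV'⟩ hgen
    (fun h => ht0 (congrArg Subtype.val h)) hdiscr
    (algebraMap Kbar ↥(barField Kbar N') ω₀) (minpoly L ω₀)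
    (minpoly.irreducible hω₀int).separable (minpoly.monic hω₀int) hωalg P ht₀nu
  -- `t` is a uniformiser of `W`
  have hzt : t₀ = t4ruBc L N' t * z := by
    rw [hP]
    rw [aeval_def] at hz
    exact hz
  set τ : ↥(barField Kbar (N' * q)) := t4ruBc L (N' * q) (heckeAlphaBar L N' q t) with hτ
  have hτ' : τ = heckeAlphaBar Kbar N' q (t4ruBc L N' t) := t4ruBc_alpha L N' q t
  have hτ0 : τ ≠ 0 := by
    rw [hτ]
    exact (_root_.map_ne_zero _).mpr ((_root_.map_ne_zero _).mpr ht0)
  have hτnu : τ ∈ W.nonunits := by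
    rw [ValuationSubring.mem_nonunits_iff_or]
    right
    intro hinv
    rw [hτ, ← map_inv₀, ← map_inv₀, ← hVW, ← hV'mem] at hinv
    exact (ord_pos_iff_inv_notMem Vp t).mp (by rw [ht]; norm_num) hinv
  have hτord : Wp.ord τ = 1 := by
    have hz0 : z ≠ 0 := by
      rintro rfl
      rw [mul_zero] at hzt
      rw [hzt, map_zero, Wp.ord_zero] at ht₀
      omega
    have h1 : heckeAlphaBar Kbar N' q t₀ = τ * heckeAlphaBar Kbar N' q z := by
      rw [hzt, map_mul, hτ']
    rw [h1, Wp.ord_mul hτ0 ((_root_.map_ne_zero _).mpr hz0)] at ht₀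
    have h2 : 0 ≤ Wp.ord (heckeAlphaBar Kbar N' q z) :=
      ord_nonneg_of_mem Wp ((hW'mem z).mp hzW')
    have h3 : 0 < Wp.ord τ := by
      rcases (t4ru_mem_nonunits_iff Wp τ).mp hτnu with h | h
      · exact absurd h hτ0
      · exact h
    omega
  -- Step 6: conclusion
  refine ⟨t, (hV'mem t).mp htV', fun y hy => ?_⟩
  rw [hmapα]
  have hαt0 : heckeAlphaBar L N' q t ≠ 0 := (_root_.map_ne_zero _).mpr ht0
  refine ⟨y * (heckeAlphaBar L N' q t)⁻¹, ?_, by field_simp⟩
  rw [hVW, map_mul, map_inv₀]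
  have hynu : t4ruBc L (N' * q) y ∈ Wp.toValuationSubring.nonunits := by
    rw [hWpW, ValuationSubring.mem_nonunits_iff_or]
    rcases (ValuationSubring.mem_nonunits_iff_or (A := V)).mp hy with h | h
    · left
      rw [h, map_zero]
    · right
      rw [← map_inv₀, ← hVW]
      exact h
  obtain ⟨z', hz', hyz'⟩ := t4ru_exists_mul_of_ord Wp hτord hynu
  rw [hyz', mul_comm τ z', mul_assoc, mul_inv_cancel₀ hτ0, mul_one]
  exact hz'

end Main

end Fermat.Agent.T4
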