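/-
T4-R (helper1): the **strong form** of (UNR).

`T4rUnr L N' q` (in `UnrDefs`) only asks for an element `t` of `F_{N', L}` lying in `V` and dividing
every non-unit of `V`; this is also satisfied by `t = 1`.  The statement `T4rUnrS L N' q` adds that
`t` itself is a non-unit of `V`, i.e. `t` is a uniformiser of `V`: the non-cuspidal places of
`F_{N' q, L}` are unramified over `F_{N', L}`.  The proof is the one of `t4r_unr` (`UnrMain`), whose
element `t` is a uniformiser of `V ∩ F_{N', L}`.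
-/
import Fermat.Agent.Lib.T4.Reg.UnrMain
import Fermat.Agent.Lib.T4.Reg.UnrCfe

set_option autoImplicit false
set_option linter.unusedSectionVars false
set_option linter.style.haveILetI false
set_option linter.unusedVariables false

namespace Fermat.Agent.T4

open Fermat.Agent.S24Lib Fermat.Agent.T1 Fermat.Agent.T1.KMod Fermat.Agent.T2 ModularCurve
open AlgebraicCurve Fermat.Agent.Curve Fermat.Agent.Curve.PlaceAux Polynomial IntermediateField
open Fermat.Agent.TW

local notation "Kbar" => AlgebraicClosure ℚ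

/-- **(UNR)**, strong form: the non-cuspidal places of `F_{N' q}` are unramified over `F_{N'}`: the
maximal ideal of `V` is generated by a non-unit `t` coming from `F_{N'}` -/
def T4rUnrS (L : Type*) [Field L] [Algebra ℚ L] (N' q : ℕ) [NeZero N'] [NeZero q] : Prop :=
  letI := t2iAlgebra L N' q
  ∀ V : ValuationSubring ↥(TaF L (N' * q)),
    (∀ c : L, algebraMap L ↥(TaF L (N' * q)) c ∈ V) → V ≠ ⊤ → taJ (L := L) (N' * q) ∈ V →
    ∃ t : ↥(TaF L N'), algebraMap ↥(TaF L N') ↥(TaF L (N' * q)) t ∈ V.nonunits ∧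
      ∀ y ∈ V.nonunits, ∃ z ∈ V, y = algebraMap ↥(TaF L N') ↥(TaF L (N' * q)) t * z

/-- the strong form implies the weak form -/
theorem T4rUnrS.toUnr {L : Type*} [Field L] [Algebra ℚ L] {N' q : ℕ} [NeZero N'] [NeZero q]
    (h : T4rUnrS L N' q) : T4rUnr L N' q := by
  letI := t2iAlgebra L N' q
  intro V hLV hVtop hjV
  obtain ⟨t, ht, hgen⟩ := h V hLV hVtop hjV
  exact ⟨t, ValuationSubring.nonunits_subset ht, hgen⟩

section Main

variable (L : Type*) [Field L] [Algebra ℚ L] [Algebra L Kbar] [IsScalarTower ℚ L Kbar]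
variable (N' q : ℕ) [NeZero N'] [NeZero q]

/-- **(UNR)**, strong form, for the subfields of `ℚ̄` -/
theorem t4r_unrS (h4 : 4 ∣ N' ∨ 9 ∣ N') : T4rUnrS L N' q := by
  classical
  letI := t2iAlgebra L N' q
  intro V hLV hVtop hjV
  haveI : Algebra.IsAlgebraic ℚ Kbar := AlgebraicClosure.isAlgebraic ℚ
  haveI : Algebra.IsAlgebraic L Kbar := Algebra.IsAlgebraic.tower_top (K := ℚ) L
  haveI : CharZero L := algebraRat.charZero L
  have hmapα : ∀ f : ↥(TaF L N'),
      algebraMap ↥(TaF L N') ↥(TaF L (N' * q)) f = heckeAlphaBar L N' q f := fun _ => rfl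
  -- Step 1: extension to `ℚ̄`
  obtain ⟨W, hVW⟩ := t4ru_exists_extension (t4ruBc L (N' * q)) V
  -- Step 2: `W` is a non-cuspidal place
  have hLW : ∀ r : L,
      algebraMap Kbar ↥(barField Kbar (N' * q)) (algebraMap L Kbar r) ∈ W := by
    intro r
    rw [← t4ruBc_algebraMap]
    exact (hVW _).mp (hLV r)
  have hKW : ∀ c : Kbar, algebraMap Kbar ↥(barField Kbar (N' * q)) c ∈ W := by
    intro c
    letI : Algebra L ↥(barField Kbar (N' * q)) :=
      ((algebraMap Kbar ↥(barField Kbar (N' * q))).comp (algebraMap L Kbar)).toAlgebra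
    refine t4ru_mem_of_isIntegral W (R := L) hLW ?_
    obtain ⟨p, hm, hp⟩ : IsIntegral L c := Algebra.IsIntegral.isIntegral c
    refine ⟨p, hm, ?_⟩
    have := hom_eval₂ p (algebraMap L Kbar) (algebraMap Kbar ↥(barField Kbar (N' * q))) c
    rw [hp, map_zero] at this
    exact this.symm
  have hWtop : W ≠ ⊤ := by
    intro h
    apply hVtop
    refine SetLike.ext fun y => ⟨fun _ => ValuationSubring.mem_top y, fun _ => ?_⟩
    rw [hVW, h]
    exact ValuationSubring.mem_top _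
  set Wp : Place Kbar ↥(barField Kbar (N' * q)) :=
    t4ruPlace (KMod.isFunctionFieldGen_jBar Kbar (N' * q)) W hKW hWtop with hWp
  have hWpW : Wp.toValuationSubring = W := rfl
  have hWj : 0 ≤ Wp.ord (KMod.jBar Kbar (N' * q)) := by
    apply ord_nonneg_of_mem
    rw [hWpW, ← t4ruBc_taJ L (N' * q)]
    exact (hVW _).mp hjV
  -- Step 3: a uniformiser in `F_{N', ℚ̄}`
  obtain ⟨t₀, ht₀⟩ := t4ru_unr_bar Kbar N' h4 q Wp hWj
  -- Step 4: the place `V'` of `F_{N', L}` below `V`
  obtain ⟨V', hV'mem⟩ : ∃ V' : ValuationSubring ↥(TaF L N'),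
      ∀ f : ↥(TaF L N'), f ∈ V' ↔ heckeAlphaBar L N' q f ∈ V :=
    ⟨t4ruDown L N' q V, mem_t4ruDown L N' q V⟩
  have hLV' : ∀ c : L, algebraMap L ↥(TaF L N') c ∈ V' := by
    intro c
    rw [hV'mem, AlgHom.commutes]
    exact hLV c
  have hgenL := t4ru_isFunctionFieldGen L N'
  have hgenLq := t4ru_isFunctionFieldGen L (N' * q)
  have hV'top : V' ≠ ⊤ := by
    intro h
    apply hVtop
    refine SetLike.ext fun y => ⟨fun _ => ValuationSubring.mem_top y, fun _ => ?_⟩
    -- `y` is integral over `F_{N', L}`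
    haveI : FiniteDimensional (IntermediateField.adjoin L
        {algebraMap ↥(TaF L N') ↥(TaF L (N' * q)) (taJ (L := L) N')}) ↥(TaF L (N' * q)) := by
      have h1 : algebraMap ↥(TaF L N') ↥(TaF L (N' * q)) (taJ (L := L) N') = taJ (L := L) (N' * q) := by
        rw [hmapα]
        apply Subtype.ext
        rw [coe_heckeAlphaBar]
        rfl
      rw [h1]
      exact hgenLq.finite
    haveI : IsScalarTower L ↥(TaF L N') ↥(TaF L (N' * q)) := t2i_isScalarTower L N' q
    haveI : Module.Finite ↥(TaF L N') ↥(TaF L (N' * q)) :=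
      ta_finite_of_finite_adjoin (K := L) (taJ (L := L) N')
    refine t4ru_mem_of_isIntegral V (R := ↥(TaF L N')) (fun r => ?_)
      (Algebra.IsIntegral.isIntegral y)
    have : r ∈ V' := by rw [h]; exact ValuationSubring.mem_top r
    rw [hmapα]
    exact (hV'mem r).mp this
  set Vp : Place L ↥(TaF L N') := t4ruPlace hgenL V' hLV' hV'top with hVp
  obtain ⟨t, ht⟩ := RRAux.exists_uniformizer Vp
  have htV' : t ∈ V' := mem_of_ord_nonneg Vp (by rw [ht]; norm_num)
  have ht0 : t ≠ 0 := by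
    rintro rfl
    rw [Vp.ord_zero] at ht
    omega
  -- Step 5: the étale step at the level `N'`
  obtain ⟨W', hW'mem⟩ : ∃ W' : ValuationSubring ↥(barField Kbar N'),
      ∀ f : ↥(barField Kbar N'), f ∈ W' ↔ heckeAlphaBar Kbar N' q f ∈ W :=
    ⟨t4ruDown Kbar N' q W, mem_t4ruDown Kbar N' q W⟩
  letI : Algebra ↥(TaF L N') ↥(barField Kbar N') := (t4ruBc L N').toAlgebra
  letI : Algebra L ↥(barField Kbar N') :=
    ((algebraMap Kbar ↥(barField Kbar N')).comp (algebraMap L Kbar)).toAlgebra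
  haveI : IsScalarTower L ↥(TaF L N') ↥(barField Kbar N') :=
    IsScalarTower.of_algebraMap_eq (fun c => (t4ruBc_algebraMap L N' c).symm)
  have hV'W' : ∀ y : ↥(TaF L N'),
      y ∈ V' ↔ algebraMap ↥(TaF L N') ↥(barField Kbar N') y ∈ W' := by
    intro y
    show y ∈ V' ↔ t4ruBc L N' y ∈ W'
    rw [hV'mem, hW'mem, ← t4ruBc_alpha, hVW]
  obtain ⟨ω₀, P, hP⟩ := t4ru_exists_poly L N' t₀
  have hgen : ∀ y : V', ¬ IsUnit y → ∃ z : V', y = ⟨t, htV'⟩ * z := by
    intro y hy
    have hy' : (y : ↥(TaF L N')) ∈ Vp.toValuationSubring.nonunits :=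
      ValuationSubring.coe_mem_nonunits_iff.mpr ((IsLocalRing.mem_maximalIdeal _).mpr hy)
    obtain ⟨z, hz, hyz⟩ := t4ru_exists_mul_of_ord Vp ht hy'
    exact ⟨⟨z, hz⟩, Subtype.ext hyz⟩
  have hdiscr : ∀ c : ↥(TaF L N'), ∃ n : ℕ, c * t ^ n ∈ V' := by
    intro c
    by_cases hc : c = 0
    · exact ⟨0, by rw [hc, zero_mul]; exact V'.zero_mem⟩
    refine ⟨(- Vp.ord c).toNat, ?_⟩
    apply mem_of_ord_nonneg Vp
    rw [Vp.ord_mul hc (pow_ne_zero _ ht0), ← zpow_natCast, Vp.ord_zpow, ht, mul_one]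
    have := Int.self_le_toNat (- Vp.ord c)
    omega
  have hωalg : aeval (algebraMap Kbar ↥(barField Kbar N') ω₀) (minpoly L ω₀) = 0 := by
    rw [aeval_def]
    have := hom_eval₂ (minpoly L ω₀) (algebraMap L Kbar) (algebraMap Kbar ↥(barField Kbar N')) ω₀
    rw [← aeval_def, minpoly.aeval, map_zero] at this
    exact this.symm
  have hω₀int : IsIntegral L ω₀ := Algebra.IsIntegral.isIntegral ω₀
  have ht₀nu : aeval (algebraMap Kbar ↥(barField Kbar N') ω₀) P ∈ W'.nonunits := by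
    rw [aeval_def]
    show P.eval₂ (t4ruBc L N') _ ∈ W'.nonunits
    rw [← hP, ValuationSubring.mem_nonunits_iff_or]
    right
    intro hinv
    have h1 : (heckeAlphaBar Kbar N' q t₀)⁻¹ ∈ Wp.toValuationSubring := by
      rw [hWpW, ← map_inv₀]
      exact (hW'mem _).mp hinv
    exact (ord_pos_iff_inv_notMem Wp _).mp (by rw [ht₀]; norm_num) h1
  obtain ⟨z, hzW', hz⟩ := t4ru_etale (L₀ := L) V' W' hV'W' hLV' ⟨t, htV'⟩ hgen
    (fun h => ht0 (congrArg Subtype.val h)) hdiscr
    (algebraMap Kbar ↥(barField Kbar N') ω₀) (minpoly L ω₀)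
    (minpoly.irreducible hω₀int).separable (minpoly.monic hω₀int) hωalg P ht₀nu
  -- `t` is a uniformiser of `W`
  have hzt : t₀ = t4ruBc L N' t * z := by
    rw [hP]
    rw [aeval_def] at hz
    exact hz
  set τ : ↥(barField Kbar (N' * q)) := t4ruBc L (N' * q) (heckeAlphaBar L N' q t) with hτ
  have hτ' : τ = heckeAlphaBar Kbar N' q (t4ruBc L N' t) := t4ruBc_alpha L N' q t
  have hτ0 : τ ≠ 0 := by
    rw [hτ]
    exact (_root_.map_ne_zero _).mpr ((_root_.map_ne_zero _).mpr ht0)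
  have hτnu : τ ∈ W.nonunits := by
    rw [ValuationSubring.mem_nonunits_iff_or]
    right
    intro hinv
    rw [hτ, ← map_inv₀, ← map_inv₀, ← hVW, ← hV'mem] at hinv
    exact (ord_pos_iff_inv_notMem Vp t).mp (by rw [ht]; norm_num) hinv
  have hτord : Wp.ord τ = 1 := by
    have hz0 : z ≠ 0 := by
      rintro rfl
      rw [mul_zero] at hzt
      rw [hzt, map_zero, Wp.ord_zero] at ht₀
      omega
    have h1 : heckeAlphaBar Kbar N' q t₀ = τ * heckeAlphaBar Kbar N' q z := by
      rw [hzt, map_mul, hτ']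
    rw [h1, Wp.ord_mul hτ0 ((_root_.map_ne_zero _).mpr hz0)] at ht₀
    have h2 : 0 ≤ Wp.ord (heckeAlphaBar Kbar N' q z) :=
      ord_nonneg_of_mem Wp ((hW'mem z).mp hzW')
    have h3 : 0 < Wp.ord τ := by
      rcases (t4ru_mem_nonunits_iff Wp τ).mp hτnu with h | h
      · exact absurd h hτ0
      · exact h
    omega
  -- Step 6: conclusion
  refine ⟨t, ?_, fun y hy => ?_⟩
  · rw [hmapα, ValuationSubring.mem_nonunits_iff_or]
    right
    intro hinv
    rw [← map_inv₀, ← hV'mem] at hinv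
    exact (ord_pos_iff_inv_notMem Vp t).mp (by rw [ht]; norm_num) hinv
  rw [hmapα]
  have hαt0 : heckeAlphaBar L N' q t ≠ 0 := (_root_.map_ne_zero _).mpr ht0
  refine ⟨y * (heckeAlphaBar L N' q t)⁻¹, ?_, by field_simp⟩
  rw [hVW, map_mul, map_inv₀]
  have hynu : t4ruBc L (N' * q) y ∈ Wp.toValuationSubring.nonunits := by
    rw [hWpW, ValuationSubring.mem_nonunits_iff_or]
    rcases (ValuationSubring.mem_nonunits_iff_or (A := V)).mp hy with h | h
    · left
      rw [h, map_zero]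
    · right
      rw [← map_inv₀, ← hVW]
      exact h
  obtain ⟨z', hz', hyz'⟩ := t4ru_exists_mul_of_ord Wp hτord hynu
  rw [hyz', mul_comm τ z', mul_assoc, mul_inv_cancel₀ hτ0, mul_one]
  exact hz'

end Main

/-- **(UNR)**, strong form, for the level fields -/
theorem t4r_unrS_fix (𝔓 : FFPlace) (H : Subgroup 𝔓.I) (N' q : ℕ) [NeZero N'] [NeZero q]
    (h4 : 4 ∣ N' ∨ 9 ∣ N') : T4rUnrS ↥(tbFix 𝔓 H) N' q :=
  t4r_unrS ↥(tbFix 𝔓 H) N' q h4

end Fermat.Agent.T4
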