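/-
T4-R (helper7): **the REG1 level bundle at the inertia level** `L = tbFix 𝔓 ⊤`:
`t4rLevFix 𝔓 N' h h49 hQ D : T4rLev L F' F1 E k((𝔮)) k`, `F' = tbLevF 𝔓 N' ⊤`,
`F1 = tbLevF 𝔓 (N' p) ⊤`, `E = modularFunctionFieldFullC k N'`, `k` the residue field of `𝔓`.

Assembly of (LI-1) … (LI-5):
* (LI-2) `LevInstRed.lean` (reduction tables), (LI-4) `LevInstDer.lean` (derivations),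
  (LI-1, level `N'`) `LevInstP.lean` (the presentation `P' = t4rLevFixP' 𝔓 N' h hQ`, chart
  `X = j^Q - j`) — helper7;
* (LI-3) `LevInst3.lean`, `LevInst3H.lean` (the ring `R'`) — helper9;
* (LI-5) `UnrStrong.lean` — helper1;
* the level-`N' p` presentation `P1` with its six properties is the argument `D : T4rLevFixP1 …`.
-/
import Fermat.Agent.Lib.T4.Reg.LevDefs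
import Fermat.Agent.Lib.T4.Reg.LevInstRed
import Fermat.Agent.Lib.T4.Reg.LevInstDer
import Fermat.Agent.Lib.T4.Reg.LevInst3
import Fermat.Agent.Lib.T4.Reg.LevInst3H
import Fermat.Agent.Lib.T4.Reg.LevInstP
import Fermat.Agent.Lib.T4.Reg.UnrStrong
import Fermat.Agent.Lib.T4.Inst.ChartRR
import Fermat.Agent.Lib.T4.Inst.CycData
import Fermat.Agent.Lib.T2.Inst.LevelH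

set_option autoImplicit false
set_option linter.unusedSectionVars false
set_option linter.unusedVariables false
set_option linter.style.haveILetI false
set_option synthInstance.maxHeartbeats 400000
set_option maxHeartbeats 1000000

open HahnSeries ModularCurve Fermat.Agent.T1 Fermat.Agent.T2 IntermediateField Fermat.Agent.TW
  Fermat.Agent.S05Lib Fermat.Agent.Curve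

noncomputable section

namespace Fermat.Agent.T4

attribute [local instance] t2i_dvr t2i_isAlgClosed t2i_charP t2i_fact t2iAlgebra t2i_isScalarTower

variable (𝔓 : FFPlace) (N' : ℕ) [NeZero N'] (h : ¬ 𝔓.p ∣ N') {Q : ℕ} (hQ : 2 ≤ Q)

/-- the Gauss valuation ring of level `N` at the inertia level -/
abbrev t4rLevFixV (N : ℕ) [NeZero N] : ValuationSubring ↥(tbLevF 𝔓 N (⊤ : Subgroup 𝔓.I)) :=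
  taOv (tbFixO 𝔓 ⊤) (tbFixRes 𝔓 ⊤) (tbFixRes_surjective 𝔓 ⊤) N

/-- the vertical valuation ring at `0` of level `N' p` at the inertia level -/
abbrev t4rLevFixV0 : ValuationSubring ↥(tbLevF 𝔓 (N' * 𝔓.p) (⊤ : Subgroup 𝔓.I)) :=
  (t4rLevFixV 𝔓 (N' * 𝔓.p)).comap
    ((t2iALFix 𝔓 ⊤ N' h).w : ↥(tbLevF 𝔓 (N' * 𝔓.p) ⊤) →+* ↥(tbLevF 𝔓 (N' * 𝔓.p) ⊤))

include hQ in
theorem t4rLevFix_gen :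
    IsFunctionFieldGen ↥(tbFix 𝔓 (⊤ : Subgroup 𝔓.I)) ↥(tbLevF 𝔓 N' ⊤)
      (t4ri1X ↥(tbFix 𝔓 (⊤ : Subgroup 𝔓.I)) N' Q) :=
  t4vc_gen_X_level 𝔓 N' ⊤ hQ

/-- **the presentation `P'` of level `N'`** at the inertia level (chart `X = j^Q - j`) -/
def t4rLevFixP' : T4Pres ↥(tbLevF 𝔓 N' (⊤ : Subgroup 𝔓.I)) :=
  t4ri1Pres (tbFixO 𝔓 ⊤) (tbFixRes 𝔓 ⊤) (tbFixRes_surjective 𝔓 ⊤) (t4cy_irreducible_p 𝔓) hQ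
    (t4rLevFix_gen 𝔓 N' hQ)

/-- `B' = IntCl(L[X]) ∩ V'` -/
theorem mem_t4rLevFixP'_B (f : ↥(tbLevF 𝔓 N' (⊤ : Subgroup 𝔓.I))) :
    f ∈ (t4rLevFixP' 𝔓 N' hQ).B ↔
      f ∈ t2Int (K := ↥(tbFix 𝔓 (⊤ : Subgroup 𝔓.I)))
        (t4ri1X ↥(tbFix 𝔓 (⊤ : Subgroup 𝔓.I)) N' Q) ∧ f ∈ t4rLevFixV 𝔓 N' :=
  mem_t4ri1Pres_B (tbFixO 𝔓 ⊤) (tbFixRes 𝔓 ⊤) (tbFixRes_surjective 𝔓 ⊤) (t4cy_irreducible_p 𝔓) hQ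
    (t4rLevFix_gen 𝔓 N' hQ) f

/-- **the level-`N' p` presentation data** (LI-1, level `N' p` half): a presentation `P1` with
vertical valuation rings `Vinf`, `V0`, compatible with `P'` under the two degeneracy maps -/
structure T4rLevFixP1 where
  /-- the presentation of level `N' p` -/
  P1 : T4Pres ↥(tbLevF 𝔓 (N' * 𝔓.p) (⊤ : Subgroup 𝔓.I))
  Vinf_mem : t4rLevFixV 𝔓 (N' * 𝔓.p) ∈ P1.vals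
  V0_mem : t4rLevFixV0 𝔓 N' h ∈ P1.vals
  vert1 : ∀ V ∈ P1.vals, V.valuation ((𝔓.p : ℕ) : ↥(tbLevF 𝔓 (N' * 𝔓.p) ⊤)) < 1 →
    V = t4rLevFixV 𝔓 (N' * 𝔓.p) ∨ V = t4rLevFixV0 𝔓 N' h
  α_B : ∀ b ∈ (t4rLevFixP' 𝔓 N' hQ).B,
    heckeAlphaBar ↥(tbFix 𝔓 (⊤ : Subgroup 𝔓.I)) N' 𝔓.p b ∈ P1.B
  β_B : ∀ b ∈ (t4rLevFixP' 𝔓 N' hQ).B,
    heckeBetaBar ↥(tbFix 𝔓 (⊤ : Subgroup 𝔓.I)) N' 𝔓.p b ∈ P1.B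
  int1 : ∀ x ∈ P1.B,
    (((heckeAlphaBar ↥(tbFix 𝔓 (⊤ : Subgroup 𝔓.I)) N' 𝔓.p :
        ↥(tbLevF 𝔓 N' ⊤) →ₐ[↥(tbFix 𝔓 (⊤ : Subgroup 𝔓.I))] ↥(tbLevF 𝔓 (N' * 𝔓.p) ⊤)) :
        ↥(tbLevF 𝔓 N' ⊤) →+* ↥(tbLevF 𝔓 (N' * 𝔓.p) ⊤)).comp
      (t4rLevFixP' 𝔓 N' hQ).B.subtype).IsIntegralElem x

variable (h49 : 4 ∣ N' ∨ 9 ∣ N')

/-- **the REG1 level bundle at the inertia level** -/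
def t4rLevFix (D : T4rLevFixP1 𝔓 N' h hQ) :
    T4rLev ↥(tbFix 𝔓 (⊤ : Subgroup 𝔓.I)) ↥(tbLevF 𝔓 N' ⊤) ↥(tbLevF 𝔓 (N' * 𝔓.p) ⊤)
      ↥(modularFunctionFieldFullC (IsLocalRing.ResidueField ↥𝔓.P) N')
      (LaurentSeries (IsLocalRing.ResidueField ↥𝔓.P)) (IsLocalRing.ResidueField ↥𝔓.P) where
  q := 𝔓.p
  hq := 𝔓.hp
  charE := t4ri_charE _ N' 𝔓.p
  char0 := t4ri_char0 _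
  O := (tbFixO 𝔓 ⊤).toSubring
  frac_O := t4ri_frac_O (tbFixO 𝔓 ⊤) (t4cy_irreducible_p 𝔓)
  nat_inv := t4ri_nat_inv (tbFixO 𝔓 ⊤) (tbFixRes 𝔓 ⊤) (tbFixRes_surjective 𝔓 ⊤)
  π := tbFixRes 𝔓 ⊤
  π_surj := tbFixRes_surjective 𝔓 ⊤
  P' := t4rLevFixP' 𝔓 N' hQ
  noeth' := t4ri1_noeth' (tbFixO 𝔓 ⊤) (tbFixRes 𝔓 ⊤) (tbFixRes_surjective 𝔓 ⊤)
    (t2i_natCast_ne_zero 𝔓 h) (t4cy_irreducible_p 𝔓) hQ (t4rLevFix_gen 𝔓 N' hQ)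
  O_mem := t4ri1_O_mem (tbFixO 𝔓 ⊤) (tbFixRes 𝔓 ⊤) (tbFixRes_surjective 𝔓 ⊤)
    (t4cy_irreducible_p 𝔓) hQ (t4rLevFix_gen 𝔓 N' hQ)
  ft' := t4ri1_ft' (tbFixO 𝔓 ⊤) (tbFixRes 𝔓 ⊤) (tbFixRes_surjective 𝔓 ⊤)
    (t2i_natCast_ne_zero 𝔓 h) (t4cy_irreducible_p 𝔓) hQ (t4rLevFix_gen 𝔓 N' hQ)
  V' := t4rLevFixV 𝔓 N'
  V'_mem := t4ri1_V'_mem (tbFixO 𝔓 ⊤) (tbFixRes 𝔓 ⊤) (tbFixRes_surjective 𝔓 ⊤)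
    (t4cy_irreducible_p 𝔓) hQ (t4rLevFix_gen 𝔓 N' hQ)
  vert' := t4ri1_vert' (tbFixO 𝔓 ⊤) (tbFixRes 𝔓 ⊤) (tbFixRes_surjective 𝔓 ⊤)
    (t4cy_irreducible_p 𝔓) hQ (t4rLevFix_gen 𝔓 N' hQ)
  res' := t2iRes (tbFixO 𝔓 ⊤) (tbFixRes 𝔓 ⊤) (tbFixRes_surjective 𝔓 ⊤) N'
    (t2i_natCast_ne_zero 𝔓 h)
  res'_surj := t2iRes_surjective (tbFixO 𝔓 ⊤) (tbFixRes 𝔓 ⊤) (tbFixRes_surjective 𝔓 ⊤) N'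
    (t2i_natCast_ne_zero 𝔓 h)
  ker' := t4ri_ker' (tbFixO 𝔓 ⊤) (tbFixRes 𝔓 ⊤) (tbFixRes_surjective 𝔓 ⊤)
    (t2i_natCast_ne_zero 𝔓 h) (t4cy_irreducible_p 𝔓)
  unit' := t4ri_unit' (tbFixO 𝔓 ⊤) (tbFixRes 𝔓 ⊤) (tbFixRes_surjective 𝔓 ⊤)
    (t2i_natCast_ne_zero 𝔓 h)
  res'_O := t4ri_res'_O (tbFixO 𝔓 ⊤) (tbFixRes 𝔓 ⊤) (tbFixRes_surjective 𝔓 ⊤)
    (t2i_natCast_ne_zero 𝔓 h)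
  R' := t2R (k := IsLocalRing.ResidueField ↥𝔓.P) (taBarJ (IsLocalRing.ResidueField ↥𝔓.P) N')
  res'_B := fun b hb hbV =>
    t4ri3_res_mem_X 𝔓 ⊤ N' h hQ b hbV ((mem_t4rLevFixP'_B 𝔓 N' hQ b).mp hb).1
  gr := fun x hx => by
    obtain ⟨f, hf, hint, hres⟩ := t4ri3_gr_X 𝔓 ⊤ N' h h49 hQ hx
    exact ⟨f, (mem_t4rLevFixP'_B 𝔓 N' hQ f).mpr ⟨hint, hf⟩, hf, hres⟩
  R'_closed := t4ri3_closed _ N'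
  R'_pt := t4ri3_pt _ N' (t2i_natCast_ne_zero 𝔓 h)
  R'_unif := t4ri3_unif _ N' (t2i_natCast_ne_zero 𝔓 h)
  Φ := t2fePhi _ 𝔓.p N'
  ψ := t4ri3Psi _ 𝔓.p N'
  Φ_eq := t4ri3_Φ_eq _ 𝔓.p N'
  ψ_const := t4ri3_ψ_const _ 𝔓.p N'
  ψ_symm_const := t4ri3_ψ_symm_const _ 𝔓.p N'
  ψ_R' := fun x hx => t4ri3_ψ_mem _ 𝔓.p N' hx
  ψ_symm_R' := fun x hx => t4ri3_ψ_symm_mem _ 𝔓.p N' hx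
  node := t4ri3_node _ 𝔓.p N' (t2i_natCast_ne_zero 𝔓 h)
  P1 := D.P1
  α := heckeAlphaBar _ N' 𝔓.p
  β := heckeBetaBar _ N' 𝔓.p
  α_B := D.α_B
  β_B := D.β_B
  int1 := D.int1
  fin1 := t4ri_fin1 (tbFixO 𝔓 ⊤) (tbFixRes 𝔓 ⊤) (tbFixRes_surjective 𝔓 ⊤)
    (t2i_natCast_ne_zero 𝔓 h)
  deg1 := t4ri_deg1 (tbFixO 𝔓 ⊤) (tbFixRes 𝔓 ⊤) (tbFixRes_surjective 𝔓 ⊤)
    (t2i_natCast_ne_zero 𝔓 h)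
  Vinf := t4rLevFixV 𝔓 (N' * 𝔓.p)
  V0 := t4rLevFixV0 𝔓 N' h
  Vinf_mem := D.Vinf_mem
  V0_mem := D.V0_mem
  vert1 := D.vert1
  ρinf := t4riRhoInf (tbFixO 𝔓 ⊤) (tbFixRes 𝔓 ⊤) (tbFixRes_surjective 𝔓 ⊤)
    (t2i_natCast_ne_zero 𝔓 h) (t2iALFix 𝔓 ⊤ N' h) (t2iFrobFix 𝔓 N') (t4cy_irreducible_p 𝔓)
  ρ0 := t4riRho0 (tbFixO 𝔓 ⊤) (tbFixRes 𝔓 ⊤) (tbFixRes_surjective 𝔓 ⊤)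
    (t2i_natCast_ne_zero 𝔓 h) (t2iALFix 𝔓 ⊤ N' h) (t2iFrobFix 𝔓 N') (t4cy_irreducible_p 𝔓)
  ker_inf := t4ri_ker_inf (tbFixO 𝔓 ⊤) (tbFixRes 𝔓 ⊤) (tbFixRes_surjective 𝔓 ⊤)
    (t2i_natCast_ne_zero 𝔓 h) (t2iALFix 𝔓 ⊤ N' h) (t2iFrobFix 𝔓 N') (t4cy_irreducible_p 𝔓)
  ker_0 := t4ri_ker_0 (tbFixO 𝔓 ⊤) (tbFixRes 𝔓 ⊤) (tbFixRes_surjective 𝔓 ⊤)
    (t2i_natCast_ne_zero 𝔓 h) (t2iALFix 𝔓 ⊤ N' h) (t2iFrobFix 𝔓 N') (t4cy_irreducible_p 𝔓)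
  unit_inf := t4ri_unit_inf (tbFixO 𝔓 ⊤) (tbFixRes 𝔓 ⊤) (tbFixRes_surjective 𝔓 ⊤)
    (t2i_natCast_ne_zero 𝔓 h) (t2iALFix 𝔓 ⊤ N' h) (t2iFrobFix 𝔓 N') (t4cy_irreducible_p 𝔓)
  unit_0 := t4ri_unit_0 (tbFixO 𝔓 ⊤) (tbFixRes 𝔓 ⊤) (tbFixRes_surjective 𝔓 ⊤)
    (t2i_natCast_ne_zero 𝔓 h) (t2iALFix 𝔓 ⊤ N' h) (t2iFrobFix 𝔓 N') (t4cy_irreducible_p 𝔓)
  α_inf := t4ri_α_inf (tbFixO 𝔓 ⊤) (tbFixRes 𝔓 ⊤) (tbFixRes_surjective 𝔓 ⊤)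
  α_0 := t4ri_α_0 (tbFixO 𝔓 ⊤) (tbFixRes 𝔓 ⊤) (tbFixRes_surjective 𝔓 ⊤) (t2iALFix 𝔓 ⊤ N' h)
  β_inf := t4ri_β_inf (tbFixO 𝔓 ⊤) (tbFixRes 𝔓 ⊤) (tbFixRes_surjective 𝔓 ⊤)
  β_0 := t4ri_β_0 (tbFixO 𝔓 ⊤) (tbFixRes 𝔓 ⊤) (tbFixRes_surjective 𝔓 ⊤) (t2iALFix 𝔓 ⊤ N' h)
  ρinf_α := t4ri_ρinf_α (tbFixO 𝔓 ⊤) (tbFixRes 𝔓 ⊤) (tbFixRes_surjective 𝔓 ⊤)
    (t2i_natCast_ne_zero 𝔓 h) (t2iALFix 𝔓 ⊤ N' h) (t2iFrobFix 𝔓 N') (t4cy_irreducible_p 𝔓)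
  ρ0_α := t4ri_ρ0_α (tbFixO 𝔓 ⊤) (tbFixRes 𝔓 ⊤) (tbFixRes_surjective 𝔓 ⊤)
    (t2i_natCast_ne_zero 𝔓 h) (t2iALFix 𝔓 ⊤ N' h) (t2iFrobFix 𝔓 N') (t4cy_irreducible_p 𝔓)
  ρinf_β := t4ri_ρinf_β (tbFixO 𝔓 ⊤) (tbFixRes 𝔓 ⊤) (tbFixRes_surjective 𝔓 ⊤)
    (t2i_natCast_ne_zero 𝔓 h) (t2iALFix 𝔓 ⊤ N' h) (t2iFrobFix 𝔓 N') (t4cy_irreducible_p 𝔓)
  ρ0_β := t4ri_ρ0_β (tbFixO 𝔓 ⊤) (tbFixRes 𝔓 ⊤) (tbFixRes_surjective 𝔓 ⊤)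
    (t2i_natCast_ne_zero 𝔓 h) (t2iALFix 𝔓 ⊤ N' h) (t2iFrobFix 𝔓 N') (t4cy_irreducible_p 𝔓)
  j' := taJ N'
  j'_mem := t4ri1_j'_mem (tbFixO 𝔓 ⊤) (tbFixRes 𝔓 ⊤) (tbFixRes_surjective 𝔓 ⊤)
    (t4cy_irreducible_p 𝔓) hQ (t4rLevFix_gen 𝔓 N' hQ)
  unr := fun V h1 h2 h3 => by
    have hj : taJ (L := ↥(tbFix 𝔓 (⊤ : Subgroup 𝔓.I))) (N' * 𝔓.p) ∈ V := by
      rw [← t2i_alpha_taJ (L := ↥(tbFix 𝔓 (⊤ : Subgroup 𝔓.I))) N' 𝔓.p]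
      exact h3
    exact t4r_unrS_fix 𝔓 ⊤ N' 𝔓.p h49 V h1 h2 hj
  ι := t4ri4Iota _ N'
  θ := t4vTheta
  θ_mul := t4ri4_θ_mul _
  ψh := t4ri4Psih _ 𝔓.p
  ι_ψ := t4ri4_ι_ψ _ 𝔓.p N'
  θ_ψh := t4ri4_θ_ψh _ 𝔓.p
  θ_const := t4ri4_θ_const _ N'
  θ_j' := t4ri4_θ_j' (tbFixO 𝔓 ⊤) (tbFixRes 𝔓 ⊤) (tbFixRes_surjective 𝔓 ⊤)
    (t2i_natCast_ne_zero 𝔓 h)
  d' := fun u => t4rdD N' u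
  dα := fun u => t4rdD (N' * 𝔓.p) (heckeAlphaBar _ N' 𝔓.p u)
  dα_α := t4ri4_dα_α
  d'_self := t4ri4_d'_self (tbFixO 𝔓 ⊤) (tbFixRes 𝔓 ⊤) (tbFixRes_surjective 𝔓 ⊤)
    (t2i_natCast_ne_zero 𝔓 h)
  d'_V' := t4ri4_d'_V' (tbFixO 𝔓 ⊤) (tbFixRes 𝔓 ⊤) (tbFixRes_surjective 𝔓 ⊤)
    (t2i_natCast_ne_zero 𝔓 h)
  dα_0 := t4ri4_dα_0 (tbFixO 𝔓 ⊤) (tbFixRes 𝔓 ⊤) (tbFixRes_surjective 𝔓 ⊤)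
    (t2i_natCast_ne_zero 𝔓 h) (t2iALFix 𝔓 ⊤ N' h) (t2iFrobFix 𝔓 N') (t4cy_irreducible_p 𝔓)
  dα_β := t4ri4_dα_β (tbFixO 𝔓 ⊤) (tbFixRes 𝔓 ⊤) (tbFixRes_surjective 𝔓 ⊤)
    (t2i_natCast_ne_zero 𝔓 h) (t2iALFix 𝔓 ⊤ N' h) (t2iFrobFix 𝔓 N') (t4cy_irreducible_p 𝔓)

end Fermat.Agent.T4
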