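/-
T4-R (helper6): GLUE between the abstract REG1 outputs (`T4rLev.reg1_G`, `T4rLev.reg1_M'`,
`T4rLev.exists_αB_approx`) and helper8's literal input shapes `T4rtRegG` (TopReg.lean),
`T4rmRegM`, `T4rmLow.apx` (TopMid.lean), for a level bundle
`Lv : T4rLev L ↥(TaF L N') ↥(TaF L (N' * q)) E (LaurentSeries k) k` whose components are identified
with the concrete objects by the hypotheses `hVinf hV0 hqq hα hres hθ` (all `rfl`-type facts at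
the instance).
-/
import Fermat.Agent.Lib.T4.Reg.LevMainN
import Fermat.Agent.Lib.T4.Reg.TopMid

set_option autoImplicit false
set_option linter.unusedSectionVars false
set_option linter.unusedVariables false
set_option linter.style.haveILetI false
set_option synthInstance.maxHeartbeats 400000

open HahnSeries ModularCurve Fermat.Agent.T1 Fermat.Agent.T2 IntermediateField

noncomputable section

namespace Fermat.Agent.T4

section Glue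

attribute [local instance] t2iAlgebra

variable {L : Type} [Field L] [Algebra ℚ L] (O : ValuationSubring L) {k : Type*} [Field k]
  (π : ↥O →+* k) [IsDiscreteValuationRing ↥O] (hπ : Function.Surjective π) [IsAlgClosed k]
  {N' q : ℕ} [NeZero N'] [hq : Fact q.Prime] [CharP k q]
  (W1 : T2iAL L N' q)
  {E Eh : Type*} [Field E] [Field Eh] [Algebra k E]

/-- **REG1-G in helper8's shape** -/
theorem t4rg_regG (Lv : T4rLev L ↥(TaF L N') ↥(TaF L (N' * q)) E Eh k)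
    (hVinf : Lv.Vinf = taOv O π hπ (N' * q)) (hV0 : Lv.V0 = t4rtO10 O π hπ W1)
    (hqq : Lv.q = q) : T4rtRegG O π hπ W1 Lv.P1 := by
  intro 𝔫1 h𝔫1 hinf h0
  have h := Lv.reg1_G 𝔫1 h𝔫1 (hVinf ▸ hinf) (hV0 ▸ h0)
  rw [hVinf, hV0, hqq] at h
  exact h

/-- REG1-G in helper8's shape, for a presentation identified with `Lv.P1` -/
theorem t4rg_regG' (Lv : T4rLev L ↥(TaF L N') ↥(TaF L (N' * q)) E Eh k)
    {P1 : T4Pres ↥(TaF L (N' * q))} (hP1 : Lv.P1 = P1)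
    (hVinf : Lv.Vinf = taOv O π hπ (N' * q)) (hV0 : Lv.V0 = t4rtO10 O π hπ W1)
    (hqq : Lv.q = q) : T4rtRegG O π hπ W1 P1 := by
  subst hP1
  exact t4rg_regG O π hπ W1 Lv hVinf hV0 hqq

/-- **the approximation on the branch `O¹_inf` in helper8's shape** (`T4rmLow.apx`) -/
theorem t4rg_apx (Lv : T4rLev L ↥(TaF L N') ↥(TaF L (N' * q)) E Eh k)
    (hVinf : Lv.Vinf = taOv O π hπ (N' * q))
    (hα : ∀ x, Lv.α x = heckeAlphaBar L N' q x) :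
    ∀ y ∈ Lv.P1.B, ∃ a ∈ Lv.P'.B,
      (taOv O π hπ (N' * q)).valuation (y - heckeAlphaBar L N' q a) < 1 := by
  intro y hy
  obtain ⟨a, ha⟩ := Lv.exists_αB_approx ⟨y, hy⟩
  refine ⟨(a : ↥(TaF L N')), a.2, ?_⟩
  have h0 : Lv.rinfB (⟨y, hy⟩ - Lv.αB a) = 0 := by rw [map_sub, ha, sub_self]
  have h1 := (Lv.valinf_lt_one_iff ⟨((⟨y, hy⟩ - Lv.αB a : ↥Lv.P1.B) : ↥(TaF L (N' * q))),
    Lv.B1_le_Vinf (⟨y, hy⟩ - Lv.αB a : ↥Lv.P1.B).2⟩).mpr h0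
  rw [← hα, ← hVinf]
  exact h1

/-- **REG1-M in helper8's shape** -/
theorem t4rg_regM (Lv : T4rLev L ↥(TaF L N') ↥(TaF L (N' * q)) E (LaurentSeries k) k)
    (hov : @T4PresOver _ _ _ _ (t2iAlgebra L N' q) Lv.P' Lv.P1)
    (hVinf : Lv.Vinf = taOv O π hπ (N' * q)) (hV0 : Lv.V0 = t4rtO10 O π hπ W1)
    (hqq : Lv.q = q)
    (hα : ∀ x, Lv.α x = heckeAlphaBar L N' q x)
    (hres : ∀ (x : ↥(TaF L N')) (hx : x ∈ Lv.V'),
      Lv.ι (Lv.res' ⟨x, hx⟩) = taRhoFun O π (x : LaurentSeries L))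
    (hθ : ∀ y, Lv.θ y = t4vTheta y) :
    T4rmRegM O π hπ W1 Lv.P' Lv.P1 hov := by
  intro 𝔫' h𝔫' hq' hNG
  have hqB : Lv.qB ∈ 𝔫' := by
    have h1 : Lv.qB = ((q : ℕ) : ↥Lv.P'.B) := by
      apply Subtype.ext
      show ((Lv.q : ℕ) : ↥(TaF L N')) = _
      rw [hqq, Subring.coe_natCast]
    rw [h1]
    exact hq'
  have hNG' : ¬ ∃ 𝔫1 : Ideal ↥Lv.P1.B, 𝔫1.IsMaximal ∧ Lv.Vinf ∈ Lv.P1.through 𝔫1 ∧
      Lv.V0 ∈ Lv.P1.through 𝔫1 ∧ ∀ (b : ↥(TaF L N')) (hb : b ∈ Lv.P'.B),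
        ((⟨b, hb⟩ : ↥Lv.P'.B) ∈ 𝔫' ↔ (⟨Lv.α b, Lv.α_B b hb⟩ : ↥Lv.P1.B) ∈ 𝔫1) := by
    rintro ⟨𝔫1, h1, h2, h3, h4⟩
    refine hNG ⟨𝔫1, h1, hVinf ▸ h2, hV0 ▸ h3, ?_⟩
    ext b
    rw [T4PresOver.mem_under]
    have h5 : hov.incl b = ⟨Lv.α (b : ↥(TaF L N')), Lv.α_B _ b.2⟩ := by
      apply Subtype.ext
      rw [T4PresOver.coe_incl]
      exact (hα _).symm
    rw [h5]
    exact (h4 (b : ↥(TaF L N')) b.2).symm
  obtain ⟨f, hf, e, e', he, he', -, hee', -, hpow⟩ := Lv.reg1_M' 𝔫' h𝔫' hqB hNG'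
  refine ⟨f, e, e', hf, he, he', hee', ?_⟩
  rw [hres, hres, hθ, hqq] at hpow
  exact hpow

/-- REG1-M in helper8's shape, for presentations identified with `Lv.P'`, `Lv.P1` -/
theorem t4rg_regM' (Lv : T4rLev L ↥(TaF L N') ↥(TaF L (N' * q)) E (LaurentSeries k) k)
    {P' : T4Pres ↥(TaF L N')} {P1 : T4Pres ↥(TaF L (N' * q))} (hP' : Lv.P' = P')
    (hP1 : Lv.P1 = P1)
    (hov : @T4PresOver _ _ _ _ (t2iAlgebra L N' q) P' P1)
    (hVinf : Lv.Vinf = taOv O π hπ (N' * q)) (hV0 : Lv.V0 = t4rtO10 O π hπ W1)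
    (hqq : Lv.q = q)
    (hα : ∀ x, Lv.α x = heckeAlphaBar L N' q x)
    (hres : ∀ (x : ↥(TaF L N')) (hx : x ∈ Lv.V'),
      Lv.ι (Lv.res' ⟨x, hx⟩) = taRhoFun O π (x : LaurentSeries L))
    (hθ : ∀ y, Lv.θ y = t4vTheta y) :
    T4rmRegM O π hπ W1 P' P1 hov := by
  subst hP' hP1
  exact t4rg_regM O π hπ W1 Lv hov hVinf hV0 hqq hα hres hθ

/-- `P1` lies over `P'` along `α` -/
theorem t4rg_over (Lv : T4rLev L ↥(TaF L N') ↥(TaF L (N' * q)) E Eh k)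
    (hα : ∀ x, Lv.α x = heckeAlphaBar L N' q x) :
    @T4PresOver _ _ _ _ (t2iAlgebra L N' q) Lv.P' Lv.P1 where
  map_mem := fun b hb => by
    show heckeAlphaBar L N' q b ∈ Lv.P1.B
    rw [← hα]
    exact Lv.α_B b hb
  integral := fun b hb => by
    obtain ⟨p, hp, hpb⟩ := Lv.int1 b hb
    refine ⟨p, hp, ?_⟩
    have h1 : algebraMap ↥Lv.P'.B ↥(TaF L (N' * q)) =
        ((Lv.α : ↥(TaF L N') →+* ↥(TaF L (N' * q))).comp Lv.P'.B.subtype) :=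
      RingHom.ext (fun x => (hα (x : ↥(TaF L N'))).symm)
    rw [h1]
    exact hpb

/-- **helper8's `T4rmLow`** for the presentations of the bundle -/
theorem t4rg_low (Lv : T4rLev L ↥(TaF L N') ↥(TaF L (N' * q)) E Eh k) (x' : ↥(TaF L N'))
    (hvals' : Lv.P'.vals = t4vpHor L x' ∪ {taOv O π hπ N'})
    (hVinf : Lv.Vinf = taOv O π hπ (N' * q))
    (hα : ∀ x, Lv.α x = heckeAlphaBar L N' q x) (hβ : ∀ x, Lv.β x = heckeBetaBar L N' q x) :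
    T4rmLow O π hπ x' Lv.P' Lv.P1 where
  vals' := hvals'
  overA' := t4rg_over Lv hα
  mapB' := fun b hb => by
    rw [← hβ]
    exact Lv.β_B b hb
  apx := t4rg_apx O π hπ Lv hVinf hα

end Glue

section Hreg

variable {L : Type} [Field L] [Algebra ℚ L] (O : ValuationSubring L) {k : Type*} [Field k]
  (π : ↥O →+* k) [IsDiscreteValuationRing ↥O] (hπ : Function.Surjective π) [IsAlgClosed k]
  {N' q : ℕ} [NeZero N'] [hq : Fact q.Prime] [CharP k q] (hN' : (N' : k) ≠ 0)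
  (W1 : T2iAL L N' q) (Fr : T2iFrob k N' q) (W : T4iAL L N' q)
  (hqO : Irreducible ((q : ℕ) : ↥O))
  {L' : Type*} [Field L'] [Algebra L L'] (O' : ValuationSubring L')
  [IsDiscreteValuationRing ↥O'] (π' : ↥O' →+* k) (C : T4iCyc O O' π π' q)
  (M : T4iMid L L' N' q C.ζ)
  {E : Type*} [Field E] [Algebra k E]

attribute [local instance] t2iAlgebra

variable {O π hπ W1 W O' π' C M}
variable {x1 : ↥(TaF L (N' * q))} {x : ↥(TaF L (N' * q * q))}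
  {P : T4Pres ↥(TaF L (N' * q * q))}

include hN' Fr hqO in
/-- **`hreg` on chart 1 of level `N' q²` from a level bundle** (REG1 + REG2 combined): for a level
bundle `Lv` identified with the concrete objects and helper8's `T4rtTop` for `Lv.P1`, `P` -/
theorem t4rg_hreg (Lv : T4rLev L ↥(TaF L N') ↥(TaF L (N' * q)) E (LaurentSeries k) k)
    (T : T4rtTop O π hπ W1 W O' π' C M x1 x Lv.P1 P) (x' : ↥(TaF L N'))
    (hvals' : Lv.P'.vals = t4vpHor L x' ∪ {taOv O π hπ N'})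
    (hVinf : Lv.Vinf = taOv O π hπ (N' * q)) (hV0 : Lv.V0 = t4rtO10 O π hπ W1)
    (hqq : Lv.q = q)
    (hα : ∀ x, Lv.α x = heckeAlphaBar L N' q x) (hβ : ∀ x, Lv.β x = heckeBetaBar L N' q x)
    (hres : ∀ (x : ↥(TaF L N')) (hx : x ∈ Lv.V'),
      Lv.ι (Lv.res' ⟨x, hx⟩) = taRhoFun O π (x : LaurentSeries L))
    (hθ : ∀ y, Lv.θ y = t4vTheta y)
    (𝔫 : Ideal P.B) [h𝔫 : 𝔫.IsMaximal]
    (hQ : (⟨t4vQ L N' q, t4rt_Q_mem_B T.vals⟩ : P.B) ∈ 𝔫)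
    (hsm : ∀ (V : ValuationSubring ↥(TaF L (N' * q * q))) (hV : V ∈ P.through 𝔫),
      V ∈ P.vert (t4vQ L N' q) → P.SmoothAt 𝔫 V hV) : P.RegAt 𝔫 :=
  T.hreg hN' Fr hqO (t4rg_low O π hπ Lv x' hvals' hVinf hα hβ)
    (t4rg_regG O π hπ W1 Lv hVinf hV0 hqq)
    (t4rg_regM O π hπ W1 Lv _ hVinf hV0 hqq hα hres hθ) 𝔫 hQ hsm

end Hreg

end Fermat.Agent.T4
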