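/-
T4-R (helper7), (LI-1) **level `N' q` half**: the chart presentation `P1` of level `N' q`
(chart `y1 = j^Q - j` of level `N' q`, verticals `Vinf = taOv O π hπ (N' q)`, `V0 = Vinf.comap w`)
over the chart presentation `P'` of level `N'`.

* `t4rq_kron_isIntegral` : in a Kronecker input, `𝒪 = ⊕ 𝒪' Y^l` is integral over `𝒪'`;
  `t4rq_Ov1_isIntegralElem` : `𝒪¹` is integral over `α (taOv N')`.
* `t4rq_overA'` : **`T4PresOver P' P1`** (= `α_B` + `int1` of `T4rLev`, = `T4rmLow.overA'`) in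
  dictionary form (`P'.B = IntCl(L[x']) ∩ V'`, `P1.B = IntCl(L[α x']) ∩ 𝒪¹`), `t4rq_α_B`, `t4rq_int1`.
* `t4rq_alpha_X : α (j'^Q - j') = j1^Q - j1`, `t4rq_w_alpha_X`, `t4rq_hyp1 : T4vwHyp1 O π W1 y1`
  (given that `y1` generates), `t4rq_vert1`.
* `t4rq_β_B` : `β_B` in dictionary form from `hint : IsIntegral L[y1] (β x')`.
* Fix level: `t4rLevFix_hyp1`, `t4rLevFixPres1` (P1 := helper2's `t4vwPres1`), its dictionary
  `mem_t4rLevFixPres1_B`, `t4rLevFixD 𝔓 N' h hQ hint : T4rLevFixP1 𝔓 N' h hQ` and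
  `t4rLevFixLv 𝔓 N' h hQ h49 hint : T4rLev …` (`hint` = lead's `t4vj_betaX_lev1 𝔓 ⊤ N' hQ`).
-/
import Fermat.Agent.Lib.T4.Reg.LevFix
import Fermat.Agent.Lib.T4.Inst.PresLow
import Fermat.Agent.Lib.T4.Inst.PresOver
import Fermat.Agent.Lib.T2.Inst.Kron

set_option autoImplicit false
set_option linter.unusedSectionVars false
set_option linter.unusedVariables false
set_option linter.style.haveILetI false
set_option synthInstance.maxHeartbeats 400000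
set_option maxHeartbeats 1000000

open HahnSeries ModularCurve Fermat.Agent.T1 Fermat.Agent.T2 IntermediateField Fermat.Agent.TW
  Fermat.Agent.S05Lib Fermat.Agent.Curve

noncomputable section

namespace Fermat.Agent.T4

/-! ### Abstract: the Kronecker decomposition is integral -/

section Kron

variable {L F' F k Ω : Type*} [Field L] [Field F'] [Field F] [Algebra L F'] [Algebra L F]
  [Algebra F' F] [IsScalarTower L F' F] [Field k] [Field Ω] [Algebra k Ω]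
  {E : IntermediateField k Ω} (I : T2kInput L F' F k Ω E)

/-- `𝒪 = ⊕ 𝒪' Y^l` is integral over `𝒪'` -/
theorem t4rq_kron_isIntegral {f : F} (hf : f ∈ I.Ov) : IsIntegral ↥I.d'.Ov f := by
  let S : Subalgebra ↥I.d'.Ov F :=
    { I.Ov.toSubsemiring with algebraMap_mem' := fun b => I.α_mem_Ov b }
  have hS : ∀ g : F, g ∈ S ↔ g ∈ I.Ov := fun g => Iff.rfl
  have hfg : S.toSubmodule.FG := by
    have he : S.toSubmodule =
        Submodule.span ↥I.d'.Ov (Set.range fun l : Fin (I.q + 1) => I.Y ^ (l : ℕ)) := by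
      apply le_antisymm
      · intro g hg
        obtain ⟨b, hb⟩ := I.decomp ⟨g, (hS g).mp hg⟩
        have hg' : g = ∑ l, algebraMap F' F (b l : F') * I.Y ^ (l : ℕ) := by
          rw [← I.coe_comb, ← hb]
        rw [hg']
        refine Submodule.sum_mem _ fun l _ => ?_
        have : algebraMap F' F (b l : F') * I.Y ^ (l : ℕ) = (b l) • (I.Y ^ (l : ℕ)) := by
          rw [Algebra.smul_def]
          rfl
        rw [this]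
        exact Submodule.smul_mem _ _ (Submodule.subset_span ⟨l, rfl⟩)
      · rw [Submodule.span_le]
        rintro _ ⟨l, rfl⟩
        exact (hS _).mpr (pow_mem I.Y_mem_Ov _)
    rw [he]
    exact Submodule.fg_span (Set.finite_range _)
  exact IsIntegral.of_mem_of_fg S hfg f ((hS f).mpr hf)

end Kron

/-- `t` transcendental ⟹ `t^Q - t` transcendental (`2 ≤ Q`) -/
theorem t4rq_transcendental_pow_sub {k A : Type*} [Field k] [CommRing A] [Algebra k A] {t : A}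
    (ht : Transcendental k t) {Q : ℕ} (hQ : 2 ≤ Q) : Transcendental k (t ^ Q - t) := by
  have h2 : t ^ Q - t =
      Polynomial.aeval t ((Polynomial.X : Polynomial k) ^ Q - Polynomial.X) := by
    simp
  rw [h2]
  have hdeg : ((Polynomial.X : Polynomial k) ^ Q - Polynomial.X).natDegree = Q := by
    rw [Polynomial.natDegree_sub_eq_left_of_natDegree_lt]
    · exact Polynomial.natDegree_X_pow Q
    · rw [Polynomial.natDegree_X_pow, Polynomial.natDegree_X]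
      omega
  have hlc : ((Polynomial.X : Polynomial k) ^ Q - Polynomial.X).leadingCoeff = 1 := by
    have hm : ((Polynomial.X : Polynomial k) ^ Q - Polynomial.X).Monic :=
      Polynomial.monic_X_pow_sub (by
        rw [Polynomial.degree_X]
        exact_mod_cast (by omega : 1 < Q))
    exact hm
  refine ht.aeval _ (by rw [hdeg]; omega) ?_
  rw [hlc]
  exact one_mem _

/-! ### The generic DVR level -/

section Gen

variable {L : Type} [Field L] [Algebra ℚ L] (O : ValuationSubring L) {k : Type*} [Field k]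
  (π : ↥O →+* k) [IsDiscreteValuationRing ↥O] (hπ : Function.Surjective π) [IsAlgClosed k]
  {N' q : ℕ} [NeZero N'] [hq : Fact q.Prime] [CharP k q] (hN' : (N' : k) ≠ 0)
  (W1 : T2iAL L N' q) (Fr : T2iFrob k N' q)
  (hqO : Irreducible ((q : ℕ) : ↥O))

attribute [local instance] t2iAlgebra t2i_isScalarTower

/-- `𝒪¹` is integral over `α (taOv N')` -/
theorem t4rq_Ov1_isIntegralElem {b : ↥(TaF L (N' * q))}
    (hb : b ∈ (t2iBase2 O π hπ hN' W1 Fr).Ov) :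
    ((algebraMap ↥(TaF L N') ↥(TaF L (N' * q))).comp
      (taOv O π hπ N').toSubring.subtype).IsIntegralElem b :=
  t4rq_kron_isIntegral (t2iInput O π hπ hN' W1 Fr) hb

/-- **`T4PresOver P' P1`** for the chart presentations `P'` (level `N'`, chart `x'`) and `P1`
(level `N' q`, chart `α x'`), in dictionary form -/
theorem t4rq_overA' {x' : ↥(TaF L N')} {y1 : ↥(TaF L (N' * q))}
    (hy1 : heckeAlphaBar L N' q x' = y1)
    {P' : T4Pres ↥(TaF L N')} {P1 : T4Pres ↥(TaF L (N' * q))}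
    (hvals' : P'.vals = t4vpHor L x' ∪ {taOv O π hπ N'})
    (hB' : ∀ f, f ∈ P'.B ↔ f ∈ t2Int (K := L) x' ∧ f ∈ taOv O π hπ N')
    (hB1 : ∀ f, f ∈ P1.B ↔ f ∈ t2Int (K := L) y1 ∧ f ∈ (t2iBase2 O π hπ hN' W1 Fr).Ov) :
    @T4PresOver _ _ _ _ (t2iAlgebra L N' q) P' P1 := by
  subst hy1
  haveI : Module.Finite ↥(TaF L N') ↥(TaF L (N' * q)) := (t2i_finrank_le O π hπ N' q hN').1
  refine t4vq_presOver_chart (K := L) P' P1 (taOv O π hπ N').toSubring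
    (t2iBase2 O π hπ hN' W1 Fr).Ov hB' hB1 ?_ (t2Int_self _) (t2Int_self _) ?_ ?_ ?_
  · intro V hV
    rw [hvals'] at hV
    rcases hV with hV | hV
    · exact Or.inl ⟨fun c => t4vp_algebraMap_mem_hor hV c, by
        obtain ⟨v, rfl, hx⟩ := hV
        exact hx⟩
    · rw [Set.mem_singleton_iff] at hV
      subst hV
      exact Or.inr fun f hf => hf
  · intro f hf
    exact (t2iInput O π hπ hN' W1 Fr).α_mem_Ov ⟨f, hf⟩
  · intro b hb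
    exact t4rq_Ov1_isIntegralElem O π hπ hN' W1 Fr hb
  · intro b _
    exact Algebra.IsIntegral.isIntegral b

/-- **`α_B`** in dictionary form -/
theorem t4rq_α_B {x' : ↥(TaF L N')} {y1 : ↥(TaF L (N' * q))}
    (hy1 : heckeAlphaBar L N' q x' = y1)
    {P' : T4Pres ↥(TaF L N')} {P1 : T4Pres ↥(TaF L (N' * q))}
    (hvals' : P'.vals = t4vpHor L x' ∪ {taOv O π hπ N'})
    (hB' : ∀ f, f ∈ P'.B ↔ f ∈ t2Int (K := L) x' ∧ f ∈ taOv O π hπ N')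
    (hB1 : ∀ f, f ∈ P1.B ↔ f ∈ t2Int (K := L) y1 ∧ f ∈ (t2iBase2 O π hπ hN' W1 Fr).Ov) :
    ∀ b ∈ P'.B, heckeAlphaBar L N' q b ∈ P1.B :=
  (t4rq_overA' O π hπ hN' W1 Fr hy1 hvals' hB' hB1).map_mem

/-- **`int1`** in dictionary form -/
theorem t4rq_int1 {x' : ↥(TaF L N')} {y1 : ↥(TaF L (N' * q))}
    (hy1 : heckeAlphaBar L N' q x' = y1)
    {P' : T4Pres ↥(TaF L N')} {P1 : T4Pres ↥(TaF L (N' * q))}
    (hvals' : P'.vals = t4vpHor L x' ∪ {taOv O π hπ N'})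
    (hB' : ∀ f, f ∈ P'.B ↔ f ∈ t2Int (K := L) x' ∧ f ∈ taOv O π hπ N')
    (hB1 : ∀ f, f ∈ P1.B ↔ f ∈ t2Int (K := L) y1 ∧ f ∈ (t2iBase2 O π hπ hN' W1 Fr).Ov) :
    ∀ x ∈ P1.B, (((heckeAlphaBar L N' q : ↥(TaF L N') →ₐ[L] ↥(TaF L (N' * q))) :
      ↥(TaF L N') →+* ↥(TaF L (N' * q))).comp P'.B.subtype).IsIntegralElem x :=
  (t4rq_overA' O π hπ hN' W1 Fr hy1 hvals' hB' hB1).integral

/-- **`β_B`** in dictionary form, from the integrality of `β x'` over `L[y1]` -/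
theorem t4rq_β_B {x' : ↥(TaF L N')} {y1 : ↥(TaF L (N' * q))}
    {P' : T4Pres ↥(TaF L N')} {P1 : T4Pres ↥(TaF L (N' * q))}
    (hB' : ∀ f, f ∈ P'.B ↔ f ∈ t2Int (K := L) x' ∧ f ∈ taOv O π hπ N')
    (hB1 : ∀ f, f ∈ P1.B ↔ f ∈ t2Int (K := L) y1 ∧ f ∈ (t2iBase2 O π hπ hN' W1 Fr).Ov)
    (hint : IsIntegral ↥(Algebra.adjoin L {y1}) (heckeBetaBar L N' q x')) :
    ∀ b ∈ P'.B, heckeBetaBar L N' q b ∈ P1.B := by
  intro b hb
  rw [hB'] at hb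
  rw [hB1]
  refine ⟨?_, ?_⟩
  · refine t2c_isIntegral_trans hint ?_
    exact t2d_isIntegral_map (RingHom.id L)
      ((heckeBetaBar L N' q : ↥(TaF L N') →ₐ[L] ↥(TaF L (N' * q))) :
        ↥(TaF L N') →+* ↥(TaF L (N' * q)))
      (fun c => (heckeBetaBar L N' q).commutes c) hb.1
  · rw [t2i_mem_Ov_iff]
    exact ⟨t4ri_β_inf O π hπ b hb.2, t4ri_β_0 O π hπ W1 b hb.2⟩

/-! ### The chart `y1 = j^Q - j` of level `N' q` -/

variable {Q : ℕ}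

/-- `α (j'^Q - j') = j1^Q - j1` -/
theorem t4rq_alpha_X :
    heckeAlphaBar L N' q (t4ri1X L N' Q) = t4ri1X L (N' * q) Q := by
  unfold t4ri1X
  rw [map_sub, map_pow, t2i_alpha_taJ]

/-- `w (j1^Q - j1) = β (j'^Q - j')` -/
theorem t4rq_w_X : W1.w (t4ri1X L (N' * q) Q) = heckeBetaBar L N' q (t4ri1X L N' Q) := by
  rw [← t4rq_alpha_X, W1.w_alpha]

include hπ in
/-- **the hypotheses of helper2's `t4vwPres1`** for the chart `y1 = j^Q - j` of level `N' q` -/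
theorem t4rq_hyp1 (hQ : 2 ≤ Q)
    (hgen : IsFunctionFieldGen L ↥(TaF L (N' * q)) (t4ri1X L (N' * q) Q)) :
    T4vwHyp1 O π W1 (t4ri1X L (N' * q) Q) where
  gen := hgen
  g1 := t4ri1X_mem (N' := N' * q) O π hπ
  t1 := by
    have h : taRhoFun O π ((t4ri1X L (N' * q) Q : ↥(TaF L (N' * q))) : LaurentSeries L) =
        jqModC k ^ Q - jqModC k := t4ri1_taResN_X (N' := N' * q) (Q := Q) O π hπ
    rw [h]
    exact t4ri1_xbar_transcendental k hQ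
  g3 := by
    rw [t4rq_w_X, coe_heckeBetaBar]
    exact t2i_taGauss_qExpand O π q (t4ri1X_mem (N' := N') O π hπ)
  t3 := by
    rw [t4rq_w_X, coe_heckeBetaBar,
      t2i_taRhoFun_qExpand O π q (t4ri1X_mem (N' := N') (Q := Q) O π hπ)]
    have h : taRhoFun O π ((t4ri1X L N' Q : ↥(TaF L N')) : LaurentSeries L) =
        jqModC k ^ Q - jqModC k := t4ri1_taResN_X (N' := N') (Q := Q) O π hπ
    rw [h, map_sub, map_pow, ← t2i_jq_pow]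
    exact t4rq_transcendental_pow_sub
      ((Fermat.Agent.Igusa.transcendental_jqModC k).pow hq.out.pos) hQ

/-- **`vert1`** in dictionary form -/
theorem t4rq_vert1 {y1 : ↥(TaF L (N' * q))} {P1 : T4Pres ↥(TaF L (N' * q))}
    (hvals1 : P1.vals = t4vpHor L y1 ∪ t4vwVer1 O π hπ W1)
    (V : ValuationSubring ↥(TaF L (N' * q))) (hV : V ∈ P1.vals)
    (hVq : V.valuation ((q : ℕ) : ↥(TaF L (N' * q))) < 1) :
    V = taOv O π hπ (N' * q) ∨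
      V = (taOv O π hπ (N' * q)).comap (W1.w : ↥(TaF L (N' * q)) →+* ↥(TaF L (N' * q))) := by
  rw [hvals1] at hV
  rcases hV with hV | hV
  · exfalso
    have h1 := t4vp_valuation_const hV (t4rir_q_ne_zero L q)
    rw [map_natCast] at h1
    exact hVq.ne h1
  · exact (mem_t4vwVer1 O π hπ W1 V).mp hV

end Gen

/-! ### The inertia level -/

section Fix

attribute [local instance] t2i_dvr t2i_isAlgClosed t2i_charP t2i_fact t2iAlgebra t2i_isScalarTower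

variable (𝔓 : FFPlace) (N' : ℕ) [NeZero N'] (h : ¬ 𝔓.p ∣ N') {Q : ℕ} (hQ : 2 ≤ Q)

include hQ in
/-- the chart `y1 = j^Q - j` of level `N' p` at the inertia level satisfies helper2's hypotheses -/
theorem t4rLevFix_hyp1 :
    T4vwHyp1 (tbFixO 𝔓 ⊤) (tbFixRes 𝔓 ⊤) (t2iALFix 𝔓 ⊤ N' h)
      (t4ri1X ↥(tbFix 𝔓 (⊤ : Subgroup 𝔓.I)) (N' * 𝔓.p) Q) :=
  t4rq_hyp1 (tbFixO 𝔓 ⊤) (tbFixRes 𝔓 ⊤) (tbFixRes_surjective 𝔓 ⊤) (t2iALFix 𝔓 ⊤ N' h) hQ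
    (t4vc_gen_X_level 𝔓 (N' * 𝔓.p) ⊤ hQ)

/-- **the presentation `P1` of level `N' p`** at the inertia level (chart `j^Q - j`, helper2's
`t4vwPres1`) -/
def t4rLevFixPres1 : T4Pres ↥(tbLevF 𝔓 (N' * 𝔓.p) (⊤ : Subgroup 𝔓.I)) :=
  t4vwPres1 (hπ := tbFixRes_surjective 𝔓 ⊤) (t4cy_irreducible_p 𝔓) (t4rLevFix_hyp1 𝔓 N' h hQ)

theorem t4rLevFixPres1_vals :
    (t4rLevFixPres1 𝔓 N' h hQ).vals =
      t4vpHor ↥(tbFix 𝔓 (⊤ : Subgroup 𝔓.I))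
        (t4ri1X ↥(tbFix 𝔓 (⊤ : Subgroup 𝔓.I)) (N' * 𝔓.p) Q) ∪
      t4vwVer1 (tbFixO 𝔓 ⊤) (tbFixRes 𝔓 ⊤) (tbFixRes_surjective 𝔓 ⊤) (t2iALFix 𝔓 ⊤ N' h) :=
  rfl

/-- `B1 = IntCl(L[y1]) ∩ 𝒪¹` -/
theorem mem_t4rLevFixPres1_B (f : ↥(tbLevF 𝔓 (N' * 𝔓.p) (⊤ : Subgroup 𝔓.I))) :
    f ∈ (t4rLevFixPres1 𝔓 N' h hQ).B ↔
      f ∈ t2Int (K := ↥(tbFix 𝔓 (⊤ : Subgroup 𝔓.I)))
        (t4ri1X ↥(tbFix 𝔓 (⊤ : Subgroup 𝔓.I)) (N' * 𝔓.p) Q) ∧
      f ∈ (t2iBase2 (tbFixO 𝔓 ⊤) (tbFixRes 𝔓 ⊤) (tbFixRes_surjective 𝔓 ⊤)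
        (t2i_natCast_ne_zero 𝔓 h) (t2iALFix 𝔓 ⊤ N' h) (t2iFrobFix 𝔓 N')).Ov :=
  mem_t4vwPres1_B (hπ := tbFixRes_surjective 𝔓 ⊤) (t4cy_irreducible_p 𝔓)
    (t4rLevFix_hyp1 𝔓 N' h hQ) (t2i_natCast_ne_zero 𝔓 h) (t2iFrobFix 𝔓 N') f

theorem t4rLevFixP'_vals :
    (t4rLevFixP' 𝔓 N' hQ).vals =
      t4vpHor ↥(tbFix 𝔓 (⊤ : Subgroup 𝔓.I)) (t4ri1X ↥(tbFix 𝔓 (⊤ : Subgroup 𝔓.I)) N' Q) ∪
        {t4rLevFixV 𝔓 N'} :=
  rfl

/-- **the level-`N' p` presentation package** `T4rLevFixP1`, from the integrality of `β X'` over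
`L[y1]` (lead's `t4vj_betaX_lev1`) -/
def t4rLevFixD
    (hint : IsIntegral
      ↥(Algebra.adjoin ↥(tbFix 𝔓 (⊤ : Subgroup 𝔓.I))
        {t4ri1X ↥(tbFix 𝔓 (⊤ : Subgroup 𝔓.I)) (N' * 𝔓.p) Q})
      (heckeBetaBar ↥(tbFix 𝔓 (⊤ : Subgroup 𝔓.I)) N' 𝔓.p
        (t4ri1X ↥(tbFix 𝔓 (⊤ : Subgroup 𝔓.I)) N' Q))) :
    T4rLevFixP1 𝔓 N' h hQ where
  P1 := t4rLevFixPres1 𝔓 N' h hQ
  Vinf_mem := taOv_mem_t4vwPres1_vals (hπ := tbFixRes_surjective 𝔓 ⊤) (t4cy_irreducible_p 𝔓)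
    (t4rLevFix_hyp1 𝔓 N' h hQ)
  V0_mem := comap_mem_t4vwPres1_vals (hπ := tbFixRes_surjective 𝔓 ⊤) (t4cy_irreducible_p 𝔓)
    (t4rLevFix_hyp1 𝔓 N' h hQ)
  vert1 := t4rq_vert1 (tbFixO 𝔓 ⊤) (tbFixRes 𝔓 ⊤) (tbFixRes_surjective 𝔓 ⊤)
    (t2iALFix 𝔓 ⊤ N' h) (t4rLevFixPres1_vals 𝔓 N' h hQ)
  α_B := t4rq_α_B (tbFixO 𝔓 ⊤) (tbFixRes 𝔓 ⊤) (tbFixRes_surjective 𝔓 ⊤)
    (t2i_natCast_ne_zero 𝔓 h) (t2iALFix 𝔓 ⊤ N' h) (t2iFrobFix 𝔓 N') t4rq_alpha_X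
    (t4rLevFixP'_vals 𝔓 N' hQ) (mem_t4rLevFixP'_B 𝔓 N' hQ) (mem_t4rLevFixPres1_B 𝔓 N' h hQ)
  β_B := t4rq_β_B (tbFixO 𝔓 ⊤) (tbFixRes 𝔓 ⊤) (tbFixRes_surjective 𝔓 ⊤)
    (t2i_natCast_ne_zero 𝔓 h) (t2iALFix 𝔓 ⊤ N' h) (t2iFrobFix 𝔓 N')
    (mem_t4rLevFixP'_B 𝔓 N' hQ) (mem_t4rLevFixPres1_B 𝔓 N' h hQ) hint
  int1 := t4rq_int1 (tbFixO 𝔓 ⊤) (tbFixRes 𝔓 ⊤) (tbFixRes_surjective 𝔓 ⊤)
    (t2i_natCast_ne_zero 𝔓 h) (t2iALFix 𝔓 ⊤ N' h) (t2iFrobFix 𝔓 N') t4rq_alpha_X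
    (t4rLevFixP'_vals 𝔓 N' hQ) (mem_t4rLevFixP'_B 𝔓 N' hQ) (mem_t4rLevFixPres1_B 𝔓 N' h hQ)

/-- **the REG1 level bundle at the inertia level**, with the level-`N' p` package plugged in -/
def t4rLevFixLv (h49 : 4 ∣ N' ∨ 9 ∣ N')
    (hint : IsIntegral
      ↥(Algebra.adjoin ↥(tbFix 𝔓 (⊤ : Subgroup 𝔓.I))
        {t4ri1X ↥(tbFix 𝔓 (⊤ : Subgroup 𝔓.I)) (N' * 𝔓.p) Q})
      (heckeBetaBar ↥(tbFix 𝔓 (⊤ : Subgroup 𝔓.I)) N' 𝔓.p
        (t4ri1X ↥(tbFix 𝔓 (⊤ : Subgroup 𝔓.I)) N' Q))) :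
    T4rLev ↥(tbFix 𝔓 (⊤ : Subgroup 𝔓.I)) ↥(tbLevF 𝔓 N' ⊤) ↥(tbLevF 𝔓 (N' * 𝔓.p) ⊤)
      ↥(modularFunctionFieldFullC (IsLocalRing.ResidueField ↥𝔓.P) N')
      (LaurentSeries (IsLocalRing.ResidueField ↥𝔓.P)) (IsLocalRing.ResidueField ↥𝔓.P) :=
  t4rLevFix 𝔓 N' h hQ h49 (t4rLevFixD 𝔓 N' h hQ hint)

end Fix

end Fermat.Agent.T4
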