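/-
T4-R / REG2 (helper8): **`hreg` on both charts at the inertia level** `L = tbFix 𝔓 ⊤`
(the "same-`P1`" / `rfl` check of the REG assembly).

For ANY presentation `P` of the chart-1 ring `IntCl(L[X]) ∩ 𝒪` (`X = j^Q - j` at level `N' p²`,
dictionaries `hvals`, `hB`) and ANY presentation `P₂` of the chart-2 ring `IntCl(L[X⁻¹]) ∩ 𝒪`:

* `t4rtf_top` : helper8's `T4rtTop` with `P1 := t4rLevFixPres1 𝔓 N' h hQ` (helper7), via helper2's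
  `t4vz_top` and helper1's `t4rcb_isIntegral_x_of_xβ/_xβ_of_x`;
* `T4rmLow`, REG1-G, REG1-M for the SAME `P1` and `P' := t4rLevFixP' 𝔓 N' hQ` are helper7's
  `t4rgf_low0`, `t4rgf_regG0`, `t4rgf_regM0` (`LevFixOut.lean`);
* `t4rtf_hsm1` : smoothness of the three vertical branches on chart 1 (helper5's
  `t4vm_smoothAt_*`, helper9's `t4vg_good_X`, `t4vg_dedekind_X`);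
* **`t4rtf_hreg1`** : `T4nCChart.hreg` on chart 1, no residual hypothesis;
* **`t4rtf_hreg2`** : `T4nCChart.hreg` on chart 2, residual hypotheses: `hsm` (smoothness on chart 2
  = helper5 + K2) and `hres` (residue field `k` = helper3's export); `hone` from helper9's
  `t4vs2_hone_fix` (`Q = p * p`), cusps on `C_mid` from helper1's `t4rc_regAt_cusp_fix`.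
-/
import Fermat.Agent.Lib.T4.Reg.TopChart2
import Fermat.Agent.Lib.T4.Reg.LevFixOut
import Fermat.Agent.Lib.T4.Reg.CuspBeta
import Fermat.Agent.Lib.T4.Reg.CuspFix
import Fermat.Agent.Lib.T4.Inst.PresTop
import Fermat.Agent.Lib.T4.Inst.GoodFix
import Fermat.Agent.Lib.T4.Inst.ChartSm
import Fermat.Agent.Lib.T4.Inst.Sep2One

set_option autoImplicit false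
set_option linter.unusedSectionVars false
set_option linter.unusedVariables false
set_option linter.style.haveILetI false
set_option synthInstance.maxHeartbeats 400000
set_option maxHeartbeats 1000000

open HahnSeries ModularCurve Fermat.Agent.T1 Fermat.Agent.T2 IntermediateField Fermat.Agent.TW
  Fermat.Agent.S05Lib Fermat.Agent.Curve

noncomputable section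

namespace Fermat.Agent.T4

/-! ### Generic: the chart `X` and its inverse lie in the three vertical valuation rings -/

section Gen

variable {L : Type} [Field L] [Algebra ℚ L] (O : ValuationSubring L) {k : Type*} [Field k]
  (π : ↥O →+* k) [IsDiscreteValuationRing ↥O] (hπ : Function.Surjective π) [IsAlgClosed k]
  {N' q : ℕ} [NeZero N'] [hq : Fact q.Prime] [CharP k q] (hN' : (N' : k) ≠ 0)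
  (W1 : T2iAL L N' q) (Fr : T2iFrob k N' q) (W : T4iAL L N' q)
  (hqO : Irreducible ((q : ℕ) : ↥O))
  {L' : Type*} [Field L'] [Algebra L L'] (O' : ValuationSubring L')
  [IsDiscreteValuationRing ↥O'] (π' : ↥O' →+* k) (C : T4iCyc O O' π π' q)
  (M : T4iMid L L' N' q C.ζ) {Q : ℕ} (hQ : 2 ≤ Q)

attribute [local instance] t2iAlgebra t2i_isScalarTower

include hN' W1 Fr hqO hQ in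
/-- `X` and `X⁻¹` are units of the three vertical valuation rings (`hxver` of
`T4rtTop.hreg_chart2`) -/
theorem t4rt_X_ver : ∀ V ∈ t4vwVer O π hπ W O' π' C M,
    t4vX L N' q Q ∈ V ∧ (t4vX L N' q Q)⁻¹ ∈ V := by
  intro V hV
  have h1 := (mem_t4vInput_Ov_iff O π hπ hN' W1 Fr W hqO O' π' C M _).mp
    (t4vX_mem O π hπ hN' W1 Fr W hqO O' π' C M (Q := Q))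
  have h2 := (mem_t4vInput_Ov_iff O π hπ hN' W1 Fr W hqO O' π' C M _).mp
    (t4vX_inv_mem O π hπ hN' W1 Fr W hqO O' π' C M hQ)
  rcases (mem_t4vwVer O π hπ W O' π' C M V).mp hV with rfl | rfl | rfl
  · exact ⟨h1.1, h2.1⟩
  · exact ⟨h1.2.2, h2.2.2⟩
  · exact ⟨h1.2.1, h2.2.1⟩

end Gen

local notation "Qb" => AlgebraicClosure ℚ

attribute [local instance] t2i_dvr t2i_isAlgClosed t2i_charP t2i_fact t2iAlgebra t2i_isScalarTower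

variable (𝔓 : FFPlace) (N' : ℕ) [NeZero N'] (h : ¬ 𝔓.p ∣ N') (h49 : 4 ∣ N' ∨ 9 ∣ N') {ζ : Qb}
  (hζ : IsPrimitiveRoot ζ 𝔓.p) {Q : ℕ} (hQ : 2 ≤ Q) (hpQ : 𝔓.p ∣ Q)

/-! ### Chart 1 at level `N' p²` -/

/-- **`T4rtTop` at the inertia level**: `P1 := t4rLevFixPres1 𝔓 N' h hQ`, `P` any presentation of
the chart-1 ring -/
theorem t4rtf_top (P : T4Pres ↥(tbLevF 𝔓 (N' * 𝔓.p * 𝔓.p) ⊤))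
    (hvals :
      letI := t4cyAlgebra 𝔓 (le_top : t4cyH 𝔓 ζ ≤ ⊤)
      P.vals = t4vpHor ↥(tbFix 𝔓 (⊤ : Subgroup 𝔓.I))
          (t4vX ↥(tbFix 𝔓 (⊤ : Subgroup 𝔓.I)) N' 𝔓.p Q) ∪
        t4vwVer (tbFixO 𝔓 ⊤) (tbFixRes 𝔓 ⊤) (tbFixRes_surjective 𝔓 ⊤) (t4iALFix 𝔓 ⊤ N' h)
          (tbFixO 𝔓 (t4cyH 𝔓 ζ)) (tbFixRes 𝔓 (t4cyH 𝔓 ζ)) (t4iCycFix 𝔓 hζ)
          (t4vMidFix 𝔓 N' h hζ))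
    (hB : ∀ f : ↥(tbLevF 𝔓 (N' * 𝔓.p * 𝔓.p) ⊤), f ∈ P.B ↔
      f ∈ t2Int (K := ↥(tbFix 𝔓 (⊤ : Subgroup 𝔓.I)))
        (t4vX ↥(tbFix 𝔓 (⊤ : Subgroup 𝔓.I)) N' 𝔓.p Q) ∧ f ∈ (t4vInputFix 𝔓 N' h hζ).Ov) :
    letI := t4cyAlgebra 𝔓 (le_top : t4cyH 𝔓 ζ ≤ ⊤)
    T4rtTop (tbFixO 𝔓 ⊤) (tbFixRes 𝔓 ⊤) (tbFixRes_surjective 𝔓 ⊤) (t2iALFix 𝔓 ⊤ N' h)
      (t4iALFix 𝔓 ⊤ N' h) (tbFixO 𝔓 (t4cyH 𝔓 ζ)) (tbFixRes 𝔓 (t4cyH 𝔓 ζ)) (t4iCycFix 𝔓 hζ)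
      (t4vMidFix 𝔓 N' h hζ) (t4vX1 ↥(tbFix 𝔓 (⊤ : Subgroup 𝔓.I)) N' 𝔓.p Q)
      (t4vX ↥(tbFix 𝔓 (⊤ : Subgroup 𝔓.I)) N' 𝔓.p Q) (t4rLevFixPres1 𝔓 N' h hQ) P :=
  letI := t4cyAlgebra 𝔓 (le_top : t4cyH 𝔓 ζ ≤ ⊤)
  t4vz_top (tbFixO 𝔓 ⊤) (tbFixRes 𝔓 ⊤) (tbFixRes_surjective 𝔓 ⊤) (t2i_natCast_ne_zero 𝔓 h)
    (t2iALFix 𝔓 ⊤ N' h) (t2iFrobFix 𝔓 N') (t4iALFix 𝔓 ⊤ N' h) (t4cy_irreducible_p 𝔓)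
    (tbFixO 𝔓 (t4cyH 𝔓 ζ)) (tbFixRes 𝔓 (t4cyH 𝔓 ζ)) (t4iCycFix 𝔓 hζ) (t4vMidFix 𝔓 N' h hζ)
    (t4rLevFixPres1 𝔓 N' h hQ) P (t4rLevFixPres1_vals 𝔓 N' h hQ) hvals
    (mem_t4rLevFixPres1_B 𝔓 N' h hQ) hB (t4vc_gen_X_level 𝔓 (N' * 𝔓.p) ⊤ hQ)
    (t4rcb_isIntegral_x_of_xβ 𝔓 N' ⊤ h hQ) (t4rcb_isIntegral_xβ_of_x 𝔓 N' ⊤ hQ)

include h49 hQ hpQ in
/-- **smoothness of the three vertical branches at every closed point of chart 1** -/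
theorem t4rtf_hsm1 (P : T4Pres ↥(tbLevF 𝔓 (N' * 𝔓.p * 𝔓.p) ⊤))
    (hvals :
      letI := t4cyAlgebra 𝔓 (le_top : t4cyH 𝔓 ζ ≤ ⊤)
      P.vals = t4vpHor ↥(tbFix 𝔓 (⊤ : Subgroup 𝔓.I))
          (t4vX ↥(tbFix 𝔓 (⊤ : Subgroup 𝔓.I)) N' 𝔓.p Q) ∪
        t4vwVer (tbFixO 𝔓 ⊤) (tbFixRes 𝔓 ⊤) (tbFixRes_surjective 𝔓 ⊤) (t4iALFix 𝔓 ⊤ N' h)
          (tbFixO 𝔓 (t4cyH 𝔓 ζ)) (tbFixRes 𝔓 (t4cyH 𝔓 ζ)) (t4iCycFix 𝔓 hζ)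
          (t4vMidFix 𝔓 N' h hζ))
    (hB : ∀ f : ↥(tbLevF 𝔓 (N' * 𝔓.p * 𝔓.p) ⊤), f ∈ P.B ↔
      f ∈ t2Int (K := ↥(tbFix 𝔓 (⊤ : Subgroup 𝔓.I)))
        (t4vX ↥(tbFix 𝔓 (⊤ : Subgroup 𝔓.I)) N' 𝔓.p Q) ∧ f ∈ (t4vInputFix 𝔓 N' h hζ).Ov)
    (𝔫 : Ideal P.B) [h𝔫 : 𝔫.IsMaximal]
    (V : ValuationSubring ↥(tbLevF 𝔓 (N' * 𝔓.p * 𝔓.p) ⊤)) (hV : V ∈ P.through 𝔫)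
    (hVq : V ∈ P.vert (t4vQ ↥(tbFix 𝔓 (⊤ : Subgroup 𝔓.I)) N' 𝔓.p)) : P.SmoothAt 𝔫 V hV := by
  letI := t4cyAlgebra 𝔓 (le_top : t4cyH 𝔓 ζ ≤ ⊤)
  have T := t4rtf_top 𝔓 N' h hζ hQ P hvals hB
  have T' := t4rgf_low0 𝔓 N' h hQ h49
  have G := t4vg_good_X 𝔓 ⊤ N' h h49 hQ hpQ
  haveI := t4vg_dedekind_X 𝔓 ⊤ N' h hQ G
  have hB' : ∀ f : ↥(tbLevF 𝔓 (N' * 𝔓.p * 𝔓.p) ⊤), f ∈ P.B ↔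
      f ∈ t2Int (K := ↥(tbFix 𝔓 (⊤ : Subgroup 𝔓.I)))
        (t4vA0 ↥(tbFix 𝔓 (⊤ : Subgroup 𝔓.I)) N' 𝔓.p
          (t4vX' ↥(tbFix 𝔓 (⊤ : Subgroup 𝔓.I)) N' Q)) ∧
      f ∈ (t4vInput (tbFixO 𝔓 ⊤) (tbFixRes 𝔓 ⊤) (tbFixRes_surjective 𝔓 ⊤)
        (t2i_natCast_ne_zero 𝔓 h) (t2iALFix 𝔓 ⊤ N' h) (t2iFrobFix 𝔓 N') (t4iALFix 𝔓 ⊤ N' h)
        (t4cy_irreducible_p 𝔓) (tbFixO 𝔓 (t4cyH 𝔓 ζ)) (tbFixRes 𝔓 (t4cyH 𝔓 ζ)) (t4iCycFix 𝔓 hζ)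
        (t4vMidFix 𝔓 N' h hζ)).Ov := by
    intro f
    rw [← t4vX_eq]
    exact hB f
  have hVq' := hVq
  rw [T.vert (t4cy_irreducible_p 𝔓)] at hVq'
  rcases (mem_t4vwVer _ _ _ _ _ _ _ _ V).mp hVq' with rfl | rfl | rfl
  · exact t4vm_smoothAt_inf (t2iALFix 𝔓 ⊤ N' h) (t4iALFix 𝔓 ⊤ N' h) (t4cy_irreducible_p 𝔓)
      (tbFixO 𝔓 (t4cyH 𝔓 ζ)) (tbFixRes 𝔓 (t4cyH 𝔓 ζ)) (t4iCycFix 𝔓 hζ) (t4vMidFix 𝔓 N' h hζ)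
      G P hB' hV
  · exact t4vm_smoothAt_mid (t2iALFix 𝔓 ⊤ N' h) (t4iALFix 𝔓 ⊤ N' h) (t4cy_irreducible_p 𝔓)
      (tbFixO 𝔓 (t4cyH 𝔓 ζ)) (tbFixRes 𝔓 (t4cyH 𝔓 ζ)) (t4iCycFix 𝔓 hζ) (t4vMidFix 𝔓 N' h hζ)
      G P hB' hV
  · refine t4vm_smoothAt_zero (t2iALFix 𝔓 ⊤ N' h) (t4iALFix 𝔓 ⊤ N' h) (t4cy_irreducible_p 𝔓)
      (tbFixO 𝔓 (t4cyH 𝔓 ζ)) (tbFixRes 𝔓 (t4cyH 𝔓 ζ)) (t4iCycFix 𝔓 hζ) (t4vMidFix 𝔓 N' h hζ)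
      G P hB' hV (fun f0 hf0 => ?_)
    refine P.B_le_loc 𝔫 ?_
    exact @T4PresOver.map_mem _ _ _ _ (t4vnAlgB ↥(tbFix 𝔓 (⊤ : Subgroup 𝔓.I)) N' 𝔓.p) _ _
      T.overB _ (T'.mapB' _ ((mem_t4rLevFixP'_B 𝔓 N' hQ _).mpr ⟨hf0, f0.2⟩))

include h49 hQ hpQ in
/-- **`T4nCChart.hreg` on chart 1 at the inertia level**: every closed point `𝔫 ∋ p` of any
presentation `P` of the chart-1 ring `IntCl(L[X]) ∩ 𝒪`, `X = j^Q - j` (`p ∣ Q`), is regular -/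
theorem t4rtf_hreg1 (P : T4Pres ↥(tbLevF 𝔓 (N' * 𝔓.p * 𝔓.p) ⊤))
    (hvals :
      letI := t4cyAlgebra 𝔓 (le_top : t4cyH 𝔓 ζ ≤ ⊤)
      P.vals = t4vpHor ↥(tbFix 𝔓 (⊤ : Subgroup 𝔓.I))
          (t4vX ↥(tbFix 𝔓 (⊤ : Subgroup 𝔓.I)) N' 𝔓.p Q) ∪
        t4vwVer (tbFixO 𝔓 ⊤) (tbFixRes 𝔓 ⊤) (tbFixRes_surjective 𝔓 ⊤) (t4iALFix 𝔓 ⊤ N' h)
          (tbFixO 𝔓 (t4cyH 𝔓 ζ)) (tbFixRes 𝔓 (t4cyH 𝔓 ζ)) (t4iCycFix 𝔓 hζ)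
          (t4vMidFix 𝔓 N' h hζ))
    (hB : ∀ f : ↥(tbLevF 𝔓 (N' * 𝔓.p * 𝔓.p) ⊤), f ∈ P.B ↔
      f ∈ t2Int (K := ↥(tbFix 𝔓 (⊤ : Subgroup 𝔓.I)))
        (t4vX ↥(tbFix 𝔓 (⊤ : Subgroup 𝔓.I)) N' 𝔓.p Q) ∧ f ∈ (t4vInputFix 𝔓 N' h hζ).Ov)
    (hq : t4vQ ↥(tbFix 𝔓 (⊤ : Subgroup 𝔓.I)) N' 𝔓.p ∈ P.B)
    (𝔫 : Ideal P.B) (h𝔫 : 𝔫.IsMaximal)
    (hQ𝔫 : (⟨t4vQ ↥(tbFix 𝔓 (⊤ : Subgroup 𝔓.I)) N' 𝔓.p, hq⟩ : P.B) ∈ 𝔫) : P.RegAt 𝔫 := by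
  letI := t4cyAlgebra 𝔓 (le_top : t4cyH 𝔓 ζ ≤ ⊤)
  haveI := h𝔫
  exact (t4rtf_top 𝔓 N' h hζ hQ P hvals hB).hreg (t2i_natCast_ne_zero 𝔓 h) (t2iFrobFix 𝔓 N')
    (t4cy_irreducible_p 𝔓) (t4rgf_low0 𝔓 N' h hQ h49) (t4rgf_regG0 𝔓 N' h hQ h49)
    (t4rgf_regM0 𝔓 N' h hQ h49) 𝔫 hQ𝔫
    (fun V hV hVq => t4rtf_hsm1 𝔓 N' h h49 hζ hQ hpQ P hvals hB 𝔫 V hV hVq)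

/-! ### Chart 2 at level `N' p²` -/

include h49 hQ hpQ in
/-- **smoothness of the vertical branches on chart 2**, given K2 (`a2 f₀ ∈ B_𝔫` at the points of
`C_0`) -/
theorem t4rtf_hsm2 (P₂ : T4Pres ↥(tbLevF 𝔓 (N' * 𝔓.p * 𝔓.p) ⊤))
    (hvals₂ :
      letI := t4cyAlgebra 𝔓 (le_top : t4cyH 𝔓 ζ ≤ ⊤)
      P₂.vals = t4vpHor ↥(tbFix 𝔓 (⊤ : Subgroup 𝔓.I))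
          (t4vX ↥(tbFix 𝔓 (⊤ : Subgroup 𝔓.I)) N' 𝔓.p Q)⁻¹ ∪
        t4vwVer (tbFixO 𝔓 ⊤) (tbFixRes 𝔓 ⊤) (tbFixRes_surjective 𝔓 ⊤) (t4iALFix 𝔓 ⊤ N' h)
          (tbFixO 𝔓 (t4cyH 𝔓 ζ)) (tbFixRes 𝔓 (t4cyH 𝔓 ζ)) (t4iCycFix 𝔓 hζ)
          (t4vMidFix 𝔓 N' h hζ))
    (hB₂ : ∀ f : ↥(tbLevF 𝔓 (N' * 𝔓.p * 𝔓.p) ⊤), f ∈ P₂.B ↔
      f ∈ t2Int (K := ↥(tbFix 𝔓 (⊤ : Subgroup 𝔓.I)))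
        (t4vX ↥(tbFix 𝔓 (⊤ : Subgroup 𝔓.I)) N' 𝔓.p Q)⁻¹ ∧ f ∈ (t4vInputFix 𝔓 N' h hζ).Ov)
    (𝔫 : Ideal P₂.B) [h𝔫 : 𝔫.IsMaximal]
    (hK2 : t4vO0 (tbFixO 𝔓 ⊤) (tbFixRes 𝔓 ⊤) (tbFixRes_surjective 𝔓 ⊤) (t4iALFix 𝔓 ⊤ N' h) ∈
        P₂.through 𝔫 →
      ∀ f0 : ↥(taOv (tbFixO 𝔓 ⊤) (tbFixRes 𝔓 ⊤) (tbFixRes_surjective 𝔓 ⊤) N'),
        (f0 : ↥(tbLevF 𝔓 N' ⊤)) ∈ t2Int (K := ↥(tbFix 𝔓 (⊤ : Subgroup 𝔓.I)))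
          (t4vX' ↥(tbFix 𝔓 (⊤ : Subgroup 𝔓.I)) N' Q)⁻¹ →
        t4vA2 ↥(tbFix 𝔓 (⊤ : Subgroup 𝔓.I)) N' 𝔓.p (f0 : ↥(tbLevF 𝔓 N' ⊤)) ∈ P₂.loc 𝔫)
    (V : ValuationSubring ↥(tbLevF 𝔓 (N' * 𝔓.p * 𝔓.p) ⊤)) (hV : V ∈ P₂.through 𝔫)
    (hVq : V ∈ P₂.vert (t4vQ ↥(tbFix 𝔓 (⊤ : Subgroup 𝔓.I)) N' 𝔓.p)) : P₂.SmoothAt 𝔫 V hV := by
  letI := t4cyAlgebra 𝔓 (le_top : t4cyH 𝔓 ζ ≤ ⊤)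
  have G := t4vg_good_X_inv 𝔓 ⊤ N' h h49 hQ hpQ
  haveI := t4vg_dedekind_X_inv 𝔓 ⊤ N' h hQ hpQ G
  have hB' : ∀ f : ↥(tbLevF 𝔓 (N' * 𝔓.p * 𝔓.p) ⊤), f ∈ P₂.B ↔
      f ∈ t2Int (K := ↥(tbFix 𝔓 (⊤ : Subgroup 𝔓.I)))
        (t4vA0 ↥(tbFix 𝔓 (⊤ : Subgroup 𝔓.I)) N' 𝔓.p
          (t4vX' ↥(tbFix 𝔓 (⊤ : Subgroup 𝔓.I)) N' Q)⁻¹) ∧
      f ∈ (t4vInput (tbFixO 𝔓 ⊤) (tbFixRes 𝔓 ⊤) (tbFixRes_surjective 𝔓 ⊤)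
        (t2i_natCast_ne_zero 𝔓 h) (t2iALFix 𝔓 ⊤ N' h) (t2iFrobFix 𝔓 N') (t4iALFix 𝔓 ⊤ N' h)
        (t4cy_irreducible_p 𝔓) (tbFixO 𝔓 (t4cyH 𝔓 ζ)) (tbFixRes 𝔓 (t4cyH 𝔓 ζ)) (t4iCycFix 𝔓 hζ)
        (t4vMidFix 𝔓 N' h hζ)).Ov := by
    intro f
    rw [map_inv₀, ← t4vX_eq]
    exact hB₂ f
  have hVq' := hVq
  rw [t4rt_vert (t4cy_irreducible_p 𝔓) hvals₂] at hVq'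
  rcases (mem_t4vwVer _ _ _ _ _ _ _ _ V).mp hVq' with rfl | rfl | rfl
  · exact t4vm_smoothAt_inf (t2iALFix 𝔓 ⊤ N' h) (t4iALFix 𝔓 ⊤ N' h) (t4cy_irreducible_p 𝔓)
      (tbFixO 𝔓 (t4cyH 𝔓 ζ)) (tbFixRes 𝔓 (t4cyH 𝔓 ζ)) (t4iCycFix 𝔓 hζ) (t4vMidFix 𝔓 N' h hζ)
      G P₂ hB' hV
  · exact t4vm_smoothAt_mid (t2iALFix 𝔓 ⊤ N' h) (t4iALFix 𝔓 ⊤ N' h) (t4cy_irreducible_p 𝔓)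
      (tbFixO 𝔓 (t4cyH 𝔓 ζ)) (tbFixRes 𝔓 (t4cyH 𝔓 ζ)) (t4iCycFix 𝔓 hζ) (t4vMidFix 𝔓 N' h hζ)
      G P₂ hB' hV
  · exact t4vm_smoothAt_zero (t2iALFix 𝔓 ⊤ N' h) (t4iALFix 𝔓 ⊤ N' h) (t4cy_irreducible_p 𝔓)
      (tbFixO 𝔓 (t4cyH 𝔓 ζ)) (tbFixRes 𝔓 (t4cyH 𝔓 ζ)) (t4iCycFix 𝔓 hζ) (t4vMidFix 𝔓 N' h hζ)
      G P₂ hB' hV (hK2 hV)

include h49 hQ hpQ in
/-- **`T4nCChart.hreg` on chart 2 at the inertia level**, `hone` as a hypothesis -/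
theorem t4rtf_hreg2_of (P P₂ : T4Pres ↥(tbLevF 𝔓 (N' * 𝔓.p * 𝔓.p) ⊤))
    (hvals :
      letI := t4cyAlgebra 𝔓 (le_top : t4cyH 𝔓 ζ ≤ ⊤)
      P.vals = t4vpHor ↥(tbFix 𝔓 (⊤ : Subgroup 𝔓.I))
          (t4vX ↥(tbFix 𝔓 (⊤ : Subgroup 𝔓.I)) N' 𝔓.p Q) ∪
        t4vwVer (tbFixO 𝔓 ⊤) (tbFixRes 𝔓 ⊤) (tbFixRes_surjective 𝔓 ⊤) (t4iALFix 𝔓 ⊤ N' h)
          (tbFixO 𝔓 (t4cyH 𝔓 ζ)) (tbFixRes 𝔓 (t4cyH 𝔓 ζ)) (t4iCycFix 𝔓 hζ)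
          (t4vMidFix 𝔓 N' h hζ))
    (hB : ∀ f : ↥(tbLevF 𝔓 (N' * 𝔓.p * 𝔓.p) ⊤), f ∈ P.B ↔
      f ∈ t2Int (K := ↥(tbFix 𝔓 (⊤ : Subgroup 𝔓.I)))
        (t4vX ↥(tbFix 𝔓 (⊤ : Subgroup 𝔓.I)) N' 𝔓.p Q) ∧ f ∈ (t4vInputFix 𝔓 N' h hζ).Ov)
    (hvals₂ :
      letI := t4cyAlgebra 𝔓 (le_top : t4cyH 𝔓 ζ ≤ ⊤)
      P₂.vals = t4vpHor ↥(tbFix 𝔓 (⊤ : Subgroup 𝔓.I))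
          (t4vX ↥(tbFix 𝔓 (⊤ : Subgroup 𝔓.I)) N' 𝔓.p Q)⁻¹ ∪
        t4vwVer (tbFixO 𝔓 ⊤) (tbFixRes 𝔓 ⊤) (tbFixRes_surjective 𝔓 ⊤) (t4iALFix 𝔓 ⊤ N' h)
          (tbFixO 𝔓 (t4cyH 𝔓 ζ)) (tbFixRes 𝔓 (t4cyH 𝔓 ζ)) (t4iCycFix 𝔓 hζ)
          (t4vMidFix 𝔓 N' h hζ))
    (hB₂ : ∀ f : ↥(tbLevF 𝔓 (N' * 𝔓.p * 𝔓.p) ⊤), f ∈ P₂.B ↔
      f ∈ t2Int (K := ↥(tbFix 𝔓 (⊤ : Subgroup 𝔓.I)))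
        (t4vX ↥(tbFix 𝔓 (⊤ : Subgroup 𝔓.I)) N' 𝔓.p Q)⁻¹ ∧ f ∈ (t4vInputFix 𝔓 N' h hζ).Ov)
    (hq : t4vQ ↥(tbFix 𝔓 (⊤ : Subgroup 𝔓.I)) N' 𝔓.p ∈ P₂.B)
    (𝔫 : Ideal P₂.B) (h𝔫 : 𝔫.IsMaximal)
    (hQ𝔫 : (⟨t4vQ ↥(tbFix 𝔓 (⊤ : Subgroup 𝔓.I)) N' 𝔓.p, hq⟩ : P₂.B) ∈ 𝔫)
    (hone : ∀ V ∈ P₂.through 𝔫, V ∈ P₂.vert (t4vQ ↥(tbFix 𝔓 (⊤ : Subgroup 𝔓.I)) N' 𝔓.p) →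
      ∀ V' ∈ P₂.through 𝔫, V' ∈ P₂.vert (t4vQ ↥(tbFix 𝔓 (⊤ : Subgroup 𝔓.I)) N' 𝔓.p) → V = V')
    (hsm : ∀ (V : ValuationSubring ↥(tbLevF 𝔓 (N' * 𝔓.p * 𝔓.p) ⊤)) (hV : V ∈ P₂.through 𝔫),
      V ∈ P₂.vert (t4vQ ↥(tbFix 𝔓 (⊤ : Subgroup 𝔓.I)) N' 𝔓.p) → P₂.SmoothAt 𝔫 V hV)
    (hres : ∀ b : P₂.B, ∃ (c : ↥(tbFixO 𝔓 ⊤))
      (hc : algebraMap ↥(tbFix 𝔓 (⊤ : Subgroup 𝔓.I)) ↥(tbLevF 𝔓 (N' * 𝔓.p * 𝔓.p) ⊤)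
        (c : ↥(tbFix 𝔓 (⊤ : Subgroup 𝔓.I))) ∈ P₂.B), b - ⟨_, hc⟩ ∈ 𝔫) :
    P₂.RegAt 𝔫 := by
  letI := t4cyAlgebra 𝔓 (le_top : t4cyH 𝔓 ζ ≤ ⊤)
  haveI := h𝔫
  refine (t4rtf_top 𝔓 N' h hζ hQ P hvals hB).hreg_chart2 (t2i_natCast_ne_zero 𝔓 h)
    (t2iFrobFix 𝔓 N') (t4cy_irreducible_p 𝔓) (t4rgf_low0 𝔓 N' h hQ h49)
    (t4rgf_regG0 𝔓 N' h hQ h49) (t4rgf_regM0 𝔓 N' h hQ h49) (t4rc_X_ne_zero hQ)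
    (t4rt_X_ver (tbFixO 𝔓 ⊤) (tbFixRes 𝔓 ⊤) (tbFixRes_surjective 𝔓 ⊤) (t2i_natCast_ne_zero 𝔓 h)
      (t2iALFix 𝔓 ⊤ N' h) (t2iFrobFix 𝔓 N') (t4iALFix 𝔓 ⊤ N' h) (t4cy_irreducible_p 𝔓)
      (tbFixO 𝔓 (t4cyH 𝔓 ζ)) (tbFixRes 𝔓 (t4cyH 𝔓 ζ)) (t4iCycFix 𝔓 hζ) (t4vMidFix 𝔓 N' h hζ) hQ)
    hvals₂ 𝔫 hQ𝔫 hone hsm ?_ ?_
  · intro _
    refine t4rt_hk_of_res (tbFixO 𝔓 ⊤) (tbFixRes 𝔓 ⊤) (tbFixRes_surjective 𝔓 ⊤)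
      (t2i_natCast_ne_zero 𝔓 h) (t2iALFix 𝔓 ⊤ N' h) (t2iFrobFix 𝔓 N') (t4iALFix 𝔓 ⊤ N' h)
      (t4cy_irreducible_p 𝔓) (tbFixO 𝔓 (t4cyH 𝔓 ζ)) (tbFixRes 𝔓 (t4cyH 𝔓 ζ)) (t4iCycFix 𝔓 hζ)
      (t4vMidFix 𝔓 N' h hζ) hvals hvals₂ 𝔫 hQ𝔫 (fun b => ?_)
    obtain ⟨c, hc, hbc⟩ := hres b
    exact ⟨c, hbc⟩
  · rintro ⟨hx2, hx𝔫⟩ hmid honly
    exact t4rc_regAt_cusp_fix 𝔓 N' h hζ hQ P₂ hvals₂ hB₂ rfl 𝔫 hmid honly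
      (hsm _ hmid (by
        rw [t4rt_vert (t4cy_irreducible_p 𝔓) hvals₂]
        exact (mem_t4vwVer _ _ _ _ _ _ _ _ _).mpr (Or.inr (Or.inl rfl))))
      (fun _ => hx𝔫)

include h49 in
/-- **`T4nCChart.hreg` on chart 2 at the inertia level** (`Q = p²`): residual hypotheses `hsm`
(smoothness of the vertical branches = `t4rtf_hsm2` + K2) and `hres` (residue field `k`) -/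
theorem t4rtf_hreg2 (P P₂ : T4Pres ↥(tbLevF 𝔓 (N' * 𝔓.p * 𝔓.p) ⊤))
    (hvals :
      letI := t4cyAlgebra 𝔓 (le_top : t4cyH 𝔓 ζ ≤ ⊤)
      P.vals = t4vpHor ↥(tbFix 𝔓 (⊤ : Subgroup 𝔓.I))
          (t4vX ↥(tbFix 𝔓 (⊤ : Subgroup 𝔓.I)) N' 𝔓.p (𝔓.p * 𝔓.p)) ∪
        t4vwVer (tbFixO 𝔓 ⊤) (tbFixRes 𝔓 ⊤) (tbFixRes_surjective 𝔓 ⊤) (t4iALFix 𝔓 ⊤ N' h)
          (tbFixO 𝔓 (t4cyH 𝔓 ζ)) (tbFixRes 𝔓 (t4cyH 𝔓 ζ)) (t4iCycFix 𝔓 hζ)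
          (t4vMidFix 𝔓 N' h hζ))
    (hB : ∀ f : ↥(tbLevF 𝔓 (N' * 𝔓.p * 𝔓.p) ⊤), f ∈ P.B ↔
      f ∈ t2Int (K := ↥(tbFix 𝔓 (⊤ : Subgroup 𝔓.I)))
        (t4vX ↥(tbFix 𝔓 (⊤ : Subgroup 𝔓.I)) N' 𝔓.p (𝔓.p * 𝔓.p)) ∧
      f ∈ (t4vInputFix 𝔓 N' h hζ).Ov)
    (hvals₂ :
      letI := t4cyAlgebra 𝔓 (le_top : t4cyH 𝔓 ζ ≤ ⊤)
      P₂.vals = t4vpHor ↥(tbFix 𝔓 (⊤ : Subgroup 𝔓.I))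
          (t4vX ↥(tbFix 𝔓 (⊤ : Subgroup 𝔓.I)) N' 𝔓.p (𝔓.p * 𝔓.p))⁻¹ ∪
        t4vwVer (tbFixO 𝔓 ⊤) (tbFixRes 𝔓 ⊤) (tbFixRes_surjective 𝔓 ⊤) (t4iALFix 𝔓 ⊤ N' h)
          (tbFixO 𝔓 (t4cyH 𝔓 ζ)) (tbFixRes 𝔓 (t4cyH 𝔓 ζ)) (t4iCycFix 𝔓 hζ)
          (t4vMidFix 𝔓 N' h hζ))
    (hB₂ : ∀ f : ↥(tbLevF 𝔓 (N' * 𝔓.p * 𝔓.p) ⊤), f ∈ P₂.B ↔
      f ∈ t2Int (K := ↥(tbFix 𝔓 (⊤ : Subgroup 𝔓.I)))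
        (t4vX ↥(tbFix 𝔓 (⊤ : Subgroup 𝔓.I)) N' 𝔓.p (𝔓.p * 𝔓.p))⁻¹ ∧
      f ∈ (t4vInputFix 𝔓 N' h hζ).Ov)
    (hq : t4vQ ↥(tbFix 𝔓 (⊤ : Subgroup 𝔓.I)) N' 𝔓.p ∈ P₂.B)
    (𝔫 : Ideal P₂.B) (h𝔫 : 𝔫.IsMaximal)
    (hQ𝔫 : (⟨t4vQ ↥(tbFix 𝔓 (⊤ : Subgroup 𝔓.I)) N' 𝔓.p, hq⟩ : P₂.B) ∈ 𝔫)
    (hsm : ∀ (V : ValuationSubring ↥(tbLevF 𝔓 (N' * 𝔓.p * 𝔓.p) ⊤)) (hV : V ∈ P₂.through 𝔫),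
      V ∈ P₂.vert (t4vQ ↥(tbFix 𝔓 (⊤ : Subgroup 𝔓.I)) N' 𝔓.p) → P₂.SmoothAt 𝔫 V hV)
    (hres : ∀ b : P₂.B, ∃ (c : ↥(tbFixO 𝔓 ⊤))
      (hc : algebraMap ↥(tbFix 𝔓 (⊤ : Subgroup 𝔓.I)) ↥(tbLevF 𝔓 (N' * 𝔓.p * 𝔓.p) ⊤)
        (c : ↥(tbFix 𝔓 (⊤ : Subgroup 𝔓.I))) ∈ P₂.B), b - ⟨_, hc⟩ ∈ 𝔫) :
    P₂.RegAt 𝔫 := by
  letI := t4cyAlgebra 𝔓 (le_top : t4cyH 𝔓 ζ ≤ ⊤)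
  have h2 : 2 ≤ 𝔓.p * 𝔓.p := by
    have := 𝔓.hp.two_le
    nlinarith
  refine t4rtf_hreg2_of 𝔓 N' h h49 hζ h2 (Dvd.intro _ rfl) P P₂ hvals hB hvals₂ hB₂ hq 𝔫 h𝔫 hQ𝔫
    ?_ hsm hres
  refine t4vs2_hone_fix 𝔓 N' h hζ P₂ hB₂ (fun V hV => ?_) h𝔫.ne_top
  rw [t4rt_vert (t4cy_irreducible_p 𝔓) hvals₂] at hV
  exact (mem_t4vwVer _ _ _ _ _ _ _ _ V).mp hV

end Fermat.Agent.T4
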